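import Mathlib
import Fermat.Agent.GalRep.HeckeHom
import Fermat.Agent.GalRep.Level.Defs
import Fermat.Agent.Newform.Slash
import Fermat.Agent.GalRep.Level.Hecke

/-!
Transfer along a family of coset representatives, and the families giving `T_ℓ` and the diamond
operators on `Γ₁(M)`.
-/

set_option autoImplicit false
set_option maxHeartbeats 800000

noncomputable section

namespace Fermat.Agent.DS

open CongruenceSubgroup
open Fermat.Agent.GalRep (IMat heckeRep det_heckeRep exists_transfer_step heckeRep_unique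
  trace_pow_sq_eq_four)
open Fermat.Agent.GalRep.Level (ParG IsTransfer IsDiamond heckeRepG)
open Fermat.Agent.Newform (intGL intGL_mul intGL_coe slash_intGL_coe)
open scoped MatrixGroups ModularForm

/-- The representatives are permuted, up to `G` on the left, by right multiplication by `G`. -/
structure IsReps {ι : Type} (G : Subgroup SL(2, ℤ)) (β : ι → IMat) : Prop where
  det_ne_zero : ∀ i, (β i).det ≠ 0
  step : ∀ (γ : G) (i : ι), ∃ (j : ι) (g : G),
    β i * ((γ : SL(2, ℤ)) : IMat) = ((g : SL(2, ℤ)) : IMat) * β j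
  sep : ∀ (i j : ι) (g : G), β i = ((g : SL(2, ℤ)) : IMat) * β j → i = j

namespace IsReps

variable {ι : Type} {G : Subgroup SL(2, ℤ)} {β : ι → IMat} (h : IsReps G β)

/-- The permuted index. -/
def idx (γ : G) (i : ι) : ι := (h.step γ i).choose

/-- The coefficient in `G`. -/
def coef (γ : G) (i : ι) : G := (h.step γ i).choose_spec.choose

theorem spec (γ : G) (i : ι) :
    β i * ((γ : SL(2, ℤ)) : IMat) = ((h.coef γ i : SL(2, ℤ)) : IMat) * β (h.idx γ i) :=
  (h.step γ i).choose_spec.choose_spec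

include h in
theorem mul_cancel {i : ι} {M M' : IMat} (e : M * β i = M' * β i) : M = M' := by
  have := congrArg (fun X => X * (β i).adjugate) e
  simp only [Matrix.mul_assoc, Matrix.mul_adjugate, Matrix.mul_smul, Matrix.mul_one] at this
  exact smul_right_injective IMat (h.det_ne_zero i) this

theorem unique {γ g : G} {i j : ι}
    (e : β i * ((γ : SL(2, ℤ)) : IMat) = ((g : SL(2, ℤ)) : IMat) * β j) :
    h.idx γ i = j ∧ h.coef γ i = g := by
  have e' := (h.spec γ i).symm.trans e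
  have hj : h.idx γ i = j := by
    refine h.sep _ _ ((h.coef γ i)⁻¹ * g) ?_
    rw [Subgroup.coe_mul, Subgroup.coe_inv, Matrix.SpecialLinearGroup.coe_mul, mul_assoc, ← e',
      ← mul_assoc, ← Matrix.SpecialLinearGroup.coe_mul, inv_mul_cancel,
      Matrix.SpecialLinearGroup.coe_one, one_mul]
  rw [hj] at e'
  exact ⟨hj, Subtype.ext (Subtype.ext (h.mul_cancel e'))⟩

theorem idx_mul (γ δ : G) (i : ι) :
    h.idx (γ * δ) i = h.idx δ (h.idx γ i) ∧
      h.coef (γ * δ) i = h.coef γ i * h.coef δ (h.idx γ i) :=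
  h.unique (by
    rw [Subgroup.coe_mul, Subgroup.coe_mul, Matrix.SpecialLinearGroup.coe_mul,
      Matrix.SpecialLinearGroup.coe_mul, ← mul_assoc, h.spec γ i, mul_assoc, h.spec δ, ← mul_assoc])

theorem idx_one (i : ι) : h.idx 1 i = i ∧ h.coef 1 i = 1 :=
  h.unique (by simp)

/-- The permutation of the representatives. -/
def perm (γ : G) : Equiv.Perm ι where
  toFun := h.idx γ
  invFun := h.idx γ⁻¹
  left_inv i := by rw [← (h.idx_mul γ γ⁻¹ i).1, mul_inv_cancel, (h.idx_one i).1]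
  right_inv i := by rw [← (h.idx_mul γ⁻¹ γ i).1, inv_mul_cancel, (h.idx_one i).1]

@[simp] theorem perm_apply (γ : G) (i : ι) : h.perm γ i = h.idx γ i := rfl

theorem idx_pow (γ : G) (n : ℕ) (i : ι) : h.idx (γ ^ n) i = (h.idx γ)^[n] i := by
  induction n with
  | zero => simpa using (h.idx_one i).1
  | succ n ih => rw [pow_succ, (h.idx_mul _ _ i).1, ih, Function.iterate_succ_apply']

theorem trace_coef {γ : G} {i : ι} (hi : h.idx γ i = i) :
    ((h.coef γ i : SL(2, ℤ)) : IMat).trace = ((γ : SL(2, ℤ)) : IMat).trace := by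
  have h1 := h.spec γ i
  rw [hi] at h1
  have h2 := congrArg (fun X => (X * (β i).adjugate).trace) h1
  simp only [Matrix.mul_assoc, Matrix.mul_adjugate, Matrix.mul_smul, Matrix.mul_one,
    Matrix.trace_smul] at h2
  rw [Matrix.trace_mul_comm, Matrix.mul_assoc, Matrix.adjugate_mul, Matrix.mul_smul,
    Matrix.mul_one, Matrix.trace_smul] at h2
  exact (mul_left_cancel₀ (h.det_ne_zero i) h2).symm

section Hom

variable [Fintype ι] {A : Type} [AddCommGroup A]

/-- The transfer of a homomorphism. -/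
def transfer : (Additive G →+ A) →+ (Additive G →+ A) where
  toFun χ :=
    { toFun := fun γ => ∑ i, χ (Additive.ofMul (h.coef (Additive.toMul γ) i))
      map_zero' := Finset.sum_eq_zero fun i _ => by
        rw [toMul_zero, (h.idx_one i).2]; exact map_zero χ
      map_add' := fun γ δ => by
        rw [toMul_add]
        simp only [fun i => (h.idx_mul (Additive.toMul γ) (Additive.toMul δ) i).2, ofMul_mul,
          map_add, Finset.sum_add_distrib]
        exact congrArg _ (Equiv.sum_comp (h.perm (Additive.toMul γ))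
          (fun i => χ (Additive.ofMul (h.coef (Additive.toMul δ) i)))) }
  map_zero' := AddMonoidHom.ext fun γ => by simp
  map_add' χ χ' := AddMonoidHom.ext fun γ => by simp [Finset.sum_add_distrib]

theorem transfer_apply (χ : Additive G →+ A) (γ : G) :
    h.transfer χ (Additive.ofMul γ) = ∑ i, χ (Additive.ofMul (h.coef γ i)) := rfl

theorem isTransfer (χ : Additive G →+ A) : IsTransfer G G β χ (h.transfer χ) := fun γ =>
  ⟨h.perm γ, h.coef γ, fun i => h.spec γ i, rfl⟩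

theorem eq_transfer {χ χ' : Additive G →+ A} (ht : IsTransfer G G β χ χ') :
    χ' = h.transfer χ := by
  refine AddMonoidHom.ext fun x => ?_
  obtain ⟨γ, rfl⟩ := Additive.ofMul.surjective x
  obtain ⟨e, g, heq, hsum⟩ := ht γ
  rw [hsum, transfer_apply]
  exact Finset.sum_congr rfl fun i _ => by rw [(h.unique (heq i)).2]

theorem transfer_comp {B : Type} [AddCommGroup B] (φ : A →+ B) (χ : Additive G →+ A) :
    h.transfer (φ.comp χ) = φ.comp (h.transfer χ) :=
  AddMonoidHom.ext fun x => by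
    obtain ⟨γ, rfl⟩ := Additive.ofMul.surjective x
    rw [transfer_apply, AddMonoidHom.comp_apply, transfer_apply, map_sum]
    rfl

theorem transfer_mem (χ : ParG G A) : h.transfer (χ : Additive G →+ A) ∈ ParG G A := by
  classical
  intro γ hγ
  rw [transfer_apply]
  set e := h.perm γ
  rw [← Finset.sum_fiberwise (Finset.univ : Finset ι)
    (fun i => (Quotient.mk (Equiv.Perm.SameCycle.setoid e) i))
    (fun i => (χ : Additive G →+ A) (Additive.ofMul (h.coef γ i)))]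
  refine Finset.sum_eq_zero fun q _ => ?_
  induction q using Quotient.inductionOn with
  | h i =>
    set c := Function.minimalPeriod e i
    have hc : 0 < c := Function.IsPeriodicPt.minimalPeriod_pos (orderOf_pos e)
      (show e^[orderOf e] i = i by rw [← Equiv.Perm.coe_pow, pow_orderOf_eq_one]; rfl)
    have hset : (Finset.univ.filter fun j => Quotient.mk (Equiv.Perm.SameCycle.setoid e) j =
        Quotient.mk (Equiv.Perm.SameCycle.setoid e) i) = (Finset.range c).image fun t => e^[t] i := by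
      ext j
      simp only [Finset.mem_filter, Finset.mem_univ, true_and, Finset.mem_image, Finset.mem_range,
        Quotient.eq]
      constructor
      · intro hj
        obtain ⟨t, ht⟩ := (Equiv.Perm.SameCycle.symm hj).exists_nat_pow_eq
        refine ⟨t % c, Nat.mod_lt _ hc, ?_⟩
        rw [Function.iterate_mod_minimalPeriod_eq, ← Equiv.Perm.coe_pow]
        exact ht
      · rintro ⟨t, -, rfl⟩
        exact Equiv.Perm.SameCycle.symm ⟨t, by rw [zpow_natCast, Equiv.Perm.coe_pow]⟩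
    rw [hset, Finset.sum_image fun a ha b hb hab =>
      Function.iterate_injOn_Iio_minimalPeriod (Finset.mem_range.mp ha) (Finset.mem_range.mp hb) hab]
    have hsum : ∀ n : ℕ, (χ : Additive G →+ A) (Additive.ofMul (h.coef (γ ^ n) i)) =
        ∑ t ∈ Finset.range n,
          (χ : Additive G →+ A) (Additive.ofMul (h.coef γ ((h.idx γ)^[t] i))) := by
      intro n
      induction n with
      | zero =>
        rw [pow_zero, (h.idx_one i).2, Finset.sum_range_zero]
        exact map_zero _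
      | succ n ih =>
        rw [pow_succ, (h.idx_mul _ _ i).2, ofMul_mul, map_add, ih, Finset.sum_range_succ, idx_pow]
    have hfix : h.idx (γ ^ c) i = i := by
      rw [idx_pow]; exact Function.iterate_minimalPeriod (f := e) (x := i)
    have := hsum c
    rw [χ.2 _ (by
      show ((h.coef (γ ^ c) i : SL(2, ℤ)) : IMat).trace ^ 2 = 4
      rw [h.trace_coef hfix, SubgroupClass.coe_pow, Matrix.SpecialLinearGroup.coe_pow]
      exact trace_pow_sq_eq_four _ (γ : SL(2, ℤ)).det_coe hγ c)] at this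
    exact this.symm

/-- The transfer on parabolic homomorphisms. -/
def parTransfer : Module.End ℤ (ParG G A) :=
  AddMonoidHom.toIntLinearMap
    { toFun := fun χ => ⟨h.transfer (χ : Additive G →+ A), h.transfer_mem χ⟩
      map_zero' := Subtype.ext (map_zero h.transfer)
      map_add' := fun _ _ => Subtype.ext (map_add h.transfer _ _) }

@[simp] theorem coe_parTransfer (χ : ParG G A) :
    ((h.parTransfer χ : ParG G A) : Additive G →+ A) = h.transfer (χ : Additive G →+ A) := rfl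

end Hom

/-- The sum of the translates by the representatives. -/
def slashSum [Fintype ι] (_h : IsReps G β) (k : ℤ) (F : UpperHalfPlane → ℂ) :
    UpperHalfPlane → ℂ :=
  ∑ i, F ∣[k] intGL (β i)

theorem slash_rep {k : ℤ} {F : UpperHalfPlane → ℂ} (hF : ∀ γ ∈ G, F ∣[k] γ = F) (γ : G) (i : ι) :
    (F ∣[k] intGL (β i)) ∣[k] (γ : SL(2, ℤ)) = F ∣[k] intGL (β (h.idx γ i)) := by
  rw [← slash_intGL_coe, ← SlashAction.slash_mul,
    ← intGL_mul (h.det_ne_zero i) (by rw [Matrix.SpecialLinearGroup.det_coe]; exact one_ne_zero),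
    h.spec, intGL_mul (by rw [Matrix.SpecialLinearGroup.det_coe]; exact one_ne_zero)
      (h.det_ne_zero _), SlashAction.slash_mul, slash_intGL_coe, hF _ (h.coef γ i).2]

theorem slashSum_slash [Fintype ι] {k : ℤ} {F : UpperHalfPlane → ℂ}
    (hF : ∀ γ ∈ G, F ∣[k] γ = F) (γ : SL(2, ℤ)) (hγ : γ ∈ G) :
    (h.slashSum k F) ∣[k] γ = h.slashSum k F := by
  simp only [slashSum, SlashAction.sum_slash]
  rw [← Equiv.sum_comp (h.perm ⟨γ, hγ⟩) (fun i => F ∣[k] intGL (β i))]
  exact Finset.sum_congr rfl fun i _ => h.slash_rep hF ⟨γ, hγ⟩ i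

end IsReps

/-! ## The families on `Γ₁(M)` -/

variable {M : ℕ}

theorem mem_gamma1_of_gamma0 {g : SL(2, ℤ)} (h0 : g ∈ Gamma0 M) (h1 : (g 1 1 : ZMod M) = 1) :
    g ∈ Gamma1 M := by
  rw [Gamma0_mem] at h0
  have hd : ((g 0 0 : ℤ) : ZMod M) * g 1 1 - (g 0 1 : ℤ) * g 1 0 = 1 := by
    have := g.det_coe
    rw [Matrix.det_fin_two] at this
    exact_mod_cast congrArg (fun x : ℤ => (x : ZMod M)) this
  rw [h0, h1] at hd
  exact (Gamma1_mem M g).2 ⟨by simpa using hd, h1, h0⟩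

theorem gamma1_le_gamma0 (M : ℕ) : Gamma1 M ≤ Gamma0 M := fun _ hg =>
  Gamma0_mem.2 ((Gamma1_mem M _).1 hg).2.2

/-- The lower right entry modulo `M`. -/
theorem eleven_mul {g h : SL(2, ℤ)} (hg : g ∈ Gamma0 M) :
    (((g * h) 1 1 : ℤ) : ZMod M) = (g 1 1 : ℤ) * (h 1 1 : ℤ) := by
  rw [Gamma0_mem] at hg
  rw [Matrix.SpecialLinearGroup.coe_mul, Matrix.mul_apply, Fin.sum_univ_two]
  push_cast
  rw [hg]
  ring

/-- Conjugation by `Γ₀(M)` preserves `Γ₁(M)`. -/
theorem conj_mem_gamma1 {δ γ : SL(2, ℤ)} (hδ : δ ∈ Gamma0 M) (hγ : γ ∈ Gamma1 M) :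
    δ * γ * δ⁻¹ ∈ Gamma1 M := by
  have hγ0 := gamma1_le_gamma0 M hγ
  refine mem_gamma1_of_gamma0 (mul_mem (mul_mem hδ hγ0) (inv_mem hδ)) ?_
  have h1 : (((δ * δ⁻¹) 1 1 : ℤ) : ZMod M) = 1 := by simp
  rw [eleven_mul hδ] at h1
  rw [eleven_mul (mul_mem hδ hγ0), eleven_mul hδ, ((Gamma1_mem M γ).1 hγ).2.1, mul_one, h1]

theorem isReps_diamond {δ : SL(2, ℤ)} (hδ : δ ∈ Gamma0 M) :
    IsReps (Gamma1 M) (fun _ : Unit => (δ : IMat)) where
  det_ne_zero _ := by rw [Matrix.SpecialLinearGroup.det_coe]; exact one_ne_zero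
  step γ _ := ⟨(), ⟨δ * γ * δ⁻¹, conj_mem_gamma1 hδ γ.2⟩, by
    rw [← Matrix.SpecialLinearGroup.coe_mul, ← Matrix.SpecialLinearGroup.coe_mul]
    simp [mul_assoc]⟩
  sep i j _ _ := rfl

variable {ℓ : ℕ} {R : SL(2, ℤ)}

theorem diamond_mem_gamma0 (hR : IsDiamond M ℓ R) : R ∈ Gamma0 M := Gamma0_mem.2 hR.2.2.1

/-- The representatives at level `M` in terms of the standard ones. -/
theorem exists_twist (hℓ : ℓ.Prime) (hℓM : ¬ ℓ ∣ M) (hR : IsDiamond M ℓ R) :
    ∃ (π : Equiv.Perm (Fin ℓ)) (u : Option (Fin ℓ) → SL(2, ℤ)),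
      (u none = R ∧ ∀ b, u (some b) ∈ Gamma1 M) ∧ (∀ i, u i ∈ Gamma0 M) ∧
      (∀ i, ((u i 1 1 : ℤ) : ZMod M) * ((heckeRep ℓ (π.optionCongr i) 1 1 : ℤ) : ZMod M) =
        (ℓ : ZMod M)) ∧
      ∀ i, heckeRepG M ℓ R i = (u i : IMat) * heckeRep ℓ (π.optionCongr i) := by
  have : NeZero ℓ := ⟨hℓ.ne_zero⟩
  let a : (ZMod ℓ)ˣ := ZMod.unitOfCoprime M ((hℓ.coprime_iff_not_dvd.2 hℓM).symm)
  let π := GalRep.Level.mulPerm a
  have hq : ∀ b : Fin ℓ, ∃ q : ℤ, (b : ℤ) * M = q * ℓ + (π b : ℕ) := fun b => by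
    have h1 := GalRep.Level.mulPerm_spec a b
    have h2 : (ℓ : ℤ) ∣ (b : ℤ) * M - (π b : ℕ) := by
      rw [← ZMod.intCast_zmod_eq_zero_iff_dvd]
      push_cast
      rw [h1]
      simp [a, mul_comm]
    obtain ⟨q, hq⟩ := h2
    exact ⟨q, by linarith⟩
  choose q hq using hq
  refine ⟨π, fun i => i.elim R fun b => ModularGroup.T ^ q b,
    ⟨rfl, fun b => by rw [Gamma1_mem]; simp [ModularGroup.coe_T_zpow]⟩, fun i => ?_, fun i => ?_,
    fun i => ?_⟩
  · cases i with
    | none => exact diamond_mem_gamma0 hR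
    | some b => simp [Gamma0_mem, ModularGroup.coe_T_zpow]
  · cases i with
    | none => simp [heckeRep, hR.2.2.2]
    | some b => simp [heckeRep, ModularGroup.coe_T_zpow]
  · cases i with
    | none => simp [heckeRepG, heckeRep]
    | some b =>
      simp only [heckeRepG, heckeRep, Option.elim_some, Equiv.optionCongr_apply, Option.map_some,
        ModularGroup.coe_T_zpow]
      ext r c
      fin_cases r <;> fin_cases c <;> simp [Matrix.mul_apply, Fin.sum_univ_two]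
      linarith [hq b]

/-- Right multiplication by `Γ₀(M)` permutes the representatives, up to elements of `Γ₀(M)` with
the same lower right entry modulo `M`. -/
theorem exists_step_hecke (hℓ : ℓ.Prime) (hℓM : ¬ ℓ ∣ M) (hR : IsDiamond M ℓ R) {γ : SL(2, ℤ)}
    (hγ : γ ∈ Gamma0 M) (i : Option (Fin ℓ)) :
    ∃ (j : Option (Fin ℓ)) (g : SL(2, ℤ)), g ∈ Gamma0 M ∧
      ((g 1 1 : ℤ) : ZMod M) = (γ 1 1 : ℤ) ∧
      heckeRepG M ℓ R i * (γ : IMat) = (g : IMat) * heckeRepG M ℓ R j := by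
  obtain ⟨π₀, u, -, hu0, hu1, hu⟩ := exists_twist hℓ hℓM hR
  set π := π₀.optionCongr
  obtain ⟨j, g, hg⟩ := exists_transfer_step hℓ hℓM ⟨γ, hγ⟩ (π i)
  obtain ⟨j, rfl⟩ := π.surjective j
  have hg' : heckeRep ℓ (π i) * (γ : IMat) =
      ((g : SL(2, ℤ)) : IMat) * heckeRep ℓ (π j) := hg
  have h11 := congrArg (fun X : IMat => ((X 1 1 : ℤ) : ZMod M)) hg'
  simp only [Matrix.mul_apply, Fin.sum_univ_two, GalRep.heckeRep_one_zero, zero_mul, zero_add]
    at h11
  push_cast at h11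
  rw [Gamma0_mem.1 g.2, zero_mul, zero_add] at h11
  refine ⟨j, u i * g * (u j)⁻¹, mul_mem (mul_mem (hu0 i) g.2) (inv_mem (hu0 j)), ?_, ?_⟩
  · have hinv : ((u j 1 1 : ℤ) : ZMod M) * (((u j)⁻¹ 1 1 : ℤ) : ZMod M) = 1 := by
      rw [← eleven_mul (hu0 j)]; simp
    have hℓu : IsUnit (ℓ : ZMod M) :=
      (ZMod.isUnit_iff_coprime ℓ M).2 (hℓ.coprime_iff_not_dvd.2 hℓM)
    rw [eleven_mul (mul_mem (hu0 i) g.2), eleven_mul (hu0 i)]
    refine hℓu.mul_left_cancel ?_
    conv_lhs => arg 1; rw [← hu1 j]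
    rw [show ((u j 1 1 : ℤ) : ZMod M) * (heckeRep ℓ (π j) 1 1 : ℤ) *
      ((u i 1 1 : ℤ) * ((g : SL(2, ℤ)) 1 1 : ℤ) * (((u j)⁻¹ 1 1 : ℤ) : ZMod M)) =
      ((u j 1 1 : ℤ) * (((u j)⁻¹ 1 1 : ℤ) : ZMod M)) *
        ((u i 1 1 : ℤ) * (((g : SL(2, ℤ)) 1 1 : ℤ) * (heckeRep ℓ (π j) 1 1 : ℤ))) by ring,
      hinv, ← h11, one_mul, ← mul_assoc, hu1 i]
  · rw [hu i, hu j, mul_assoc, hg', ← mul_assoc, ← mul_assoc,
      ← Matrix.SpecialLinearGroup.coe_mul, ← Matrix.SpecialLinearGroup.coe_mul]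
    simp [mul_assoc]

theorem heckeRepG_sep (hℓ : ℓ.Prime) (hℓM : ¬ ℓ ∣ M) (hR : IsDiamond M ℓ R) {i j : Option (Fin ℓ)}
    (g : SL(2, ℤ)) (hij : heckeRepG M ℓ R i = (g : IMat) * heckeRepG M ℓ R j) : i = j := by
  obtain ⟨π₀, u, -, hu0, hu1, hu⟩ := exists_twist hℓ hℓM hR
  rw [hu i, hu j, ← mul_assoc, ← Matrix.SpecialLinearGroup.coe_mul] at hij
  refine π₀.optionCongr.injective (heckeRep_unique hℓ ?_ hij)
  rw [Matrix.SpecialLinearGroup.det_coe]
  exact_mod_cast hℓ.not_dvd_one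

theorem isReps_hecke (hℓ : ℓ.Prime) (hℓM : ¬ ℓ ∣ M) (hR : IsDiamond M ℓ R) :
    IsReps (Gamma1 M) (heckeRepG M ℓ R) := by
  refine ⟨fun i => ?_, fun γ i => ?_, fun i j g hij => heckeRepG_sep hℓ hℓM hR g hij⟩
  · rw [GalRep.Level.det_heckeRepG]; exact_mod_cast hℓ.ne_zero
  · obtain ⟨j, g, h0, h1, h⟩ := exists_step_hecke hℓ hℓM hR (gamma1_le_gamma0 M γ.2) i
    exact ⟨j, ⟨g, mem_gamma1_of_gamma0 h0 (h1.trans ((Gamma1_mem M _).1 γ.2).2.1)⟩, h⟩

theorem isReps_hecke0 (hℓ : ℓ.Prime) (hℓM : ¬ ℓ ∣ M) (hR : IsDiamond M ℓ R) :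
    IsReps (Gamma0 M) (heckeRepG M ℓ R) := by
  refine ⟨fun i => ?_, fun γ i => ?_, fun i j g hij => heckeRepG_sep hℓ hℓM hR g hij⟩
  · rw [GalRep.Level.det_heckeRepG]; exact_mod_cast hℓ.ne_zero
  · obtain ⟨j, g, h0, -, h⟩ := exists_step_hecke hℓ hℓM hR γ.2 i
    exact ⟨j, ⟨g, h0⟩, h⟩

theorem coef_eleven (hℓ : ℓ.Prime) (hℓM : ¬ ℓ ∣ M) (hR : IsDiamond M ℓ R) (γ : Gamma0 M)
    (i : Option (Fin ℓ)) :
    ((((isReps_hecke0 hℓ hℓM hR).coef γ i : SL(2, ℤ)) 1 1 : ℤ) : ZMod M) =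
      ((γ : SL(2, ℤ)) 1 1 : ℤ) := by
  obtain ⟨j, g, h0, h1, h⟩ := exists_step_hecke hℓ hℓM hR γ.2 i
  rw [((isReps_hecke0 hℓ hℓM hR).unique (g := ⟨g, h0⟩) h).2]
  exact h1

end Fermat.Agent.DS
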