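import Mathlib
import Fermat.Agent.GalRep.QSeries
import Fermat.Agent.GalRep.ModFun
import Fermat.Prelude.Def_FLTPrelim_Modularity
import Fermat.Prelude.Thm_ModularForm_sturm_bound_of_isArithmetic

/-!
Cusp forms of weight `k` on `Γ₁(N)`: translates, their series of width `N`, coefficients at
infinity and finite dimensionality.
-/

set_option autoImplicit false
set_option maxHeartbeats 800000

noncomputable section

namespace Fermat.Agent.DS

open UpperHalfPlane CongruenceSubgroup ModularFormClass Filter Topology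
open Fermat.Agent.GalRep
open scoped MatrixGroups Manifold ModularForm

variable {N : ℕ} {k : ℤ}

theorem one_mem_periods1 (N : ℕ) :
    (1 : ℝ) ∈ (Gamma1 N : Subgroup (GL (Fin 2) ℝ)).strictPeriods := by
  rw [strictPeriods_Gamma1]; exact AddSubgroup.mem_zmultiples _

/-- Entry form of the slash action of `SL(2,ℤ)`. -/
theorem slash_sl_apply (F : ℍ → ℂ) (g : SL(2, ℤ)) (τ : ℍ) :
    (F ∣[k] g) τ = F (g • τ) * ((g 1 0 : ℂ) * τ + g 1 1) ^ (-k) := by
  rw [ModularForm.SL_slash_apply]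
  simp [denom]

theorem gamma_le_gamma1 (N : ℕ) : Gamma N ≤ Gamma1 N := fun g hg => by
  rw [Gamma_mem] at hg
  rw [Gamma1_mem]
  exact ⟨hg.1, hg.2.2.2, hg.2.2.1⟩

theorem slash_gamma1 (f : CuspForm (Gamma1 N) k) {γ : SL(2, ℤ)} (hγ : γ ∈ Gamma1 N) :
    (⇑f ∣[k] γ) = ⇑f :=
  SlashInvariantFormClass.slash_action_eq f _ ⟨γ, hγ, rfl⟩

/-- Translates are invariant under `Γ(N)`. -/
theorem slash_slash_gamma {F : ℍ → ℂ} (hF : ∀ γ ∈ Gamma N, F ∣[k] γ = F) (g : SL(2, ℤ))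
    {γ : SL(2, ℤ)} (hγ : γ ∈ Gamma N) : (F ∣[k] g) ∣[k] γ = F ∣[k] g := by
  rw [← SlashAction.slash_mul, show g * γ = g * γ * g⁻¹ * g by group, SlashAction.slash_mul,
    hF _ ((Gamma_normal N).conj_mem γ hγ g)]

theorem slash_slash_gamma' (f : CuspForm (Gamma1 N) k) (g : SL(2, ℤ)) {γ : SL(2, ℤ)}
    (hγ : γ ∈ Gamma N) : ((⇑f) ∣[k] g) ∣[k] γ = (⇑f) ∣[k] g :=
  slash_slash_gamma (fun _ hδ => slash_gamma1 f (gamma_le_gamma1 N hδ)) g hγ

/-- `Γ(N)`-invariant functions have period `N`. -/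
theorem periodic_of_gamma {F : ℍ → ℂ} (hF : ∀ γ ∈ Gamma N, F ∣[k] γ = F) (τ : ℍ) :
    F ((N : ℝ) +ᵥ τ) = F τ := by
  have h := congrFun (hF _ (ModularGroup_T_pow_mem_Gamma N N dvd_rfl)) τ
  rw [slash_sl_apply] at h
  have hm : ((ModularGroup.T ^ (N : ℤ)) • τ) = (N : ℝ) +ᵥ τ := by
    rw [UpperHalfPlane.modular_T_zpow_smul]; simp
  rw [hm] at h
  simp only [ModularGroup.coe_T_zpow] at h
  simpa using h

theorem periodic_ofComplex {w : ℕ} {F : ℍ → ℂ} (h : ∀ τ : ℍ, F ((w : ℝ) +ᵥ τ) = F τ) :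
    Function.Periodic (F ∘ ofComplex) (w : ℂ) := by
  intro z
  by_cases hz : 0 < z.im
  · have hz' : 0 < (z + w).im := by simpa using hz
    simp only [Function.comp_apply, ofComplex_apply_of_im_pos hz, ofComplex_apply_of_im_pos hz']
    rw [← h ⟨z, hz⟩]
    congr 1
    ext1
    simp [coe_vadd, add_comm]
  · have hz' : ¬ 0 < (z + w).im := by simpa using hz
    simp only [Function.comp_apply, ofComplex_apply_of_im_nonpos (not_lt.1 hz),
      ofComplex_apply_of_im_nonpos (not_lt.1 hz')]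

theorem mdifferentiable_slash' {F : ℍ → ℂ} (hF : MDifferentiable 𝓘(ℂ) 𝓘(ℂ) F) (g : SL(2, ℤ)) :
    MDifferentiable 𝓘(ℂ) 𝓘(ℂ) (F ∣[k] g) := by
  rw [ModularForm.SL_slash]
  exact hF.slash k _

/-- Cusp forms vanish at infinity after any translation. -/
theorem isZeroAtImInfty_slash [NeZero N] (f : CuspForm (Gamma1 N) k) (g : SL(2, ℤ)) :
    IsZeroAtImInfty ((⇑f) ∣[k] g) := by
  have hc : IsCusp (Matrix.SpecialLinearGroup.mapGL ℝ g • OnePoint.infty) 𝒮ℒ :=
    isCusp_SL2Z_iff'.mpr ⟨g, rfl⟩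
  exact (OnePoint.isZeroAt_iff_forall_SL2Z hc).mp
    (CuspFormClass.zero_at_cusps f ((Subgroup.IsArithmetic.isCusp_iff_isCusp_SL2Z _).2 hc)) g rfl

/-! ## Series -/

/-- The series of width `w` of a periodic function bounded at infinity. -/
theorem hasQSeries_qExpansion {w : ℕ} (hw : 0 < w) {F : ℍ → ℂ}
    (hper : ∀ τ : ℍ, F ((w : ℝ) +ᵥ τ) = F τ) (hhol : MDifferentiable 𝓘(ℂ) 𝓘(ℂ) F)
    (hbdd : IsBoundedAtImInfty F) :
    HasQSeries w F (HahnSeries.ofPowerSeries ℤ ℂ (qExpansion w F)) := by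
  rw [hasQSeries_iff]
  refine .of_forall fun τ => ?_
  have hp := periodic_ofComplex hper
  rw [show (w : ℂ) = ((w : ℝ) : ℂ) by simp] at hp
  have h := hasSum_qExpansion (h := (w : ℝ)) (Nat.cast_pos.2 hw) hp hhol hbdd τ
  refine (Function.Injective.hasSum_iff (g := fun n : ℕ => (n : ℤ)) Nat.cast_injective
    fun m hm => ?_).mp ?_
  · rw [HahnSeries.ofPowerSeries_apply, HahnSeries.embDomain_of_notMem_range, zero_mul]
    rintro ⟨n, rfl⟩
    exact hm ⟨n, rfl⟩
  · convert! h using 2 with n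
    simp [Function.comp, HahnSeries.ofPowerSeries_apply_coeff, qq_eq_qParam, zpow_natCast]

theorem qExpansion_eq_of_hasQSeries {w : ℕ} (hw : 0 < w) {F : ℍ → ℂ}
    (hper : ∀ τ : ℍ, F ((w : ℝ) +ᵥ τ) = F τ) (hhol : MDifferentiable 𝓘(ℂ) 𝓘(ℂ) F)
    (hbdd : IsBoundedAtImInfty F) {p : PowerSeries ℂ}
    (hp : HasQSeries w F (HahnSeries.ofPowerSeries ℤ ℂ p)) : qExpansion w F = p :=
  HahnSeries.ofPowerSeries_injective ((hasQSeries_qExpansion hw hper hhol hbdd).unique hw hp)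

theorem tendsto_of_powerSeries {w : ℕ} (hw : 0 < w) {F : ℍ → ℂ} {p : PowerSeries ℂ}
    (hp : HasQSeries w F (HahnSeries.ofPowerSeries ℤ ℂ p)) :
    Tendsto F atImInfty (𝓝 (PowerSeries.constantCoeff p)) := by
  have h := hp.tendsto_div hw (m₀ := 0) fun m hm => ?_
  · simpa [← PowerSeries.coeff_zero_eq_constantCoeff_apply,
      ← HahnSeries.ofPowerSeries_apply_coeff (Γ := ℤ)] using h
  · rw [HahnSeries.ofPowerSeries_apply, HahnSeries.embDomain_of_notMem_range]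
    rintro ⟨n, rfl⟩
    exact absurd hm (not_lt.2 (Int.natCast_nonneg n))

theorem isZeroAtImInfty_of_series {w : ℕ} (hw : 0 < w) {F : ℍ → ℂ} {p : PowerSeries ℂ}
    (hp : HasQSeries w F (HahnSeries.ofPowerSeries ℤ ℂ p))
    (h0 : PowerSeries.constantCoeff p = 0) : IsZeroAtImInfty F := by
  have h := tendsto_of_powerSeries hw hp
  rwa [h0] at h

/-- The series of width `N` of the translate `f ∣ g`. -/
def serAt (N : ℕ) (k : ℤ) (F : ℍ → ℂ) (g : SL(2, ℤ)) : PowerSeries ℂ :=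
  qExpansion (N : ℝ) (F ∣[k] g)

theorem hasQSeries_serAt [NeZero N] (f : CuspForm (Gamma1 N) k) (g : SL(2, ℤ)) :
    HasQSeries N ((⇑f) ∣[k] g) (HahnSeries.ofPowerSeries ℤ ℂ (serAt N k f g)) :=
  hasQSeries_qExpansion (NeZero.pos N) (periodic_of_gamma fun _ hγ => slash_slash_gamma' f g hγ)
    (mdifferentiable_slash' (CuspFormClass.holo f) g) (isZeroAtImInfty_slash f g).isBoundedAtImInfty

theorem constantCoeff_serAt [NeZero N] (f : CuspForm (Gamma1 N) k) (g : SL(2, ℤ)) :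
    PowerSeries.constantCoeff (serAt N k f g) = 0 :=
  tendsto_nhds_unique (tendsto_of_powerSeries (NeZero.pos N) (hasQSeries_serAt f g))
    (isZeroAtImInfty_slash f g)

/-- The width one series at infinity. -/
theorem hasQSeries_one [NeZero N] (f : CuspForm (Gamma1 N) k) :
    HasQSeries 1 (⇑f) (HahnSeries.ofPowerSeries ℤ ℂ (qExpansion 1 ⇑f)) := by
  have h := hasQSeries_qExpansion (w := 1) one_pos (F := ⇑f) (fun τ => ?_) (CuspFormClass.holo f) ?_
  · simpa using h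
  · have hT : ModularGroup.T ∈ Gamma1 N := by rw [Gamma1_mem]; simp [ModularGroup.T]
    have h := congrFun (slash_gamma1 f hT) τ
    rw [slash_sl_apply, UpperHalfPlane.modular_T_smul] at h
    simpa [ModularGroup.T] using h
  · simpa using (isZeroAtImInfty_slash f 1).isBoundedAtImInfty

/-- The width `N` series at infinity has the coefficients at the multiples of `N`. -/
theorem serAt_one_eq_expand [NeZero N] (f : CuspForm (Gamma1 N) k) :
    HahnSeries.ofPowerSeries ℤ ℂ (serAt N k f 1) =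
      expand N (NeZero.ne N) (HahnSeries.ofPowerSeries ℤ ℂ (qExpansion 1 ⇑f)) := by
  have h := (hasQSeries_one f).refine_width one_pos N (NeZero.ne N)
  rw [one_mul] at h
  refine HasQSeries.unique (NeZero.pos N) ?_ h
  simpa using hasQSeries_serAt f 1

theorem coeff_serAt_one [NeZero N] (f : CuspForm (Gamma1 N) k) (n : ℕ) :
    PowerSeries.coeff (N * n) (serAt N k f 1) = qCoeff (⇑f) n := by
  have h := congrArg (fun s : LaurentSeries ℂ => s.coeff ((N : ℤ) * n)) (serAt_one_eq_expand f)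
  rw [expand_coeff_mul, HahnSeries.ofPowerSeries_apply_coeff, ← Int.natCast_mul,
    HahnSeries.ofPowerSeries_apply_coeff] at h
  exact h

theorem coeff_serAt_one_of_not_dvd [NeZero N] (f : CuspForm (Gamma1 N) k) {n : ℕ} (hn : ¬ N ∣ n) :
    PowerSeries.coeff n (serAt N k f 1) = 0 := by
  have h := congrArg (fun s : LaurentSeries ℂ => s.coeff (n : ℤ)) (serAt_one_eq_expand f)
  rw [expand_coeff_of_not_dvd N (NeZero.ne N) _ _ (Int.natCast_dvd_natCast.not.2 hn)] at h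
  simpa using h

/-! ## Building forms -/

/-- A cusp form on `Γ₁(N)` from a function. -/
def mkCusp1 [NeZero N] (F : ℍ → ℂ) (hF : MDifferentiable 𝓘(ℂ) 𝓘(ℂ) F)
    (hinv : ∀ γ ∈ Gamma1 N, F ∣[k] γ = F) (hzero : ∀ g : SL(2, ℤ), IsZeroAtImInfty (F ∣[k] g)) :
    CuspForm (Gamma1 N) k where
  toFun := F
  slash_action_eq' := by
    rintro _ ⟨γ, hγ, rfl⟩
    exact hinv γ hγ
  holo' := hF
  zero_at_cusps' := fun {c} hc => by
    rw [Subgroup.IsArithmetic.isCusp_iff_isCusp_SL2Z] at hc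
    exact (OnePoint.isZeroAt_iff_forall_SL2Z hc).mpr fun γ _ => hzero γ

@[simp] theorem coe_mkCusp1 [NeZero N] (F : ℍ → ℂ) (hF : MDifferentiable 𝓘(ℂ) 𝓘(ℂ) F)
    (hinv : ∀ γ ∈ Gamma1 N, F ∣[k] γ = F) (hzero : ∀ g : SL(2, ℤ), IsZeroAtImInfty (F ∣[k] g)) :
    ⇑(mkCusp1 (N := N) F hF hinv hzero) = F := rfl

/-! ## Coefficients -/

theorem qCoeff1_add (f g : CuspForm (Gamma1 N) k) (n : ℕ) :
    qCoeff ⇑(f + g) n = qCoeff ⇑f n + qCoeff ⇑g n := by
  simp only [qCoeff, FunLike.coe_add]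
  rw [ModularForm.qExpansion_add one_pos (one_mem_periods1 N) f g, map_add]

theorem qCoeff1_smul (c : ℂ) (f : CuspForm (Gamma1 N) k) (n : ℕ) :
    qCoeff ⇑(c • f) n = c * qCoeff ⇑f n := by
  simp only [qCoeff, FunLike.coe_smul]
  rw [ModularForm.qExpansion_smul one_pos (one_mem_periods1 N) c f]
  simp

/-- The coefficient as a linear functional. -/
def coeffLin (N : ℕ) (k : ℤ) (n : ℕ) : CuspForm (Gamma1 N) k →ₗ[ℂ] ℂ where
  toFun f := qCoeff ⇑f n
  map_add' f g := qCoeff1_add f g n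
  map_smul' c f := qCoeff1_smul c f n

@[simp] theorem coeffLin_apply (f : CuspForm (Gamma1 N) k) (n : ℕ) :
    coeffLin N k n f = qCoeff ⇑f n := rfl

theorem qCoeff1_sub (f g : CuspForm (Gamma1 N) k) (n : ℕ) :
    qCoeff ⇑(f - g) n = qCoeff ⇑f n - qCoeff ⇑g n :=
  (coeffLin N k n).map_sub f g

theorem qCoeff1_zero [NeZero N] (f : CuspForm (Gamma1 N) k) : qCoeff ⇑f 0 = 0 :=
  CuspFormClass.qExpansion_coeff_zero f one_pos (one_mem_periods1 N)

/-- The Sturm bound. -/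
def sturm1 (N : ℕ) (k : ℤ) : ℕ :=
  (k * (Gamma1 N : Subgroup (GL (Fin 2) ℝ)).relIndex 𝒮ℒ).toNat / 12

theorem eq_zero_of_coeff_le [NeZero N] (f : CuspForm (Gamma1 N) k)
    (h : ∀ n ≤ sturm1 N k, qCoeff ⇑f n = 0) : f = 0 := by
  let F : ModularForm (Gamma1 N : Subgroup (GL (Fin 2) ℝ)) k :=
    { toSlashInvariantForm := f.toSlashInvariantForm
      holo' := f.holo'
      bdd_at_cusps' := fun hc g hg => ((f.zero_at_cusps' hc) g hg).isBoundedAtImInfty }
  have hF : F = 0 := ModularForm.sturm_bound_of_isArithmetic (one_mem_periods1 N) <| by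
    refine lt_of_lt_of_le (Nat.cast_lt.2 (Nat.lt_succ_self _)) (PowerSeries.le_order _ _ ?_)
    exact fun i hi => h i (Nat.lt_succ_iff.1 (Nat.cast_lt.1 hi))
  exact DFunLike.ext f 0 fun τ => DFunLike.congr_fun hF τ

theorem ext_coeff [NeZero N] {f g : CuspForm (Gamma1 N) k}
    (h : ∀ n, qCoeff ⇑f n = qCoeff ⇑g n) : f = g :=
  sub_eq_zero.1 <| eq_zero_of_coeff_le _ fun n _ => by rw [qCoeff1_sub, h, sub_self]

/-- The first coefficients. -/
def firstCoeffs (N : ℕ) (k : ℤ) : CuspForm (Gamma1 N) k →ₗ[ℂ] (Fin (sturm1 N k + 1) → ℂ) :=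
  LinearMap.pi fun i => coeffLin N k i

theorem firstCoeffs_injective [NeZero N] : Function.Injective (firstCoeffs N k) := by
  rw [injective_iff_map_eq_zero]
  exact fun f hf => eq_zero_of_coeff_le f fun n hn => congrFun hf ⟨n, Nat.lt_succ_iff.2 hn⟩

instance finiteDimensional_gamma1 [NeZero N] : FiniteDimensional ℂ (CuspForm (Gamma1 N) k) :=
  FiniteDimensional.of_injective (firstCoeffs N k) firstCoeffs_injective

end Fermat.Agent.DS
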