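import Mathlib
import Fermat.Agent.DS.Forms
import Fermat.Agent.DS.Reps
import Fermat.Prelude.Def_ModularForm_HeckeOperator

/-!
A cusp form on `Γ₁(N)` whose translate by `diag(p,1)` is again invariant under `Γ₁(N)` vanishes,
for a prime `p` not dividing `N`.
-/

set_option autoImplicit false
set_option maxHeartbeats 800000

noncomputable section

namespace Fermat.Agent.DS

open UpperHalfPlane CongruenceSubgroup Filter Topology
open Matrix.SpecialLinearGroup (mapGL)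
open ModularForm (heckeDiagMatrix upperTriangularGL)
open scoped MatrixGroups Manifold ModularForm

variable {N : ℕ} {k : ℤ}

theorem slash_eq_mapGL (F : ℍ → ℂ) (γ : SL(2, ℤ)) : F ∣[k] γ = F ∣[k] mapGL ℝ γ := rfl

/-- Translates by `Γ₀(N)` only depend on the lower right entry modulo `N`. -/
theorem slash_eq_of_eleven (f : CuspForm (Gamma1 N) k) {δ δ' : SL(2, ℤ)} (hδ : δ ∈ Gamma0 N)
    (hδ' : δ' ∈ Gamma0 N) (h : ((δ 1 1 : ℤ) : ZMod N) = (δ' 1 1 : ℤ)) :
    (⇑f) ∣[k] δ = (⇑f) ∣[k] δ' := by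
  have hu : δ * δ'⁻¹ ∈ Gamma1 N := by
    refine mem_gamma1_of_gamma0 (mul_mem hδ (inv_mem hδ')) ?_
    rw [eleven_mul hδ, h, ← eleven_mul hδ']; simp
  rw [show δ = δ * δ'⁻¹ * δ' by group, SlashAction.slash_mul, slash_gamma1 f hu]

theorem eleven_pow {γ : SL(2, ℤ)} (hγ : γ ∈ Gamma0 N) (i : ℕ) :
    (((γ ^ i) 1 1 : ℤ) : ZMod N) = ((γ 1 1 : ℤ) : ZMod N) ^ i := by
  induction i with
  | zero => simp
  | succ i ih => rw [pow_succ, eleven_mul (pow_mem hγ i), ih, pow_succ]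

theorem eleven_mul_gamma1 {δ u : SL(2, ℤ)} (hδ : δ ∈ Gamma0 N) (hu : u ∈ Gamma1 N) :
    (((δ * u) 1 1 : ℤ) : ZMod N) = (δ 1 1 : ℤ) := by
  rw [eleven_mul hδ, ((Gamma1_mem N u).1 hu).2.1, mul_one]

/-- A class of `Γ₀(N)` modulo `Γ₁(N)` has a member whose upper right entry is divisible by `p`. -/
theorem exists_dvd_upper {p : ℕ} (hp : p.Prime) (hpN : ¬ p ∣ N) {δ : SL(2, ℤ)}
    (hδ : δ ∈ Gamma0 N) :
    ∃ δ' : SL(2, ℤ), δ' ∈ Gamma0 N ∧ ((δ' 1 1 : ℤ) : ZMod N) = (δ 1 1 : ℤ) ∧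
      (p : ℤ) ∣ δ' 0 1 := by
  have : Fact p.Prime := ⟨hp⟩
  have key : ∀ δ : SL(2, ℤ), δ ∈ Gamma0 N → ¬ (p : ℤ) ∣ δ 0 0 →
      ∃ δ' : SL(2, ℤ), δ' ∈ Gamma0 N ∧ ((δ' 1 1 : ℤ) : ZMod N) = (δ 1 1 : ℤ) ∧
        (p : ℤ) ∣ δ' 0 1 := by
    intro δ hδ ha
    obtain ⟨j, hj⟩ := ZMod.intCast_surjective (-((δ 0 1 : ℤ) : ZMod p) / ((δ 0 0 : ℤ) : ZMod p))
    have hT : ModularGroup.T ^ j ∈ Gamma1 N := by
      rw [Gamma1_mem]; simp [ModularGroup.coe_T_zpow]
    refine ⟨δ * ModularGroup.T ^ j, mul_mem hδ (gamma1_le_gamma0 N hT), eleven_mul_gamma1 hδ hT, ?_⟩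
    rw [← ZMod.intCast_zmod_eq_zero_iff_dvd] at ha ⊢
    simp [Matrix.SpecialLinearGroup.coe_mul, ModularGroup.coe_T_zpow, Matrix.mul_apply,
      Fin.sum_univ_two, hj]
    field_simp
    ring
  by_cases ha : (p : ℤ) ∣ δ 0 0
  · let u : SL(2, ℤ) := ⟨!![1, 0; (N : ℤ), 1], by simp [Matrix.det_fin_two_of]⟩
    have hu : u ∈ Gamma1 N := by rw [Gamma1_mem]; simp [u]
    obtain ⟨δ', h1, h2, h3⟩ := key (δ * u) (mul_mem hδ (gamma1_le_gamma0 N hu)) fun h => by
      simp [Matrix.SpecialLinearGroup.coe_mul, u, Matrix.mul_apply, Fin.sum_univ_two] at h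
      rcases (Nat.prime_iff_prime_int.1 hp).dvd_or_dvd ((Int.dvd_add_right ha).1 h) with hb | hN
      · refine hp.not_dvd_one (Int.natCast_dvd_natCast.1 ?_)
        have hd := δ.det_coe
        rw [Matrix.det_fin_two] at hd
        rw [Nat.cast_one, ← hd]
        exact dvd_sub (ha.mul_right _) (hb.mul_right _)
      · exact hpN (Int.natCast_dvd_natCast.1 hN)
    exact ⟨δ', h1, h2.trans (eleven_mul_gamma1 hδ hu), h3⟩
  · exact key δ hδ ha

/-- An element of `D Γ₁(N) D⁻¹`. -/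
def lowerConj (N p : ℕ) : GL (Fin 2) ℝ :=
  heckeDiagMatrix p * mapGL ℝ (⟨!![1, 0; -(N : ℤ), 1], by simp [Matrix.det_fin_two_of]⟩ : SL(2, ℤ)) *
    (heckeDiagMatrix p)⁻¹

/-- Translates by `Γ₀(N)` inherit invariance under `D Γ₁(N) D⁻¹`. -/
theorem slash_slash_lowerConj {p : ℕ} (hp : p.Prime) (hpN : ¬ p ∣ N) (g : CuspForm (Gamma1 N) k)
    (hg : ∀ γ ∈ Gamma1 N, ((⇑g) ∣[k] heckeDiagMatrix p) ∣[k] γ = (⇑g) ∣[k] heckeDiagMatrix p)
    {δ : SL(2, ℤ)} (hδ : δ ∈ Gamma0 N) :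
    ((⇑g) ∣[k] δ) ∣[k] lowerConj N p = (⇑g) ∣[k] δ := by
  obtain ⟨δ', hδ', h11, ⟨b, hb⟩⟩ := exists_dvd_upper hp hpN hδ
  rw [slash_eq_of_eleven g hδ hδ' h11.symm]
  let δD : SL(2, ℤ) := ⟨!![δ' 0 0, b; (p : ℤ) * δ' 1 0, δ' 1 1], by
    have hd := δ'.det_coe
    rw [Matrix.det_fin_two, hb] at hd
    rw [Matrix.det_fin_two_of]
    linear_combination hd⟩
  have hδD : δD ∈ Gamma0 N := by
    rw [Gamma0_mem] at hδ' ⊢
    simp [δD, hδ']
  have hcomm : mapGL ℝ δ' * heckeDiagMatrix p = heckeDiagMatrix p * mapGL ℝ δD := by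
    refine Units.ext ?_
    simp only [Units.val_mul, Matrix.SpecialLinearGroup.mapGL_coe_matrix,
      ModularForm.val_heckeDiagMatrix hp.ne_zero]
    ext i j
    fin_cases i <;> fin_cases j <;> simp [δD, Matrix.mul_apply, Fin.sum_univ_two, hb, mul_comm]
  set u : SL(2, ℤ) := ⟨!![1, 0; -(N : ℤ), 1], by simp [Matrix.det_fin_two_of]⟩ with hu
  have hu1 : u ∈ Gamma1 N := by rw [Gamma1_mem]; simp [hu]
  rw [slash_eq_mapGL, lowerConj, ← hu, ← SlashAction.slash_mul]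
  rw [show mapGL ℝ δ' * (heckeDiagMatrix p * mapGL ℝ u * (heckeDiagMatrix p)⁻¹) =
    heckeDiagMatrix p * mapGL ℝ (δD * u * δD⁻¹) * mapGL ℝ δD * (heckeDiagMatrix p)⁻¹ by
      simp only [map_mul, map_inv, ← mul_assoc, hcomm]; group]
  have hg' := hg _ (conj_mem_gamma1 hδD hu1)
  rw [slash_eq_mapGL] at hg'
  rw [SlashAction.slash_mul, SlashAction.slash_mul, SlashAction.slash_mul, hg']
  rw [← SlashAction.slash_mul, ← SlashAction.slash_mul]
  congr 1
  rw [← mul_assoc, ← hcomm, mul_inv_cancel_right]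

/-- Powers of an upper triangular matrix. -/
theorem exists_upper_pow {g : GL (Fin 2) ℝ} {a b d : ℝ}
    (hg : (g : Matrix (Fin 2) (Fin 2) ℝ) = !![a, b; 0, d]) (j : ℕ) :
    ∃ x, ((g ^ j : GL (Fin 2) ℝ) : Matrix (Fin 2) (Fin 2) ℝ) = !![a ^ j, x; 0, d ^ j] := by
  induction j with
  | zero => exact ⟨0, by ext i l; fin_cases i <;> fin_cases l <;> simp⟩
  | succ j ih =>
    obtain ⟨x, hx⟩ := ih
    refine ⟨a ^ j * b + x * d, ?_⟩
    rw [pow_succ, Units.val_mul, hx, hg]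
    ext i l
    fin_cases i <;> fin_cases l <;> simp [Matrix.mul_apply, Fin.sum_univ_two, pow_succ]

theorem eq_zero_of_slash_diag_invariant [NeZero N] {p : ℕ} (hp : p.Prime) (hpN : ¬ p ∣ N)
    (g : CuspForm (Gamma1 N) k)
    (hg : ∀ γ ∈ Gamma1 N, ((⇑g) ∣[k] heckeDiagMatrix p) ∣[k] γ = (⇑g) ∣[k] heckeDiagMatrix p) :
    g = 0 := by
  obtain ⟨a, b, hab⟩ := Int.isCoprime_iff_gcd_eq_one.2
    (show Int.gcd (p : ℤ) (N : ℤ) = 1 from (hp.coprime_iff_not_dvd.2 hpN))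
  let γ : SL(2, ℤ) := ⟨!![a, -b; (N : ℤ), (p : ℤ)], by
    rw [Matrix.det_fin_two_of]; linear_combination hab⟩
  have hγ : γ ∈ Gamma0 N := by rw [Gamma0_mem]; simp [γ]
  have hp' : (p : ℝ) ≠ 0 := by exact_mod_cast hp.ne_zero
  let U : GL (Fin 2) ℝ := upperTriangularGL (p : ℝ) (b : ℝ) ((p : ℝ)⁻¹)
    (by rw [mul_inv_cancel₀ hp']; exact one_ne_zero)
  set S : GL (Fin 2) ℝ := mapGL ℝ γ * lowerConj N p with hS
  have hSU : S * U = 1 := by
    rw [hS, lowerConj]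
    have hD : heckeDiagMatrix p * mapGL ℝ (⟨!![1, 0; -(N : ℤ), 1],
        by simp [Matrix.det_fin_two_of]⟩ : SL(2, ℤ)) * (heckeDiagMatrix p)⁻¹ * U =
        (mapGL ℝ γ)⁻¹ := by
      rw [eq_comm, inv_eq_iff_mul_eq_one]
      rw [← mul_assoc, ← mul_assoc, ← mul_assoc]
      have hDinv : (heckeDiagMatrix p)⁻¹ = upperTriangularGL ((p : ℝ)⁻¹) 0 1
          (by simpa using hp') := by
        refine inv_eq_of_mul_eq_one_right (Units.ext ?_)
        rw [Units.val_mul, ModularForm.val_heckeDiagMatrix hp.ne_zero,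
          ModularForm.val_upperTriangularGL, Units.val_one]
        ext i j
        fin_cases i <;> fin_cases j <;> simp [Matrix.mul_apply, Fin.sum_univ_two, hp']
      rw [hDinv]
      refine Units.ext ?_
      simp only [Units.val_mul, Units.val_one, ModularForm.val_heckeDiagMatrix hp.ne_zero,
        ModularForm.val_upperTriangularGL, Matrix.SpecialLinearGroup.mapGL_coe_matrix, U]
      have hab' : (a : ℝ) * p + b * N = 1 := by exact_mod_cast hab
      ext i j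
      fin_cases i <;> fin_cases j <;>
        simp [γ, Matrix.mul_apply, Fin.sum_univ_two] <;> field_simp <;>
          first
            | linear_combination hab'
            | linear_combination (p : ℝ) * hab'
            | linear_combination (b : ℝ) * hab'
            | linear_combination (-(b : ℝ)) * hab'
            | ring1
            | simp
    rw [mul_assoc, hD, mul_inv_cancel]
  have hstep : ∀ j : ℕ, (⇑g) ∣[k] (S ^ j) = (⇑g) ∣[k] (γ ^ j) := by
    intro j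
    induction j with
    | zero => simp
    | succ j ih =>
      rw [pow_succ, SlashAction.slash_mul, ih, hS, SlashAction.slash_mul, ← slash_eq_mapGL,
        ← SlashAction.slash_mul, ← pow_succ, slash_slash_lowerConj hp hpN g hg (pow_mem hγ _)]
  set m := Nat.totient N with hm
  have hfix : ∀ n : ℕ, (⇑g) ∣[k] (U ^ (m * n)) = ⇑g := by
    intro n
    have h1 : γ ^ (m * n) ∈ Gamma1 N := by
      refine mem_gamma1_of_gamma0 (pow_mem hγ _) ?_
      rw [eleven_pow hγ, pow_mul]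
      have hu := congrArg (fun u : (ZMod N)ˣ => (u : ZMod N))
        (ZMod.pow_totient (ZMod.unitOfCoprime p (hp.coprime_iff_not_dvd.2 hpN)))
      simp only [Units.val_pow_eq_pow_val, ZMod.coe_unitOfCoprime, Units.val_one] at hu
      simp [γ, hm, hu]
    have h2 := hstep (m * n)
    rw [slash_gamma1 g h1] at h2
    rw [← inv_eq_of_mul_eq_one_right hSU, inv_pow]
    calc (⇑g) ∣[k] (S ^ (m * n))⁻¹ = ((⇑g) ∣[k] (S ^ (m * n))) ∣[k] (S ^ (m * n))⁻¹ := by rw [h2]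
      _ = ⇑g := by rw [← SlashAction.slash_mul, mul_inv_cancel, SlashAction.slash_one]
  obtain ⟨C, hC⟩ := (CuspFormClass.exp_decay_atImInfty g one_pos (one_mem_periods1 N)).bound
  rw [Filter.eventually_iff, atImInfty_mem] at hC
  obtain ⟨A, hA⟩ := hC
  refine DFunLike.ext g 0 fun τ => ?_
  show g τ = 0
  rw [← norm_le_zero_iff]
  set r : ℕ := k.natAbs with hr
  set P : ℝ := (p : ℝ) ^ (2 * m) with hP
  have hP1 : 1 < P := one_lt_pow₀ (by exact_mod_cast hp.one_lt) (by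
    have := Nat.totient_pos.2 (NeZero.pos N); omega)
  set c : ℝ := 2 * Real.pi * τ.im with hc
  have hc0 : 0 < c := by have := τ.im_pos; positivity
  have hev : ∀ᶠ n : ℕ in atTop, ‖g τ‖ ≤ |C| / c ^ r * ((c * P ^ n) ^ r * Real.exp (-(c * P ^ n))) := by
    filter_upwards [((tendsto_pow_atTop_atTop_of_one_lt hP1).atTop_mul_const τ.im_pos).eventually
      (eventually_ge_atTop A)] with n hn
    obtain ⟨x, hx⟩ := exists_upper_pow (g := U) (ModularForm.val_upperTriangularGL _ _ _ _) (m * n)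
    set Q : ℝ := (p : ℝ) ^ (m * n) with hQ
    have hQ0 : 0 < Q := pow_pos (by exact_mod_cast hp.pos) _
    have hQ1 : 1 ≤ Q := one_le_pow₀ (by exact_mod_cast hp.one_le)
    rw [inv_pow, ← hQ] at hx
    have hdet : ((U ^ (m * n)).det : ℝ) = 1 := by
      rw [Matrix.GeneralLinearGroup.val_det_apply, hx, Matrix.det_fin_two_of]
      field_simp
      ring
    have hden : denom (U ^ (m * n)) τ = ((Q⁻¹ : ℝ) : ℂ) := by simp [denom, hx]
    have him : ((U ^ (m * n)) • τ).im = P ^ n * τ.im := by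
      rw [UpperHalfPlane.im_smul_eq_div_normSq, hdet, hden, Complex.normSq_ofReal, hP, ← pow_mul,
        mul_assoc, show 2 * (m * n) = m * n + m * n by ring, pow_add, ← hQ]
      field_simp
      simp
    have h0 : g τ = g ((U ^ (m * n)) • τ) * (((Q : ℝ) : ℂ)) ^ k := by
      have := (congrFun (hfix n) τ).symm
      rw [ModularForm.slash_apply, hdet, hden] at this
      rw [this, UpperHalfPlane.σ, if_pos (by rw [hdet]; norm_num)]
      simp [Complex.ofReal_inv, inv_zpow', zpow_neg]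
    have hb : ‖g ((U ^ (m * n)) • τ)‖ ≤ |C| * Real.exp (-(c * P ^ n)) := by
      refine (hA _ (him ▸ hn)).trans ?_
      rw [Real.norm_of_nonneg (Real.exp_pos _).le, him, hc]
      refine le_of_le_of_eq (mul_le_mul_of_nonneg_right (le_abs_self C) (Real.exp_pos _).le) ?_
      congr 2
      ring
    have hk : ‖((Q : ℝ) : ℂ) ^ k‖ ≤ (P ^ n) ^ r := by
      rw [norm_zpow, Complex.norm_real, Real.norm_of_nonneg hQ0.le]
      have hPQ : P ^ n = Q ^ 2 := by rw [hP, hQ, ← pow_mul, ← pow_mul]; ring_nf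
      rw [hPQ, ← pow_mul, ← zpow_natCast]
      refine zpow_le_zpow_right₀ hQ1 ?_
      rw [hr]; omega
    calc ‖g τ‖ = ‖g ((U ^ (m * n)) • τ)‖ * ‖((Q : ℝ) : ℂ) ^ k‖ := by rw [h0, norm_mul]
      _ ≤ (|C| * Real.exp (-(c * P ^ n))) * (P ^ n) ^ r := by gcongr
      _ = |C| / c ^ r * ((c * P ^ n) ^ r * Real.exp (-(c * P ^ n))) := by
        rw [mul_pow]; field_simp; rw [hc]; ring
  refine ge_of_tendsto ?_ hev
  have h1 := (Real.tendsto_pow_mul_exp_neg_atTop_nhds_zero r).comp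
    ((tendsto_pow_atTop_atTop_of_one_lt hP1).const_mul_atTop hc0)
  simpa using h1.const_mul (|C| / c ^ r)

end Fermat.Agent.DS
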