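import Mathlib
import Fermat.Agent.DS.Vanish
import Fermat.Agent.GalRep.QSeries
import Fermat.Prelude.Thm_UpperHalfPlane_qCoeff_heckeU
import Fermat.Prelude.Thm_ModularForm_isBoundedAtImInfty_heckeU
import Fermat.Prelude.Thm_ModularForm_mdifferentiable_heckeU

/-!
Diamond operators on cusp forms for `Γ₁(N)`, the Hecke sum as `U_p + ⟨p⟩ diag(p,1)`, and the
nebentypus of a form satisfying the weight one Hecke relations.
-/

set_option autoImplicit false
set_option maxHeartbeats 800000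

noncomputable section

namespace Fermat.Agent.DS

open UpperHalfPlane CongruenceSubgroup ModularFormClass Filter Topology
open Fermat.Agent.GalRep (heckeRep HasQSeries qq twist expand expand_coeff_mul
  expand_coeff_of_not_dvd mdifferentiable_comp_smul)
open Fermat.Agent.GalRep.Level (IsDiamond heckeRepG)
open Fermat.Agent.Newform (intGL intGL_mul slash_intGL_coe heckeMatrix_eq_intGL
  heckeDiagMatrix_eq_intGL)
open ModularForm (heckeMatrix heckeDiagMatrix)
open scoped MatrixGroups Manifold ModularForm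

variable {N : ℕ} {k : ℤ}

/-- The diamond operator of an element of `Γ₀(N)`. -/
def dia [NeZero N] (δ : SL(2, ℤ)) (hδ : δ ∈ Gamma0 N) :
    CuspForm (Gamma1 N) k →ₗ[ℂ] CuspForm (Gamma1 N) k where
  toFun f := mkCusp1 ((⇑f) ∣[k] δ) (mdifferentiable_slash' (CuspFormClass.holo f) δ)
    (fun γ hγ => by
      rw [← SlashAction.slash_mul, show δ * γ = δ * γ * δ⁻¹ * δ by group, SlashAction.slash_mul,
        slash_gamma1 f (conj_mem_gamma1 hδ hγ)])
    (fun g => by rw [← SlashAction.slash_mul]; exact isZeroAtImInfty_slash f _)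
  map_add' f g := DFunLike.coe_injective <| by
    show ⇑(f + g) ∣[k] δ = ((⇑f) ∣[k] δ) + ((⇑g) ∣[k] δ)
    rw [CuspForm.coe_add, SlashAction.add_slash]
  map_smul' c f := DFunLike.coe_injective <| by
    show ⇑(c • f) ∣[k] δ = c • ((⇑f) ∣[k] δ)
    rw [CuspForm.IsGLPos.coe_smul, ModularForm.SL_smul_slash]

@[simp] theorem coe_dia [NeZero N] (δ : SL(2, ℤ)) (hδ : δ ∈ Gamma0 N)
    (f : CuspForm (Gamma1 N) k) : ⇑(dia δ hδ f) = (⇑f) ∣[k] δ := rfl

/-- The diamond matrices exist. -/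
theorem exists_isDiamond {p : ℕ} (h : p.Coprime N) : ∃ R : SL(2, ℤ), IsDiamond N p R := by
  obtain ⟨a, b, hab⟩ := Int.isCoprime_iff_gcd_eq_one.2 (show Int.gcd (p : ℤ) (N : ℤ) = 1 from h)
  refine ⟨⟨!![a, -(b * b) * N; (N : ℤ), p + N * b * p], ?_⟩, ?_⟩
  · rw [Matrix.det_fin_two_of]; linear_combination (1 + N * b) * hab
  · have hab' : (a : ZMod N) * p = 1 := by
      simpa using congrArg (fun x : ℤ => (x : ZMod N)) hab
    refine ⟨?_, ?_, ?_, ?_⟩ <;> simp [mul_comm (p : ZMod N), hab']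

/-- The Hecke sum is `U_p + ⟨p⟩ diag(p,1)`. -/
theorem slashSum_hecke_eq {p : ℕ} (hp : p.Prime) (hpN : ¬ p ∣ N) {R : SL(2, ℤ)}
    (hR : IsDiamond N p R) {F : ℍ → ℂ} (hF : ∀ γ ∈ Gamma1 N, F ∣[k] γ = F) :
    (isReps_hecke hp hpN hR).slashSum k F =
      ModularForm.heckeU k p F + (F ∣[k] R) ∣[k] heckeDiagMatrix p := by
  obtain ⟨π, u, ⟨hnone, hsome⟩, -, -, hu⟩ := exists_twist hp hpN hR
  have hterm : ∀ i, F ∣[k] intGL (heckeRepG N p R i) =
      (F ∣[k] u i) ∣[k] intGL (heckeRep p (π.optionCongr i)) := fun i => by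
    rw [hu i, intGL_mul (by rw [Matrix.SpecialLinearGroup.det_coe]; exact one_ne_zero)
      (by rw [GalRep.det_heckeRep]; exact_mod_cast hp.ne_zero), SlashAction.slash_mul,
      slash_intGL_coe]
  rw [IsReps.slashSum, Fintype.sum_option, add_comm, ModularForm.heckeU_def]
  congr 1
  · simp only [hterm, hF _ (hsome _), Equiv.optionCongr_apply, Option.map_some]
    rw [Equiv.sum_comp π (fun b => F ∣[k] intGL (heckeRep p (some b))), Finset.sum_range]
    exact Finset.sum_congr rfl fun b _ => by rw [heckeMatrix_eq_intGL hp.ne_zero]; rfl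
  · rw [hterm, hnone, heckeDiagMatrix_eq_intGL hp.ne_zero]
    rfl

theorem periodic_slash_diag {p : ℕ} (hp : p ≠ 0) {F : ℍ → ℂ}
    (hF : ∀ τ : ℍ, F ((1 : ℝ) +ᵥ τ) = F τ) (τ : ℍ) :
    (F ∣[k] heckeDiagMatrix p) ((1 : ℝ) +ᵥ τ) = (F ∣[k] heckeDiagMatrix p) τ := by
  rw [ModularForm.slash_heckeDiagMatrix_apply k hp, ModularForm.slash_heckeDiagMatrix_apply k hp]
  congr 1
  have hshift : ∀ (n : ℕ) (z : ℍ), F (((n : ℝ)) +ᵥ z) = F z := by
    intro n
    induction n with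
    | zero => simp
    | succ n ih =>
      intro z
      rw [show ((n + 1 : ℕ) : ℝ) +ᵥ z = (1 : ℝ) +ᵥ ((n : ℝ) +ᵥ z) by
        ext1; simp [coe_vadd]; ring, hF, ih]
  rw [show heckeDiagMatrix p • ((1 : ℝ) +ᵥ τ) = (p : ℝ) +ᵥ (heckeDiagMatrix p • τ) by
    ext1
    simp [coe_vadd, ModularForm.coe_heckeDiagMatrix_smul hp]
    ring, hshift]

theorem periodic_gamma1 {F : ℍ → ℂ} (hF : ∀ γ ∈ Gamma1 N, F ∣[k] γ = F) (τ : ℍ) :
    F ((1 : ℝ) +ᵥ τ) = F τ := by
  have hT : ModularGroup.T ∈ Gamma1 N := by rw [Gamma1_mem]; simp [ModularGroup.T]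
  have h := congrFun (hF _ hT) τ
  rw [slash_sl_apply, UpperHalfPlane.modular_T_smul] at h
  simpa [ModularGroup.T] using h

/-- Series at infinity of `U_p f`. -/
theorem hasQSeries_heckeU [NeZero N] {p : ℕ} (hp : p.Prime) (hpN : ¬ p ∣ N)
    (f : CuspForm (Gamma1 N) k) :
    HasQSeries 1 (ModularForm.heckeU k p f)
      (HahnSeries.ofPowerSeries ℤ ℂ (PowerSeries.mk fun n => qCoeff (⇑f) (n * p))) := by
  obtain ⟨R, hR⟩ := exists_isDiamond (N := N) (hp.coprime_iff_not_dvd.2 hpN)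
  have hF : ∀ γ ∈ Gamma1 N, (⇑f) ∣[k] γ = ⇑f := fun γ hγ => slash_gamma1 f hγ
  have hper : ∀ τ : ℍ, ModularForm.heckeU k p (⇑f) ((1 : ℝ) +ᵥ τ) =
      ModularForm.heckeU k p (⇑f) τ := fun τ => by
    have hT := periodic_gamma1 ((isReps_hecke hp hpN hR).slashSum_slash (k := k) hF) τ
    rw [slashSum_hecke_eq hp hpN hR hF, Pi.add_apply, Pi.add_apply,
      periodic_slash_diag hp.ne_zero (F := (⇑f) ∣[k] R)
        (periodic_gamma1 fun γ hγ => slash_gamma1 (dia R (diamond_mem_gamma0 hR) f) hγ) τ] at hT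
    exact add_right_cancel hT
  have hb : IsBoundedAtImInfty (⇑f) := by
    simpa using (isZeroAtImInfty_slash f 1).isBoundedAtImInfty
  have h := hasQSeries_qExpansion (w := 1) one_pos (F := ModularForm.heckeU k p (⇑f))
    (by simpa using hper) (ModularForm.mdifferentiable_heckeU (CuspFormClass.holo f) k p)
    (ModularForm.isBoundedAtImInfty_heckeU hb k p)
  have hq : qExpansion ((1 : ℕ) : ℝ) (ModularForm.heckeU k p (⇑f)) =
      PowerSeries.mk fun n => qCoeff (⇑f) (n * p) := by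
    ext n
    rw [Nat.cast_one, PowerSeries.coeff_mk]
    exact UpperHalfPlane.qCoeff_heckeU
      (SlashInvariantFormClass.periodic_comp_ofComplex f (one_mem_periods1 N))
      (CuspFormClass.holo f) hb k hp.ne_zero n
  rwa [hq] at h

/-- Series at infinity of `f ∣ diag(p,1)`. -/
theorem hasQSeries_diag [NeZero N] {p : ℕ} (hp : p ≠ 0) (f : CuspForm (Gamma1 N) k) :
    HasQSeries 1 ((⇑f) ∣[k] heckeDiagMatrix p)
      (HahnSeries.C ((p : ℂ) ^ (k - 1)) *
        expand p hp (HahnSeries.ofPowerSeries ℤ ℂ (qExpansion 1 (⇑f)))) := by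
  have h := (hasQSeries_one f).comp_affine one_pos p 1 hp one_pos 0
    (fun τ => heckeDiagMatrix p • τ)
    (fun τ => by rw [ModularForm.coe_heckeDiagMatrix_smul hp]; simp) 1 (by simp)
  have ht : twist (1 : ℂˣ) (HahnSeries.ofPowerSeries ℤ ℂ (qExpansion 1 (⇑f))) =
      HahnSeries.ofPowerSeries ℤ ℂ (qExpansion 1 (⇑f)) := by ext m; simp
  rw [ht, one_mul] at h
  exact (h.smul _).congr (.of_forall fun τ => by
    rw [ModularForm.slash_heckeDiagMatrix_apply k hp])

/-- The Hecke relations at weight one as an identity of functions. -/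
theorem heckeU_add_smul_diag [NeZero N] {p : ℕ} (hp : p.Prime) (hpN : ¬ p ∣ N) (c a : ℂ)
    (f : CuspForm (Gamma1 N) 1)
    (hT : ∀ n : ℕ, qCoeff (⇑f) (p * n) + c * (if p ∣ n then qCoeff (⇑f) (n / p) else 0) =
      a * qCoeff (⇑f) n) :
    ModularForm.heckeU 1 p (⇑f) + c • ((⇑f) ∣[(1 : ℤ)] heckeDiagMatrix p) = a • ⇑f := by
  refine GalRep.eq_of_hasQSeries (w := 1) ?_ ((CuspFormClass.holo f).const_smul a)
    ((hasQSeries_heckeU hp hpN f).add ((hasQSeries_diag hp.ne_zero f).smul c)) ?_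
  · exact (ModularForm.mdifferentiable_heckeU (CuspFormClass.holo f) 1 p).add
      (((CuspFormClass.holo f).slash 1 _).const_smul c)
  · have h : HasQSeries 1 (a • ⇑f) _ := (hasQSeries_one f).smul a
    convert! h using 1
    rw [sub_self, zpow_zero, map_one, one_mul]
    ext m
    simp only [HahnSeries.coeff_add, HahnSeries.C_mul_eq_smul, HahnSeries.coeff_smul, smul_eq_mul]
    by_cases hm : m < 0
    · have h0 : ∀ (s : PowerSeries ℂ) (j : ℤ), j < 0 →
          (HahnSeries.ofPowerSeries ℤ ℂ s).coeff j = 0 := fun s j hj => by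
        rw [HahnSeries.ofPowerSeries_apply, HahnSeries.embDomain_of_notMem_range]
        rintro ⟨i, rfl⟩
        exact absurd hj (not_lt.2 (Int.natCast_nonneg i))
      rw [h0 _ _ hm, h0 _ _ hm]
      by_cases hd : (p : ℤ) ∣ m
      · obtain ⟨j, rfl⟩ := hd
        rw [expand_coeff_mul, h0 _ _ (neg_of_mul_neg_right hm (Int.natCast_nonneg p))]
        simp
      · rw [expand_coeff_of_not_dvd _ _ _ _ hd]; simp
    · obtain ⟨n, rfl⟩ := Int.eq_ofNat_of_zero_le (not_lt.1 hm)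
      simp only [HahnSeries.ofPowerSeries_apply_coeff, PowerSeries.coeff_mk]
      have e := hT n
      rw [mul_comm p n] at e
      refine Eq.trans ?_ e
      congr 2
      by_cases hd : p ∣ n
      · obtain ⟨j, rfl⟩ := hd
        rw [if_pos (dvd_mul_right _ _), Nat.mul_div_cancel_left _ hp.pos, Int.natCast_mul,
          expand_coeff_mul, HahnSeries.ofPowerSeries_apply_coeff]
        rfl
      · rw [if_neg hd, expand_coeff_of_not_dvd _ _ _ _ (fun h => hd (Int.natCast_dvd_natCast.1 h))]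

/-- The diamond operator at a good prime acts by the character. -/
theorem slash_diamond_eq [NeZero N] {p : ℕ} (hp : p.Prime) (hpN : ¬ p ∣ N) (c a : ℂ)
    (f : CuspForm (Gamma1 N) 1)
    (hT : ∀ n : ℕ, qCoeff (⇑f) (p * n) + c * (if p ∣ n then qCoeff (⇑f) (n / p) else 0) =
      a * qCoeff (⇑f) n)
    {R : SL(2, ℤ)} (hR : IsDiamond N p R) : (⇑f) ∣[(1 : ℤ)] R = c • ⇑f := by
  set fR := dia R (diamond_mem_gamma0 hR) f with hfR
  have hg : c • f - fR = 0 := by
    refine eq_zero_of_slash_diag_invariant hp hpN _ fun γ hγ => ?_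
    have hF : ∀ δ ∈ Gamma1 N, (⇑f) ∣[(1 : ℤ)] δ = ⇑f := fun δ hδ => slash_gamma1 f hδ
    have heq : (⇑(c • f - fR)) ∣[(1 : ℤ)] heckeDiagMatrix p =
        a • ⇑f - (isReps_hecke hp hpN hR).slashSum 1 (⇑f) := by
      rw [slashSum_hecke_eq hp hpN hR hF, ← heckeU_add_smul_diag hp hpN c a f hT,
        CuspForm.coe_sub, CuspForm.IsGLPos.coe_smul, sub_eq_add_neg (c • ⇑f),
        SlashAction.add_slash, SlashAction.neg_slash, ModularForm.smul_slash,
        ModularForm.σ_heckeDiagMatrix, ContinuousAlgEquiv.refl_apply, hfR, coe_dia]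
      abel
    rw [heq, sub_eq_add_neg, SlashAction.add_slash, SlashAction.neg_slash,
      ModularForm.SL_smul_slash, hF γ hγ, (isReps_hecke hp hpN hR).slashSum_slash hF γ hγ]
  rw [sub_eq_zero] at hg
  rw [← coe_dia R (diamond_mem_gamma0 hR) f, ← hfR, ← hg, CuspForm.IsGLPos.coe_smul]

/-- A form satisfying the Hecke relations of weight one has nebentypus `ε`. -/
theorem slash_gamma0_eq [NeZero N] (ε : DirichletCharacter ℂ N) (f : CuspForm (Gamma1 N) 1)
    (hT : ∀ p : ℕ, p.Prime → ¬ p ∣ N → ∀ n : ℕ,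
        qCoeff (⇑f) (p * n) + ε (p : ZMod N) * (if p ∣ n then qCoeff (⇑f) (n / p) else 0) =
          qCoeff (⇑f) p * qCoeff (⇑f) n)
    {δ : SL(2, ℤ)} (hδ : δ ∈ Gamma0 N) :
    (⇑f) ∣[(1 : ℤ)] δ = ε ((δ 1 1 : ℤ) : ZMod N) • ⇑f := by
  have hu : IsUnit ((δ 1 1 : ℤ) : ZMod N) := by
    refine IsUnit.of_mul_eq_one ((δ⁻¹ 1 1 : ℤ) : ZMod N) ?_
    rw [← eleven_mul hδ]; simp
  obtain ⟨p, hpN, hp, hpe⟩ := Nat.forall_exists_prime_gt_and_eq_mod hu N
  have hpN' : ¬ p ∣ N := fun h => absurd (Nat.le_of_dvd (NeZero.pos N) h) (not_le.2 hpN)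
  obtain ⟨R, hR⟩ := exists_isDiamond (N := N) (hp.coprime_iff_not_dvd.2 hpN')
  rw [slash_eq_of_eleven f hδ (diamond_mem_gamma0 hR) (by rw [hR.2.2.2, hpe]), ← hpe]
  exact slash_diamond_eq hp hpN' _ _ f (hT p hp hpN') hR

end Fermat.Agent.DS
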