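import Mathlib
import Fermat.Agent.DS.Forms
import Fermat.Agent.DS.Reps
import Fermat.Agent.Period.MaxPrinciple

/-!
Periods of weight two cusp forms on `Γ₁(M)`: parabolicity, equivariance for coset operators, and
injectivity of the real part.
-/

set_option autoImplicit false
set_option maxHeartbeats 800000

noncomputable section

namespace Fermat.Agent.DS

open UpperHalfPlane CongruenceSubgroup Filter Topology
open Fermat.Agent.Period (IsPrim exists_conj_upper_of_trace_sq tendsto_smul_atImInfty_of_upper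
  eq_const_of_re_le)
open Fermat.Agent.GalRep (IMat)
open Fermat.Agent.GalRep.Level (ParG)
open Fermat.Agent.Newform (intGL val_intGL intGL_mul intGL_coe det_intGL_pos σ_intGL)
open scoped MatrixGroups Manifold ModularForm Modular Real

variable {M : ℕ}

theorem isPrim_comp_gl {G f : ℍ → ℂ} (hG : IsPrim G f) {g : GL (Fin 2) ℝ}
    (hg : 0 < (g.det : ℝ)) : IsPrim (fun τ => G (g • τ)) (f ∣[(2 : ℤ)] g) := by
  intro τ
  have hg' : 0 < g.val.det := by rwa [← Matrix.GeneralLinearGroup.val_det_apply]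
  have h1 := (hasStrictDerivAt_smul hg' τ).hasDerivAt
  have h2 := hG (g • τ)
  have hpt : ((g • τ : ℍ) : ℂ) = ↑(g • ofComplex (τ : ℂ)) := by rw [ofComplex_apply]
  rw [hpt] at h2
  have h3 := h2.comp (τ : ℂ) h1
  have heq : (G ∘ ofComplex) ∘ (fun z : ℂ => (↑(g • ofComplex z) : ℂ))
      = (fun τ => G (g • τ)) ∘ ofComplex := by
    funext z
    simp only [Function.comp_apply, ofComplex_apply]
  rw [heq] at h3
  refine h3.congr_deriv ?_
  rw [ModularForm.slash_apply, UpperHalfPlane.σ, if_pos hg, ContinuousAlgEquiv.refl_apply,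
    Matrix.GeneralLinearGroup.val_det_apply, abs_of_pos hg']
  simp [zpow_neg, div_eq_mul_inv, zpow_ofNat, mul_assoc]

theorem im_intGL_smul_upper {A : IMat} (hA : 0 < A.det) (h : A 1 0 = 0) :
    Tendsto (fun τ : ℍ => intGL A • τ) atImInfty atImInfty := by
  have hd : (A 0 0 : ℝ) * A 1 1 = A.det := by rw [Matrix.det_fin_two, h]; push_cast; ring
  have hA' : (0 : ℝ) < A.det := by exact_mod_cast hA
  have h11 : (A 1 1 : ℝ) ≠ 0 := fun h0 => by rw [h0, mul_zero] at hd; exact hA'.ne hd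
  refine tendsto_comap_iff.mpr ((tendsto_comap.const_mul_atTop
    (show 0 < (A.det : ℝ) / ((A 1 1 : ℝ) * A 1 1) from
      div_pos hA' (mul_self_pos.2 h11))).congr fun τ => ?_)
  show _ = (intGL A • τ).im
  rw [UpperHalfPlane.im_smul_eq_div_normSq, abs_of_pos (det_intGL_pos hA),
    Matrix.GeneralLinearGroup.val_det_apply, val_intGL hA.ne', ← RingHom.mapMatrix_apply,
    ← RingHom.map_det, show denom (intGL A) τ = ((A 1 1 : ℝ) : ℂ) by
      simp [denom, val_intGL hA.ne', h], Complex.normSq_ofReal]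
  simp
  ring

variable [NeZero M]

local notation "S₂" => CuspForm (Gamma1 M) 2

theorem exists_prim_slash (f : S₂) (δ : SL(2, ℤ)) :
    ∃ G : ℍ → ℂ, IsPrim G ((⇑f) ∣[(2 : ℤ)] δ) ∧ Tendsto G atImInfty (𝓝 0) := by
  set g := (⇑f) ∣[(2 : ℤ)] δ with hg
  have hN : (0 : ℝ) < M := by exact_mod_cast Nat.pos_of_ne_zero (NeZero.ne M)
  have hz : IsZeroAtImInfty g := isZeroAtImInfty_slash f δ
  have hmd : MDifferentiable 𝓘(ℂ) 𝓘(ℂ) g := mdifferentiable_slash' (CuspFormClass.holo f) δ
  have hper : Function.Periodic (g ∘ ofComplex) ((M : ℝ) : ℂ) := by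
    simpa using periodic_ofComplex (periodic_of_gamma fun γ hγ => slash_slash_gamma' f δ hγ)
  have hdiff : DifferentiableOn ℂ (cuspFunction (M : ℝ) g) (Metric.ball 0 1) :=
    differentiableOn_cuspFunction_ball hN hper hmd hz.isBoundedAtImInfty
  have h0 : cuspFunction (M : ℝ) g 0 = 0 :=
    UpperHalfPlane.IsZeroAtImInfty.cuspFunction_apply_zero hz hN
  have hball : Metric.ball (0 : ℂ) 1 ∈ 𝓝 (0 : ℂ) := Metric.ball_mem_nhds 0 one_pos
  obtain ⟨H, hH0, hH⟩ := (((Complex.differentiableOn_dslope hball).mpr hdiff).isExactOn_ball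
    ).with_val_at 0 0
  refine ⟨fun τ => (M : ℂ) / (2 * π * Complex.I) * H (Function.Periodic.qParam (M : ℝ) τ),
    fun τ => ?_, ?_⟩
  · have hq : Function.Periodic.qParam (M : ℝ) τ ∈ Metric.ball (0 : ℂ) 1 := by
      rw [mem_ball_zero_iff]
      exact Function.Periodic.norm_qParam_lt_one hN τ.im_pos
    have hqd : HasDerivAt (Function.Periodic.qParam (M : ℝ))
        (Function.Periodic.qParam (M : ℝ) τ * (2 * π * Complex.I / ((M : ℝ) : ℂ))) (τ : ℂ) := by
      simpa only [id_eq, mul_one, Function.Periodic.qParam] using!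
        (((hasDerivAt_id (τ : ℂ)).const_mul (2 * π * Complex.I)).div_const ((M : ℝ) : ℂ)).cexp
    have hc := ((hH _ hq).comp (τ : ℂ) hqd).const_mul ((M : ℂ) / (2 * π * Complex.I))
    have hev : ((fun τ : ℍ => (M : ℂ) / (2 * π * Complex.I)
        * H (Function.Periodic.qParam (M : ℝ) τ)) ∘ ofComplex)
        =ᶠ[𝓝 (τ : ℂ)] fun z => (M : ℂ) / (2 * π * Complex.I)
        * H (Function.Periodic.qParam (M : ℝ) z) := by
      filter_upwards [isOpen_upperHalfPlaneSet.mem_nhds τ.im_pos] with z hz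
      simp [Function.comp_apply, ofComplex_apply_of_im_pos hz]
    refine (hc.congr_of_eventuallyEq hev).congr_deriv ?_
    have hgv : cuspFunction (M : ℝ) g (Function.Periodic.qParam (M : ℝ) τ) = g τ :=
      eq_cuspFunction τ hN.ne' hper
    have hq0 : Function.Periodic.qParam (M : ℝ) τ ≠ 0 := Function.Periodic.qParam_ne_zero _
    have hds : dslope (cuspFunction (M : ℝ) g) 0 (Function.Periodic.qParam (M : ℝ) τ)
        * Function.Periodic.qParam (M : ℝ) τ = g τ := by
      rw [dslope_of_ne _ hq0, slope_def_field, h0, hgv]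
      field_simp
      simp
    have hN' : (M : ℂ) ≠ 0 := Nat.cast_ne_zero.mpr (NeZero.ne M)
    rw [← hds]
    push_cast
    field_simp
  · have hHc : ContinuousAt H 0 := (hH 0 (Metric.mem_ball_self one_pos)).continuousAt
    have h1 : Tendsto (fun τ : ℍ => H (Function.Periodic.qParam (M : ℝ) τ)) atImInfty (𝓝 0) := by
      have := hHc.tendsto.comp (qParam_tendsto_atImInfty hN)
      rwa [hH0] at this
    simpa using h1.const_mul ((M : ℂ) / (2 * π * Complex.I))

/-- A chosen primitive. -/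
def primF (f : S₂) : ℍ → ℂ := (exists_prim_slash f 1).choose

theorem isPrim_primF (f : S₂) : IsPrim (primF f) ⇑f := by
  simpa [primF] using (exists_prim_slash f 1).choose_spec.1

theorem exists_limit_primF (f : S₂) (δ : SL(2, ℤ)) :
    ∃ L, Tendsto (fun w : ℍ => primF f (δ • w)) atImInfty (𝓝 L) := by
  obtain ⟨G, hG, hG0⟩ := exists_prim_slash f δ
  obtain ⟨c, hc⟩ := ((isPrim_primF f).comp_smul δ).eq_add_const hG
  refine ⟨c, ?_⟩
  rw [funext hc]
  simpa using hG0.add_const c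

theorem exists_period (f : S₂) (γ : Gamma1 M) :
    ∃ c, ∀ z : ℍ, primF f ((γ : SL(2, ℤ)) • z) = primF f z + c := by
  have h1 := (isPrim_primF f).comp_smul (γ : SL(2, ℤ))
  rw [slash_gamma1 f γ.2] at h1
  exact h1.eq_add_const (isPrim_primF f)

/-- The period of `f` along `γ`. -/
def perC (f : S₂) (γ : Gamma1 M) : ℂ :=
  primF f ((γ : SL(2, ℤ)) • I) - primF f I

/-- Periods do not depend on the primitive or the base point. -/
theorem perC_eq {f : S₂} {G : ℍ → ℂ} (hG : IsPrim G ⇑f) (γ : Gamma1 M) (z : ℍ) :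
    G ((γ : SL(2, ℤ)) • z) - G z = perC f γ := by
  obtain ⟨c, hc⟩ := exists_period f γ
  obtain ⟨d, hd⟩ := hG.eq_add_const (isPrim_primF f)
  rw [hd, hd, hc z, perC, hc I]
  ring

theorem perC_mul (f : S₂) (γ δ : Gamma1 M) : perC f (γ * δ) = perC f γ + perC f δ := by
  have h := perC_eq (isPrim_primF f) γ ((δ : SL(2, ℤ)) • I)
  rw [← mul_smul] at h
  rw [← h, perC, perC, Subgroup.coe_mul]
  ring

theorem perC_add (f g : S₂) (γ : Gamma1 M) : perC (f + g) γ = perC f γ + perC g γ := by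
  have h := perC_eq (f := f + g) (G := primF f + primF g)
    (by rw [FunLike.coe_add]; exact (isPrim_primF f).add (isPrim_primF g)) γ I
  rw [← h, perC, perC, Pi.add_apply, Pi.add_apply]
  ring

/-- The real parts of the periods, as functionals on the forms. -/
def perEv (M : ℕ) [NeZero M] : Additive (Gamma1 M) →+ (CuspForm (Gamma1 M) 2 →+ ℝ) where
  toFun γ := AddMonoidHom.mk' (fun f => (perC f (Additive.toMul γ)).re)
    fun f g => by rw [perC_add, Complex.add_re]
  map_zero' := AddMonoidHom.ext fun f => by simp [perC]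
  map_add' γ δ := AddMonoidHom.ext fun f => by simp [perC_mul]

@[simp] theorem perEv_apply (γ : Gamma1 M) (f : S₂) :
    perEv M (Additive.ofMul γ) f = (perC f γ).re := rfl

theorem perEv_parabolic (γ : Gamma1 M) (hγ : ((γ : SL(2, ℤ)) : IMat).trace ^ 2 = 4) :
    perEv M (Additive.ofMul γ) = 0 := by
  refine AddMonoidHom.ext fun f => ?_
  obtain ⟨δ, hδ⟩ := exists_conj_upper_of_trace_sq (γ : SL(2, ℤ)) hγ
  obtain ⟨L, hL⟩ := exists_limit_primF f δ
  have h1 : Tendsto (fun w : ℍ => primF f (δ • ((δ⁻¹ * (γ : SL(2, ℤ)) * δ) • w)) - primF f (δ • w))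
      atImInfty (𝓝 (L - L)) :=
    (hL.comp (tendsto_smul_atImInfty_of_upper hδ)).sub hL
  have h2 : ∀ w : ℍ, primF f (δ • ((δ⁻¹ * (γ : SL(2, ℤ)) * δ) • w)) - primF f (δ • w) =
      perC f γ := fun w => by
    rw [← perC_eq (isPrim_primF f) γ (δ • w), ← mul_smul, ← mul_smul]
    congr 3
    group
  rw [sub_self, funext h2] at h1
  rw [perEv_apply, tendsto_nhds_unique tendsto_const_nhds h1]
  simp

/-- Periods of a sum of translates. -/
theorem perC_slashSum {ι : Type} [Fintype ι] {β : ι → IMat} (h : IsReps (Gamma1 M) β)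
    (hpos : ∀ i, 0 < (β i).det) (f g : S₂) (hg : ⇑g = h.slashSum 2 (⇑f)) (γ : Gamma1 M) :
    perC g γ = ∑ i, perC f (h.coef γ i) := by
  have hG : IsPrim (fun τ => ∑ i, primF f (intGL (β i) • τ)) ⇑g := fun τ => by
    have hsum := HasDerivAt.fun_sum (u := (Finset.univ : Finset ι))
      fun i _ => isPrim_comp_gl (isPrim_primF f) (det_intGL_pos (hpos i)) τ
    rw [hg, IsReps.slashSum, Finset.sum_apply]
    exact hsum
  have hd : ∀ δ : SL(2, ℤ), (δ : IMat).det ≠ 0 := fun δ => by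
    rw [Matrix.SpecialLinearGroup.det_coe]; exact one_ne_zero
  have key : ∀ i, primF f (intGL (β i) • ((γ : SL(2, ℤ)) • I)) =
      primF f (intGL (β (h.idx γ i)) • I) + perC f (h.coef γ i) := fun i => by
    have e : intGL (β i) * intGL ((γ : SL(2, ℤ)) : IMat) =
        intGL ((h.coef γ i : SL(2, ℤ)) : IMat) * intGL (β (h.idx γ i)) := by
      rw [← intGL_mul (h.det_ne_zero i) (hd _), h.spec γ i, intGL_mul (hd _) (h.det_ne_zero _)]
    rw [show (γ : SL(2, ℤ)) • I = intGL ((γ : SL(2, ℤ)) : IMat) • I by rw [intGL_coe]; rfl,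
      ← mul_smul, e, mul_smul, intGL_coe,
      ← perC_eq (isPrim_primF f) (h.coef γ i) (intGL (β (h.idx γ i)) • I)]
    exact (add_sub_cancel (primF f (intGL (β (h.idx γ i)) • I)) _).symm
  rw [← perC_eq hG γ I]
  simp only [key, Finset.sum_add_distrib]
  rw [show ∑ i, primF f (intGL (β (h.idx γ i)) • I) = ∑ i, primF f (intGL (β i) • I) from
    Equiv.sum_comp (h.perm γ) (fun i => primF f (intGL (β i) • I)), add_sub_cancel_left]

/-- A holomorphic function with limits at all cusps whose real part is invariant is constant. -/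
theorem eq_const_of_re_invariant1 {Φ : ℍ → ℂ} (hd : MDifferentiable 𝓘(ℂ) 𝓘(ℂ) Φ)
    (hre : ∀ γ : Gamma1 M, ∀ z : ℍ, (Φ ((γ : SL(2, ℤ)) • z)).re = (Φ z).re)
    (hper : ∀ γ : Gamma1 M, ∃ c, ∀ z : ℍ, Φ ((γ : SL(2, ℤ)) • z) = Φ z + c)
    (hlim : ∀ δ : SL(2, ℤ), ∃ L : ℂ, Tendsto (fun w : ℍ => Φ (δ • w)) atImInfty (𝓝 L)) :
    ∀ z w : ℍ, Φ z = Φ w := by
  classical
  have : (Gamma1 M).FiniteIndex := Subgroup.finiteIndex_of_le (gamma_le_gamma1 M)
  let δ : SL(2, ℤ) ⧸ Gamma1 M → SL(2, ℤ) := fun q => q.out⁻¹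
  have : Fintype (SL(2, ℤ) ⧸ Gamma1 M) := Fintype.ofFinite _
  have hred : ∀ z : ℍ, ∃ q, ∃ w ∈ 𝒟, (Φ z).re = (Φ (δ q • w)).re := by
    intro z
    obtain ⟨g, hg⟩ := ModularGroup.exists_smul_mem_fd z
    obtain ⟨γ, hγ⟩ := QuotientGroup.mk_out_eq_mul (Gamma1 M) g
    refine ⟨(g : SL(2, ℤ) ⧸ Gamma1 M), g • z, hg, ?_⟩
    have : δ (g : SL(2, ℤ) ⧸ Gamma1 M) • g • z
        = (((γ⁻¹ : Gamma1 M)) : SL(2, ℤ)) • z := by
      simp only [δ, hγ, ← mul_smul, Subgroup.coe_inv]
      congr 1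
      group
    rw [this, hre]
  choose L hL using hlim
  obtain ⟨q₀, -, hq₀⟩ := Finset.exists_max_image (Finset.univ : Finset (SL(2, ℤ) ⧸ Gamma1 M))
    (fun q => (L (δ q)).re) ⟨((1 : SL(2, ℤ)) : SL(2, ℤ) ⧸ Gamma1 M), Finset.mem_univ _⟩
  set B := (L (δ q₀)).re with hB
  have hcont : Continuous Φ := hd.continuous
  have hdiff : DifferentiableOn ℂ (Φ ∘ ofComplex) upperHalfPlaneSet := mdifferentiable_iff.mp hd
  have hconst : ∀ {z₀ : ℍ}, (∀ z, (Φ z).re ≤ (Φ z₀).re) → ∀ z w : ℍ, Φ z = Φ w := by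
    intro z₀ hz₀ z w
    have h := eq_const_of_re_le isOpen_upperHalfPlaneSet (convex_halfSpace_im_gt 0).isPreconnected
      hdiff z₀.im_pos (fun x _ => by simpa using hz₀ (ofComplex x))
    have h1 := h z z.im_pos
    have h2 := h w w.im_pos
    simp only [Function.comp_apply, ofComplex_apply] at h1 h2
    rw [h1, h2]
  by_cases hex : ∃ z, B < (Φ z).re
  · obtain ⟨z₁, hz₁⟩ := hex
    have hev : ∀ q, ∃ Y : ℝ, ∀ w : ℍ, Y ≤ w.im → (Φ (δ q • w)).re < (Φ z₁).re := by
      intro q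
      have h1 : Tendsto (fun w : ℍ => (Φ (δ q • w)).re) atImInfty (𝓝 (L (δ q)).re) :=
        (Complex.continuous_re.tendsto _).comp (hL (δ q))
      have h2 : (L (δ q)).re < (Φ z₁).re :=
        lt_of_le_of_lt (hq₀ q (Finset.mem_univ q)) hz₁
      obtain ⟨Y, hY⟩ := atImInfty_mem _ |>.mp (h1.eventually_lt_const h2)
      exact ⟨Y, hY⟩
    choose Y hY using hev
    obtain ⟨Y₀, hY₀⟩ := (Finset.univ.image Y).bddAbove
    let K : Set ℍ := ⋃ q, (fun w => δ q • w) '' ModularGroup.truncatedFundamentalDomain Y₀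
    have hK : IsCompact K := isCompact_iUnion fun q =>
      (ModularGroup.isCompact_truncatedFundamentalDomain Y₀).image
        (mdifferentiable_smul (g := (δ q : GL (Fin 2) ℝ)) (by simp)).continuous
    have hout : ∀ z, (Φ z₁).re ≤ (Φ z).re → ∃ x ∈ K, (Φ z).re = (Φ x).re := by
      intro z hz
      obtain ⟨q, w, hw, hzw⟩ := hred z
      refine ⟨δ q • w, Set.mem_iUnion.mpr ⟨q, w, ⟨hw, ?_⟩, rfl⟩, hzw⟩
      by_contra hlt
      have := hY q w ((hY₀ (by simp)).trans (le_of_lt (not_le.mp hlt)))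
      linarith
    obtain ⟨x₁, hx₁, hx₁'⟩ := hout z₁ le_rfl
    obtain ⟨x₀, -, hx₀⟩ := hK.exists_isMaxOn ⟨x₁, hx₁⟩
      (Complex.continuous_re.comp hcont).continuousOn
    refine hconst (z₀ := x₀) fun z => ?_
    rcases le_total (Φ z₁).re (Φ z).re with h | h
    · obtain ⟨x, hx, hxe⟩ := hout z h
      exact hxe.le.trans (hx₀ hx)
    · exact h.trans (hx₁'.le.trans (hx₀ hx₁))
  · push Not at hex
    set g : ℍ → ℂ := fun w => Φ (δ q₀ • w) with hg
    have hN : (0 : ℝ) < M := by exact_mod_cast Nat.pos_of_ne_zero (NeZero.ne M)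
    have hgd : MDifferentiable 𝓘(ℂ) 𝓘(ℂ) g :=
      hd.comp (mdifferentiable_smul (g := (δ q₀ : GL (Fin 2) ℝ)) (by simp))
    have hperg : ∀ w : ℍ, g ((M : ℝ) +ᵥ w) = g w := by
      intro w
      set t := ModularGroup.T ^ (M : ℤ)
      have hup : t 1 0 = 0 := by simp only [t, ModularGroup.coe_T_zpow]; simp
      have hmem : δ q₀ * t * (δ q₀)⁻¹ ∈ Gamma1 M := gamma_le_gamma1 M
        ((Gamma_normal M).conj_mem _ (ModularGroup_T_pow_mem_Gamma M M dvd_rfl) (δ q₀))
      obtain ⟨c, hc⟩ := hper ⟨_, hmem⟩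
      have h1 : ∀ x : ℍ, Φ (δ q₀ • (t • x)) - Φ (δ q₀ • x) = c := fun x => by
        have := hc (δ q₀ • x)
        rw [← mul_smul, inv_mul_cancel_right, mul_smul] at this
        rw [this]; ring
      have h2 : Tendsto (fun x : ℍ => Φ (δ q₀ • (t • x)) - Φ (δ q₀ • x)) atImInfty
          (𝓝 (L (δ q₀) - L (δ q₀))) :=
        ((hL (δ q₀)).comp (tendsto_smul_atImInfty_of_upper hup)).sub (hL (δ q₀))
      rw [funext h1, sub_self] at h2
      have hc0 := tendsto_nhds_unique tendsto_const_nhds h2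
      have h3 := h1 w
      rw [hc0, sub_eq_zero] at h3
      show Φ (δ q₀ • ((M : ℝ) +ᵥ w)) = Φ (δ q₀ • w)
      rw [← h3, UpperHalfPlane.modular_T_zpow_smul]
      simp
    have hper' : Function.Periodic (g ∘ ofComplex) ((M : ℝ) : ℂ) := by
      simpa using periodic_ofComplex hperg
    have hbd : IsBoundedAtImInfty g := (hL (δ q₀)).isBigO_one ℝ
    have hdc := differentiableOn_cuspFunction_ball hN hper' hgd hbd
    have han := analyticAt_cuspFunction_zero hN hper' hgd hbd
    have h0 : cuspFunction (M : ℝ) g 0 = L (δ q₀) := by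
      rw [UpperHalfPlane.cuspFunction_apply_zero hN han hper']
      exact (hL (δ q₀)).limUnder_eq
    have hcc : ∀ z ∈ Metric.ball (0 : ℂ) 1,
        cuspFunction (M : ℝ) g z = cuspFunction (M : ℝ) g 0 := by
      refine eq_const_of_re_le Metric.isOpen_ball (convex_ball _ _).isPreconnected hdc
        (Metric.mem_ball_self one_pos) fun q hq => ?_
      rcases eq_or_ne q 0 with rfl | hq0
      · exact le_rfl
      · rw [h0, cuspFunction, Function.Periodic.cuspFunction_eq_of_nonzero _ _ hq0]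
        exact hex _
    intro z w
    have hg0 : ∀ x : ℍ, g x = cuspFunction (M : ℝ) g 0 := fun x => by
      rw [← eq_cuspFunction x hN.ne' hper']
      exact hcc _ (mem_ball_zero_iff.mpr (Function.Periodic.norm_qParam_lt_one hN x.im_pos))
    have h2 := (hg0 ((δ q₀)⁻¹ • z)).trans (hg0 ((δ q₀)⁻¹ • w)).symm
    simpa [hg] using h2

/-- A form with vanishing real periods is zero. -/
theorem eq_zero_of_perEv {f : S₂} (h : ∀ γ, perEv M γ f = 0) : f = 0 := by
  have hF := isPrim_primF f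
  have hper : ∀ γ : Gamma1 M, ∃ c, ∀ z : ℍ, primF f ((γ : SL(2, ℤ)) • z) = primF f z + c :=
    exists_period f
  have hre : ∀ γ : Gamma1 M, ∀ z : ℍ,
      (primF f ((γ : SL(2, ℤ)) • z)).re = (primF f z).re := fun γ z => by
    have := h (Additive.ofMul γ)
    rw [perEv_apply, ← perC_eq hF γ z, Complex.sub_re, sub_eq_zero] at this
    exact this
  have hc := eq_const_of_re_invariant1 hF.mdifferentiable hre hper (exists_limit_primF f)
  have h0 := hF.eq_zero_of_const hc
  exact DFunLike.ext f 0 fun τ => congrFun h0 τ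

/-- The lattice of period functionals. -/
def perLat (M : ℕ) [NeZero M] : Submodule ℤ (CuspForm (Gamma1 M) 2 →+ ℝ) :=
  AddSubgroup.toIntSubmodule (perEv M).range

theorem mem_perLat {φ : S₂ →+ ℝ} : φ ∈ perLat M ↔ ∃ γ, perEv M γ = φ := AddMonoidHom.mem_range

theorem perLat_finite (M : ℕ) [NeZero M] : Module.Finite ℤ (perLat M) := by
  have : Group.FG SL(2, ℤ) :=
    Group.fg_iff.mpr ⟨_, SpecialLinearGroup.SL2Z_generators, Set.toFinite _⟩
  have : (Gamma1 M).FiniteIndex := Subgroup.finiteIndex_of_le (gamma_le_gamma1 M)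
  have : Group.FG (Gamma1 M) := Subgroup.fg_of_index_ne_zero (Gamma1 M)
  obtain ⟨s, hs⟩ := Group.fg_def.mp (inferInstance : Group.FG (Gamma1 M))
  refine Module.Finite.iff_fg.2 ((Submodule.fg_span
    (s.finite_toSet.image fun g : Gamma1 M => perEv M (Additive.ofMul g))).elim
      fun t ht => ⟨t, ht.trans (le_antisymm ?_ ?_)⟩)
  · rw [Submodule.span_le]
    rintro _ ⟨g, -, rfl⟩
    exact mem_perLat.2 ⟨_, rfl⟩
  · intro y hy
    obtain ⟨x, rfl⟩ := mem_perLat.1 hy
    clear hy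
    obtain ⟨γ, rfl⟩ := Additive.ofMul.surjective x
    have hγ : γ ∈ Subgroup.closure (s : Set (Gamma1 M)) := hs ▸ Subgroup.mem_top γ
    induction hγ using Subgroup.closure_induction with
    | mem g hg => exact Submodule.subset_span ⟨g, hg, rfl⟩
    | one => simp
    | mul a b _ _ ha hb =>
      rw [ofMul_mul, map_add]
      exact Submodule.add_mem _ ha hb
    | inv a _ ha =>
      rw [ofMul_inv, map_neg]
      exact Submodule.neg_mem _ ha

theorem perLat_free (M : ℕ) [NeZero M] : Module.Free ℤ (perLat M) := by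
  have := perLat_finite M
  have : IsAddTorsionFree (CuspForm (Gamma1 M) 2 →+ ℝ) := ⟨fun n hn φ ψ h => AddMonoidHom.ext
    fun f => nsmul_right_injective hn (DFunLike.congr_fun h f)⟩
  have : IsAddTorsionFree (perLat M) := ⟨fun n hn φ ψ h => Subtype.ext
    (nsmul_right_injective hn (congrArg Subtype.val h))⟩
  have : Module.IsTorsionFree ℤ (perLat M) := inferInstance
  exact Module.free_of_finite_type_torsion_free'

end Fermat.Agent.DS
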