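import Mathlib
import Fermat.Agent.DS.Diamond
import Fermat.Agent.DS.Periods1

/-!
The operators `T_p` and `⟨d⟩` on weight two cusp forms for `Γ₁(M)` and on parabolic homomorphisms,
their expansions, commutation and compatibility with periods.
-/

set_option autoImplicit false
set_option maxHeartbeats 800000

noncomputable section

namespace Fermat.Agent.DS

open UpperHalfPlane CongruenceSubgroup ModularFormClass
open Fermat.Agent.GalRep (IMat HasQSeries expand expand_coeff_mul expand_coeff_of_not_dvd)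
open Fermat.Agent.GalRep.Level (ParG IsDiamond heckeRepG det_heckeRepG)
open Fermat.Agent.Newform (intGL val_intGL σ_intGL slash_intGL_coe intGL_mul)
open ModularForm (heckeDiagMatrix)
open scoped MatrixGroups Manifold ModularForm

variable {M : ℕ} [NeZero M] {k : ℤ}

/-- A representative in `Γ₀(M)` of a diamond class. -/
def diaMat (d : (ZMod M)ˣ) : SL(2, ℤ) := (exists_isDiamond (ZMod.val_coe_unit_coprime d)).choose

theorem isDiamond_diaMat (d : (ZMod M)ˣ) : IsDiamond M (d : ZMod M).val (diaMat d) :=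
  (exists_isDiamond (ZMod.val_coe_unit_coprime d)).choose_spec

theorem diaMat_mem (d : (ZMod M)ˣ) : diaMat d ∈ Gamma0 M :=
  diamond_mem_gamma0 (isDiamond_diaMat d)

theorem diaMat_eleven (d : (ZMod M)ˣ) : ((diaMat d 1 1 : ℤ) : ZMod M) = d := by
  rw [(isDiamond_diaMat d).2.2.2, ZMod.natCast_zmod_val]

theorem isDiamond_diaMat_prime {p : ℕ} (h : p.Coprime M) :
    IsDiamond M p (diaMat (ZMod.unitOfCoprime p h)) := by
  obtain ⟨h1, h2, h3, h4⟩ := isDiamond_diaMat (ZMod.unitOfCoprime p h)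
  rw [ZMod.natCast_zmod_val, ZMod.coe_unitOfCoprime] at h1 h4
  exact ⟨h1, h2, h3, h4⟩

theorem isZeroAtImInfty_intGL_slash (f : CuspForm (Gamma1 M) k) (A : IMat) (g : SL(2, ℤ)) :
    IsZeroAtImInfty (((⇑f) ∣[k] intGL A) ∣[k] g) := by
  set c := Matrix.SpecialLinearGroup.mapGL ℝ g • (OnePoint.infty : OnePoint ℝ) with hc'
  have hc : IsCusp c 𝒮ℒ := isCusp_SL2Z_iff'.mpr ⟨g, rfl⟩
  have hA : ∃ q : GL (Fin 2) ℚ, intGL A = Matrix.GeneralLinearGroup.map (Rat.castHom ℝ) q := by
    by_cases h : A.det = 0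
    · exact ⟨1, by rw [intGL, dif_pos h, map_one]⟩
    · refine ⟨Matrix.GeneralLinearGroup.mkOfDetNeZero (A.map (Int.castRingHom ℚ))
        (by rw [← RingHom.mapMatrix_apply, ← RingHom.map_det]; simpa using h), Units.ext ?_⟩
      rw [val_intGL h]
      ext a b
      simp
  obtain ⟨q, hq⟩ := hA
  have hz : c.IsZeroAt ((⇑f) ∣[k] intGL A) k := by
    refine OnePoint.IsZeroAt.smul_iff.mp (CuspFormClass.zero_at_cusps f ?_)
    rw [Subgroup.IsArithmetic.isCusp_iff_isCusp_SL2Z]
    rw [isCusp_SL2Z_iff] at hc ⊢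
    obtain ⟨d, hd⟩ := hc
    exact ⟨q • d, by rw [hq, ← hd, ← Rat.coe_castHom, OnePoint.map_smul]⟩
  exact (OnePoint.isZeroAt_iff_forall_SL2Z hc).mp hz g rfl

/-- The operator `T_p` on `Γ₁(M)`. -/
def heckeT1 {p : ℕ} (hp : p.Prime) (hpM : ¬ p ∣ M) :
    CuspForm (Gamma1 M) k →ₗ[ℂ] CuspForm (Gamma1 M) k :=
  let hR := isDiamond_diaMat_prime (hp.coprime_iff_not_dvd.2 hpM)
  { toFun := fun f => mkCusp1 ((isReps_hecke hp hpM hR).slashSum k (⇑f))
      (MDifferentiable.sum fun i _ => (CuspFormClass.holo f).slash k _)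
      (fun γ hγ => (isReps_hecke hp hpM hR).slashSum_slash (fun δ hδ => slash_gamma1 f hδ) γ hγ)
      (fun g => by
        rw [IsReps.slashSum, SlashAction.sum_slash]
        exact (Finset.sum_induction _ IsZeroAtImInfty (fun a b ha hb => ha.add hb)
          (Filter.zero_zeroAtFilter _) fun i _ => isZeroAtImInfty_intGL_slash f _ g))
    map_add' := fun f g => DFunLike.coe_injective <| by
      show (isReps_hecke hp hpM hR).slashSum k ⇑(f + g) =
        (isReps_hecke hp hpM hR).slashSum k (⇑f) + (isReps_hecke hp hpM hR).slashSum k (⇑g)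
      simp only [IsReps.slashSum, FunLike.coe_add, SlashAction.add_slash, Finset.sum_add_distrib]
    map_smul' := fun c f => DFunLike.coe_injective <| by
      show (isReps_hecke hp hpM hR).slashSum k ⇑(c • f) =
        c • (isReps_hecke hp hpM hR).slashSum k (⇑f)
      simp only [IsReps.slashSum, FunLike.coe_smul, Finset.smul_sum]
      exact Finset.sum_congr rfl fun i _ => by
        rw [ModularForm.smul_slash, σ_intGL (by rw [det_heckeRepG]; exact_mod_cast hp.pos),
          ContinuousAlgEquiv.refl_apply] }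

theorem coe_heckeT1 {p : ℕ} (hp : p.Prime) (hpM : ¬ p ∣ M) (f : CuspForm (Gamma1 M) k) :
    ⇑(heckeT1 hp hpM f) = (isReps_hecke hp hpM
      (isDiamond_diaMat_prime (hp.coprime_iff_not_dvd.2 hpM))).slashSum k (⇑f) := rfl

/-- Coefficients of `T_p f`. -/
theorem qCoeff_heckeT1 {p : ℕ} (hp : p.Prime) (hpM : ¬ p ∣ M) (f : CuspForm (Gamma1 M) k) (n : ℕ) :
    qCoeff ⇑(heckeT1 hp hpM f) n = qCoeff ⇑f (n * p) + (p : ℂ) ^ (k - 1) *
      (if p ∣ n then qCoeff ⇑(dia (diaMat (ZMod.unitOfCoprime p (hp.coprime_iff_not_dvd.2 hpM)))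
        (diaMat_mem _) f) (n / p) else 0) := by
  have hR := isDiamond_diaMat_prime (M := M) (hp.coprime_iff_not_dvd.2 hpM)
  set fR := dia (diaMat (ZMod.unitOfCoprime p (hp.coprime_iff_not_dvd.2 hpM))) (diaMat_mem _) f
  have e : ⇑(heckeT1 hp hpM f) = ModularForm.heckeU k p (⇑f) + (⇑fR) ∣[k] heckeDiagMatrix p := by
    rw [coe_heckeT1, slashSum_hecke_eq hp hpM hR fun γ hγ => slash_gamma1 f hγ]
    rfl
  have h := ((hasQSeries_heckeU hp hpM f).add (hasQSeries_diag hp.ne_zero fR))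
  rw [← e] at h
  have h' := congrArg (fun s : LaurentSeries ℂ => s.coeff (n : ℤ))
    (h.unique one_pos (hasQSeries_one (heckeT1 hp hpM f)))
  simp only [HahnSeries.coeff_add, HahnSeries.C_mul_eq_smul, HahnSeries.coeff_smul, smul_eq_mul,
    HahnSeries.ofPowerSeries_apply_coeff, PowerSeries.coeff_mk] at h'
  show (qExpansion 1 ⇑(heckeT1 hp hpM f)).coeff n = _
  rw [← h']
  congr 2
  by_cases hd : p ∣ n
  · obtain ⟨j, rfl⟩ := hd
    rw [if_pos (dvd_mul_right _ _), Nat.mul_div_cancel_left _ hp.pos, Int.natCast_mul,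
      expand_coeff_mul, HahnSeries.ofPowerSeries_apply_coeff]
    rfl
  · rw [if_neg hd, expand_coeff_of_not_dvd _ _ _ _ (fun h => hd (Int.natCast_dvd_natCast.1 h))]

theorem dia_eq_of_eleven {δ δ' : SL(2, ℤ)} (hδ : δ ∈ Gamma0 M) (hδ' : δ' ∈ Gamma0 M)
    (h : ((δ 1 1 : ℤ) : ZMod M) = (δ' 1 1 : ℤ)) (f : CuspForm (Gamma1 M) k) :
    dia δ hδ f = dia δ' hδ' f :=
  DFunLike.coe_injective <| slash_eq_of_eleven f hδ hδ' h

theorem dia_dia {δ δ' : SL(2, ℤ)} (hδ : δ ∈ Gamma0 M) (hδ' : δ' ∈ Gamma0 M)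
    (f : CuspForm (Gamma1 M) k) : dia δ hδ (dia δ' hδ' f) = dia (δ' * δ) (mul_mem hδ' hδ) f :=
  DFunLike.coe_injective <| by simp only [coe_dia, SlashAction.slash_mul]

theorem dia_comm {δ δ' : SL(2, ℤ)} (hδ : δ ∈ Gamma0 M) (hδ' : δ' ∈ Gamma0 M)
    (f : CuspForm (Gamma1 M) k) : dia δ hδ (dia δ' hδ' f) = dia δ' hδ' (dia δ hδ f) := by
  rw [dia_dia, dia_dia]
  exact dia_eq_of_eleven _ _ (by rw [eleven_mul hδ', eleven_mul hδ, mul_comm]) f

theorem heckeT1_dia {p : ℕ} (hp : p.Prime) (hpM : ¬ p ∣ M) {δ : SL(2, ℤ)} (hδ : δ ∈ Gamma0 M)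
    (f : CuspForm (Gamma1 M) k) :
    heckeT1 hp hpM (dia δ hδ f) = dia δ hδ (heckeT1 hp hpM f) := by
  set hR := isDiamond_diaMat_prime (M := M) (hp.coprime_iff_not_dvd.2 hpM)
  refine DFunLike.coe_injective ?_
  rw [coe_heckeT1, coe_dia, coe_dia, coe_heckeT1]
  simp only [IsReps.slashSum, SlashAction.sum_slash]
  rw [← Equiv.sum_comp ((isReps_hecke0 hp hpM hR).perm ⟨δ, hδ⟩)
    (fun i => ((⇑f) ∣[k] δ) ∣[k] intGL (heckeRepG M p _ i))]
  refine Finset.sum_congr rfl fun i _ => ?_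
  set g := (isReps_hecke0 hp hpM hR).coef ⟨δ, hδ⟩ i
  have hd : ∀ γ : SL(2, ℤ), (γ : IMat).det ≠ 0 := fun γ => by
    rw [Matrix.SpecialLinearGroup.det_coe]; exact one_ne_zero
  have hdr : ∀ j, (heckeRepG M p (diaMat (ZMod.unitOfCoprime p (hp.coprime_iff_not_dvd.2 hpM))) j).det ≠ 0 :=
    fun j => by rw [det_heckeRepG]; exact_mod_cast hp.ne_zero
  rw [← slash_intGL_coe _ ((⇑f) ∣[k] intGL _) δ, ← SlashAction.slash_mul, ← intGL_mul (hdr _) (hd _),
    (isReps_hecke0 hp hpM hR).spec ⟨δ, hδ⟩ i, intGL_mul (hd _) (hdr _), SlashAction.slash_mul,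
    slash_intGL_coe, slash_eq_of_eleven f g.2 hδ (coef_eleven hp hpM hR ⟨δ, hδ⟩ i)]
  rfl

theorem heckeT1_comm {p q : ℕ} (hp : p.Prime) (hpM : ¬ p ∣ M) (hq : q.Prime) (hqM : ¬ q ∣ M)
    (f : CuspForm (Gamma1 M) k) :
    heckeT1 hp hpM (heckeT1 hq hqM f) = heckeT1 hq hqM (heckeT1 hp hpM f) := by
  rcases eq_or_ne p q with rfl | hne
  · rfl
  refine ext_coeff fun n => ?_
  simp only [qCoeff_heckeT1, ← heckeT1_dia]
  rw [dia_comm (diaMat_mem _) (diaMat_mem _) f]
  have hpq : ∀ {a b : ℕ}, a.Prime → b.Prime → a ≠ b → ∀ m, a ∣ m * b ↔ a ∣ m := fun ha hb hab m =>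
    ⟨fun h => ((ha.dvd_mul).1 h).resolve_right fun h => hab ((Nat.prime_dvd_prime_iff_eq ha hb).1 h),
      fun h => h.mul_right _⟩
  by_cases h1 : p ∣ n <;> by_cases h2 : q ∣ n
  · have h12 : p * q ∣ n :=
      ((Nat.coprime_primes hp hq).2 hne).mul_dvd_of_dvd_of_dvd h1 h2
    obtain ⟨j, rfl⟩ := h12
    have e1 : p * q * j / p = q * j := by rw [mul_assoc, Nat.mul_div_cancel_left _ hp.pos]
    have e2 : p * q * j / q = p * j := by
      rw [mul_comm p q, mul_assoc, Nat.mul_div_cancel_left _ hq.pos]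
    have e3 : p * q * j * p / q = p * p * j := by
      rw [show p * q * j * p = q * (p * p * j) by ring, Nat.mul_div_cancel_left _ hq.pos]
    have e4 : p * q * j * q / p = q * q * j := by
      rw [show p * q * j * q = p * (q * q * j) by ring, Nat.mul_div_cancel_left _ hp.pos]
    simp only [e1, e2, e3, e4, h1, h2, if_true, (hpq hp hq hne _).2 h1, (hpq hq hp hne.symm _).2 h2,
      dvd_mul_right, Nat.mul_div_cancel_left _ hp.pos, Nat.mul_div_cancel_left _ hq.pos]
    ring_nf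
  · have h2' : ¬ q ∣ n / p := fun h => h2 (h.trans (Nat.div_dvd_of_dvd h1))
    have h2'' : ¬ q ∣ n * p := fun h => h2 ((hpq hq hp hne.symm n).1 h)
    obtain ⟨j, rfl⟩ := h1
    have h2j : ¬ q ∣ j := fun h => h2 (h.mul_left p)
    have e4 : p * j * q / p = j * q := by rw [mul_assoc, Nat.mul_div_cancel_left _ hp.pos]
    simp only [dvd_mul_right, if_true, h2, h2', h2'', h2j, if_false, (hpq hp hq hne _).2 (dvd_mul_right p j),
      Nat.mul_div_cancel_left _ hp.pos, e4, mul_zero, add_zero]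
    ring_nf
  · have h1' : ¬ p ∣ n / q := fun h => h1 (h.trans (Nat.div_dvd_of_dvd h2))
    have h1'' : ¬ p ∣ n * q := fun h => h1 ((hpq hp hq hne n).1 h)
    obtain ⟨j, rfl⟩ := h2
    have h1j : ¬ p ∣ j := fun h => h1 (h.mul_left q)
    have e4 : q * j * p / q = j * p := by rw [mul_assoc, Nat.mul_div_cancel_left _ hq.pos]
    simp only [dvd_mul_right, if_true, h1, h1', h1'', h1j, if_false,
      (hpq hq hp hne.symm _).2 (dvd_mul_right q j),
      Nat.mul_div_cancel_left _ hq.pos, e4, mul_zero, add_zero]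
    ring_nf
  · simp only [h1, h2, if_false, hpq hp hq hne, hpq hq hp hne.symm, mul_zero, add_zero]
    ring_nf

/-! ## The free algebra of operators -/

/-- Indices of the operators: good primes and diamonds. -/
abbrev Op (M : ℕ) : Type := {p : ℕ // p.Prime ∧ ¬ p ∣ M} ⊕ (ZMod M)ˣ

/-- An operator on forms. -/
def opForm : Op M → Module.End ℤ (CuspForm (Gamma1 M) 2)
  | .inl p => (heckeT1 p.2.1 p.2.2).toAddMonoidHom.toIntLinearMap
  | .inr d => (dia (diaMat d) (diaMat_mem d)).toAddMonoidHom.toIntLinearMap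

theorem opForm_comm (X Y : Op M) : opForm X * opForm Y = opForm Y * opForm X := by
  refine LinearMap.ext fun f => ?_
  rcases X with ⟨p, hp⟩ | d <;> rcases Y with ⟨q, hq⟩ | e
  · exact heckeT1_comm hp.1 hp.2 hq.1 hq.2 f
  · exact heckeT1_dia hp.1 hp.2 (diaMat_mem e) f
  · exact (heckeT1_dia hq.1 hq.2 (diaMat_mem d) f).symm
  · exact dia_comm (diaMat_mem d) (diaMat_mem e) f

/-- The operator on parabolic homomorphisms. -/
def opPar (A : Type) [AddCommGroup A] : Op M → Module.End ℤ (ParG (Gamma1 M) A)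
  | .inl p => (isReps_hecke p.2.1 p.2.2
      (isDiamond_diaMat_prime (p.2.1.coprime_iff_not_dvd.2 p.2.2))).parTransfer
  | .inr d => (isReps_diamond (diaMat_mem d)).parTransfer

/-- Composition with a homomorphism of coefficient groups. -/
def parMap (G : Subgroup SL(2, ℤ)) {A B : Type} [AddCommGroup A] [AddCommGroup B] (φ : A →+ B) :
    ParG G A →ₗ[ℤ] ParG G B :=
  AddMonoidHom.toIntLinearMap
    { toFun := fun χ => ⟨φ.comp (χ : Additive G →+ A), fun γ hγ => by
        rw [AddMonoidHom.comp_apply, χ.2 γ hγ, map_zero]⟩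
      map_zero' := Subtype.ext (AddMonoidHom.ext fun _ => map_zero φ)
      map_add' := fun _ _ => Subtype.ext (AddMonoidHom.ext fun _ => map_add φ _ _) }

theorem coe_parMap {G : Subgroup SL(2, ℤ)} {A B : Type} [AddCommGroup A] [AddCommGroup B]
    (φ : A →+ B) (χ : ParG G A) :
    ((parMap G φ χ : ParG G B) : Additive G →+ B) = φ.comp (χ : Additive G →+ A) := rfl

theorem parMap_opPar {A B : Type} [AddCommGroup A] [AddCommGroup B] (φ : A →+ B) (X : Op M)
    (χ : ParG (Gamma1 M) A) :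
    parMap _ φ (opPar A X χ) = opPar B X (parMap _ φ χ) := by
  rcases X with p | d <;> exact Subtype.ext (IsReps.transfer_comp _ φ _).symm

/-- The real periods as a parabolic homomorphism. -/
def perPar (M : ℕ) [NeZero M] : ParG (Gamma1 M) (CuspForm (Gamma1 M) 2 →+ ℝ) :=
  ⟨perEv M, fun γ hγ => perEv_parabolic γ hγ⟩

theorem opPar_perPar (X : Op M) :
    opPar _ X (perPar M) =
      parMap _ (AddMonoidHom.compHom' (opForm X).toAddMonoidHom) (perPar M) := by
  refine Subtype.ext (AddMonoidHom.ext fun x => ?_)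
  obtain ⟨γ, rfl⟩ := Additive.ofMul.surjective x
  refine AddMonoidHom.ext fun f => ?_
  rcases X with ⟨p, hp, hpM⟩ | d
  · show (∑ i, perEv M (Additive.ofMul ((isReps_hecke hp hpM
      (isDiamond_diaMat_prime (hp.coprime_iff_not_dvd.2 hpM))).coef γ i))) f =
        perEv M (Additive.ofMul γ) (heckeT1 hp hpM f)
    rw [AddMonoidHom.finset_sum_apply, perEv_apply, perC_slashSum
      (isReps_hecke hp hpM (isDiamond_diaMat_prime (hp.coprime_iff_not_dvd.2 hpM)))
      (fun i => by rw [det_heckeRepG]; exact_mod_cast hp.pos) f _ (coe_heckeT1 hp hpM f) γ,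
      Complex.re_sum]
    rfl
  · show (∑ i, perEv M (Additive.ofMul ((isReps_diamond (diaMat_mem d)).coef γ i))) f =
        perEv M (Additive.ofMul γ) (dia (diaMat d) (diaMat_mem d) f)
    rw [AddMonoidHom.finset_sum_apply, perEv_apply, perC_slashSum (isReps_diamond (diaMat_mem d))
      (fun i => by rw [Matrix.SpecialLinearGroup.det_coe]; exact one_pos) f _ ?_ γ, Complex.re_sum]
    · rfl
    · rw [coe_dia, IsReps.slashSum, Fintype.sum_unique, slash_intGL_coe]

/-- Polynomials in the operators, on forms. -/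
def evalForm (M : ℕ) [NeZero M] :
    FreeAlgebra ℤ (Op M) →ₐ[ℤ] Module.End ℤ (CuspForm (Gamma1 M) 2) :=
  FreeAlgebra.lift ℤ opForm

/-- Polynomials in the operators, on parabolic homomorphisms. -/
def evalPar (M : ℕ) [NeZero M] (A : Type) [AddCommGroup A] :
    FreeAlgebra ℤ (Op M) →ₐ[ℤ] Module.End ℤ (ParG (Gamma1 M) A) :=
  FreeAlgebra.lift ℤ (opPar A)

theorem parMap_evalPar {A B : Type} [AddCommGroup A] [AddCommGroup B] (φ : A →+ B)
    (P : FreeAlgebra ℤ (Op M)) (χ : ParG (Gamma1 M) A) :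
    parMap _ φ (evalPar M A P χ) = evalPar M B P (parMap _ φ χ) := by
  induction P using FreeAlgebra.induction generalizing χ with
  | grade0 r =>
    rw [AlgHom.commutes, AlgHom.commutes, Module.algebraMap_end_apply, Module.algebraMap_end_apply,
      map_smul]
  | grade1 X => simp only [evalPar, FreeAlgebra.lift_ι_apply]; exact parMap_opPar φ X χ
  | mul a b ha hb => simp only [map_mul, Module.End.mul_apply, ha, hb]
  | add a b ha hb => simp only [map_add, LinearMap.add_apply, ha, hb]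

theorem evalPar_perPar (P : FreeAlgebra ℤ (Op M)) :
    evalPar M _ P (perPar M) =
      parMap _ (AddMonoidHom.compHom' (evalForm M P).toAddMonoidHom) (perPar M) := by
  induction P using FreeAlgebra.induction with
  | grade0 r =>
    rw [AlgHom.commutes, AlgHom.commutes, Module.algebraMap_end_apply]
    refine Subtype.ext (AddMonoidHom.ext fun x => AddMonoidHom.ext fun f => ?_)
    show r • (perEv M x f) = perEv M x (r • f)
    exact (map_zsmul (perEv M x) r f).symm
  | grade1 X =>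
    simp only [evalPar, evalForm, FreeAlgebra.lift_ι_apply]
    exact opPar_perPar X
  | mul a b ha hb =>
    rw [map_mul, map_mul, Module.End.mul_apply, hb, ← parMap_evalPar, ha]
    exact Subtype.ext (AddMonoidHom.ext fun x => AddMonoidHom.ext fun f => rfl)
  | add a b ha hb =>
    rw [map_add, map_add, LinearMap.add_apply, ha, hb]
    refine Subtype.ext (AddMonoidHom.ext fun x => AddMonoidHom.ext fun f => ?_)
    show perEv M x (evalForm M a f) + perEv M x (evalForm M b f) =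
      perEv M x (evalForm M a f + evalForm M b f)
    exact (map_add (perEv M x) (evalForm M a f) (evalForm M b f)).symm

end Fermat.Agent.DS
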