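import Mathlib
import Fermat.Agent.Density.Chebotarev
import Fermat.Agent.GalRep.Cyclo
import Fermat.Agent.GalRep.Level.SL2

/-!
Frobenius elements: every element of the Galois group agrees on a finite extension with a conjugate
of a Frobenius element, and the cyclotomic exponents of Frobenius and inertia elements.
-/

set_option autoImplicit false
set_option maxHeartbeats 800000

noncomputable section

namespace Fermat.Agent.DS

open Filter IsLocalRing
open Fermat.Agent.Galois (GQ)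
open Fermat.Agent.Density
open Fermat.Agent.GalRep.Level (cycM cycM_spec)
open scoped Topology

local notation "ℚb" => AlgebraicClosure ℚ

/-- Every element agrees on a finite extension with a conjugate of every Frobenius element at some
prime outside a given finite set. -/
theorem exists_frobenius_conj (F : IntermediateField ℚ ℚb) [FiniteDimensional ℚ F]
    (bad : Finset ℕ) (g : GQ) :
    ∃ p : ℕ, p.Prime ∧ p ∉ bad ∧ ∃ A : ValuationSubring ℚb, A.LiesOverPrime p ∧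
      ∃ σ : GQ, A.IsFrobeniusAt σ p ∧ ∃ τ : GQ, ∀ x ∈ F, (τ * σ * τ⁻¹) x = g x := by
  set L := IntermediateField.normalClosure ℚ F ℚb
  have : NumberField L := { }
  have : Normal ℚ ℚb := IsGalois.to_normal
  have : Normal ℚ L := normalClosure.normal ℚ F ℚb
  have : IsGalois ℚ L := ⟨⟩
  set C : Set (L ≃ₐ[ℚ] L) := {c | IsConj (resTo L g) c}
  have hC : ∀ c ∈ C, ∀ τ, τ * c * τ⁻¹ ∈ C := fun c hc τ =>
    IsConj.trans hc (isConj_iff.2 ⟨τ, rfl⟩)
  have hne : ((frobInSet (resTo L ⁻¹' C) \ ↑bad) : Set ℕ).Nonempty := by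
    by_contra h
    rw [Set.not_nonempty_iff_eq_empty] at h
    set r := (Nat.card C : ℝ) / Nat.card (L ≃ₐ[ℚ] L)
    have hC0 : 0 < Nat.card C := Nat.card_pos_iff.2 ⟨⟨⟨_, IsConj.refl _⟩⟩, inferInstance⟩
    have hr : 0 < r := div_pos (Nat.cast_pos.2 hC0) (Nat.cast_pos.2 Nat.card_pos)
    obtain ⟨s, h1, h2⟩ := ((eventually_natSum_ge L bad hC (half_pos hr)).and
      (tendsto_log_inv_sub_one.eventually (eventually_gt_atTop 0))).exists
    rw [h] at h1
    have : natSum (∅ : Set ℕ) s = 0 := by simp [natSum]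
    rw [this] at h1
    have h3 : 0 < (r - r / 2) * Real.log (1 / (s - 1)) := mul_pos (by linarith) h2
    linarith
  obtain ⟨p, ⟨hp, hfr⟩, hpbad⟩ := hne
  obtain ⟨A, hA⟩ := Galois.exists_liesOverPrime hp
  obtain ⟨σ, hσ⟩ := Galois.exists_isFrobeniusAt hp hA
  refine ⟨p, hp, by simpa using hpbad, A, hA, σ, hσ, ?_⟩
  obtain ⟨t, ht⟩ := isConj_iff.1 (IsConj.symm (hfr A hA σ hσ : IsConj (resTo L g) (resTo L σ)))
  obtain ⟨τ, rfl⟩ := resTo_surjective L t
  refine ⟨τ, fun x hx => ?_⟩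
  have hx' : x ∈ L := F.le_normalClosure hx
  rw [← resTo_apply L (τ * σ * τ⁻¹) ⟨x, hx'⟩, ← resTo_apply L g ⟨x, hx'⟩, map_mul, map_mul, map_inv,
    ht]

/-- Homomorphisms trivial on the elements fixing `F` agree where the elements do. -/
theorem eq_of_agree {H : Type*} [Monoid H] {F : IntermediateField ℚ ℚb} (ρ : GQ →* H)
    (hρ : ∀ σ : GQ, (∀ x ∈ F, σ x = x) → ρ σ = 1) {g h : GQ} (hgh : ∀ x ∈ F, g x = h x) :
    ρ g = ρ h := by
  have h1 : ρ (h⁻¹ * g) = 1 := hρ _ fun x hx => by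
    rw [AlgEquiv.mul_apply, hgh x hx]; exact h.symm_apply_apply x
  calc ρ g = ρ (h * (h⁻¹ * g)) := by rw [mul_inv_cancel_left]
    _ = ρ h := by rw [map_mul, h1, mul_one]

variable {M : ℕ} [NeZero M]

theorem cycM_of_residue {A : ValuationSubring ℚb} {p : ℕ} (hp : p.Prime) (hA : A.LiesOverPrime p)
    (hpM : ¬ p ∣ M) {σ : GQ} (hσ : σ ∈ A.decompositionSubgroup ℚ) (m : ℕ)
    (h : ∀ x : ResidueField A, (⟨σ, hσ⟩ : A.decompositionSubgroup ℚ) • x = x ^ m) :
    ((cycM M σ : (ZMod M)ˣ) : ZMod M) = (m : ZMod M) := by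
  obtain ⟨ζ, hζ⟩ := HasEnoughRootsOfUnity.exists_primitiveRoot ℚb M
  have hζA : ζ ∈ A :=
    Galois.integralClosure_le A ⟨ζ, hζ.isIntegral (NeZero.pos M)⟩
  let x : A := ⟨ζ, hζA⟩
  have hx : x ^ M = 1 := Subtype.ext (by simpa [x] using hζ.pow_eq_one)
  have hsx : ((⟨σ, hσ⟩ : A.decompositionSubgroup ℚ) • x) ^ M = 1 := by
    rw [← smul_pow', hx, smul_one]
  have hxm : (x ^ m) ^ M = 1 := by rw [← pow_mul, mul_comm, pow_mul, hx, one_pow]
  have h1 : σ ζ = ζ ^ m := congrArg Subtype.val (GalRep.pow_eq_of_residue_eq hp hA hpM hsx hxm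
    (by rw [ResidueField.residue_smul, h, map_pow]))
  rw [cycM_spec σ hζ.pow_eq_one, pow_eq_pow_mod m hζ.pow_eq_one] at h1
  rw [← ZMod.natCast_zmod_val ((cycM M σ : (ZMod M)ˣ) : ZMod M),
    hζ.pow_inj (ZMod.val_lt _) (Nat.mod_lt _ (NeZero.pos M)) h1, ZMod.natCast_mod]

theorem cycM_frobenius {A : ValuationSubring ℚb} {p : ℕ} (hp : p.Prime) (hA : A.LiesOverPrime p)
    (hpM : ¬ p ∣ M) {σ : GQ} (hσ : A.IsFrobeniusAt σ p) :
    ((cycM M σ : (ZMod M)ˣ) : ZMod M) = (p : ZMod M) :=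
  cycM_of_residue hp hA hpM hσ.mem_decompositionSubgroup p hσ.smul_residue_eq

theorem cycM_inertia {A : ValuationSubring ℚb} {p : ℕ} (hp : p.Prime) (hA : A.LiesOverPrime p)
    (hpM : ¬ p ∣ M) {σ : GQ} (hσ : σ ∈ A.inertiaSubgroupIn ℚ) : cycM M σ = 1 := by
  obtain ⟨s, hs, rfl⟩ := hσ
  refine Units.ext ((cycM_of_residue hp hA hpM s.2 1 fun x => ?_).trans Nat.cast_one)
  rw [pow_one]
  exact RingEquiv.congr_fun (MonoidHom.mem_ker.mp hs) x

/-- The cyclotomic exponent has finite level. -/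
theorem exists_cycM_level (M : ℕ) [NeZero M] : ∃ F : IntermediateField ℚ ℚb,
    FiniteDimensional ℚ F ∧ ∀ σ : GQ, (∀ x ∈ F, σ x = x) → cycM M σ = 1 := by
  obtain ⟨ζ, hζ⟩ := HasEnoughRootsOfUnity.exists_primitiveRoot ℚb M
  refine ⟨IntermediateField.adjoin ℚ {ζ}, IntermediateField.adjoin.finiteDimensional
    ((hζ.isIntegral (NeZero.pos M)).tower_top), fun σ hσ => ?_⟩
  refine GalRep.Level.cycM_eq_of_root σ hζ ?_
  rw [hσ ζ (IntermediateField.mem_adjoin_simple_self ℚ ζ)]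
  rcases eq_or_ne M 1 with rfl | hM
  · simp [IsPrimitiveRoot.one_right_iff.1 hζ]
  · have : Fact (1 < M) := ⟨lt_of_le_of_ne (NeZero.pos M) (Ne.symm hM)⟩
    simp [ZMod.val_one]

end Fermat.Agent.DS
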