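import Mathlib
import Fermat.Agent.Hecke.ComplexAut

/-!
Algebraic integers with bounded conjugates: transitivity of `Aut ℂ` on conjugates, sums of roots
of unity, and the vanishing of such a number once its reduction in large characteristic vanishes.
-/

set_option autoImplicit false

noncomputable section

namespace Fermat.Agent.DS

open Polynomial

local notation "ℚbar" => algebraicClosure ℚ ℂ

/-- Every root of the minimal polynomial is the image under an automorphism of `ℂ`. -/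
theorem exists_aut_of_root {x y : ℂ} (hx : IsIntegral ℚ x) (hy : aeval y (minpoly ℚ x) = 0) :
    ∃ σ : ℂ ≃+* ℂ, σ x = y := by
  haveI : Algebra.IsAlgebraic ℚ ℚbar := algebraicClosure.isAlgebraic ℚ ℂ
  haveI : IsAlgClosure ℚ ℚbar := algebraicClosure.isAlgClosure ℚ ℂ
  haveI : IsGalois ℚ ℚbar := inferInstance
  haveI : Normal ℚ ℚbar := IsGalois.to_normal
  have hy' : IsIntegral ℚ y := ⟨minpoly ℚ x, minpoly.monic hx, hy⟩
  let xb : ℚbar := ⟨x, (mem_algebraicClosure_iff').mpr hx⟩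
  let yb : ℚbar := ⟨y, (mem_algebraicClosure_iff').mpr hy'⟩
  have hroot : aeval yb (minpoly ℚ xb) = 0 := by
    apply (algebraMap ℚbar ℂ).injective
    rw [map_zero, ← aeval_algebraMap_apply, ← minpoly.algebraMap_eq (algebraMap ℚbar ℂ).injective]
    exact hy
  obtain ⟨τ, hτ⟩ := minpoly.exists_algEquiv_of_root' (Algebra.IsAlgebraic.isAlgebraic xb) hroot
  obtain ⟨s, hs⟩ := exists_isTranscendenceBasis ℚbar ℂ
  obtain ⟨σ, hσ⟩ := Hecke.exists_complexAut_of_polyAut _ hs
    (MvPolynomial.mapEquiv (↥s) τ.toRingEquiv)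
  refine ⟨σ, ?_⟩
  have h1 := hσ (MvPolynomial.C xb)
  rw [MvPolynomial.aeval_C] at h1
  have h2 : MvPolynomial.mapEquiv (↥s) τ.toRingEquiv (MvPolynomial.C xb) =
      MvPolynomial.C (τ xb) := MvPolynomial.map_C _ _
  rw [h2, MvPolynomial.aeval_C, hτ] at h1
  exact h1

/-- An algebraic integer with small conjugates whose reduction modulo a large prime vanishes is
zero. -/
theorem eq_zero_of_red {x : ℂ} (hx : IsIntegral ℤ x) {L : ℕ} (hL : ∀ σ : ℂ ≃+* ℂ, ‖σ x‖ ≤ L)
    {m : ℕ} (hm : (minpoly ℚ x).natDegree ≤ m) {R : Subring ℂ} {k : Type*} [Field k] {ℓ : ℕ}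
    [CharP k ℓ] (red : R →+* k) (hxR : x ∈ R) (h0 : red ⟨x, hxR⟩ = 0) (hℓ : (L + 1) ^ m < ℓ) :
    x = 0 := by
  set p := minpoly ℤ x
  have hp : p.Monic := minpoly.monic hx
  have hQ : minpoly ℚ x = p.map (algebraMap ℤ ℚ) :=
    minpoly.isIntegrallyClosed_eq_field_fractions' ℚ hx
  -- the constant term dies in `k`
  have hev : aeval (⟨x, hxR⟩ : R) p = 0 := by
    apply R.subtype_injective
    rw [map_zero]
    exact (aeval_algHom_apply R.subtype.toIntAlgHom _ p).symm.trans (minpoly.aeval ℤ x)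
  have hc : (p.coeff 0 : k) = 0 := by
    have := congrArg red.toIntAlgHom hev
    rw [map_zero, ← aeval_algHom_apply, RingHom.toIntAlgHom_apply, h0, aeval_def,
      eval₂_at_zero] at this
    simpa using this
  have hdvd : (ℓ : ℤ) ∣ p.coeff 0 := (CharP.intCast_eq_zero_iff k ℓ _).1 hc
  -- its absolute value is small
  set P := p.map (algebraMap ℤ ℂ) with hP
  have hPm : P.Monic := hp.map _
  have hdeg : P.natDegree ≤ m := by
    rw [hP, natDegree_map_eq_of_injective (algebraMap ℤ ℂ).injective_int]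
    rw [hQ, natDegree_map_eq_of_injective (algebraMap ℤ ℚ).injective_int] at hm
    exact hm
  have hroot : ∀ y ∈ P.roots, ‖y‖ ≤ (L + 1 : ℝ) := by
    intro y hy
    rw [mem_roots hPm.ne_zero, IsRoot, hP, eval_map] at hy
    have hy' : aeval y (minpoly ℚ x) = 0 := by
      rw [hQ, aeval_map_algebraMap]; exact hy
    obtain ⟨σ, rfl⟩ := exists_aut_of_root (hx.tower_top) hy'
    linarith [hL σ]
  have habs : |(p.coeff 0 : ℤ)| < (ℓ : ℤ) := by
    have h1 := (IsAlgClosed.splits P).coeff_zero_eq_prod_roots_of_monic hPm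
    have h2 : ‖(P.coeff 0 : ℂ)‖ ≤ (L + 1 : ℝ) ^ m := by
      rw [h1, norm_mul, norm_pow, norm_neg, norm_one, one_pow, one_mul]
      have h3 : ∀ S : Multiset ℂ, (∀ y ∈ S, ‖y‖ ≤ (L + 1 : ℝ)) →
          ‖S.prod‖ ≤ (L + 1 : ℝ) ^ Multiset.card S := by
        intro S
        induction S using Multiset.induction_on with
        | empty => simp
        | cons a S ih =>
          intro h
          rw [Multiset.prod_cons, Multiset.card_cons, norm_mul, pow_succ']
          exact mul_le_mul (h a (Multiset.mem_cons_self a S))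
            (ih fun y hy => h y (Multiset.mem_cons_of_mem hy)) (norm_nonneg _) (by positivity)
      refine (h3 _ hroot).trans (pow_le_pow_right₀ (by linarith [L.cast_nonneg (α := ℝ)]) ?_)
      exact (card_roots' P).trans hdeg
    rw [hP, coeff_map, eq_intCast, Complex.norm_intCast] at h2
    have h4 : ((|p.coeff 0| : ℤ) : ℝ) < ((ℓ : ℤ) : ℝ) := by
      push_cast
      exact h2.trans_lt (by exact_mod_cast hℓ)
    exact_mod_cast h4
  have h00 : p.coeff 0 = 0 := Int.eq_zero_of_abs_lt_dvd hdvd habs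
  exact (minpoly.coeff_zero_eq_zero (A := ℚ) hx.tower_top).1 (by rw [hQ, coeff_map, h00, map_zero])

/-- A root of unity has conjugates of absolute value `1`. -/
theorem norm_aut_rootOfUnity {z : ℂ} {m : ℕ} (hm : m ≠ 0) (hz : z ^ m = 1) (σ : ℂ ≃+* ℂ) :
    ‖σ z‖ = 1 :=
  Complex.norm_eq_one_of_pow_eq_one (by rw [← map_pow, hz, map_one]) hm

theorem isIntegral_rootOfUnity {z : ℂ} {m : ℕ} (hm : m ≠ 0) (hz : z ^ m = 1) : IsIntegral ℤ z :=
  ⟨X ^ m - 1, monic_X_pow_sub_C 1 hm, by simp [hz]⟩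

/-- Elements of `ℚ(μ_m)` have degree at most `m`. -/
theorem natDegree_minpoly_le_of_mem {ζ x : ℂ} {m : ℕ} (hm : m ≠ 0) (hζ : ζ ^ m = 1)
    (hx : x ∈ IntermediateField.adjoin ℚ ({ζ} : Set ℂ)) : (minpoly ℚ x).natDegree ≤ m := by
  have hint : IsIntegral ℚ ζ := (isIntegral_rootOfUnity hm hζ).tower_top
  haveI := IntermediateField.adjoin.finiteDimensional hint
  have h1 := minpoly.natDegree_le (A := ℚ) (⟨x, hx⟩ : IntermediateField.adjoin ℚ ({ζ} : Set ℂ))
  rw [IntermediateField.adjoin.finrank hint, ← minpoly.algebraMap_eq (B' := ℂ) (algebraMap (IntermediateField.adjoin ℚ ({ζ} : Set ℂ)) ℂ).injective] at h1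
  refine h1.trans ?_
  have h2 : (minpoly ℚ ζ).natDegree ≤ ((X : ℚ[X]) ^ m - 1).natDegree :=
    natDegree_le_natDegree (minpoly.min ℚ ζ (monic_X_pow_sub_C 1 hm) (by simp [hζ]))
  exact h2.trans_eq (natDegree_X_pow_sub_C (r := (1 : ℚ)) |> fun h => by simpa using h)

theorem mem_adjoin_of_pow_eq_one {ζ z : ℂ} {m : ℕ} [NeZero m] (hζ : IsPrimitiveRoot ζ m)
    (hz : z ^ m = 1) : z ∈ IntermediateField.adjoin ℚ ({ζ} : Set ℂ) := by
  obtain ⟨i, -, rfl⟩ := hζ.eq_pow_of_pow_eq_one hz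
  exact pow_mem (IntermediateField.mem_adjoin_simple_self ℚ ζ) i

end Fermat.Agent.DS
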