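import Mathlib
import Fermat.Agent.GalRep.Quadratic

/-!
From a class function satisfying the identities of the trace of an irreducible two dimensional
representation to the representation, over `ℂ`; and these identities for an irreducible group of
matrices.
-/

set_option autoImplicit false

noncomputable section

namespace Fermat.Agent.DS

open Matrix

variable {G : Type*} [Group G] [Fintype G]

/-! ## The identities for an irreducible group of matrices -/

/-- Schur's lemma for the averaged conjugates. -/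
theorem sum_conj_eq_scalar {K : Type*} [Field K] [IsAlgClosed K]
    (ρ : G →* GL (Fin 2) K)
    (hirr : ∀ v : Fin 2 → K, v ≠ 0 → ∃ g, ∀ c : K, (ρ g).val *ᵥ v ≠ c • v)
    (X : Matrix (Fin 2) (Fin 2) K) :
    ∃ c : K, ∑ h, (ρ h).val * X * (ρ h⁻¹).val = c • 1 := by
  set S := ∑ h, (ρ h).val * X * (ρ h⁻¹).val with hS
  have hcomm : ∀ g, (ρ g).val * S = S * (ρ g).val := by
    intro g
    rw [hS, Finset.mul_sum, Finset.sum_mul]
    refine Fintype.sum_equiv (Equiv.mulLeft g) _ _ fun h => ?_
    simp only [Equiv.coe_mulLeft, _root_.mul_inv_rev, map_mul, Units.val_mul, Matrix.mul_assoc]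
    congr 3
    rw [← Units.val_mul, ← map_mul, inv_mul_cancel, map_one, Units.val_one, mul_one]
  obtain ⟨c, hc⟩ := Module.End.exists_eigenvalue (Matrix.toLin' S)
  obtain ⟨v, hv⟩ := hc.exists_hasEigenvector
  have hSv : S *ᵥ v = c • v := by simpa using hv.apply_eq_smul
  refine ⟨c, ?_⟩
  obtain ⟨g, hg⟩ := hirr v hv.2
  set w := (ρ g).val *ᵥ v
  have hSw : S *ᵥ w = c • w := by
    rw [mulVec_mulVec, ← hcomm, ← mulVec_mulVec, hSv, mulVec_smul]
  have hli : LinearIndependent K ![v, w] := by
    rw [LinearIndependent.pair_iff]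
    intro a b hab
    by_cases hb : b = 0
    · rw [hb, zero_smul, add_zero] at hab
      exact ⟨(smul_eq_zero.1 hab).resolve_right hv.2, hb⟩
    · exfalso
      refine hg (-b⁻¹ * a) ?_
      have h2 : b • w = -(a • v) := eq_neg_of_add_eq_zero_right hab
      have h3 := congrArg (fun z => b⁻¹ • z) h2
      simp only [smul_neg, smul_smul, inv_mul_cancel₀ hb, one_smul] at h3
      rw [h3, ← neg_smul, neg_mul]
  have hspan := hli.span_eq_top_of_card_eq_finrank (by simp)
  refine Matrix.toLin'.injective (LinearMap.ext_on_range hspan fun i => ?_)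
  fin_cases i
  · simpa [smul_mulVec] using hSv
  · simpa [smul_mulVec] using hSw

/-- The convolution identity of the character of an irreducible representation of degree two. -/
theorem trace_convolution {K : Type*} [Field K] [IsAlgClosed K] (h2 : (2 : K) ≠ 0)
    (ρ : G →* GL (Fin 2) K)
    (hirr : ∀ v : Fin 2 → K, v ≠ 0 → ∃ g, ∀ c : K, (ρ g).val *ᵥ v ≠ c • v) (g : G) :
    2 * ∑ h, (ρ (g * h⁻¹)).val.trace * (ρ h).val.trace =
      (Fintype.card G : K) * (ρ g).val.trace := by
  choose c hc using sum_conj_eq_scalar ρ hirr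
  have htr : ∀ X, 2 * c X = (Fintype.card G : K) * X.trace := fun X => by
    have := congrArg Matrix.trace (hc X)
    rw [Matrix.trace_sum, Matrix.trace_smul, Matrix.trace_one, Fintype.card_fin] at this
    simp_rw [Matrix.trace_mul_comm _ (ρ _⁻¹).val, ← Matrix.mul_assoc, ← Units.val_mul, ← map_mul,
      inv_mul_cancel, map_one, Units.val_one, one_mul] at this
    rw [Finset.sum_const, Finset.card_univ, nsmul_eq_mul] at this
    rw [this, smul_eq_mul]
    push_cast
    ring
  have key : ∀ j b, 2 * ∑ h, (ρ h).val.trace * (ρ h⁻¹).val j b =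
      if j = b then (Fintype.card G : K) else 0 := by
    intro j b
    have e : ∀ a : Fin 2, 2 * ∑ h, (ρ h).val a a * (ρ h⁻¹).val j b =
        if a = b then (Fintype.card G : K) * (if a = j then 1 else 0) else 0 := by
      intro a
      have h1 := congrArg (fun Y : Matrix (Fin 2) (Fin 2) K => Y a b) (hc (Matrix.single a j 1))
      simp only [Matrix.sum_apply, Matrix.smul_apply, Matrix.one_apply, smul_eq_mul] at h1
      have h2' : ∀ h : G, ((ρ h).val * Matrix.single a j (1 : K) * (ρ h⁻¹).val) a b =
          (ρ h).val a a * (ρ h⁻¹).val j b := fun h => by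
        rw [Matrix.mul_apply, Finset.sum_eq_single j]
        · simp
        · intro x _ hx
          simp [hx]
        · simp
      simp_rw [h2'] at h1
      rw [h1]
      split_ifs with hab haj
      · subst haj
        rw [← mul_assoc, htr]
        simp
      · rw [← mul_assoc, htr]
        simp [Matrix.trace_single_eq_of_ne _ _ _ haj]
      all_goals simp
    simp only [Matrix.trace, Matrix.diag, Finset.sum_mul]
    rw [Finset.sum_comm, Finset.mul_sum, Finset.sum_congr rfl fun a _ => e a,
      Finset.sum_ite_eq', if_pos (Finset.mem_univ _)]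
    simp [eq_comm]
  have hm : ((2 : K) • ∑ h, (ρ h).val.trace • (ρ h⁻¹).val) = (Fintype.card G : K) • 1 := by
    ext j b
    simp only [Matrix.smul_apply, Matrix.sum_apply, smul_eq_mul, key, Matrix.one_apply]
    split_ifs <;> simp
  have h3 := congrArg (fun Y => ((ρ g).val * Y).trace) hm
  simp only [Matrix.mul_smul, Matrix.mul_one, Matrix.trace_smul, smul_eq_mul, Finset.mul_sum,
    Matrix.trace_sum, ← Units.val_mul, ← map_mul] at h3
  rw [← Finset.mul_sum] at h3
  rw [← h3]
  congr 1
  exact Finset.sum_congr rfl fun h _ => mul_comm _ _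

/-- The square identity. -/
theorem trace_sq_sub {K : Type*} [CommRing K] (A : Matrix (Fin 2) (Fin 2) K) :
    A.trace ^ 2 - (A * A).trace = 2 * A.det := by
  rw [Matrix.trace_fin_two, Matrix.trace_fin_two, Matrix.det_fin_two]
  simp [Matrix.mul_apply, Fin.sum_univ_two]
  ring

theorem exists_commutator_trace_ne {K : Type*} [Field K] [IsAlgClosed K]
    (hG : (Fintype.card G : K) ≠ 0) (h2 : (2 : K) ≠ 0) (ρ : G →* GL (Fin 2) K)
    (hirr : ∀ v : Fin 2 → K, v ≠ 0 → ∃ g, ∀ c : K, (ρ g).val *ᵥ v ≠ c • v) :
    ∃ a b : G, (ρ (a * b * a⁻¹ * b⁻¹)).val.trace ≠ 2 := by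
  by_contra hcon
  push Not at hcon
  have hone : ∀ a b, (ρ (a * b * a⁻¹ * b⁻¹)).val = 1 := by
    intro a b
    set u := a * b * a⁻¹ * b⁻¹
    have hdet : (ρ u).val.det = 1 := by
      have hh : ∀ x : G, Matrix.GeneralLinearGroup.det (ρ x) =
          (Matrix.GeneralLinearGroup.det.comp ρ) x := fun x => rfl
      have : Matrix.GeneralLinearGroup.det (ρ u) = 1 := by
        rw [hh]; simp only [u, map_mul, map_inv]
        rw [mul_inv_cancel_comm, mul_inv_cancel]
      exact congrArg Units.val this
    set N := (ρ u).val - 1 with hN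
    have hNN : N * N = 0 := by
      have htr := hcon a b
      rw [Matrix.trace_fin_two] at htr
      rw [Matrix.det_fin_two] at hdet
      ext i j
      fin_cases i <;> fin_cases j <;> simp [hN, Matrix.mul_apply, Fin.sum_univ_two]
      · linear_combination (ρ u).val 0 0 * htr - hdet
      · linear_combination (ρ u).val 0 1 * htr
      · linear_combination (ρ u).val 1 0 * htr
      · linear_combination (ρ u).val 1 1 * htr - hdet
    have hpow : ∀ n : ℕ, (ρ u).val ^ n = 1 + (n : K) • N := by
      intro n
      induction n with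
      | zero => simp
      | succ n ih =>
        rw [pow_succ, ih, show (ρ u).val = 1 + N by rw [hN]; abel]
        simp only [add_mul, mul_add, one_mul, mul_one, smul_mul_assoc, hNN, smul_zero, add_zero,
          Nat.cast_succ, add_smul, one_smul]
        abel
    have h1 := hpow (Fintype.card G)
    rw [← Units.val_pow_eq_pow_val, ← map_pow, pow_card_eq_one, map_one, Units.val_one,
      left_eq_add] at h1
    exact sub_eq_zero.1 ((smul_eq_zero.1 h1).resolve_left hG)
  have hcomm : ∀ a b, (ρ a).val * (ρ b).val = (ρ b).val * (ρ a).val := by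
    intro a b
    have := congrArg (fun Y => Y * (ρ (b * a)).val) (hone a b)
    simp only [← Units.val_mul, ← map_mul, one_mul] at this
    simpa [mul_assoc] using this
  by_cases hall : ∀ a, ∃ c : K, (ρ a).val = c • 1
  · obtain ⟨g, hg⟩ := hirr ![1, 0] (fun h => one_ne_zero (congrFun h 0))
    obtain ⟨c, hc⟩ := hall g
    exact hg c (by rw [hc, smul_mulVec, one_mulVec])
  push Not at hall
  obtain ⟨a, ha⟩ := hall
  obtain ⟨c, hc⟩ := Module.End.exists_eigenvalue (Matrix.toLin' (ρ a).val)
  obtain ⟨v, hv⟩ := hc.exists_hasEigenvector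
  have hav : (ρ a).val *ᵥ v = c • v := by simpa using hv.apply_eq_smul
  obtain ⟨g, hg⟩ := hirr v hv.2
  set w := (ρ g).val *ᵥ v
  have haw : (ρ a).val *ᵥ w = c • w := by
    rw [mulVec_mulVec, hcomm, ← mulVec_mulVec, hav, mulVec_smul]
  have hli : LinearIndependent K ![v, w] := by
    rw [LinearIndependent.pair_iff]
    intro a b hab
    by_cases hb : b = 0
    · rw [hb, zero_smul, add_zero] at hab
      exact ⟨(smul_eq_zero.1 hab).resolve_right hv.2, hb⟩
    · exfalso
      refine hg (-b⁻¹ * a) ?_
      have h3 := congrArg (fun z => b⁻¹ • z) (eq_neg_of_add_eq_zero_right hab)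
      simp only [smul_neg, smul_smul, inv_mul_cancel₀ hb, one_smul] at h3
      rw [h3, ← neg_smul, neg_mul]
  refine ha c (Matrix.toLin'.injective (LinearMap.ext_on_range
    (hli.span_eq_top_of_card_eq_finrank (by simp)) fun i => ?_))
  fin_cases i
  · simpa [smul_mulVec] using hav
  · simpa [smul_mulVec] using haw

/-! ## Construction over `ℂ` -/

/-- The trace of left multiplication on endomorphisms. -/
theorem trace_mulLeft_matrix {K : Type*} [Field K] (T : Matrix (Fin 2) (Fin 2) K) :
    LinearMap.trace K _ (LinearMap.mulLeft K T) = 2 * T.trace := by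
  classical
  rw [LinearMap.trace_eq_matrix_trace K (Matrix.stdBasis K (Fin 2) (Fin 2))]
  have hd : ∀ p : Fin 2 × Fin 2, LinearMap.toMatrix (Matrix.stdBasis K (Fin 2) (Fin 2))
      (Matrix.stdBasis K (Fin 2) (Fin 2)) (LinearMap.mulLeft K T) p p = T p.1 p.1 := by
    rintro ⟨i, j⟩
    rw [LinearMap.toMatrix_apply, Matrix.stdBasis_eq_single, LinearMap.mulLeft_apply]
    fin_cases i <;> fin_cases j <;>
      simp [Matrix.stdBasis, Matrix.mul_apply, Matrix.single, Fin.sum_univ_two]
  simp only [Matrix.trace, Matrix.diag, hd]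
  simp [Fintype.sum_prod_type, Fin.sum_univ_two]
  ring

set_option maxHeartbeats 1000000 in
open MonoidAlgebra in
/-- A class function with the identities of an irreducible two dimensional character is one. -/
theorem exists_rep_of_identities (θ : G → ℂ) (d : G → ℂ) (h1 : θ 1 = 2)
    (hclass : ∀ a b, θ (a * b) = θ (b * a))
    (hconv : ∀ g, 2 * ∑ h, θ (g * h⁻¹) * θ h = (Fintype.card G : ℂ) * θ g)
    (hdet : ∀ g, θ g ^ 2 - θ (g * g) = 2 * d g)
    (hnc : ∃ a b : G, θ (a * b * a⁻¹ * b⁻¹) ≠ 2) :
    ∃ ρ : G →* GL (Fin 2) ℂ, (∀ g, (ρ g).val.trace = θ g ∧ (ρ g).val.det = d g) ∧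
      ∀ v : Fin 2 → ℂ, v ≠ 0 → ∃ g, ∀ c : ℂ, (ρ g).val *ᵥ v ≠ c • v := by
  classical
  haveI : NeZero (Nat.card G : ℂ) := ⟨Nat.cast_ne_zero.2 Nat.card_pos.ne'⟩
  set n : ℂ := (Fintype.card G : ℂ)
  have hn : n ≠ 0 := Nat.cast_ne_zero.2 Fintype.card_ne_zero
  -- the idempotent
  set e : MonoidAlgebra ℂ G := ∑ g, MonoidAlgebra.single g (2 / n * θ g⁻¹) with he
  have he_apply : ∀ g, e.coeff g = 2 / n * θ g⁻¹ := fun g => by
    simp [he, MonoidAlgebra.coeff_sum, MonoidAlgebra.coeff_single, Finsupp.single_apply, Finsupp.finsetSum_apply]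
  have hinv : ∀ a b : G, θ (a * b)⁻¹ = θ (b * a)⁻¹ := fun a b => by
    simpa using hclass b⁻¹ a⁻¹
  have hcentral : ∀ x, x * e = e * x := by
    intro x
    induction x using MonoidAlgebra.induction_on with
    | of a =>
      refine MonoidAlgebra.ext (Finsupp.ext fun z => ?_)
      simp only [MonoidAlgebra.of_apply, MonoidAlgebra.coeff_single_mul_apply,
        MonoidAlgebra.coeff_mul_single_apply, he_apply, one_mul, mul_one]
      rw [hinv]
    | add x y hx hy => rw [add_mul, mul_add, hx, hy]
    | smul c x hx => rw [Algebra.smul_mul_assoc, Algebra.mul_smul_comm, hx]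
  have hidem : e * e = e := by
    refine MonoidAlgebra.ext (Finsupp.ext fun z => ?_)
    conv_lhs => arg 1; arg 1; arg 1; rw [he]
    rw [Finset.sum_mul, he_apply]
    simp only [MonoidAlgebra.coeff_sum, Finsupp.finsetSum_apply,
      MonoidAlgebra.coeff_single_mul_apply, he_apply, _root_.mul_inv_rev, inv_inv]
    have h3 := hconv z⁻¹
    rw [← Equiv.sum_comp (Equiv.inv G)] at h3
    simp only [Equiv.inv_apply, inv_inv] at h3
    have h4 : ∀ g, 2 / n * θ g⁻¹ * (2 / n * θ (z⁻¹ * g)) =
        (2 / n ^ 2) * (2 * (θ (z⁻¹ * g) * θ g⁻¹)) := fun g => by field_simp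
    rw [Finset.sum_congr rfl fun g _ => h4 g, ← Finset.mul_sum, ← Finset.mul_sum, h3]
    field_simp
  let A := MonoidAlgebra ℂ G
  let R : A →ₗ[ℂ] A := LinearMap.mulRight ℂ e
  let V : Submodule ℂ A := LinearMap.range R
  have hV : ∀ v ∈ V, v * e = v := by
    rintro _ ⟨x, rfl⟩
    show x * e * e = x * e
    rw [mul_assoc, hidem]
  have hVe : ∀ x : A, x * e ∈ V := fun x => ⟨x, rfl⟩
  -- traces of the translations on `V`
  let Lg : G → A →ₗ[ℂ] A := fun g => LinearMap.mulLeft ℂ (MonoidAlgebra.single g 1)
  have hLmem : ∀ g, ∀ v ∈ V, Lg g v ∈ V := fun g v hv => by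
    show MonoidAlgebra.single g 1 * v ∈ V
    rw [← hV v hv, ← mul_assoc]
    exact hVe _
  have htrV : ∀ g, LinearMap.trace ℂ V ((Lg g).restrict (hLmem g)) = 2 * θ g := by
    intro g
    have hmem : ∀ x, (Lg g ∘ₗ R) x ∈ V := fun x => hLmem g _ (hVe x)
    have e1 : (Lg g).restrict (hLmem g) = (Lg g ∘ₗ R).restrict (fun x _ => hmem x) := by
      refine LinearMap.ext fun v => Subtype.ext ?_
      show MonoidAlgebra.single g 1 * (v : A) = MonoidAlgebra.single g 1 * ((v : A) * e)
      rw [hV v v.2]
    rw [e1, LinearMap.trace_restrict_eq_of_forall_mem _ _ hmem,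
      LinearMap.trace_eq_matrix_trace ℂ (MonoidAlgebra.basis G ℂ)]
    simp only [Matrix.trace, Matrix.diag, LinearMap.toMatrix_apply, LinearMap.comp_apply]
    have : ∀ x : G, ((MonoidAlgebra.basis G ℂ).repr (Lg g (R (MonoidAlgebra.basis G ℂ x)))) x =
        2 / n * θ g := fun x => by
      simp only [Lg, R, LinearMap.mulLeft_apply, LinearMap.mulRight_apply,
        MonoidAlgebra.basis_apply, ← mul_assoc]
      rw [show MonoidAlgebra.single g (1 : ℂ) * MonoidAlgebra.single x 1 =
        MonoidAlgebra.single (g * x) 1 by rw [MonoidAlgebra.single_mul_single, one_mul]]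
      show ((MonoidAlgebra.single (g * x) (1 : ℂ)) * e).coeff x = _
      rw [MonoidAlgebra.coeff_single_mul_apply, he_apply, one_mul, _root_.mul_inv_rev, inv_inv,
        hclass, mul_inv_cancel_right]
    rw [Finset.sum_congr rfl fun x _ => this x, Finset.sum_const, Finset.card_univ, nsmul_eq_mul]
    field_simp
    ring
  have hdimV : Module.finrank ℂ V = 4 := by
    have h := htrV 1
    rw [h1] at h
    have e1 : (Lg 1).restrict (hLmem 1) = LinearMap.id := LinearMap.ext fun v => Subtype.ext (by
      show MonoidAlgebra.single (1 : G) (1 : ℂ) * (v : A) = v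
      rw [← MonoidAlgebra.one_def, one_mul])
    rw [e1, LinearMap.trace_id] at h
    exact_mod_cast h.trans (by norm_num : (2 : ℂ) * 2 = 4)
  -- a simple submodule of dimension at least two inside `V`
  let V' : Submodule A A :=
    { V with
      smul_mem' := fun a v hv => by
        show a * v ∈ V
        rw [← hV v hv, ← mul_assoc]
        exact hVe _ }
  obtain ⟨S, hS, hSV, hS1⟩ : ∃ S : Submodule A A, IsSimpleModule A S ∧ S ≤ V' ∧
      ¬ Module.finrank ℂ (S.restrictScalars ℂ) ≤ 1 := by
    by_contra hcon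
    push Not at hcon
    obtain ⟨a, b, hab⟩ := hnc
    set c := a * b * a⁻¹ * b⁻¹ with hc
    let K : Submodule ℂ A := LinearMap.ker (Lg c - LinearMap.id)
    have hK : ∀ v ∈ V, v ∈ K := by
      intro v hv
      have htop : v ∈ V' := hv
      rw [← IsSemisimpleModule.sSup_simples_le V', sSup_eq_iSup'] at htop
      refine Submodule.iSup_induction (motive := fun y : A => y ∈ K) _ htop
        (fun T y hy => ?_) (zero_mem K) fun x y hx hy => add_mem hx hy
      obtain ⟨S, hSs, hSV⟩ := T
      have hd : Module.finrank ℂ (S.restrictScalars ℂ) ≤ 1 := hcon S hSs hSV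
      set z : A := y
      have hz : z ∈ S := hy
      show Lg c z - z = 0
      rw [sub_eq_zero]
      by_cases hz0 : z = 0
      · rw [hz0, map_zero]
      have hone : ∀ g : G, ∃ t : ℂ, Lg g z = t • z := fun g => by
        have hgz : Lg g z ∈ S.restrictScalars ℂ := S.smul_mem (MonoidAlgebra.single g 1 : A) hz
        obtain ⟨w, hw⟩ := finrank_le_one_iff.1 hd
        obtain ⟨s, hs⟩ := hw ⟨z, hz⟩
        obtain ⟨t, ht⟩ := hw ⟨_, hgz⟩
        have hs' : s • (w : A) = z := congrArg Subtype.val hs
        have ht' : t • (w : A) = Lg g z := congrArg Subtype.val ht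
        have hs0 : s ≠ 0 := fun h => hz0 (by rw [← hs', h, zero_smul])
        exact ⟨t / s, by rw [← ht', ← hs', smul_smul, div_mul_cancel₀ _ hs0]⟩
      choose t ht using hone
      have hmul : ∀ g h, t (g * h) = t g * t h := fun g h => by
        refine smul_left_injective ℂ hz0 ?_
        show t (g * h) • z = (t g * t h) • z
        rw [← ht, mul_comm, ← smul_smul, ← ht, ← map_smul, ← ht]
        show MonoidAlgebra.single (g * h) (1 : ℂ) * z = _
        rw [show MonoidAlgebra.single (g * h) (1 : ℂ) =
          MonoidAlgebra.single g 1 * MonoidAlgebra.single h 1 by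
            rw [MonoidAlgebra.single_mul_single, one_mul], mul_assoc]
        rfl
      have ht1 : t 1 = 1 := smul_left_injective ℂ hz0 (by
        show t 1 • z = (1 : ℂ) • z
        rw [← ht, one_smul]
        show MonoidAlgebra.single (1 : G) (1 : ℂ) * z = z
        rw [← MonoidAlgebra.one_def, one_mul])
      let τ : G →* ℂ := { toFun := t, map_one' := ht1, map_mul' := hmul }
      have htc : t c = 1 := by
        show τ c = 1
        rw [hc, map_mul, map_mul, map_mul]
        have ha : τ a * τ a⁻¹ = 1 := by rw [← map_mul, mul_inv_cancel, map_one]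
        have hb : τ b * τ b⁻¹ = 1 := by rw [← map_mul, mul_inv_cancel, map_one]
        linear_combination (τ b * τ b⁻¹) * ha + hb
      rw [ht, htc, one_smul]
    have htr := htrV c
    have e1 : (Lg c).restrict (hLmem c) = LinearMap.id := LinearMap.ext fun v => Subtype.ext
      (sub_eq_zero.1 (hK v v.2))
    rw [e1, LinearMap.trace_id, hdimV] at htr
    exact hab (by push_cast at htr; linear_combination -htr / 2)
  let W : Submodule ℂ A := S.restrictScalars ℂ
  let σ : G →* Module.End ℂ W :=
    { toFun := fun g => (Lg g).restrict fun v hv => S.smul_mem (MonoidAlgebra.single g 1 : A) hv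
      map_one' := LinearMap.ext fun v => Subtype.ext (by
        show MonoidAlgebra.single (1 : G) (1 : ℂ) * (v : A) = v
        rw [← MonoidAlgebra.one_def, one_mul])
      map_mul' := fun g h => LinearMap.ext fun v => Subtype.ext (by
        show MonoidAlgebra.single (g * h) (1 : ℂ) * (v : A) =
          MonoidAlgebra.single g 1 * (MonoidAlgebra.single h 1 * (v : A))
        rw [← mul_assoc, MonoidAlgebra.single_mul_single, one_mul]) }
  haveI : Nontrivial W := Module.nontrivial_of_finrank_pos (R := ℂ) (Nat.zero_lt_one.trans (Nat.lt_of_not_le hS1))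
  have hσirr : ∀ U : Submodule ℂ W, (∀ g, ∀ x ∈ U, σ g x ∈ U) → U = ⊥ ∨ U = ⊤ := by
    intro U hU
    let U' : Submodule A A :=
      { U.map W.subtype with
        smul_mem' := fun r x hx => by
          induction r using MonoidAlgebra.induction_on with
          | of g =>
            obtain ⟨u, hu, rfl⟩ := hx
            exact ⟨σ g u, hU g u hu, rfl⟩
          | add p q hp hq => rw [add_smul]; exact (U.map W.subtype).add_mem hp hq
          | smul c p hp => rw [smul_assoc]; exact (U.map W.subtype).smul_mem c hp }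
    have hU' : U' ≤ S := fun x hx => by
      obtain ⟨u, -, rfl⟩ := hx
      exact u.2
    rcases (isSimpleModule_iff_isAtom.1 hS).le_iff.1 hU' with h | h
    · left
      rw [eq_bot_iff]
      intro u hu
      have : (u : A) ∈ U' := ⟨u, hu, rfl⟩
      rw [h, Submodule.mem_bot] at this
      exact Subtype.ext this
    · right
      rw [eq_top_iff]
      intro u _
      have : (u : A) ∈ U' := h ▸ u.2
      obtain ⟨u', hu', he'⟩ := this
      rwa [← Subtype.ext he']
  let Φ : V →ₗ[ℂ] Module.End ℂ W :=
    { toFun := fun v => (LinearMap.mulLeft ℂ (v : A)).restrict fun w hw => S.smul_mem (v : A) hw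
      map_add' := fun x y => LinearMap.ext fun w => Subtype.ext (add_mul _ _ _)
      map_smul' := fun c x => LinearMap.ext fun w => Subtype.ext (smul_mul_assoc _ _ _) }
  have hΦσ : ∀ g (v : V), Φ ((Lg g).restrict (hLmem g) v) = σ g * Φ v := fun g v =>
    LinearMap.ext fun w => Subtype.ext (mul_assoc _ _ _)
  have hsurj : Function.Surjective Φ := by
    rw [← LinearMap.range_eq_top, eq_top_iff,
      ← GalRep.span_range_eq_top_of_irreducible σ hσirr, Submodule.span_le]
    rintro _ ⟨g, rfl⟩
    refine ⟨⟨MonoidAlgebra.single g 1 * e, hVe _⟩, LinearMap.ext fun w => Subtype.ext ?_⟩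
    show MonoidAlgebra.single g 1 * e * (w : A) = MonoidAlgebra.single g 1 * (w : A)
    rw [mul_assoc, ← hcentral, hV w (hSV w.2)]
  have hdim : Module.finrank ℂ (Module.End ℂ W) ≤ 4 := by
    have h := LinearMap.finrank_range_le Φ
    rw [LinearMap.range_eq_top.2 hsurj, finrank_top, hdimV] at h
    exact h
  have hW2 : Module.finrank ℂ W = 2 := by
    rw [Module.finrank_linearMap] at hdim
    have : ¬ Module.finrank ℂ W ≤ 1 := hS1
    nlinarith
  let bW : Module.Basis (Fin 2) ℂ W := Module.finBasisOfFinrankEq ℂ W hW2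
  let M : Module.End ℂ W ≃ₐ[ℂ] Matrix (Fin 2) (Fin 2) ℂ := LinearMap.toMatrixAlgEquiv bW
  let ρ : G →* GL (Fin 2) ℂ := ((M.toAlgHom.toMonoidHom).comp σ).toHomUnits
  have hρ : ∀ g, (ρ g).val = M (σ g) := fun g => rfl
  let Φ' : V ≃ₗ[ℂ] Matrix (Fin 2) (Fin 2) ℂ :=
    LinearEquiv.ofBijective (M.toLinearEquiv.toLinearMap ∘ₗ Φ) (by
      have hd : Module.finrank ℂ V = Module.finrank ℂ (Matrix (Fin 2) (Fin 2) ℂ) := by
        rw [hdimV, Module.finrank_matrix]; simp
      have hs : Function.Surjective (M.toLinearEquiv.toLinearMap ∘ₗ Φ) :=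
        M.surjective.comp hsurj
      exact ⟨(LinearMap.injective_iff_surjective_of_finrank_eq_finrank hd).2 hs, hs⟩)
  have htr : ∀ g, (ρ g).val.trace = θ g := by
    intro g
    have e1 : Φ'.conj ((Lg g).restrict (hLmem g)) = LinearMap.mulLeft ℂ (ρ g).val := by
      refine LinearMap.ext fun X => ?_
      obtain ⟨v, rfl⟩ := Φ'.surjective X
      rw [LinearEquiv.conj_apply_apply, LinearEquiv.symm_apply_apply]
      show M (Φ ((Lg g).restrict (hLmem g) v)) = (ρ g).val * M (Φ v)
      rw [hΦσ, map_mul, hρ]
    have h := LinearMap.trace_conj' ((Lg g).restrict (hLmem g)) Φ'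
    rw [e1, trace_mulLeft_matrix, htrV] at h
    exact mul_left_cancel₀ two_ne_zero h
  refine ⟨ρ, fun g => ⟨htr g, ?_⟩, fun v hv => ?_⟩
  · have h := trace_sq_sub (ρ g).val
    rw [← Units.val_mul, ← map_mul, htr, htr, hdet] at h
    exact (mul_left_cancel₀ two_ne_zero h).symm
  · by_contra hcon
    push Not at hcon
    set x : W := bW.equivFun.symm v
    have hx : x ≠ 0 := fun h => hv (bW.equivFun.symm.injective (h.trans (map_zero _).symm))
    have hst : ∀ g, ∀ y ∈ ℂ ∙ x, σ g y ∈ ℂ ∙ x := by
      intro g y hy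
      obtain ⟨r, rfl⟩ := Submodule.mem_span_singleton.1 hy
      obtain ⟨c, hc⟩ := hcon g
      refine Submodule.mem_span_singleton.2 ⟨r * c, bW.equivFun.injective ?_⟩
      have : bW.equivFun (σ g x) = (ρ g).val *ᵥ v := by
        rw [hρ]
        have := LinearMap.toMatrix_mulVec_repr bW bW (σ g) x
        simp only [x, LinearEquiv.apply_symm_apply, ← Module.Basis.equivFun_apply] at this
        exact this.symm
      rw [map_smul, map_smul, map_smul, this, hc, smul_smul]
      simp only [x, LinearEquiv.apply_symm_apply]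
    rcases hσirr _ hst with h | h
    · exact hx (Submodule.span_singleton_eq_bot.1 h)
    · have := finrank_span_singleton (K := ℂ) hx
      rw [h, finrank_top, hW2] at this
      exact absurd this (by norm_num)

end Fermat.Agent.DS
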