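import Mathlib
import Fermat.Agent.DS.FrobConj
import Fermat.Prelude.Def_GaloisRep_Residual

/-!
Consequences of Chebotarev's theorem: averages over a finite Galois image are bounded by
weighted sums over primes.
-/

set_option autoImplicit false
set_option maxHeartbeats 800000

noncomputable section

namespace Fermat.Agent.DS

open Filter
open Fermat.Agent.Galois (GQ)
open Fermat.Agent.Density
open scoped Topology

local notation "ℚb" => AlgebraicClosure ℚ

/-- A homomorphism of finite level factors through the group of a finite Galois extension. -/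
theorem exists_finite_galois {H : Type} [Monoid H] {ρ : GQ →* H}
    (hρ : GaloisFactorsThroughFiniteLevel ρ) :
    ∃ (F : IntermediateField ℚ ℚb) (_ : NumberField F) (_ : IsGalois ℚ F)
      (π : (F ≃ₐ[ℚ] F) →* H), ∀ σ, ρ σ = π (resTo F σ) := by
  obtain ⟨L, hL, hρL⟩ := hρ
  set F := IntermediateField.normalClosure ℚ L ℚb
  have : NumberField F := { }
  have : Normal ℚ ℚb := IsGalois.to_normal
  have : Normal ℚ F := normalClosure.normal ℚ L ℚb
  have : IsGalois ℚ F := ⟨⟩
  choose sec hsec using resTo_surjective F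
  have hagree : ∀ σ τ : GQ, resTo F σ = resTo F τ → ρ σ = ρ τ := fun σ τ h =>
    eq_of_agree ρ hρL fun x hx => by
      have hx' : x ∈ F := L.le_normalClosure hx
      rw [← resTo_apply F σ ⟨x, hx'⟩, ← resTo_apply F τ ⟨x, hx'⟩, h]
  exact ⟨F, inferInstance, inferInstance,
    { toFun := fun c => ρ (sec c)
      map_one' := (hagree _ 1 (by rw [hsec, map_one])).trans (map_one ρ)
      map_mul' := fun a b => (hagree _ _ (by rw [map_mul, hsec, hsec, hsec])).trans (map_mul ρ _ _) },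
    fun σ => hagree _ _ (hsec _).symm⟩

/-- Averages over the image. -/
theorem sum_comp_range {Γ H : Type*} [Group Γ] [Fintype Γ] [Group H] (π : Γ →* H)
    [Fintype π.range] (f : H → ℝ) :
    (Nat.card π.range : ℝ) * ∑ c, f (π c) = (Nat.card Γ : ℝ) * ∑ g : π.range, f g := by
  classical
  set π' := π.rangeRestrict
  have hsurj : Function.Surjective π' := π.rangeRestrict_surjective
  set K : ℕ := (Finset.univ.filter fun c => π' c = 1).card
  have hfib : ∀ g : π.range, (Finset.univ.filter fun c => π' c = g).card = K := fun g =>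
    MonoidHom.card_fiber_eq_of_mem_range π' (hsurj g) (hsurj 1)
  have hcard : Fintype.card Γ = Fintype.card π.range * K := by
    rw [← Finset.card_univ, Finset.card_eq_sum_card_fiberwise (f := π') (t := Finset.univ)
      (fun _ _ => Finset.mem_univ _), Finset.sum_congr rfl fun g _ => hfib g, Finset.sum_const,
      Finset.card_univ, smul_eq_mul]
  have hsum : ∑ c, f (π c) = (K : ℝ) * ∑ g : π.range, f g := by
    rw [← Finset.sum_fiberwise Finset.univ π' fun c => f (π c), Finset.mul_sum]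
    refine Finset.sum_congr rfl fun g _ => ?_
    rw [Finset.sum_congr rfl fun c hc => show f (π c) = f g by
      rw [← (Finset.mem_filter.1 hc).2]; rfl, Finset.sum_const, hfib, nsmul_eq_mul]
  rw [hsum, Nat.card_eq_fintype_card, Nat.card_eq_fintype_card, hcard]
  push_cast
  ring

section

variable (F : IntermediateField ℚ ℚb) [NumberField F] [IsGalois ℚ F]

/-- The average of a class function dominated at the Frobenius elements is bounded by the weighted
sum over primes. -/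
theorem average_le (v : (F ≃ₐ[ℚ] F) → ℝ) (hv0 : ∀ c, 0 ≤ v c)
    (hvc : ∀ c τ, v (τ * c * τ⁻¹) = v c) (good : Set ℕ) (bad : Finset ℕ)
    (hbad : ∀ p : ℕ, p.Prime → p ∉ bad → p ∈ good) (b : ℕ → ℝ) (hb0 : ∀ n, 0 ≤ b n)
    (hdom : ∀ p : ℕ, p.Prime → p ∉ bad → ∀ A : ValuationSubring ℚb, A.LiesOverPrime p →
      ∀ σ : GQ, A.IsFrobeniusAt σ p → v (resTo F σ) ≤ b p) {δ : ℝ}
    (hsum : ∀ᶠ s in 𝓝[>] (1 : ℝ), Summable (good.indicator fun n => b n * (n : ℝ) ^ (-s)) ∧
      ∑' n, good.indicator (fun n => b n * (n : ℝ) ^ (-s)) n ≤ δ * Real.log (1 / (s - 1))) :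
    (∑ c, v c) / Nat.card (F ≃ₐ[ℚ] F) ≤ δ := by
  classical
  set V : Finset ℝ := Finset.univ.image v
  set C : ℝ → Set (F ≃ₐ[ℚ] F) := fun x => {c | v c = x}
  have hC : ∀ x, ∀ g ∈ C x, ∀ τ, τ * g * τ⁻¹ ∈ C x := fun x g hg τ =>
    (hvc g τ).trans hg
  set n := Nat.card (F ≃ₐ[ℚ] F)
  have hn : (0 : ℝ) < n := Nat.cast_pos.2 Nat.card_pos
  have hV0 : ∀ x ∈ V, 0 ≤ x := fun x hx => by
    obtain ⟨c, -, rfl⟩ := Finset.mem_image.1 hx; exact hv0 c
  set S : ℝ := ∑ x ∈ V, x * ((Nat.card (C x) : ℝ) / n)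
  have hS : (∑ c, v c) / n = S := by
    rw [← Finset.sum_fiberwise_of_maps_to (g := v) (t := V) fun c _ => Finset.mem_image_of_mem v
      (Finset.mem_univ c), Finset.sum_div]
    refine Finset.sum_congr rfl fun x _ => ?_
    rw [Finset.sum_congr rfl fun c hc => (Finset.mem_filter.1 hc).2, Finset.sum_const,
      nsmul_eq_mul, mul_comm, mul_div_assoc, Nat.card_eq_fintype_card, Fintype.card_subtype]
    congr 4
  rw [hS]
  refine le_of_forall_pos_le_add fun e he => ?_
  set W : ℝ := ∑ x ∈ V, x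
  have hW : 0 ≤ W := Finset.sum_nonneg hV0
  set ε : ℝ := e / (W + 1)
  have hε : 0 < ε := div_pos he (by linarith)
  have hev : ∀ᶠ s in 𝓝[>] (1 : ℝ), ∀ x ∈ V, ((Nat.card (C x) : ℝ) / n - ε) *
      Real.log (1 / (s - 1)) ≤ natSum (frobInSet (resTo F ⁻¹' C x) \ ↑bad) s :=
    (Finset.eventually_all V).2 fun x _ => eventually_natSum_ge F bad (hC x) hε
  obtain ⟨s, ⟨hsum1, hsum2⟩, hs, hL, hs1⟩ := (hsum.and (hev.and
    ((tendsto_log_inv_sub_one.eventually (eventually_gt_atTop 0)).and self_mem_nhdsWithin))).exists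
  have key : ∑ x ∈ V, x * natSum (frobInSet (resTo F ⁻¹' C x) \ ↑bad) s ≤
      ∑' m, good.indicator (fun m => b m * (m : ℝ) ^ (-s)) m := by
    simp only [natSum, ← tsum_mul_left]
    rw [← Summable.tsum_finsetSum fun x _ => (summable_natSum _ hs1).mul_left x]
    refine Summable.tsum_le_tsum (fun m => ?_)
      (summable_sum fun x _ => (summable_natSum _ hs1).mul_left x) hsum1
    have hpos : 0 ≤ (m : ℝ) ^ (-s) := Real.rpow_nonneg (Nat.cast_nonneg m) _
    by_cases hex : ∃ x ∈ V, m ∈ frobInSet (resTo F ⁻¹' C x) \ ↑bad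
    · obtain ⟨x, hx, ⟨hm, hmx⟩, hmbad⟩ := hex
      obtain ⟨A, hA⟩ := Galois.exists_liesOverPrime hm
      obtain ⟨σ, hσ⟩ := Galois.exists_isFrobeniusAt hm hA
      rw [Finset.sum_eq_single x (fun y _ hyx => ?_) fun h => absurd hx h,
        Set.indicator_of_mem (show m ∈ frobInSet (resTo F ⁻¹' C x) \ ↑bad from ⟨⟨hm, hmx⟩, hmbad⟩),
        Set.indicator_of_mem (hbad m hm (by simpa using hmbad))]
      · refine mul_le_mul_of_nonneg_right ?_ hpos
        rw [← (hmx A hA σ hσ : v (resTo F σ) = x)]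
        exact hdom m hm (by simpa using hmbad) A hA σ hσ
      · rw [Set.indicator_of_notMem, mul_zero]
        rintro ⟨⟨-, hmy⟩, -⟩
        exact hyx ((hmy A hA σ hσ : v (resTo F σ) = y).symm.trans (hmx A hA σ hσ))
    · push Not at hex
      rw [Finset.sum_eq_zero fun x hx => by rw [Set.indicator_of_notMem (hex x hx), mul_zero]]
      exact Set.indicator_nonneg (fun m _ => mul_nonneg (hb0 m) (Real.rpow_nonneg (Nat.cast_nonneg m) _)) m
  have h1 : ∑ x ∈ V, x * (((Nat.card (C x) : ℝ) / n - ε) * Real.log (1 / (s - 1))) ≤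
      δ * Real.log (1 / (s - 1)) :=
    (Finset.sum_le_sum fun x hx => mul_le_mul_of_nonneg_left (hs x hx) (hV0 x hx)).trans
      (key.trans hsum2)
  rw [show ∑ x ∈ V, x * (((Nat.card (C x) : ℝ) / n - ε) * Real.log (1 / (s - 1))) =
      (S - W * ε) * Real.log (1 / (s - 1)) by
    simp only [S, W, sub_mul, Finset.sum_mul, ← Finset.sum_sub_distrib]
    exact Finset.sum_congr rfl fun x _ => by ring] at h1
  have h2 := le_of_mul_le_mul_right h1 hL
  have h3 : W * ε ≤ e := by
    rw [mul_div_assoc', div_le_iff₀ (by linarith)]; nlinarith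
  linarith

end

/-- Averages over the image of a representation of finite level. -/
theorem average_range_le {H : Type} [Group H] (ρ : GQ →* H) (hρ : GaloisFactorsThroughFiniteLevel ρ) :
    Finite ρ.range ∧ ∀ [Fintype ρ.range] (v : ρ.range → ℝ), (∀ g, 0 ≤ v g) →
      (∀ g τ, v (τ * g * τ⁻¹) = v g) → ∀ (good : Set ℕ) (bad : Finset ℕ),
      (∀ p : ℕ, p.Prime → p ∉ bad → p ∈ good) → ∀ b : ℕ → ℝ, (∀ n, 0 ≤ b n) →
      (∀ p : ℕ, p.Prime → p ∉ bad → ∀ A : ValuationSubring ℚb, A.LiesOverPrime p →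
        ∀ σ : GQ, A.IsFrobeniusAt σ p → v (ρ.rangeRestrict σ) ≤ b p) → ∀ δ : ℝ,
      (∀ᶠ s in 𝓝[>] (1 : ℝ), Summable (good.indicator fun n => b n * (n : ℝ) ^ (-s)) ∧
        ∑' n, good.indicator (fun n => b n * (n : ℝ) ^ (-s)) n ≤ δ * Real.log (1 / (s - 1))) →
      (∑ g, v g) ≤ δ * Nat.card ρ.range := by
  classical
  obtain ⟨L, hL, hρL⟩ := hρ
  obtain ⟨F, _, _, π, hπ⟩ := exists_finite_galois (ρ := ρ.rangeRestrict)
    ⟨L, hL, fun σ hσ => Subtype.ext (hρL σ hσ)⟩
  have hsurj : Function.Surjective π := fun g => by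
    obtain ⟨σ, hσ⟩ := ρ.rangeRestrict_surjective g
    exact ⟨resTo F σ, by rw [← hπ, hσ]⟩
  refine ⟨Finite.of_surjective π hsurj, ?_⟩
  intro _ v hv0 hvc good bad hbad b hb0 hdom δ hsum
  have h := average_le F (fun c => v (π c)) (fun c => hv0 _)
    (fun c τ => by rw [map_mul, map_mul, map_inv, hvc]) good bad hbad b hb0
    (fun p hp hpb A hA σ hσ => by rw [← hπ]; exact hdom p hp hpb A hA σ hσ) hsum
  have h2 := sum_comp_range π v
  have hr : π.range = ⊤ := MonoidHom.range_eq_top.2 hsurj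
  rw [show ∑ g : π.range, v g = ∑ g, v g from
    Fintype.sum_equiv (Equiv.subtypeUnivEquiv fun g => hr ▸ Subgroup.mem_top g) _ _ fun _ => rfl,
    hr, Subgroup.card_top] at h2
  rw [div_le_iff₀ (Nat.cast_pos.2 Nat.card_pos)] at h
  refine le_of_mul_le_mul_left ?_ (show (0 : ℝ) < Nat.card (F ≃ₐ[ℚ] F) from Nat.cast_pos.2 Nat.card_pos)
  rw [← h2]
  calc (Nat.card ρ.range : ℝ) * ∑ c, v (π c) ≤ Nat.card ρ.range * (δ * Nat.card (F ≃ₐ[ℚ] F)) :=
        mul_le_mul_of_nonneg_left h (Nat.cast_nonneg _)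
    _ = _ := by ring

end Fermat.Agent.DS
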