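import Fermat.Agent.DS.GroupBound

/-!
The lemma of Deligne and Serre over an algebraically closed field of characteristic `ℓ`: a
semisimple finite group of matrices in which three quarters of the elements have few
characteristic polynomials is small.
-/

set_option autoImplicit false

noncomputable section

open Matrix OnePoint MulAction

namespace Fermat.Agent.DS

variable {K : Type*} [Field K]

/-- Outside the stabiliser of the fixed line of a transvection the traces in a coset are
distinct, and the stabiliser is small. -/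
theorem mul_ncard_trace_mem_le {ℓ : ℕ} [CharP K ℓ] {Γ : Type*} [Group Γ] [Finite Γ]
    (ρ : Γ →* GL (Fin 2) K) (u g₀ : Γ) (hu : (ρ u).val = !![1, 1; 0, 1])
    (hg₀ : (ρ g₀).val 1 0 ≠ 0) (T : Finset K) (H : Set Γ)
    (hT : ∀ g ∈ H, (ρ g).val.trace ∈ T) : ℓ * H.ncard ≤ (T.card + 1) * Nat.card Γ := by
  classical
  cases nonempty_fintype Γ
  have hpow : ∀ i : ℕ, (ρ (u ^ i)).val = !![1, (i : K); 0, 1] := by
    intro i
    induction i with
    | zero => simp [one_fin_two]
    | succ i ih =>
      rw [pow_succ, map_mul, Units.val_mul, ih, hu]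
      ext a b
      fin_cases a <;> fin_cases b <;> simp [Matrix.mul_apply, Fin.sum_univ_two, add_comm]
  have hcast : ∀ i j : Fin ℓ, ((i : ℕ) : K) = ((j : ℕ) : K) → i = j := fun i j h =>
    Fin.ext (CharP.natCast_injOn_Iio K ℓ i.2 j.2 h)
  set Z : Finset Γ := Finset.univ.filter fun g => (ρ g).val 1 0 = 0
  have hZ : ℓ * Z.card ≤ Nat.card Γ := by
    have hinj : Function.Injective fun p : Fin ℓ × Z => u ^ (p.1 : ℕ) * g₀ * (p.2 : Γ) := by
      rintro ⟨i, z, hz⟩ ⟨j, z', hz'⟩ h
      simp only [Z, Finset.mem_filter] at hz hz'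
      have h10 := congrArg (fun g => (ρ g).val 1 0) h
      have h00 := congrArg (fun g => (ρ g).val 0 0) h
      simp only [map_mul, Units.val_mul, hpow] at h10 h00
      simp [Matrix.mul_apply, Matrix.vecMul, dotProduct, Fin.sum_univ_two, hz.2, hz'.2] at h10 h00
      have hz0 : (ρ z).val 0 0 ≠ 0 := fun h0 => (ρ z).det_ne_zero (by
        rw [Matrix.det_fin_two, hz.2, h0]; ring)
      have he : (ρ z).val 0 0 = (ρ z').val 0 0 := (mul_left_cancel₀ hg₀ (by simpa [hg₀] using h10))
      rw [← he] at h00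
      have hij : i = j := hcast i j (mul_right_cancel₀ hg₀
        (add_left_cancel (mul_right_cancel₀ hz0 h00)))
      subst hij
      exact Prod.ext rfl (Subtype.ext (mul_left_cancel h))
    have := Nat.card_le_card_of_injective _ hinj
    simpa using this
  have hfib : ∀ t ∈ T,
      ℓ * (H.toFinset.filter fun g => (ρ g).val 1 0 ≠ 0 ∧ (ρ g).val.trace = t).card ≤
        Nat.card Γ := by
    intro t _
    set F := H.toFinset.filter fun g => (ρ g).val 1 0 ≠ 0 ∧ (ρ g).val.trace = t
    have htr : ∀ (g : Γ) (i : ℕ),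
        (ρ (g * u ^ i)).val.trace = (ρ g).val.trace + i * (ρ g).val 1 0 := fun g i => by
      rw [map_mul, Units.val_mul, hpow, Matrix.trace_fin_two, Matrix.trace_fin_two]
      simp [Matrix.mul_apply, Fin.sum_univ_two]
      ring
    have hinj : Function.Injective fun p : Fin ℓ × F => (p.2 : Γ) * u ^ (p.1 : ℕ) := by
      rintro ⟨i, g, hg⟩ ⟨j, g', hg'⟩ h
      simp only [F, Finset.mem_filter] at hg hg'
      have h10 := congrArg (fun x => (ρ x).val 1 0) h
      simp only [map_mul, Units.val_mul, hpow] at h10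
      simp [Matrix.mul_apply, Fin.sum_univ_two] at h10
      have h1 := congrArg (fun x => (ρ x).val.trace) h
      simp only [htr, hg.2.2, hg'.2.2, ← h10] at h1
      have hij : i = j := hcast i j (mul_right_cancel₀ hg.2.1 (add_left_cancel h1))
      subst hij
      exact Prod.ext rfl (Subtype.ext (mul_right_cancel h))
    have := Nat.card_le_card_of_injective _ hinj
    simpa using this
  have hsub : H.toFinset ⊆ Z ∪ T.biUnion fun t =>
      H.toFinset.filter fun g => (ρ g).val 1 0 ≠ 0 ∧ (ρ g).val.trace = t := by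
    intro g hg
    by_cases h : (ρ g).val 1 0 = 0
    · exact Finset.mem_union_left _ (by simp [Z, h])
    · exact Finset.mem_union_right _ (Finset.mem_biUnion.2
        ⟨_, hT g (by simpa using hg), Finset.mem_filter.2 ⟨hg, h, rfl⟩⟩)
  rw [Set.ncard_eq_toFinset_card' H]
  refine (Nat.mul_le_mul_left ℓ ((Finset.card_le_card hsub).trans ((Finset.card_union_le _ _).trans
    (Nat.add_le_add_left Finset.card_biUnion_le _)))).trans ?_
  rw [mul_add, Finset.mul_sum, add_mul, one_mul, add_comm (T.card * _)]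
  exact Nat.add_le_add hZ ((Finset.sum_le_card_nsmul _ _ _ hfib).trans_eq (smul_eq_mul _ _))

/-- An irreducible group, or one with two stable lines. -/
def IsSplitOrIrred (G : Subgroup (GL (Fin 2) K)) : Prop :=
  (∀ v : Fin 2 → K, v ≠ 0 → ∃ g ∈ G, ∀ c : K, g.val *ᵥ v ≠ c • v) ∨
    (∀ g ∈ G, g.val 0 1 = 0 ∧ g.val 1 0 = 0)

variable {ℓ : ℕ} [Fact ℓ.Prime] [CharP K ℓ]

theorem not_dvd_card_of_diagonal (G : Subgroup (GL (Fin 2) K)) [Finite G]
    (hG : ∀ g ∈ G, g.val 0 1 = 0 ∧ g.val 1 0 = 0) : ¬ ℓ ∣ Nat.card G := by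
  intro hdvd
  obtain ⟨⟨u, huG⟩, hu⟩ := exists_prime_orderOf_dvd_card' ℓ hdvd
  have hu1 : u ^ ℓ = 1 := by
    have := pow_orderOf_eq_one (⟨u, huG⟩ : G)
    rw [hu] at this
    exact congrArg Subtype.val this
  obtain ⟨h01, h10⟩ := hG u huG
  have hd : u.val = Matrix.diagonal fun i => u.val i i := by
    ext i j
    fin_cases i <;> fin_cases j <;> simp [h01, h10]
  have h1 : ∀ i, u.val i i = 1 := by
    intro i
    refine frobenius_inj K ℓ ?_
    have h := congrArg (fun g : GL (Fin 2) K => g.val) hu1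
    simp only [Units.val_pow_eq_pow_val, Units.val_one] at h
    rw [hd, Matrix.diagonal_pow] at h
    have := congrArg (fun X : Matrix (Fin 2) (Fin 2) K => X i i) h
    simpa [frobenius_def] using this
  have : u = 1 := Units.ext (by rw [hd, Units.val_one, ← Matrix.diagonal_one]; simp [h1])
  have : orderOf (⟨u, huG⟩ : G) = 1 := orderOf_eq_one_iff.2 (Subtype.ext this)
  rw [hu] at this
  exact (Fact.out : ℓ.Prime).ne_one this

theorem not_dvd_card_of_few_traces [IsAlgClosed K] (G : Subgroup (GL (Fin 2) K)) [Finite G]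
    (hss : IsSplitOrIrred G) (M : ℕ) (hℓ : 4 * M + 5 ≤ 3 * ℓ) (H : Set G)
    (hH : 3 * Nat.card G ≤ 4 * H.ncard) (T : Finset K) (hTM : T.card ≤ M)
    (hT : ∀ h ∈ H, (h : GL (Fin 2) K).val.trace ∈ T) : ¬ ℓ ∣ Nat.card G := by
  classical
  rcases hss with hirr | hdiag
  swap
  · exact not_dvd_card_of_diagonal G hdiag
  intro hdvd
  obtain ⟨u, hu⟩ := exists_prime_orderOf_dvd_card' ℓ hdvd
  have hu1 : (u : GL (Fin 2) K) ^ ℓ = 1 := by
    have := pow_orderOf_eq_one u
    rw [hu] at this
    exact_mod_cast congrArg Subtype.val this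
  set N := (u : GL (Fin 2) K).val - 1 with hN
  have hpow : N ^ ℓ = 0 := by
    rw [hN, sub_pow_char_of_commute _ (Commute.one_right _), one_pow, ← Units.val_pow_eq_pow_val,
      hu1, Units.val_one, sub_self]
  have hN0 : N ≠ 0 := fun h0 => by
    have : u = 1 := Subtype.ext (Units.ext (sub_eq_zero.mp h0))
    rw [this, orderOf_one] at hu
    exact (Fact.out : ℓ.Prime).ne_one hu.symm
  have hsq : N * N = 0 := by
    have hnil : IsNilpotent N := ⟨ℓ, hpow⟩
    have hch := Matrix.isNilpotent_charpoly_sub_pow_of_isNilpotent hnil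
    have h := Matrix.aeval_self_charpoly N
    rw [sub_eq_zero.mp hch.eq_zero] at h
    simpa [Fintype.card_fin, sq] using h
  obtain ⟨w, hw⟩ : ∃ w, N *ᵥ w ≠ 0 := by
    by_contra h
    push Not at h
    exact hN0 (Matrix.ext_of_mulVec_single fun i => by rw [h, zero_mulVec])
  set v := N *ᵥ w
  have hNv : N *ᵥ v = 0 := by rw [mulVec_mulVec, hsq, zero_mulVec]
  set P : Matrix (Fin 2) (Fin 2) K := !![v 0, w 0; v 1, w 1]
  have hP : P.det ≠ 0 := by
    intro h0
    obtain ⟨x, hx, hx0⟩ := Matrix.exists_mulVec_eq_zero_iff.mpr h0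
    have he : x 0 • v + x 1 • w = 0 := by
      rw [← hx0]
      ext i
      fin_cases i <;> simp [P, mulVec, dotProduct, Fin.sum_univ_two] <;> ring
    have h1 := congrArg (fun z => N *ᵥ z) he
    simp only [mulVec_add, mulVec_smul, hNv, smul_zero, zero_add, mulVec_zero] at h1
    have hx1 : x 1 = 0 := (smul_eq_zero.mp h1).resolve_right hw
    rw [hx1, zero_smul, add_zero] at he
    exact hx (funext fun i => by
      fin_cases i
      · exact (smul_eq_zero.mp he).resolve_right hw
      · exact hx1)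
  let P' : GL (Fin 2) K := Matrix.GeneralLinearGroup.mkOfDetNeZero P hP
  have hP' : P'.val = P := rfl
  have hNP : (u : GL (Fin 2) K).val * P = P * !![1, 1; 0, 1] := by
    have h1 : (u : GL (Fin 2) K).val = 1 + N := by rw [hN]; abel
    rw [h1, add_mul, one_mul]
    ext i j
    have e0 := congrFun hNv i
    have e1 : v i = (N *ᵥ w) i := rfl
    simp only [mulVec, dotProduct, Fin.sum_univ_two, Pi.zero_apply] at e0 e1
    fin_cases i <;> fin_cases j <;>
      simp [P, Matrix.mul_apply, Fin.sum_univ_two] at e0 e1 ⊢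
    all_goals first
      | linear_combination e0
      | linear_combination -e1
  let ρ : G →* GL (Fin 2) K := (MulAut.conj P'⁻¹).toMonoidHom.comp G.subtype
  have hρ : ∀ g : G, (ρ g).val = P'⁻¹.val * (g : GL (Fin 2) K).val * P'.val := fun g => by simp [ρ]
  have hρu : (ρ u).val = !![1, 1; 0, 1] := by
    rw [hρ, Matrix.mul_assoc, hP', hNP, ← hP', ← Matrix.mul_assoc, ← Units.val_mul, inv_mul_cancel,
      Units.val_one, one_mul]
  obtain ⟨g₀, hg₀, hg₀v⟩ := hirr v hw
  have hg₀' : (ρ ⟨g₀, hg₀⟩).val 1 0 ≠ 0 := by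
    intro h0
    refine hg₀v ((ρ ⟨g₀, hg₀⟩).val 0 0) ?_
    have h : g₀.val * P = P * (ρ ⟨g₀, hg₀⟩).val := by
      rw [hρ, ← hP', Matrix.mul_assoc P'⁻¹.val, Units.mul_inv_cancel_left]
    ext i
    have := congrArg (fun X : Matrix (Fin 2) (Fin 2) K => X i 0) h
    fin_cases i <;>
      simp [P, Matrix.mul_apply, Fin.sum_univ_two, h0] at this <;>
      simp [mulVec, dotProduct, Fin.sum_univ_two] <;> linear_combination this
  have hle := mul_ncard_trace_mem_le (ℓ := ℓ) ρ u ⟨g₀, hg₀⟩ hρu hg₀' T H fun g hg => by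
    rw [hρ, Matrix.trace_units_conj']
    exact hT g hg
  have hpos : 0 < Nat.card G := Nat.card_pos
  have h1 : 3 * ℓ * Nat.card G ≤ 4 * (M + 1) * Nat.card G :=
    calc 3 * ℓ * Nat.card G = ℓ * (3 * Nat.card G) := by ring
      _ ≤ ℓ * (4 * H.ncard) := Nat.mul_le_mul_left _ hH
      _ = 4 * (ℓ * H.ncard) := by ring
      _ ≤ 4 * ((T.card + 1) * Nat.card G) := Nat.mul_le_mul_left _ hle
      _ ≤ _ := by rw [mul_assoc]; gcongr
  have := Nat.le_of_mul_le_mul_right h1 hpos
  omega

/-- The lemma of Deligne and Serre. -/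
theorem card_le_of_few_charpolys_field [IsAlgClosed K] (G : Subgroup (GL (Fin 2) K)) [Finite G]
    (hss : IsSplitOrIrred G) (M : ℕ) (hℓ : 4 * M + 5 ≤ 3 * ℓ) (H : Set G)
    (hH : 3 * Nat.card G ≤ 4 * H.ncard) (P : Finset (K × K)) (hPM : P.card ≤ M)
    (hP : ∀ h ∈ H, trDet (h : GL (Fin 2) K) ∈ P) :
    Nat.card G ≤ 160 * M ∧ ¬ ℓ ∣ Nat.card G := by
  classical
  have hprime : ¬ ℓ ∣ Nat.card G :=
    not_dvd_card_of_few_traces G hss M hℓ H hH (P.image Prod.fst)
      (Finset.card_image_le.trans hPM) fun h hh => Finset.mem_image.2 ⟨_, hP h hh, rfl⟩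
  refine ⟨?_, hprime⟩
  have hK : (Nat.card G : K) ≠ 0 := by rwa [Ne, CharP.cast_eq_zero_iff K ℓ]
  haveI : Fintype G := Fintype.ofFinite _
  rcases small_or_exists_orbit G hK with hidx | ⟨x, hx⟩
  · haveI : Fintype (G ⧸ scalarSubgroup G) := Fintype.ofFinite _
    have h2 : H.ncard ≤ 2 * (P.card * 60) := by
      rw [Set.ncard_eq_toFinset_card' H]
      refine (Finset.card_le_mul_card_image
        (f := fun g : G => (trDet (g : GL (Fin 2) K), (QuotientGroup.mk g : G ⧸ scalarSubgroup G)))
        H.toFinset 2 fun td _ => ?_).trans (Nat.mul_le_mul_left _ ?_)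
      · refine le_trans ?_ (card_fibre_scalar_le G td.2 td.1)
        rw [← Set.ncard_coe_finset]
        refine Set.ncard_le_ncard (fun g hg => ?_) (Set.toFinite _)
        simp only [Finset.coe_filter, Set.mem_setOf_eq] at hg
        exact ⟨congrArg Prod.snd hg.2, congrArg Prod.fst hg.2⟩
      · refine le_trans (Finset.card_le_card (t := P ×ˢ Finset.univ) fun td htd => ?_) ?_
        · obtain ⟨g, hg, rfl⟩ := Finset.mem_image.mp htd
          exact Finset.mem_product.mpr ⟨hP g (Set.mem_toFinset.mp hg), Finset.mem_univ _⟩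
        · rw [Finset.card_product, Finset.card_univ, ← Nat.card_eq_fintype_card]
          exact Nat.mul_le_mul_left _ hidx
    omega
  · set A := MulAction.stabilizer G x
    have h2 : (H ∩ (A : Set G)).ncard ≤ 2 * P.card := by
      rw [Set.ncard_eq_toFinset_card' (H ∩ (A : Set G))]
      refine (Finset.card_le_mul_card_image (f := fun g : G => trDet (g : GL (Fin 2) K))
        (H ∩ (A : Set G)).toFinset 2 fun td _ => ?_).trans
        (Nat.mul_le_mul_left _ (Finset.card_le_card ?_))
      · refine le_trans ?_ (card_fibre_stabilizer_le G hK x td)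
        rw [← Set.ncard_coe_finset]
        refine Set.ncard_le_ncard (fun g hg => ?_) (Set.toFinite _)
        simp only [Finset.coe_filter, Set.mem_setOf_eq, Set.mem_toFinset] at hg
        exact ⟨MulAction.mem_stabilizer_iff.mp hg.1.2, hg.2⟩
      · intro td htd
        obtain ⟨g, hg, rfl⟩ := Finset.mem_image.mp htd
        exact hP g (Set.mem_toFinset.mp hg).1
    have h3 := Set.ncard_inter_add_ncard_diff_eq_ncard H (A : Set G) (Set.toFinite _)
    have h4 : (H \ A).ncard ≤ Nat.card G - Nat.card A := by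
      refine (Set.ncard_le_ncard (t := (A : Set G)ᶜ) (fun g hg => hg.2) (Set.toFinite _)).trans
        (le_of_eq ?_)
      rw [Set.ncard_compl, ← Nat.card_coe_set_eq]
      rfl
    have h5 := A.card_mul_index
    have h6 : Nat.card G ≤ Nat.card A * 2 := h5 ▸ Nat.mul_le_mul_left _ hx
    omega

end Fermat.Agent.DS
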