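import Fermat.Agent.DS.WpDeriv
import Fermat.Agent.GalRep.Model.DivSeries
import Fermat.Agent.GalRep.Level.Series

/-!
The auxiliary forms of weight one attached to a prime `ℓ ≥ 5`: the quotient of `℘'` by a
difference of values of `℘` at division points. They have no zeros in the upper half plane and
their expansions at infinity are integral with unit constant term.
-/

set_option autoImplicit false
set_option maxHeartbeats 800000

noncomputable section

namespace Fermat.Agent.DS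

open UpperHalfPlane Filter Topology
open Fermat.Agent.GalRep Fermat.Agent.GalRep.Model Fermat.Agent.GalRep.Level
open scoped MatrixGroups Manifold

variable {ℓ : ℕ}

/-- The doubled vector. -/
def dbl (u : ℤ × ℤ) : ℤ × ℤ := (2 * u.1, 2 * u.2)

/-- The quotient of `℘'` by the difference at the doubled point. -/
def eRaw (ℓ : ℕ) (u : ℤ × ℤ) (τ : ℍ) : ℂ := wpDeriv ℓ u τ / wpDiff ℓ u (dbl u) τ

theorem rowMul_dbl (u : ℤ × ℤ) (g : SL(2, ℤ)) : rowMul (dbl u) g = dbl (rowMul u g) := by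
  simp only [rowMul, dbl]; ext <;> dsimp <;> ring

/-- The series of a quotient. -/
theorem hasQSeries_quot {w : ℕ} (hw : 0 < w) {F P R : ℍ → ℂ} {p q r : PowerSeries ℂ}
    (hF : MDifferentiable 𝓘(ℂ) 𝓘(ℂ) F) (hper : ∀ τ : ℍ, F ((w : ℝ) +ᵥ τ) = F τ)
    (hPR : ∀ τ, P τ = F τ * R τ) (hp : p = q * r)
    (hP : HasQSeries w P (HahnSeries.ofPowerSeries ℤ ℂ p))
    (hR : HasQSeries w R (HahnSeries.ofPowerSeries ℤ ℂ r)) (hr : r ≠ 0) :
    HasQSeries w F (HahnSeries.ofPowerSeries ℤ ℂ q) := by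
  have h0 : HahnSeries.ofPowerSeries ℤ ℂ r ≠ 0 :=
    (map_ne_zero_iff _ HahnSeries.ofPowerSeries_injective).2 hr
  have h := hasQSeries_div hw hF hper (hP.congr (.of_forall hPR)) hR h0
  rw [hp, map_mul, mul_div_cancel_right₀ _ h0] at h
  exact h

section Prime

variable [Fact ℓ.Prime] (h5 : 5 ≤ ℓ)

include h5

theorem dvd_of_dvd_const_mul {a : ℕ} (ha : 0 < a) (ha' : a < 5) {x : ℤ}
    (h : (ℓ : ℤ) ∣ (a : ℤ) * x) : (ℓ : ℤ) ∣ x := by
  refine ((Nat.prime_iff_prime_int.1 Fact.out).dvd_or_dvd h).resolve_left fun h' => ?_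
  have := Nat.le_of_dvd ha (Int.natCast_dvd_natCast.1 h')
  omega

theorem nz_dbl {u : ℤ × ℤ} (hu : NZ ℓ u) : NZ ℓ (dbl u) := fun h =>
  hu ⟨dvd_of_dvd_const_mul h5 two_pos (by norm_num) h.1,
    dvd_of_dvd_const_mul h5 two_pos (by norm_num) h.2⟩

theorem not_pm_dbl {u : ℤ × ℤ} (hu : NZ ℓ u) : ¬ PM ℓ u (dbl u) := by
  rintro (⟨h1, h2⟩ | ⟨h1, h2⟩)
  · simp only [dbl] at h1 h2
    rw [show u.1 - 2 * u.1 = -u.1 by ring, dvd_neg] at h1
    rw [show u.2 - 2 * u.2 = -u.2 by ring, dvd_neg] at h2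
    exact hu ⟨h1, h2⟩
  · simp only [dbl] at h1 h2
    rw [show u.1 + 2 * u.1 = ((3 : ℕ) : ℤ) * u.1 by push_cast; ring] at h1
    rw [show u.2 + 2 * u.2 = ((3 : ℕ) : ℤ) * u.2 by push_cast; ring] at h2
    exact hu ⟨dvd_of_dvd_const_mul h5 three_pos (by norm_num) h1,
      dvd_of_dvd_const_mul h5 three_pos (by norm_num) h2⟩

theorem den_ne_zero {u : ℤ × ℤ} (hu : NZ ℓ u) (τ : ℍ) : wpDiff ℓ u (dbl u) τ ≠ 0 :=
  wpDiff_ne_zero hu (nz_dbl h5 hu) (not_pm_dbl h5 hu) τ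

theorem eRaw_smul (u : ℤ × ℤ) (g : SL(2, ℤ)) (τ : ℍ) :
    eRaw ℓ u (g • τ) = ((g 1 0 : ℂ) * τ + g 1 1) * eRaw ℓ (rowMul u g) τ := by
  have hj0 : (g 1 0 : ℂ) * τ + g 1 1 ≠ 0 := by
    have := denom_ne_zero (g : GL (Fin 2) ℝ) τ
    rw [ModularGroup.denom_apply] at this
    exact this
  rw [eRaw, eRaw, wpDeriv_smul, wpDiff_smul, rowMul_dbl, mul_div_mul_comm]
  congr 1
  field_simp

theorem eRaw_congr {u u' : ℤ × ℤ} (h1 : (ℓ : ℤ) ∣ u.1 - u'.1) (h2 : (ℓ : ℤ) ∣ u.2 - u'.2) :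
    eRaw ℓ u = eRaw ℓ u' := by
  funext τ
  rw [eRaw, eRaw, wpDeriv_congr h1 h2, wpDiff_congr (u' := u') (t' := dbl u') (Or.inl ⟨h1, h2⟩)
    (Or.inl ⟨by simpa [dbl, ← mul_sub] using h1.mul_left 2,
      by simpa [dbl, ← mul_sub] using h2.mul_left 2⟩)]

theorem mdifferentiable_eRaw {u : ℤ × ℤ} (hu : NZ ℓ u) :
    MDifferentiable 𝓘(ℂ) 𝓘(ℂ) (eRaw ℓ u) := by
  have h1 := UpperHalfPlane.mdifferentiable_iff.1 (mdifferentiable_wpDeriv hu)
  have h2 := UpperHalfPlane.mdifferentiable_iff.1 (mdifferentiable_wpDiff hu (nz_dbl h5 hu))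
  exact UpperHalfPlane.mdifferentiable_iff.2 (h1.div h2 fun z _ => den_ne_zero h5 hu _)

/-- `℘'` vanishes only at half periods. -/
theorem eRaw_ne_zero {u : ℤ × ℤ} (hu : NZ ℓ u) (τ : ℍ) : eRaw ℓ u τ ≠ 0 := by
  refine div_ne_zero (div_ne_zero (fun h0 => ?_) (pow_ne_zero 3 Complex.two_pi_I_ne_zero))
    (den_ne_zero h5 hu τ)
  set L := tauPair τ
  set z := divPt ℓ u τ
  have hout : ∀ v : ℤ × ℤ, NZ ℓ v → divPt ℓ v τ ∉ L.lattice := fun v hv hm => by
    obtain ⟨c, d, hcd⟩ := (mem_lattice_iff τ _).mp hm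
    exact divPt_sub_ne_int hv τ c d (by rw [hcd]; ring)
  have hz : z ∉ L.lattice := hout u hu
  have hz' : -z ∉ L.lattice := fun h => hz (by simpa using L.lattice.neg_mem h)
  have h := sub_mem_of_wp_eq L hz hz' (L.weierstrassP_neg z).symm
    (by rw [L.derivWeierstrassP_neg]; simp only [L, z] at h0 ⊢; rw [h0, neg_zero])
  refine hout (dbl u) (nz_dbl h5 hu) ?_
  rwa [show divPt ℓ (dbl u) τ = z - -z by simp only [z, divPt, dbl]; push_cast; ring]

omit h5 in
theorem coeff_dSer_of_lt {R : Type*} [Field R] (z : R) {u : ℤ × ℤ} {n : ℕ}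
    (hn : n < absRes ℓ u.1) : PowerSeries.coeff n (dSer ℓ z u) = 0 := by
  rw [dSer, PowerSeries.coeff_mk]
  split_ifs with h0 hd
  · exact absurd (absRes_eq_zero_iff.mpr hd) (by omega)
  · rfl
  · refine Finset.sum_eq_zero fun k _ => ?_
    have hle : n / k ≤ n := Nat.div_le_self _ _
    have hα := (absRes_spec (M := ℓ) u.1).1
    have hne : ∀ (_ : (ℓ : ℤ) ∣ u.1 - (n / k : ℕ) ∨ (ℓ : ℤ) ∣ u.1 + (n / k : ℕ)), False :=
      fun h => by
        have := absRes_unique (by omega) h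
        omega
    rw [if_neg (fun h => hne (Or.inl (by simpa using dvd_neg.mpr h))),
      if_neg (fun h => hne (Or.inr (by rwa [add_comm]))), sub_zero, mul_zero]

/-- The cyclotomic datum over `ℂ`. -/
def cycComplex : Cyc ℂ ℓ where
  φ := RingHom.id ℂ
  inj := fun _ _ h => h
  ζ := zetaC ℓ
  map_ζ := rfl
  unit := isUnit_iff_ne_zero.2 (Nat.cast_ne_zero.2 (NeZero.ne ℓ))

/-- The series of the quotient. -/
theorem exists_eSer {u : ℤ × ℤ} (hu : NZ ℓ u) : ∃ Q : PowerSeries ℂ,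
    dSer ℓ (zetaC ℓ) u = Q * (pSer ℓ (zetaC ℓ) u - pSer ℓ (zetaC ℓ) (dbl u)) ∧
    HasQSeries ℓ (eRaw ℓ u) (HahnSeries.ofPowerSeries ℤ ℂ Q) := by
  set C : Cyc ℂ ℓ := cycComplex
  obtain ⟨U, hU⟩ := exists_lead C hu (nz_dbl h5 hu) (not_pm_dbl h5 hu)
  set μ := min (absRes ℓ u.1) (absRes ℓ (dbl u).1)
  have hD : pSer ℓ (zetaC ℓ) u - pSer ℓ (zetaC ℓ) (dbl u) =
      PowerSeries.X ^ μ * (U : PowerSeries ℂ) := by
    rw [← map_pO C, ← map_pO C, ← map_sub, hU]
    simp [C, cycComplex, PowerSeries.map_id]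
  obtain ⟨V, hV⟩ : (PowerSeries.X : PowerSeries ℂ) ^ μ ∣ dSer ℓ (zetaC ℓ) u :=
    PowerSeries.X_pow_dvd_iff.mpr fun n hn => coeff_dSer_of_lt _ (by omega)
  have hQ : dSer ℓ (zetaC ℓ) u = V * ↑U⁻¹ * (pSer ℓ (zetaC ℓ) u - pSer ℓ (zetaC ℓ) (dbl u)) := by
    rw [hD, hV, mul_assoc, mul_left_comm (↑U⁻¹ : PowerSeries ℂ), Units.inv_mul, mul_one, mul_comm]
  refine ⟨_, hQ, ?_⟩
  -- the series of `eRaw`
  have hper : ∀ τ : ℍ, eRaw ℓ u ((ℓ : ℝ) +ᵥ τ) = eRaw ℓ u τ := fun τ => by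
    have h := eRaw_smul h5 u (ModularGroup.T ^ (ℓ : ℤ)) τ
    rw [modular_T_zpow_smul, ModularGroup.coe_T_zpow] at h
    simp only [Int.cast_natCast] at h
    rw [h, eRaw_congr h5 (u := rowMul u (ModularGroup.T ^ (ℓ : ℤ))) (u' := u)]
    · simp
    · simp [rowMul, ModularGroup.coe_T_zpow, -zpow_natCast]
    · simp [rowMul, ModularGroup.coe_T_zpow, -zpow_natCast]
  refine hasQSeries_quot (NeZero.pos ℓ) (mdifferentiable_eRaw h5 hu) hper
    (fun τ => (div_mul_cancel₀ _ (den_ne_zero h5 hu τ)).symm) hQ (hasQSeries_wpDeriv hu)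
    (hasQSeries_wpDiff hu (nz_dbl h5 hu)) ?_
  rw [hD]
  exact mul_ne_zero (pow_ne_zero _ PowerSeries.X_ne_zero) U.ne_zero

theorem exists_bound_eRaw {u : ℤ × ℤ} (hu : NZ ℓ u) :
    IsBoundedAtImInfty (eRaw ℓ u) := by
  obtain ⟨Q, -, hQ⟩ := exists_eSer h5 hu
  obtain ⟨C, hC⟩ := hQ.growth (NeZero.pos ℓ) (m₀ := 0) fun m hm => by
    rw [HahnSeries.ofPowerSeries_apply, HahnSeries.embDomain_of_notMem_range]
    rintro ⟨k, hk⟩
    simp at hk
    omega
  refine Asymptotics.IsBigO.of_bound C ?_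
  filter_upwards [hC] with τ hτ
  simpa using hτ

end Prime

/-! ## The series for a vertical point -/

theorem dSer_map {R S : Type*} [Field R] [Field S] (φ : R →+* S) (z : R) (u : ℤ × ℤ) :
    PowerSeries.map φ (dSer ℓ z u) = dSer ℓ (φ z) u := by
  ext n
  rw [PowerSeries.coeff_map, dSer, dSer, PowerSeries.coeff_mk, PowerSeries.coeff_mk]
  by_cases hn : n = 0
  · rw [if_pos hn, if_pos hn]
    split_ifs <;> simp
  · rw [if_neg hn, if_neg hn, map_sum]
    refine Finset.sum_congr rfl fun k _ => ?_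
    simp only [map_mul, map_pow, map_natCast, map_sub]
    congr 2 <;> (split_ifs <;> simp)

theorem dSer_pow {R : Type*} [Field R] (z : R) (a : ℕ) (u : ℤ × ℤ) :
    dSer ℓ (z ^ a) u = dSer ℓ z (u.1, (a : ℤ) * u.2) := by
  have h : ∀ x : ℤ, (z ^ a) ^ x = z ^ ((a : ℤ) * x) := fun x => by
    rw [← zpow_natCast z a, ← zpow_mul]
  ext n
  simp only [dSer, PowerSeries.coeff_mk, h, mul_neg, mul_assoc]

section Vertical

variable [Fact ℓ.Prime] (h5 : 5 ≤ ℓ)

include h5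

/-- `π · ℘' / (℘ - ℘)` at a vertical point has integral series with unit constant term, congruent to
a constant modulo any place over `ℓ`. -/
theorem exists_integral_eSer {K : Type*} [Field K] {z : K} (hz : IsPrimitiveRoot z ℓ)
    (A : ValuationSubring K) {a : ℕ} (ha : ¬ ℓ ∣ a) :
    ∃ Q : PowerSeries A, IsUnit (PowerSeries.constantCoeff Q) ∧
      PowerSeries.C (1 - z) * dSer ℓ z (0, (a : ℤ)) =
        Q.map A.subtype * (pSer ℓ z (0, (a : ℤ)) - pSer ℓ z (0, 2 * (a : ℤ))) ∧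
      ((ℓ : A) ∈ IsLocalRing.maximalIdeal A →
        (∀ n ≠ 0, PowerSeries.coeff n Q ∈ IsLocalRing.maximalIdeal A) ∧
        IsLocalRing.residue A (3 * a * PowerSeries.constantCoeff Q) = 8) := by
  have hℓ : ℓ.Prime := Fact.out
  have hzA : z ∈ A := by
    refine (A.valuation_le_one_iff _).mp (le_of_eq ?_)
    refine (pow_eq_one_iff.mp (?_ : A.valuation z ^ ℓ = 1)).resolve_right hℓ.ne_zero
    rw [← map_pow, hz.pow_eq_one, map_one]
  set w : A := ⟨z, hzA⟩ with hw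
  have hwprim : IsPrimitiveRoot w ℓ :=
    IsPrimitiveRoot.of_map_of_injective (f := A.subtype) hz A.subtype_injective
  set g : ℕ → A := fun j => ∑ i ∈ Finset.range j, w ^ i
  have hgu : ∀ j, ¬ ℓ ∣ j → IsUnit (g j) := fun j hj =>
    hwprim.geom_sum_isUnit hℓ.two_le ((Nat.Prime.coprime_iff_not_dvd hℓ).2 hj).symm
  have hga : ¬ ℓ ∣ a ∧ ¬ ℓ ∣ 2 * a ∧ ¬ ℓ ∣ 3 * a :=
    ⟨ha, fun h => (hℓ.dvd_mul.1 h).elim (fun h => by have := Nat.le_of_dvd two_pos h; omega) ha,
      fun h => (hℓ.dvd_mul.1 h).elim (fun h => by have := Nat.le_of_dvd three_pos h; omega) ha⟩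
  obtain ⟨G₁, hG₁⟩ := hgu a hga.1
  obtain ⟨G₂, hG₂⟩ := hgu (2 * a) hga.2.1
  obtain ⟨G₃, hG₃⟩ := hgu (3 * a) hga.2.2
  set p : A := 1 - w with hp
  have hgp : ∀ j, g j * p = 1 - w ^ j := fun j => geom_sum_mul_neg w j
  set e : A := w ^ a
  have hG21 : (G₂ : A) = G₁ * (1 + e) := by
    rw [hG₁, hG₂]
    simp only [g, two_mul, Finset.sum_range_add, pow_add, ← Finset.mul_sum]
    ring
  have hG31 : (G₃ : A) = G₁ * (1 + e + e * e) := by
    rw [hG₁, hG₃]
    simp only [g, show 3 * a = a + a + a by ring, Finset.sum_range_add, pow_add, ← Finset.mul_sum]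
    ring
  -- the scaled series over `A`
  let tN : ℕ → A := fun n => ∑ k ∈ n.divisors, (k : A) ^ 2 *
    (if ℓ ∣ n / k then (w ^ (a * k) - w ^ ((ℓ - 1) * a * k)) else 0)
  let tD : ℕ → A := fun n => ∑ k ∈ n.divisors, (k : A) *
    (if ℓ ∣ n / k then
      (w ^ (a * k) + w ^ ((ℓ - 1) * a * k)) - (w ^ (2 * a * k) + w ^ ((ℓ - 1) * (2 * a) * k)) else 0)
  let N' : PowerSeries A := PowerSeries.mk fun n =>
    if n = 0 then e * (1 + e) * ((G₁⁻¹ : Aˣ) : A) ^ 3 else p ^ 3 * tN n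
  let D' : PowerSeries A := PowerSeries.mk fun n =>
    if n = 0 then e * (1 + e + e * e) * ((G₂⁻¹ : Aˣ) : A) ^ 2 else p ^ 2 * tD n
  have hzinv : ∀ (b : ℕ), z ^ (-(b : ℤ)) = z ^ ((ℓ - 1) * b) := fun b => by
    have h : z ^ ((ℓ - 1) * b) * z ^ b = 1 := by
      rw [← pow_add, ← Nat.succ_mul, show (ℓ - 1).succ = ℓ from Nat.succ_pred_eq_of_pos hℓ.pos,
        pow_mul, hz.pow_eq_one, one_pow]
    rw [zpow_neg, zpow_natCast]
    exact inv_eq_of_mul_eq_one_left h
  have hne : ∀ j, ¬ ℓ ∣ j → (1 : K) - z ^ j ≠ 0 := fun j hj =>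
    sub_ne_zero.2 fun h => hj ((hz.pow_eq_one_iff_dvd j).1 h.symm)
  have hN : N'.map A.subtype = PowerSeries.C ((1 - z) ^ 3) * dSer ℓ z (0, (a : ℤ)) := by
    ext n
    rw [PowerSeries.coeff_map, PowerSeries.coeff_C_mul, PowerSeries.coeff_mk, dSer,
      PowerSeries.coeff_mk]
    split_ifs with hn hd
    · have h1 : (1 : K) - z ^ a = (G₁ : A) * (1 - z) := by
        rw [hG₁]
        exact (congrArg A.subtype (hgp a)).symm
      have hG₁0 : ((G₁ : A) : K) ≠ 0 := fun h => G₁.ne_zero (Subtype.ext h)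
      have hinv : (((G₁⁻¹ : Aˣ) : A) : K) = ((G₁ : A) : K)⁻¹ := eq_inv_of_mul_eq_one_left
        (congrArg A.subtype (Units.inv_mul G₁))
      simp only [map_mul, map_pow, map_add, map_one, e, zpow_natCast]
      show z ^ a * (1 + z ^ a) * ((((G₁⁻¹ : Aˣ) : A) : K)) ^ 3 = _
      rw [hinv, h1, mul_pow]
      have : (1 : K) - z ≠ 0 := by simpa using hne 1 (by simpa using hℓ.ne_one)
      field_simp
    · exact absurd (dvd_zero _) hd
    · simp only [map_mul, map_pow, map_sum, tN, map_natCast]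
      show (1 - z) ^ 3 * _ = (1 - z) ^ 3 * _
      congr 1
      refine Finset.sum_congr rfl fun k _ => ?_
      congr 1
      simp only [sub_zero, add_zero, Int.natCast_dvd_natCast]
      split_ifs
      · rw [map_sub, map_pow, map_pow]
        show z ^ (a * k) - z ^ ((ℓ - 1) * a * k) = _
        rw [show ((a : ℤ) * (k : ℕ)) = ((a * k : ℕ) : ℤ) by push_cast; ring, zpow_natCast, hzinv,
          mul_assoc]
      · simp
  have hD : D'.map A.subtype = PowerSeries.C ((1 - z) ^ 2) *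
      (pSer ℓ z (0, (a : ℤ)) - pSer ℓ z (0, 2 * (a : ℤ))) := by
    ext n
    rw [PowerSeries.coeff_map, PowerSeries.coeff_C_mul, map_sub, PowerSeries.coeff_mk, pSer, pSer,
      PowerSeries.coeff_mk, PowerSeries.coeff_mk]
    split_ifs with hn hd
    · have h1 : (1 : K) - z ^ a = (G₁ : A) * (1 - z) := by
        rw [hG₁]
        exact (congrArg A.subtype (hgp a)).symm
      have h2 : ((G₂ : A) : K) = (G₁ : A) * (1 + z ^ a) := congrArg A.subtype hG21
      have h21 : (1 : K) - z ^ (2 * a) = (G₂ : A) * (1 - z) := by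
        rw [hG₂]
        exact (congrArg A.subtype (hgp (2 * a))).symm
      have hG₁0 : ((G₁ : A) : K) ≠ 0 := fun h => G₁.ne_zero (Subtype.ext h)
      have hG₂0 : ((G₂ : A) : K) ≠ 0 := fun h => G₂.ne_zero (Subtype.ext h)
      have hinv : (((G₂⁻¹ : Aˣ) : A) : K) = ((G₂ : A) : K)⁻¹ := eq_inv_of_mul_eq_one_left
        (congrArg A.subtype (Units.inv_mul G₂))
      have hz2 : z ^ (2 * (a : ℤ)) = z ^ (2 * a) := by
        rw [← zpow_natCast z (2 * a)]; norm_num
      simp only [map_mul, map_pow, map_add, map_one, e, zpow_natCast, hz2]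
      show z ^ a * (1 + z ^ a + z ^ a * z ^ a) * ((((G₂⁻¹ : Aˣ) : A) : K)) ^ 2 = _
      have hp0 : (1 : K) - z ≠ 0 := by simpa using hne 1 (by simpa using hℓ.ne_one)
      rw [hinv, h1, h21, h2]
      have : 1 + z ^ a ≠ 0 := fun h => hG₂0 (by rw [h2, h, mul_zero])
      field_simp
      ring
    · exact absurd (dvd_zero _) hd
    · simp only [map_mul, map_pow, map_sum, tD, map_natCast, ← Finset.sum_sub_distrib]
      show (1 - z) ^ 2 * _ = (1 - z) ^ 2 * _
      congr 1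
      refine Finset.sum_congr rfl fun k _ => ?_
      simp only [← mul_sub, sub_zero, add_zero, Int.natCast_dvd_natCast]
      congr 1
      split_ifs
      · simp only [map_sub, map_add, map_pow]
        show z ^ (a * k) + z ^ ((ℓ - 1) * a * k) -
          (z ^ (2 * a * k) + z ^ ((ℓ - 1) * (2 * a) * k)) = _
        rw [show ((a : ℤ) * (k : ℕ)) = ((a * k : ℕ) : ℤ) by push_cast; ring, zpow_natCast, hzinv,
          show (2 * (a : ℤ) * (k : ℕ)) = ((2 * a * k : ℕ) : ℤ) by push_cast; ring, zpow_natCast,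
          hzinv, mul_assoc, mul_assoc (ℓ - 1)]
      · simp
  have he : IsUnit e := (hwprim.isUnit hℓ.ne_zero).pow a
  have h3 : IsUnit (1 + e + e * e) := isUnit_of_mul_isUnit_right (hG31 ▸ G₃.isUnit)
  have h2 : IsUnit (1 + e) := isUnit_of_mul_isUnit_right (hG21 ▸ G₂.isUnit)
  have hD0 : PowerSeries.constantCoeff D' = e * (1 + e + e * e) * ((G₂⁻¹ : Aˣ) : A) ^ 2 := by
    rw [← PowerSeries.coeff_zero_eq_constantCoeff]; simp [D']
  have hN0 : PowerSeries.constantCoeff N' = e * (1 + e) * ((G₁⁻¹ : Aˣ) : A) ^ 3 := by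
    rw [← PowerSeries.coeff_zero_eq_constantCoeff]; simp [N']
  have hDu : IsUnit D' := PowerSeries.isUnit_iff_constantCoeff.2
    (hD0 ▸ (he.mul h3).mul ((Units.isUnit _).pow 2))
  obtain ⟨U, hU⟩ := hDu
  refine ⟨N' * ↑U⁻¹, ?_, ?_, fun hℓA => ?_⟩
  · rw [map_mul, hN0]
    exact ((he.mul h2).mul ((Units.isUnit _).pow 3)).mul
      (PowerSeries.isUnit_iff_constantCoeff.1 U⁻¹.isUnit)
  · have hp0 : (1 : K) - z ≠ 0 := by simpa using hne 1 (by simpa using hℓ.ne_one)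
    have hC : (PowerSeries.C (1 - z) ^ 2 : PowerSeries K) ≠ 0 :=
      pow_ne_zero _ (by rwa [ne_eq, map_eq_zero_iff _ PowerSeries.C_injective])
    have hmul : N'.map A.subtype =
        (N' * ↑U⁻¹).map A.subtype * D'.map A.subtype := by
      rw [← map_mul, mul_assoc, ← hU, Units.inv_mul, mul_one]
    rw [hN, hD, map_pow, map_pow] at hmul
    exact mul_left_cancel₀ hC (by linear_combination hmul)
  · set r := IsLocalRing.residue A
    set κ := IsLocalRing.ResidueField A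
    have hℓ0 : (ℓ : κ) = 0 := by
      rw [← map_natCast r]; exact (IsLocalRing.residue_eq_zero_iff _).2 hℓA
    haveI : CharP κ ℓ := (CharP.charP_iff_prime_eq_zero hℓ).2 hℓ0
    have hw1 : r w = 1 := by
      have : r w ^ ℓ = 1 := by rw [← map_pow, hwprim.pow_eq_one, map_one]
      exact frobenius_inj κ ℓ (by simpa [frobenius_def] using this)
    have hp0 : r p = 0 := by rw [hp, map_sub, hw1, map_one, sub_self]
    have hr : ∀ j, r (g j) = j := fun j => by simp [g, map_sum, hw1]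
    have hN' : PowerSeries.map r N' = PowerSeries.C (r (PowerSeries.constantCoeff N')) := by
      ext n
      rcases eq_or_ne n 0 with rfl | hn
      · simp
      · simp [N', PowerSeries.coeff_C, hn, hp0]
    have hD' : PowerSeries.map r D' = PowerSeries.C (r (PowerSeries.constantCoeff D')) := by
      ext n
      rcases eq_or_ne n 0 with rfl | hn
      · simp
      · simp [D', PowerSeries.coeff_C, hn, hp0]
    set v : κ := r (PowerSeries.constantCoeff (↑U⁻¹ : PowerSeries A))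
    have hv : v * r (PowerSeries.constantCoeff D') = 1 := by
      rw [← map_mul, ← map_mul, ← hU, Units.inv_mul, map_one, map_one]
    have hD0' : r (PowerSeries.constantCoeff D') ≠ 0 := fun h => by
      rw [h, mul_zero] at hv; exact zero_ne_one hv
    have hprod : PowerSeries.map r (N' * ↑U⁻¹) =
        PowerSeries.C (r (PowerSeries.constantCoeff N') * v) := by
      have h := congrArg (PowerSeries.map r)
        (show N' * ↑U⁻¹ * D' = N' by rw [mul_assoc, ← hU, Units.inv_mul, mul_one])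
      rw [map_mul, hD', hN'] at h
      refine mul_right_cancel₀ (by rwa [ne_eq, map_eq_zero_iff _ PowerSeries.C_injective]) (h.trans ?_)
      rw [← map_mul, mul_assoc, hv, mul_one]
    refine ⟨fun n hn => ?_, ?_⟩
    · rw [← IsLocalRing.residue_eq_zero_iff, ← PowerSeries.coeff_map, hprod, PowerSeries.coeff_C,
        if_neg hn]
    · have ha0 : (a : κ) ≠ 0 := by rwa [Ne, CharP.cast_eq_zero_iff κ ℓ]
      have hg1 : r (G₁ : A) = a := by rw [hG₁]; exact hr a
      have hg2 : r (G₂ : A) = 2 * a := by rw [hG₂, hr]; push_cast; ring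
      have h2a : (2 * a : κ) ≠ 0 := hg2 ▸ (G₂.isUnit.map r).ne_zero
      have hi1 : r ((G₁⁻¹ : Aˣ) : A) = (a : κ)⁻¹ := eq_inv_of_mul_eq_one_left (by
        rw [← hg1, ← map_mul, Units.inv_mul, map_one])
      have hi2 : r ((G₂⁻¹ : Aˣ) : A) = (2 * a : κ)⁻¹ := eq_inv_of_mul_eq_one_left (by
        rw [← hg2, ← map_mul, Units.inv_mul, map_one])
      have h8 : r (PowerSeries.constantCoeff N') * (3 * a) = 8 * r (PowerSeries.constantCoeff D') := by
        rw [hN0, hD0]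
        simp only [map_mul, map_add, map_pow, map_one, hi1, hi2, e, hw1, one_pow, one_mul]
        have : (2 : κ) ≠ 0 := left_ne_zero_of_mul h2a
        field_simp
        ring
      simp only [map_mul, map_ofNat, map_natCast]
      linear_combination v * h8 + (8 : κ) * hv

end Vertical

end Fermat.Agent.DS
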