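import Mathlib
import Fermat.Agent.DS.Forms
import Fermat.Agent.DS.Reps
import Fermat.Agent.DS.WeightOneEis
import Fermat.Agent.GalRep.Level.ConjFun
import Fermat.Agent.GalRep.Level.Normal

/-!
The image of a weight one cusp form under an automorphism of `ℂ` acting on its coefficients is
again a cusp form.
-/

set_option autoImplicit false
set_option maxHeartbeats 1600000

noncomputable section

namespace Fermat.Agent.DS

open UpperHalfPlane CongruenceSubgroup ModularFormClass Filter Topology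
open Fermat.Agent.GalRep Fermat.Agent.GalRep.Level
open Fermat.Agent.GalRep.Model (rowMul NZ wpDiff pSer zetaC hasQSeries_wpDiff)
open scoped MatrixGroups Manifold ModularForm

theorem wpDiffSer_ne_zero {ℓ : ℕ} [Fact ℓ.Prime] (h5 : 5 ≤ ℓ) {u : ℤ × ℤ} (hu : NZ ℓ u) :
    pSer ℓ (zetaC ℓ) u - pSer ℓ (zetaC ℓ) (dbl u) ≠ 0 := by
  intro h
  have hs := hasQSeries_wpDiff hu (nz_dbl h5 hu)
  rw [h, map_zero] at hs
  obtain ⟨τ, hτ⟩ := (hasQSeries_iff.1 hs).exists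
  refine den_ne_zero h5 hu τ (hτ.unique ?_)
  simp [hasSum_zero]

/-- Conjugate series of the auxiliary forms. -/
theorem conj_eSer {ℓ : ℕ} [Fact ℓ.Prime] (h5 : 5 ≤ ℓ) (σ : ℂ ≃+* ℂ) {a : ℕ}
    (ha : σ (zetaC ℓ) = zetaC ℓ ^ a) (haℓ : ¬ ℓ ∣ a) {u : ℤ × ℤ} (hu : NZ ℓ u) {Q : PowerSeries ℂ}
    (hQ : HasQSeries ℓ (eRaw ℓ u) (HahnSeries.ofPowerSeries ℤ ℂ Q)) :
    HasQSeries ℓ (eRaw ℓ (u.1, (a : ℤ) * u.2))
      (HahnSeries.ofPowerSeries ℤ ℂ (PowerSeries.map σ.toRingHom Q)) := by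
  have hu' : NZ ℓ (u.1, (a : ℤ) * u.2) := fun h => hu ⟨h.1,
    ((Nat.prime_iff_prime_int.1 Fact.out).dvd_or_dvd h.2).resolve_left
      fun h' => haℓ (Int.natCast_dvd_natCast.1 h')⟩
  obtain ⟨Q₀, hQ₀, hser⟩ := exists_eSer h5 hu
  obtain ⟨Q', hQ', hser'⟩ := exists_eSer h5 hu'
  obtain rfl := HahnSeries.ofPowerSeries_injective (hser.unique (NeZero.pos ℓ) hQ)
  suffices PowerSeries.map σ.toRingHom Q₀ = Q' by rwa [this]
  have h := congrArg (PowerSeries.map σ.toRingHom) hQ₀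
  rw [map_mul, map_sub, dSer_map, Level.pSer_map, Level.pSer_map,
    show σ.toRingHom (zetaC ℓ) = zetaC ℓ ^ a from ha, dSer_pow, Level.pSer_pow,
    Level.pSer_pow] at h
  have e : (((dbl u).1, (a : ℤ) * (dbl u).2) : ℤ × ℤ) = dbl (u.1, (a : ℤ) * u.2) := by
    simp [dbl]; ring
  rw [e, hQ'] at h
  exact (mul_right_cancel₀ (wpDiffSer_ne_zero h5 hu') h).symm

variable {N : ℕ} [NeZero N]

theorem slash_eRaw {ℓ : ℕ} [Fact ℓ.Prime] (h5 : 5 ≤ ℓ) (v : ℤ × ℤ) (g : SL(2, ℤ)) (τ : ℍ) :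
    (eRaw ℓ v ∣[(1 : ℤ)] g) τ = eRaw ℓ (rowMul v g) τ := by
  have hj : (g 1 0 : ℂ) * τ + g 1 1 ≠ 0 := by
    have := denom_ne_zero (g : GL (Fin 2) ℝ) τ
    rw [ModularGroup.denom_apply] at this
    exact this
  rw [slash_sl_apply, eRaw_smul h5, zpow_neg_one]
  field_simp

/-- The quotient of a cusp form by the auxiliary form of level `5`, as a modular function, with
the expansions of width `5N` of the translates of the form. -/
theorem exists_mf_div (f : CuspForm (Gamma1 N) 1) :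
    ∃ φ : MF (5 * N),
      (∀ (g : SL(2, ℤ)) (τ : ℍ),
        ((⇑f) ∣[(1 : ℤ)] g) τ = (φ : ℍ → ℂ) (g • τ) * eRaw 5 (rowMul (0, 1) g) τ) ∧
      ∀ g : SL(2, ℤ), HasQSeries (5 * N) ((⇑f) ∣[(1 : ℤ)] g) (HahnSeries.ofPowerSeries ℤ ℂ
        (qExpansion ((5 * N : ℕ) : ℝ) ((⇑f) ∣[(1 : ℤ)] g))) := by
  have : Fact (Nat.Prime 5) := ⟨by norm_num⟩
  have h5 : 5 ≤ 5 := le_rfl
  set M := 5 * N with hM
  have : NeZero M := ⟨mul_ne_zero (by norm_num) (NeZero.ne N)⟩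
  have hNM : N ∣ M := dvd_mul_left N 5
  have h5M : 5 ∣ M := dvd_mul_right 5 N
  have hMpos : 0 < M := NeZero.pos M
  set u : ℤ × ℤ := (0, 1) with hu
  have hnz : NZ 5 u := by simp [NZ, hu]
  -- translates of `f` in terms of `φ`
  have hEsl : ∀ (v : ℤ × ℤ) (g : SL(2, ℤ)) (τ : ℍ),
      (eRaw 5 v ∣[(1 : ℤ)] g) τ = eRaw 5 (rowMul v g) τ := fun v g τ => slash_eRaw h5 v g τ
  let φf : ℍ → ℂ := fun τ => f τ / eRaw 5 u τ
  have hφsl : ∀ (g : SL(2, ℤ)) (τ : ℍ),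
      φf (g • τ) = ((⇑f) ∣[(1 : ℤ)] g) τ / eRaw 5 (rowMul u g) τ := fun g τ => by
    rw [← hEsl, slash_sl_apply, slash_sl_apply]
    exact (mul_div_mul_right _ _ (zpow_ne_zero _ (by
      have := denom_ne_zero (g : GL (Fin 2) ℝ) τ
      rw [ModularGroup.denom_apply] at this
      exact this))).symm
  have hφ : MDifferentiable 𝓘(ℂ) 𝓘(ℂ) φf :=
    UpperHalfPlane.mdifferentiable_iff.2 ((UpperHalfPlane.mdifferentiable_iff.1 (CuspFormClass.holo f)).div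
      (UpperHalfPlane.mdifferentiable_iff.1 (mdifferentiable_eRaw h5 hnz))
      fun z _ => eRaw_ne_zero h5 hnz _)
  have hφinv : ∀ γ ∈ Gamma M, ∀ τ : ℍ, φf (γ • τ) = φf τ := fun γ hγ τ => by
    rw [Gamma_mem] at hγ
    have hd : ∀ (m : ℕ), m ∣ M → ∀ x y : ℤ, (x : ZMod M) = y → (x : ZMod m) = y := fun m hm x y h => by
      simpa using congrArg (ZMod.castHom hm (ZMod m)) h
    have hγN : γ ∈ Gamma1 N := (Gamma1_mem N γ).2 ⟨by simpa using hd N hNM _ 1 (by simpa using hγ.1),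
      by simpa using hd N hNM _ 1 (by simpa using hγ.2.2.2),
      by simpa using hd N hNM _ 0 (by simpa using hγ.2.2.1)⟩
    rw [hφsl, slash_gamma1 f hγN, eRaw_congr h5 (u := rowMul u γ) (u' := u)]
    · rw [← ZMod.intCast_zmod_eq_zero_iff_dvd]
      simp [rowMul, hu]
      simpa using hd 5 h5M _ 0 (by simpa using hγ.2.2.1)
    · rw [← ZMod.intCast_zmod_eq_zero_iff_dvd]
      simp [rowMul, hu]
      rw [show ((γ 1 1 : ℤ) : ZMod 5) = 1 by simpa using hd 5 h5M _ 1 (by simpa using hγ.2.2.2)]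
      simp
  -- series of width `M`
  have hperf : ∀ (g : SL(2, ℤ)) (τ : ℍ),
      ((⇑f) ∣[(1 : ℤ)] g) ((M : ℝ) +ᵥ τ) = ((⇑f) ∣[(1 : ℤ)] g) τ := fun g τ =>
    periodic_of_gamma (N := M) (fun γ hγ => slash_slash_gamma' f g
      (Gamma_mem.2 (by
        rw [Gamma_mem] at hγ
        refine ⟨?_, ?_, ?_, ?_⟩
        · simpa [ZMod.cast_one hNM, -ZMod.castHom_apply, map_intCast] using congrArg (ZMod.castHom hNM (ZMod N)) hγ.1
        · simpa [ZMod.cast_one hNM, -ZMod.castHom_apply, map_intCast] using congrArg (ZMod.castHom hNM (ZMod N)) hγ.2.1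
        · simpa [ZMod.cast_one hNM, -ZMod.castHom_apply, map_intCast] using congrArg (ZMod.castHom hNM (ZMod N)) hγ.2.2.1
        · simpa [ZMod.cast_one hNM, -ZMod.castHom_apply, map_intCast] using congrArg (ZMod.castHom hNM (ZMod N)) hγ.2.2.2))) τ
  have hfser : ∀ g : SL(2, ℤ), HasQSeries M ((⇑f) ∣[(1 : ℤ)] g)
      (HahnSeries.ofPowerSeries ℤ ℂ (qExpansion (M : ℝ) ((⇑f) ∣[(1 : ℤ)] g))) := fun g =>
    hasQSeries_qExpansion hMpos (hperf g) (mdifferentiable_slash' (CuspFormClass.holo f) g)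
      (isZeroAtImInfty_slash f g).isBoundedAtImInfty
  have hEser : ∀ v, NZ 5 v → ∃ Q : PowerSeries ℂ,
      HasQSeries 5 (eRaw 5 v) (HahnSeries.ofPowerSeries ℤ ℂ Q) := fun v hv =>
    (exists_eSer h5 hv).imp fun _ h => h.2
  let φ : MF M := ⟨φf, hφ, hφinv, fun δ => by
    obtain ⟨Q, hQ⟩ := hEser _ (Model.nz_rowMul δ hnz)
    have hQ' := hQ.refine_width (by norm_num) N (NeZero.ne N)
    rw [← hM] at hQ'
    refine ⟨M, _, hMpos, hasQSeries_div hMpos (mdifferentiable_comp_smul hφ δ)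
      (periodicM_of_invariant hφinv δ) ((hfser δ).congr (.of_forall fun τ => ?_)) hQ' fun h => ?_⟩
    · show ((⇑f) ∣[(1 : ℤ)] δ) τ = φf (δ • τ) * eRaw 5 (rowMul u δ) τ
      rw [hφsl, div_mul_cancel₀ _ (eRaw_ne_zero h5 (Model.nz_rowMul δ hnz) τ)]
    · obtain ⟨τ, hτ⟩ := (hasQSeries_iff.1 hQ').exists
      refine eRaw_ne_zero h5 (Model.nz_rowMul δ hnz) τ (hτ.unique ?_)
      rw [h]; simp [hasSum_zero]⟩
  exact ⟨φ, fun g τ => (show _ = φf (g • τ) * eRaw 5 (rowMul u g) τ by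
    rw [hφsl, div_mul_cancel₀ _ (eRaw_ne_zero h5 (Model.nz_rowMul g hnz) τ)]), hfser⟩

/-- Automorphisms of `ℂ` act on weight one cusp forms through their coefficients. -/
theorem exists_conj_form (σ : ℂ ≃+* ℂ) (f : CuspForm (Gamma1 N) 1) :
    ∃ G : CuspForm (Gamma1 N) 1, ∀ n : ℕ, qCoeff (⇑G) n = σ (qCoeff (⇑f) n) := by
  have : Fact (Nat.Prime 5) := ⟨by norm_num⟩
  have h5 : 5 ≤ 5 := le_rfl
  set M := 5 * N with hM
  have : NeZero M := ⟨mul_ne_zero (by norm_num) (NeZero.ne N)⟩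
  have hNM : N ∣ M := dvd_mul_left N 5
  have h5M : 5 ∣ M := dvd_mul_right 5 N
  have hMpos : 0 < M := NeZero.pos M
  set a := cycC M σ with ha
  set u : ℤ × ℤ := (0, 1) with hu
  have hnz : NZ 5 u := by simp [NZ, hu]
  set a5 : ℕ := (cycC 5 σ : ZMod 5).val with ha5
  have hσ5 : σ (zetaC 5) = zetaC 5 ^ a5 := cycC_spec σ (Level.zetaC_pow 5)
  have ha5' : ¬ 5 ∣ a5 := fun h => by
    have h1 : ((a5 : ℕ) : ZMod 5) = 0 := (CharP.cast_eq_zero_iff (ZMod 5) 5 _).2 h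
    rw [ha5, ZMod.natCast_val, ZMod.cast_id] at h1
    exact (cycC 5 σ).ne_zero h1
  set u' : ℤ × ℤ := (0, (a5 : ℤ)) with hu'
  have hnz' : NZ 5 u' := by
    simp only [NZ, hu', not_and]
    exact fun _ h => ha5' (Int.natCast_dvd_natCast.1 h)
  have hEsl : ∀ (v : ℤ × ℤ) (g : SL(2, ℤ)) (τ : ℍ),
      (eRaw 5 v ∣[(1 : ℤ)] g) τ = eRaw 5 (rowMul v g) τ := fun v g τ => slash_eRaw h5 v g τ
  obtain ⟨φ, hφf, hfser'⟩ := exists_mf_div f
  have hfser : ∀ g : SL(2, ℤ), HasQSeries M ((⇑f) ∣[(1 : ℤ)] g)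
      (HahnSeries.ofPowerSeries ℤ ℂ (qExpansion (M : ℝ) ((⇑f) ∣[(1 : ℤ)] g))) := hfser'
  have hEser : ∀ v, NZ 5 v → ∃ Q : PowerSeries ℂ,
      HasQSeries 5 (eRaw 5 v) (HahnSeries.ofPowerSeries ℤ ℂ Q) := fun v hv =>
    (exists_eSer h5 hv).imp fun _ h => h.2
  obtain ⟨φ', hφ'⟩ := exists_conjF σ φ
  let Gf : ℍ → ℂ := fun τ => (φ' : ℍ → ℂ) τ * eRaw 5 u' τ
  have hGsl : ∀ (g : SL(2, ℤ)) (τ : ℍ), (Gf ∣[(1 : ℤ)] g) τ =
      (φ' : ℍ → ℂ) (g • τ) * eRaw 5 (rowMul u' g) τ := fun g τ => by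
    rw [← hEsl, slash_sl_apply, slash_sl_apply, mul_assoc]
  have key : ∀ g g' : SL(2, ℤ), ConjEq M a g g' → HasQSeries M (Gf ∣[(1 : ℤ)] g')
      (HahnSeries.ofPowerSeries ℤ ℂ
        (PowerSeries.map σ.toRingHom (qExpansion (M : ℝ) ((⇑f) ∣[(1 : ℤ)] g)))) := by
    intro g g' hgg
    obtain ⟨Q, hQ⟩ := hEser _ (Model.nz_rowMul g hnz)
    have hQσ := conj_eSer h5 σ hσ5 ha5' (Model.nz_rowMul g hnz) hQ
    have hv : eRaw 5 ((rowMul u g).1, (a5 : ℤ) * (rowMul u g).2) = eRaw 5 (rowMul u' g') := by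
      have hc := conjEq_iff.1 hgg
      have ha' : (Units.map (ZMod.castHom h5M (ZMod 5)).toMonoidHom a : (ZMod 5)ˣ) = cycC 5 σ :=
        cycC_castHom h5M σ
      have hval : ((a5 : ℕ) : ZMod 5) = (cycC 5 σ : ZMod 5) := by
        rw [ha5, ZMod.natCast_val, ZMod.cast_id]
      have h10 : ((g' 1 0 : ℤ) : ZMod 5) = (((cycC 5 σ)⁻¹ : (ZMod 5)ˣ) : ZMod 5) * (g 1 0 : ℤ) := by
        have := congrArg (ZMod.castHom h5M (ZMod 5)) hc.2.2.1
        rw [map_mul, map_intCast, map_intCast] at this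
        rw [this, ← ha']
        rfl
      have h11 : ((g' 1 1 : ℤ) : ZMod 5) = (g 1 1 : ℤ) := by
        simpa using congrArg (ZMod.castHom h5M (ZMod 5)) hc.2.2.2
      refine eRaw_congr h5 ?_ ?_ <;> rw [← ZMod.intCast_zmod_eq_zero_iff_dvd] <;>
        simp only [rowMul, hu, hu', Int.cast_sub, Int.cast_mul, Int.cast_add, Int.cast_natCast,
          zero_mul, one_mul, zero_add, hval, h10, h11]
      · rw [← mul_assoc, Units.mul_inv, one_mul, sub_self]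
      · ring
    rw [hv] at hQσ
    have hφg : serAlg M (shift M g φ) *
        expand N (NeZero.ne N) (HahnSeries.ofPowerSeries ℤ ℂ Q) =
          HahnSeries.ofPowerSeries ℤ ℂ (qExpansion (M : ℝ) ((⇑f) ∣[(1 : ℤ)] g)) := by
      have hQ' := hQ.refine_width (by norm_num) N (NeZero.ne N)
      rw [← hM] at hQ'
      refine (((hasQSeries_serHom (shift M g φ)).mul hQ').congr (.of_forall fun τ => ?_)).unique
        hMpos (hfser g)
      exact (hφf g τ).symm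
    have hQσ' := hQσ.refine_width (by norm_num) N (NeZero.ne N)
    rw [← hM] at hQσ'
    rw [← lmap_ofPowerSeries_eq, ← hφg, map_mul, ← hφ' g g' hgg, lmap_expand, lmap_ofPowerSeries_eq]
    exact ((hasQSeries_serHom (shift M g' φ')).mul hQσ').congr
      (.of_forall fun τ => (hGsl g' τ).symm)
  have hGd : MDifferentiable 𝓘(ℂ) 𝓘(ℂ) Gf := φ'.2.holo.mul (mdifferentiable_eRaw h5 hnz')
  have hone : HasQSeries M Gf (HahnSeries.ofPowerSeries ℤ ℂ
      (PowerSeries.map σ.toRingHom (qExpansion (M : ℝ) ((⇑f) ∣[(1 : ℤ)] (1 : SL(2, ℤ)))))) := by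
    simpa using key 1 1 (ConjEq.one_one _)
  have hinv : ∀ γ ∈ Gamma1 N, Gf ∣[(1 : ℤ)] γ = Gf := by
    intro γ hγ
    obtain ⟨g, hg⟩ := exists_conjEq_symm a γ
    have hgN : g ∈ Gamma1 N := by
      have hc := conjEq_iff.1 hg
      rw [Gamma1_mem] at hγ ⊢
      have h00 := congrArg (ZMod.castHom hNM (ZMod N)) hc.1
      have h10 := congrArg (ZMod.castHom hNM (ZMod N)) hc.2.2.1
      have h11 := congrArg (ZMod.castHom hNM (ZMod N)) hc.2.2.2
      simp only [map_mul, map_intCast] at h00 h10 h11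
      refine ⟨h00 ▸ hγ.1, h11 ▸ hγ.2.1, ?_⟩
      rw [hγ.2.2] at h10
      exact (((Units.isUnit a⁻¹).map (ZMod.castHom hNM (ZMod N))).mul_right_eq_zero).1 h10.symm
    refine GalRep.eq_of_hasQSeries (w := M) (mdifferentiable_slash' hGd γ) hGd (key g γ hg) ?_
    rw [slash_gamma1 f hgN]
    rw [SlashAction.slash_one] at hone
    exact hone
  have hzero : ∀ g' : SL(2, ℤ), IsZeroAtImInfty (Gf ∣[(1 : ℤ)] g') := by
    intro g'
    obtain ⟨g, hg⟩ := exists_conjEq_symm a g'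
    refine isZeroAtImInfty_of_series hMpos (key g g' hg) ?_
    rw [← PowerSeries.coeff_zero_eq_constantCoeff_apply, PowerSeries.coeff_map,
      PowerSeries.coeff_zero_eq_constantCoeff_apply]
    rw [tendsto_nhds_unique (tendsto_of_powerSeries hMpos (hfser g)) (isZeroAtImInfty_slash f g),
      map_zero]
  refine ⟨mkCusp1 Gf hGd hinv hzero, fun n => ?_⟩
  have hexp : ∀ F : CuspForm (Gamma1 N) 1, HasQSeries M (⇑F)
      (expand M (NeZero.ne M) (HahnSeries.ofPowerSeries ℤ ℂ (qExpansion 1 (⇑F)))) := fun F => by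
    simpa using (hasQSeries_one F).refine_width one_pos M (NeZero.ne M)
  have e1 := (hexp (mkCusp1 Gf hGd hinv hzero)).unique hMpos hone
  have e2 := (hexp f).unique hMpos (by simpa using hfser 1)
  have c1 := congrArg (fun s : LaurentSeries ℂ => s.coeff ((M : ℤ) * (n : ℤ))) e1
  have c2 := congrArg (fun s : LaurentSeries ℂ => s.coeff ((M : ℤ) * (n : ℤ))) e2
  simp only [expand_coeff_mul] at c1 c2
  rw [← Int.natCast_mul, HahnSeries.ofPowerSeries_apply_coeff, HahnSeries.ofPowerSeries_apply_coeff]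
    at c1 c2
  rw [PowerSeries.coeff_map] at c1
  simp only [SlashAction.slash_one] at c1
  exact c1.trans (congrArg σ c2.symm)

end Fermat.Agent.DS
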