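import Mathlib
import Fermat.Agent.DS.Diamond
import Fermat.Agent.DS.Conjugate
import Fermat.Agent.Hecke.ComplexAut

/-!
Hecke systems of weight one: only finitely many are conjugate to a given one, and each is carried
by a form with algebraic coefficients of bounded degree.
-/

set_option autoImplicit false
set_option maxHeartbeats 800000

noncomputable section

namespace Fermat.Agent.DS

open CongruenceSubgroup ModularFormClass Polynomial
open scoped MatrixGroups

variable {N : ℕ}

/-- The Hecke relations at the good primes, for a pair of functions (nebentypus, eigenvalues). -/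
def IsEig (N : ℕ) (s : ℕ → ℂ × ℂ) (g : ℕ → ℂ) : Prop :=
  ∀ p : ℕ, p.Prime → ¬ p ∣ N → ∀ n : ℕ,
    g (p * n) + (s p).1 * (if p ∣ n then g (n / p) else 0) = (s p).2 * g n

theorem IsEig.map {s : ℕ → ℂ × ℂ} {g : ℕ → ℂ} (h : IsEig N s g) (σ : ℂ ≃+* ℂ) :
    IsEig N (fun p => (σ (s p).1, σ (s p).2)) (fun n => σ (g n)) := fun p hp hpN n => by
  have := congrArg σ (h p hp hpN n)
  rw [map_add, map_mul, map_mul, apply_ite σ, map_zero] at this
  exact this

variable [NeZero N]

/-- The forms with given system. -/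
def eigSpace (N : ℕ) [NeZero N] (s : ℕ → ℂ × ℂ) : Submodule ℂ (CuspForm (Gamma1 N) 1) where
  carrier := {g | IsEig N s (qCoeff ⇑g)}
  zero_mem' := fun p _ _ n => by
    have h : ∀ m, qCoeff ⇑(0 : CuspForm (Gamma1 N) 1) m = 0 := fun m => (coeffLin N 1 m).map_zero
    simp only [h, mul_zero, ite_self, add_zero]
  add_mem' := fun {f g} hf hg p hp hpN n => by
    simp only [qCoeff1_add]
    have h1 := hf p hp hpN n
    have h2 := hg p hp hpN n
    split_ifs at h1 h2 ⊢ <;> linear_combination h1 + h2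
  smul_mem' := fun c g hg p hp hpN n => by
    simp only [qCoeff1_smul]
    have h1 := hg p hp hpN n
    split_ifs at h1 ⊢ <;> linear_combination c * h1

theorem mem_eigSpace {s : ℕ → ℂ × ℂ} {g : CuspForm (Gamma1 N) 1} :
    g ∈ eigSpace N s ↔ IsEig N s (qCoeff ⇑g) := Iff.rfl

/-- Forms with systems differing at good primes are linearly independent. -/
theorem linearIndependent_eig {ι : Type*} (s : ι → ℕ → ℂ × ℂ) (g : ι → CuspForm (Gamma1 N) 1)
    (hg : ∀ i, g i ∈ eigSpace N (s i)) (hg0 : ∀ i, g i ≠ 0)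
    (hs : ∀ i j, i ≠ j → ∃ p : ℕ, p.Prime ∧ ¬ p ∣ N ∧ s i p ≠ s j p) :
    LinearIndependent ℂ g := by
  classical
  rw [linearIndependent_iff']
  intro S
  induction S using Finset.induction_on with
  | empty => simp
  | insert j S hj ih =>
    intro c hc
    -- scaling the relation by the eigenvalues at a good prime
    have hscale : ∀ p : ℕ, p.Prime → ¬ p ∣ N →
        ∑ i ∈ insert j S, (c i * (s i p).1) • g i = 0 ∧
        ∑ i ∈ insert j S, (c i * (s i p).2) • g i = 0 := by
      intro p hp hpN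
      obtain ⟨R, hR⟩ := exists_isDiamond (N := N) (hp.coprime_iff_not_dvd.2 hpN)
      have hd : ∀ i, dia R (diamond_mem_gamma0 hR) (g i) = (s i p).1 • g i := fun i =>
        DFunLike.coe_injective <| by
          rw [coe_dia, CuspForm.IsGLPos.coe_smul]
          exact slash_diamond_eq hp hpN _ _ (g i) (hg i p hp hpN) hR
      have h1 : ∑ i ∈ insert j S, (c i * (s i p).1) • g i = 0 := by
        have := congrArg (dia (k := 1) R (diamond_mem_gamma0 hR)) hc
        rw [map_sum, map_zero] at this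
        simpa only [map_smul, hd, smul_smul] using this
      refine ⟨h1, ext_coeff fun n => ?_⟩
      have hev : ∀ (w : ι → ℂ) (m : ℕ), qCoeff ⇑(∑ i ∈ insert j S, w i • g i) m =
          ∑ i ∈ insert j S, w i * qCoeff ⇑(g i) m := fun w m => by
        rw [← coeffLin_apply, map_sum]
        simp
      have hz : ∀ m, qCoeff ⇑(0 : CuspForm (Gamma1 N) 1) m = 0 := fun m => (coeffLin N 1 m).map_zero
      have hrel : ∀ m, ∑ i ∈ insert j S, c i * qCoeff ⇑(g i) m = 0 := fun m => by
        rw [← hev, hc, hz]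
      have hrel1 : ∀ m, ∑ i ∈ insert j S, c i * (s i p).1 * qCoeff ⇑(g i) m = 0 := fun m => by
        rw [← hev (fun i => c i * (s i p).1), h1, hz]
      rw [hev (fun i => c i * (s i p).2), hz]
      calc ∑ i ∈ insert j S, c i * (s i p).2 * qCoeff ⇑(g i) n
          = ∑ i ∈ insert j S, (c i * qCoeff ⇑(g i) (p * n) +
              c i * (s i p).1 * (if p ∣ n then qCoeff ⇑(g i) (n / p) else 0)) :=
            Finset.sum_congr rfl fun i _ => by rw [mul_assoc, ← hg i p hp hpN n]; ring
        _ = 0 := by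
          rw [Finset.sum_add_distrib, hrel, zero_add]
          split_ifs
          · exact hrel1 _
          · simp
    have hS : ∀ i ∈ S, c i = 0 := by
      intro i hi
      obtain ⟨p, hp, hpN, hne⟩ := hs i j fun h => hj (h ▸ hi)
      have hsub : ∀ x : ι → ℂ, ∑ l ∈ insert j S, (c l * x l) • g l = 0 →
          ∑ l ∈ S, (c l * (x l - x j)) • g l = 0 := fun x hx => by
        have h2 : ∑ l ∈ insert j S, (c l * (x l - x j)) • g l = 0 := by
          calc ∑ l ∈ insert j S, (c l * (x l - x j)) • g l =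
              (∑ l ∈ insert j S, (c l * x l) • g l) - x j • ∑ l ∈ insert j S, c l • g l := by
                rw [Finset.smul_sum, ← Finset.sum_sub_distrib]
                exact Finset.sum_congr rfl fun l _ => by rw [smul_smul, ← sub_smul]; ring_nf
            _ = 0 := by rw [hx, hc, smul_zero, sub_zero]
        rwa [Finset.sum_insert hj, sub_self, mul_zero, zero_smul, zero_add] at h2
      by_cases h1 : (s i p).1 = (s j p).1
      · have h2 : (s i p).2 ≠ (s j p).2 := fun h => hne (Prod.ext h1 h)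
        exact (mul_eq_zero.1 (ih _ (hsub _ (hscale p hp hpN).2) i hi)).resolve_right
          (sub_ne_zero.2 h2)
      · exact (mul_eq_zero.1 (ih _ (hsub _ (hscale p hp hpN).1) i hi)).resolve_right
          (sub_ne_zero.2 h1)
    intro i hi
    rcases Finset.mem_insert.1 hi with rfl | hi
    · rw [Finset.sum_insert hj, Finset.sum_eq_zero fun l hl => by rw [hS l hl, zero_smul],
        add_zero] at hc
      exact (smul_eq_zero.1 hc).resolve_right (hg0 i)
    · exact hS i hi

omit [NeZero N] in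
/-- A number with few conjugates is algebraic of small degree. -/
theorem isIntegral_of_conjugates {x : ℂ} (T : Finset ℂ) (h : ∀ σ : ℂ ≃+* ℂ, σ x ∈ T) :
    IsIntegral ℚ x ∧ (minpoly ℚ x).natDegree ≤ T.card := by
  classical
  set U := T.filter fun y => ∃ σ : ℂ ≃+* ℂ, σ x = y with hU
  set P : ℂ[X] := ∏ y ∈ U, (X - C y) with hP
  have hfix : ∀ σ : ℂ ≃+* ℂ, P.map σ.toRingHom = P := fun σ => by
    have himg : U.image σ = U := by
      refine Finset.eq_of_subset_of_card_le (fun y hy => ?_)
        (Finset.card_image_of_injective _ σ.injective).ge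
      obtain ⟨z, hz, rfl⟩ := Finset.mem_image.1 hy
      obtain ⟨-, τ, rfl⟩ := Finset.mem_filter.1 hz
      exact Finset.mem_filter.2 ⟨h (τ.trans σ), τ.trans σ, rfl⟩
    rw [hP, Polynomial.map_prod]
    conv_rhs => rw [← himg, Finset.prod_image σ.injective.injOn]
    simp
  choose r hr using fun i => Hecke.exists_rat_of_fixed (x := P.coeff i) fun σ => by
    conv_rhs => rw [← hfix σ]
    rw [coeff_map]; rfl
  have hlift : P ∈ Polynomial.lifts (algebraMap ℚ ℂ) :=
    (Polynomial.lifts_iff_coeff_lifts P).2 fun i => ⟨r i, by rw [eq_ratCast]; exact hr i⟩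
  obtain ⟨q, hq, hqd, hqm⟩ := Polynomial.lifts_and_natDegree_eq_and_monic hlift
    (monic_prod_X_sub_C _ _)
  have hroot : aeval x q = 0 := by
    rw [← eval_map_algebraMap, hq, hP, eval_prod]
    exact Finset.prod_eq_zero (Finset.mem_filter.2 ⟨h (RingEquiv.refl ℂ), RingEquiv.refl ℂ, rfl⟩)
      (by simp)
  refine ⟨⟨q, hqm, hroot⟩, ?_⟩
  refine (natDegree_le_natDegree (minpoly.min ℚ x hqm hroot)).trans ?_
  rw [hqd, hP, natDegree_prod_of_monic _ _ fun y _ => monic_X_sub_C y]
  simp [hU, Finset.card_filter_le]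

/-- A form with algebraic coefficients of bounded degree in the system of `f`. -/
theorem exists_algebraic_eigenform (ε : DirichletCharacter ℂ N) (f : CuspForm (Gamma1 N) 1)
    (hf₁ : qCoeff ⇑f 1 = 1)
    (hT : IsEig N (fun p => (ε (p : ZMod N), qCoeff ⇑f p)) (qCoeff ⇑f)) :
    ∃ (f₀ : CuspForm (Gamma1 N) 1) (D : ℕ), qCoeff ⇑f₀ 1 = 1 ∧
      IsEig N (fun p => (ε (p : ZMod N), qCoeff ⇑f₀ p)) (qCoeff ⇑f₀) ∧
      (∀ p : ℕ, p.Prime → ¬ p ∣ N → qCoeff ⇑f₀ p = qCoeff ⇑f p) ∧
      ∀ n, IsIntegral ℚ (qCoeff ⇑f₀ n) ∧ (minpoly ℚ (qCoeff ⇑f₀ n)).natDegree ≤ D := by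
  classical
  set s₀ : ℕ → ℂ × ℂ := fun p => (ε (p : ZMod N), qCoeff ⇑f p) with hs₀
  -- the normalised form of minimal support among the first coefficients
  let supp : CuspForm (Gamma1 N) 1 → Finset (Fin (sturm1 N 1 + 1)) := fun g =>
    Finset.univ.filter fun i => firstCoeffs N 1 g i ≠ 0
  have hne : ∃ n, ∃ g : CuspForm (Gamma1 N) 1,
      (g ∈ eigSpace N s₀ ∧ qCoeff ⇑g 1 = 1) ∧ (supp g).card = n :=
    ⟨_, f, ⟨hT, hf₁⟩, rfl⟩
  obtain ⟨f₀, ⟨hf₀, hf₀1⟩, hcard⟩ := Nat.find_spec hne
  have hmin : ∀ g : CuspForm (Gamma1 N) 1, g ∈ eigSpace N s₀ → qCoeff ⇑g 1 = 1 →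
      (supp f₀).card ≤ (supp g).card := fun g h1 h2 =>
    hcard ▸ Nat.find_min' hne ⟨g, ⟨h1, h2⟩, rfl⟩
  have huniq : ∀ g ∈ eigSpace N s₀, qCoeff ⇑g 1 = 1 → supp g ⊆ supp f₀ → g = f₀ := by
    intro g hg hg1 hsub
    by_contra hne'
    obtain ⟨i, hi⟩ : ∃ i, firstCoeffs N 1 (g - f₀) i ≠ 0 := by
      by_contra hall
      push_neg at hall
      exact hne' (sub_eq_zero.1 (firstCoeffs_injective ((funext hall).trans (map_zero _).symm)))
    set t := firstCoeffs N 1 f₀ i / firstCoeffs N 1 (g - f₀) i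
    set h := f₀ - t • (g - f₀)
    have h1 : qCoeff ⇑h 1 = 1 := by
      rw [qCoeff1_sub, qCoeff1_smul, qCoeff1_sub, hg1, hf₀1, sub_self, mul_zero, sub_zero]
    have hhE : h ∈ eigSpace N s₀ :=
      sub_mem hf₀ (Submodule.smul_mem _ _ (sub_mem hg hf₀))
    have hzero : ∀ l, l ∉ supp f₀ → firstCoeffs N 1 f₀ l = 0 ∧ firstCoeffs N 1 g l = 0 := fun l hl =>
      ⟨by simpa [supp] using hl, by simpa [supp] using fun hlg => hl (hsub hlg)⟩
    have hifs : i ∈ supp f₀ := by
      by_contra hni
      rw [map_sub, Pi.sub_apply, (hzero i hni).1, (hzero i hni).2, sub_zero] at hi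
      exact hi rfl
    have hlt : supp h ⊂ supp f₀ := by
      refine (Finset.ssubset_iff_of_subset fun l hl => ?_).2 ⟨i, hifs, ?_⟩
      · by_contra hlf
        obtain ⟨a, b⟩ := hzero l hlf
        simp [supp, h, a, b] at hl
      · have e : firstCoeffs N 1 h i = 0 := by
          show firstCoeffs N 1 (f₀ - t • (g - f₀)) i = 0
          rw [map_sub, map_smul, Pi.sub_apply, Pi.smul_apply, smul_eq_mul]
          exact sub_eq_zero.2 (div_mul_cancel₀ _ hi).symm
        simp [supp, e]
    exact absurd (hmin h hhE h1) (not_le.2 (Finset.card_lt_card hlt))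
  -- the conjugates
  choose G hG using fun σ : ℂ ≃+* ℂ => exists_conj_form σ f₀
  let sys : (ℂ ≃+* ℂ) → ℕ → ℂ × ℂ := fun σ p =>
    if p.Prime ∧ ¬ p ∣ N then (σ (s₀ p).1, σ (s₀ p).2) else 0
  have hGmem : ∀ σ, G σ ∈ eigSpace N (sys σ) := fun σ p hp hpN n => by
    simp only [sys, if_pos (And.intro hp hpN), hG]
    exact (IsEig.map hf₀ σ) p hp hpN n
  have hGinj : ∀ σ τ, sys σ = sys τ → ∀ n, σ (qCoeff ⇑f₀ n) = τ (qCoeff ⇑f₀ n) := by
    intro σ τ hst n
    set ρ : ℂ ≃+* ℂ := σ.trans τ.symm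
    have hfix : G ρ = f₀ := by
      refine huniq _ (fun p hp hpN m => ?_) (by rw [hG, hf₀1, map_one]) fun l hl => ?_
      · have e := congrFun hst p
        simp only [sys, if_pos (And.intro hp hpN), Prod.mk.injEq] at e
        have e1 : ρ (s₀ p).1 = (s₀ p).1 := by simp [ρ, e.1]
        have e2 : ρ (s₀ p).2 = (s₀ p).2 := by simp [ρ, e.2]
        have := (IsEig.map hf₀ ρ) p hp hpN m
        simp only [e1, e2, ← hG] at this
        exact this
      · simp only [supp, Finset.mem_filter, Finset.mem_univ, true_and] at hl ⊢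
        intro h0
        refine hl ?_
        show qCoeff ⇑(G ρ) _ = 0
        rw [hG, show qCoeff ⇑f₀ _ = 0 from h0, map_zero]
    have := hG ρ n
    rw [hfix] at this
    conv_rhs => rw [this]
    simp [ρ]
  have hind : LinearIndependent ℂ fun i : Set.range sys => G i.2.choose := by
    refine linearIndependent_eig (fun i : Set.range sys => (i : ℕ → ℂ × ℂ)) _ (fun i => ?_)
      (fun i h0 => ?_) fun i j hij => ?_
    · have := hGmem i.2.choose
      rwa [i.2.choose_spec] at this
    · have h := hG i.2.choose 1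
      rw [hf₀1, map_one, h0] at h
      exact one_ne_zero ((coeffLin N 1 1).map_zero.symm.trans h).symm
    · by_contra hall
      push_neg at hall
      refine hij (Subtype.ext (funext fun p => ?_))
      by_cases hp : p.Prime ∧ ¬ p ∣ N
      · exact hall p hp.1 hp.2
      · rw [← i.2.choose_spec, ← j.2.choose_spec]
        simp only [sys, if_neg hp]
  have : Finite (Set.range sys) := hind.finite
  have : Fintype (Set.range sys) := Fintype.ofFinite _
  refine ⟨f₀, Fintype.card (Set.range sys), hf₀1, ?_, ?_, fun n => ?_⟩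
  rotate_left
  · intro p hp hpN
    have := hf₀ p hp hpN 1
    rw [mul_one, if_neg hp.not_dvd_one, mul_zero, add_zero, hf₀1, mul_one] at this
    exact this
  · obtain ⟨h1, h2⟩ := isIntegral_of_conjugates
      (Finset.univ.image fun i : Set.range sys => i.2.choose (qCoeff ⇑f₀ n))
      (fun σ => Finset.mem_image.2 ⟨⟨sys σ, σ, rfl⟩, Finset.mem_univ _,
        hGinj _ σ (Set.mem_range_self σ).choose_spec n⟩)
    exact ⟨h1, h2.trans (Finset.card_image_le.trans_eq Finset.card_univ)⟩
  · intro p hp hpN n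
    have h1 := hf₀ p hp hpN 1
    rw [mul_one, if_neg hp.not_dvd_one, mul_zero, add_zero, hf₀1, mul_one] at h1
    show _ = qCoeff ⇑f₀ p * _
    rw [h1]
    exact hf₀ p hp hpN n

end Fermat.Agent.DS
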