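import Mathlib
import Fermat.Agent.DS.Systems
import Fermat.Agent.GalRep.Level.Normal
import Fermat.Agent.GalRep.Model.DivSeries
import Fermat.Agent.Galois.Places

/-!
Weight one cusp forms with algebraic coefficients have bounded denominators, and the eigenvalues
of normalised eigenforms are algebraic integers.
-/

set_option autoImplicit false
set_option maxHeartbeats 800000

noncomputable section

namespace Fermat.Agent.DS

open UpperHalfPlane CongruenceSubgroup ModularFormClass
open Fermat.Agent.GalRep Fermat.Agent.GalRep.Level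
open Fermat.Agent.GalRep.Model (rowMul NZ pSer zetaC)
open scoped MatrixGroups

local notation "ℚb" => AlgebraicClosure ℚ

variable {N : ℕ} [NeZero N]

theorem seriesToC_ofPowerSeries (P : PowerSeries ℚb) :
    seriesToC (HahnSeries.ofPowerSeries ℤ ℚb P) =
      HahnSeries.ofPowerSeries ℤ ℂ (PowerSeries.map qbarToC P) := by
  rw [seriesToC_eq_lmap, lmap_ofPowerSeries_eq]

/-- A preimage of `exp(2πi/m)`. -/
theorem exists_zetaQ (m : ℕ) [NeZero m] :
    ∃ z : ℚb, IsPrimitiveRoot z m ∧ qbarToC z = zetaC m := by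
  obtain ⟨z, hz⟩ := exists_qbarToC_eq (x := zetaC m)
    ⟨Polynomial.X ^ m - 1, (Polynomial.monic_X_pow_sub_C 1 (NeZero.ne m)).ne_zero,
      by simp [Level.zetaC_pow m]⟩
  exact ⟨z, IsPrimitiveRoot.of_map_of_injective (f := qbarToC)
    (hz.symm ▸ Level.isPrimitiveRoot_zetaC m) qbarToC_injective, hz⟩

/-- The series of the scaled auxiliary form at a vertical point is integral at every place, with
unit constant term. -/
theorem exists_aux_series {ℓ : ℕ} [Fact ℓ.Prime] (h5 : 5 ≤ ℓ)
    (A : ValuationSubring ℚb) {z : ℚb} (hz : IsPrimitiveRoot z ℓ) (hzC : qbarToC z = zetaC ℓ)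
    {a : ℕ} (ha : ¬ ℓ ∣ a) :
    ∃ Q : PowerSeries A, IsUnit (PowerSeries.constantCoeff Q) ∧
      ((ℓ : A) ∈ IsLocalRing.maximalIdeal A →
        (∀ n ≠ 0, PowerSeries.coeff n Q ∈ IsLocalRing.maximalIdeal A) ∧
        IsLocalRing.residue A (3 * (a : A) * PowerSeries.constantCoeff Q) = 8) ∧
      HasQSeries ℓ (fun τ => qbarToC (1 - z) * eRaw ℓ (0, (a : ℤ)) τ)
        (seriesToC (HahnSeries.ofPowerSeries ℤ ℚb (Q.map A.subtype))) := by
  obtain ⟨Q, hQu, hQeq, hQr⟩ := exists_integral_eSer h5 hz A ha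
  refine ⟨Q, hQu, hQr, ?_⟩
  have hnz : NZ ℓ ((0 : ℤ), (a : ℤ)) := fun h => ha (Int.natCast_dvd_natCast.1 h.2)
  obtain ⟨Q', hQ', hser⟩ := exists_eSer h5 hnz
  have e := congrArg (PowerSeries.map qbarToC) hQeq
  rw [map_mul, map_mul, PowerSeries.map_C, map_sub (PowerSeries.map qbarToC), dSer_map,
    Level.pSer_map, Level.pSer_map, hzC] at e
  have hdbl : dbl ((0 : ℤ), (a : ℤ)) = (0, 2 * (a : ℤ)) := by simp [dbl]
  rw [hdbl] at hQ'
  rw [hQ', ← mul_assoc] at e
  have hD := wpDiffSer_ne_zero h5 hnz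
  rw [hdbl] at hD
  rw [seriesToC_ofPowerSeries, ← mul_right_cancel₀ hD e, map_mul, HahnSeries.ofPowerSeries_C]
  exact hser.smul _

omit [NeZero N] in
theorem map_residue_ne_zero {A : ValuationSubring ℚb} {f : LaurentSeries A}
    {m : ℤ} (h : ((f.coeff m : A) : ℚb) ∉ A.nonunits) : lmap (IsLocalRing.residue A) f ≠ 0 := by
  intro h0
  have := congrArg (fun s : LaurentSeries (IsLocalRing.ResidueField A) => s.coeff m) h0
  simp only [lmap_coeff, HahnSeries.coeff_zero] at this
  exact h ((A.coe_mem_nonunits_iff).2 ((IsLocalRing.residue_eq_zero_iff _).1 this))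

/-- Bounded denominators: after scaling, the coefficients are integral at the place and not all
in the maximal ideal. -/
theorem exists_scale_integral {A : ValuationSubring ℚb} {ℓ : ℕ} (hℓ : ℓ.Prime)
    (hA : A.LiesOverPrime ℓ) (f : CuspForm (Gamma1 N) 1) (α : ℕ → ℚb)
    (hα : ∀ n, qbarToC (α n) = qCoeff (⇑f) n) (hne : ∃ n, α n ≠ 0) :
    ∃ c : ℚb, c ≠ 0 ∧ (∀ n, c * α n ∈ A) ∧ ∃ n, c * α n ∉ A.nonunits := by
  have : Fact (Nat.Prime 5) := ⟨by norm_num⟩
  set M := 5 * N with hM
  have : NeZero M := ⟨mul_ne_zero (by norm_num) (NeZero.ne N)⟩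
  obtain ⟨φ, hφ, -⟩ := exists_mf_div f
  obtain ⟨z, hz, hzC⟩ := exists_zetaQ 5
  obtain ⟨Q, hQu, -, hQser⟩ := exists_aux_series (ℓ := 5) le_rfl A hz hzC (a := 1) (by norm_num)
  set a : LaurentSeries ℚb := expand M (NeZero.ne M) (HahnSeries.ofPowerSeries ℤ ℚb (PowerSeries.mk α))
    with ha
  set q : LaurentSeries ℚb := expand N (NeZero.ne N)
    (HahnSeries.ofPowerSeries ℤ ℚb (Q.map A.subtype)) with hq
  have hz1 : (1 : ℚb) - z ≠ 0 := sub_ne_zero.2 (hz.ne_one (by norm_num)).symm
  have hq0 : q ≠ 0 := fun h => by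
    have h0 := congrArg (fun s : LaurentSeries ℚb => s.coeff ((N : ℤ) * ((0 : ℕ) : ℤ))) h
    rw [hq] at h0
    simp only [expand_coeff_mul, HahnSeries.ofPowerSeries_apply_coeff, HahnSeries.coeff_zero,
      PowerSeries.coeff_map, PowerSeries.coeff_zero_eq_constantCoeff] at h0
    exact hQu.ne_zero (Subtype.ext h0)
  rw [Nat.cast_one] at hQser
  have hqser : HasQSeries M (fun τ => qbarToC (1 - z) * eRaw 5 (0, 1) τ) (seriesToC q) := by
    rw [hq, seriesToC_eq_lmap, lmap_expand, ← seriesToC_eq_lmap, hM]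
    exact hQser.refine_width (by norm_num) N (NeZero.ne N)
  have haser : HasQSeries M (⇑f) (seriesToC a) := by
    have hcoef : PowerSeries.map qbarToC (PowerSeries.mk α) = qExpansion 1 (⇑f) := by
      ext n; rw [PowerSeries.coeff_map, PowerSeries.coeff_mk, hα]; rfl
    rw [ha, seriesToC_eq_lmap, lmap_expand, ← seriesToC_eq_lmap, seriesToC_ofPowerSeries, hcoef]
    simpa using (hasQSeries_one f).refine_width one_pos M (NeZero.ne M)
  set g : LaurentSeries ℚb := HahnSeries.C (1 - z) * a / q with hg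
  have hgs : seriesToC g = serAlg M φ := by
    have hprod : HasQSeries M (⇑f)
        (serAlg M φ * (HahnSeries.C (qbarToC (1 - z))⁻¹ * seriesToC q)) := by
      refine ((hasQSeries_serHom φ).mul (hqser.smul (qbarToC (1 - z))⁻¹)).congr
        (.of_forall fun τ => ?_)
      have h1 := hφ 1 τ
      rw [SlashAction.slash_one, one_smul] at h1
      simp only [Pi.mul_apply]
      rw [← mul_assoc (qbarToC (1 - z))⁻¹, inv_mul_cancel₀ ((map_ne_zero qbarToC).2 hz1), one_mul,
        h1]
      congr 2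
    have e := hprod.unique (NeZero.pos M) haser
    have hsq0 : seriesToC q ≠ 0 :=
      fun h => hq0 (seriesToC_injective (h.trans (by rw [seriesToC_eq_lmap, map_zero])))
    have hC : HahnSeries.C (qbarToC (1 - z)) * HahnSeries.C (qbarToC (1 - z))⁻¹ =
        (1 : LaurentSeries ℂ) := by
      rw [← map_mul, mul_inv_cancel₀ ((map_ne_zero qbarToC).2 hz1), map_one]
    rw [hg, seriesToC_eq_lmap, map_div₀, map_mul, lmap_C, ← seriesToC_eq_lmap, ← seriesToC_eq_lmap,
      ← e, div_eq_iff hsq0]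
    linear_combination (serAlg M φ * seriesToC q) * hC
  have hg0 : g ≠ 0 := by
    obtain ⟨n, hn⟩ := hne
    refine div_ne_zero (mul_ne_zero ((map_ne_zero_iff _ HahnSeries.C_injective).2 hz1) fun h => hn ?_) hq0
    have h0 := congrArg (fun s : LaurentSeries ℚb => s.coeff ((M : ℤ) * (n : ℤ))) h
    rw [ha] at h0
    simpa [expand_coeff_mul] using h0
  obtain ⟨c, hc0, ⟨G, hG⟩, m, hm⟩ := exists_mf_normalisation hℓ hA φ hgs hg0
  -- the scaled series of `f`
  obtain ⟨Q', hQ'⟩ : q ∈ intSeriesA A := GalRep.mem_intSeriesA.2 fun i => by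
    by_cases hd : (N : ℤ) ∣ i
    · obtain ⟨j, rfl⟩ := hd
      rw [hq, expand_coeff_mul, ← lmap_ofPowerSeries_eq, lmap_coeff]
      exact SetLike.coe_mem _
    · rw [hq, expand_coeff_of_not_dvd _ _ _ _ hd]; exact A.zero_mem
  set P : LaurentSeries A := G * Q' with hP
  have hPeq : lmap A.subtype P = HahnSeries.C (c * (1 - z)) * a := by
    rw [hP, map_mul, hG, hQ', hg, map_mul]
    field_simp
  have hcoef : ∀ n : ℕ, ((P.coeff ((M : ℤ) * n) : A) : ℚb) = c * (1 - z) * α n := fun n => by
    have h1 := congrArg (fun s : LaurentSeries ℚb => s.coeff ((M : ℤ) * (n : ℤ))) hPeq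
    rw [ha] at h1
    simpa [HahnSeries.C_mul_eq_smul, expand_coeff_mul] using h1
  refine ⟨c * (1 - z), mul_ne_zero hc0 hz1, fun n => hcoef n ▸ (P.coeff _).2, ?_⟩
  by_contra hall
  push_neg at hall
  refine mul_ne_zero (map_residue_ne_zero (f := G) (m := m) ?_)
    (map_residue_ne_zero (f := Q') (m := (N : ℤ) * ((0 : ℕ) : ℤ)) ?_) ?_
  · have h1 : ((G.coeff m : A) : ℚb) = (HahnSeries.C c * g).coeff m :=
      (lmap_coeff A.subtype G m).symm.trans (by rw [hG])
    rwa [h1]
  · rw [show ((Q'.coeff ((N : ℤ) * ((0 : ℕ) : ℤ)) : A) : ℚb) =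
        ((PowerSeries.constantCoeff Q : A) : ℚb) from
      (lmap_coeff A.subtype Q' _).symm.trans (by
        rw [hQ', hq, expand_coeff_mul, HahnSeries.ofPowerSeries_apply_coeff,
          PowerSeries.coeff_map, PowerSeries.coeff_zero_eq_constantCoeff]
        rfl)]
    exact fun h => (A.coe_mem_nonunits_iff.1 h) hQu
  · rw [← map_mul, ← hP]
    ext i
    rw [lmap_coeff, HahnSeries.coeff_zero, IsLocalRing.residue_eq_zero_iff,
      ← A.coe_mem_nonunits_iff]
    have hi : ((P.coeff i : A) : ℚb) = c * (1 - z) * a.coeff i := by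
      have h1 := congrArg (fun s : LaurentSeries ℚb => s.coeff i) hPeq
      simpa [HahnSeries.C_mul_eq_smul] using h1
    rw [hi]
    have hz0 : (0 : ℚb) ∈ A.nonunits := by rw [ValuationSubring.mem_nonunits_iff]; simp
    by_cases hd : (M : ℤ) ∣ i
    · obtain ⟨j, rfl⟩ := hd
      rw [ha, expand_coeff_mul]
      by_cases hj : 0 ≤ j
      · obtain ⟨n, rfl⟩ := Int.eq_ofNat_of_zero_le hj
        rw [HahnSeries.ofPowerSeries_apply_coeff, PowerSeries.coeff_mk]
        exact hall n
      · rw [HahnSeries.ofPowerSeries_apply, HahnSeries.embDomain_of_notMem_range, mul_zero]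
        · exact hz0
        · rintro ⟨n, rfl⟩; exact hj (Int.natCast_nonneg n)
    · rw [ha, expand_coeff_of_not_dvd _ _ _ _ hd, mul_zero]
      exact hz0

/-- The Hecke eigenvalues are algebraic integers. -/
theorem isIntegral_eigenvalue (ε : DirichletCharacter ℂ N) (f : CuspForm (Gamma1 N) 1)
    (hf₁ : qCoeff ⇑f 1 = 1)
    (hT : IsEig N (fun p => (ε (p : ZMod N), qCoeff ⇑f p)) (qCoeff ⇑f))
    (halg : ∀ n, IsIntegral ℚ (qCoeff ⇑f n)) {p : ℕ} (hp : p.Prime) (hpN : ¬ p ∣ N) :
    IsIntegral ℤ (qCoeff ⇑f p) := by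
  choose α hα using fun n => exists_qbarToC_eq (x := qCoeff ⇑f n) (halg n).isAlgebraic
  obtain ⟨e, he⟩ : ∃ e : ℚb, qbarToC e = ε (p : ZMod N) := by
    refine exists_qbarToC_eq ⟨Polynomial.X ^ N.totient - 1,
      (Polynomial.monic_X_pow_sub_C 1 (Nat.totient_pos.2 (NeZero.pos N)).ne').ne_zero, ?_⟩
    have hu := congrArg (fun u : (ZMod N)ˣ => (u : ZMod N))
      (ZMod.pow_totient (ZMod.unitOfCoprime p (hp.coprime_iff_not_dvd.2 hpN)))
    simp only [Units.val_pow_eq_pow_val, ZMod.coe_unitOfCoprime, Units.val_one] at hu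
    rw [map_sub, Polynomial.aeval_X_pow, map_one, ← map_pow, hu, map_one, sub_self]
  rw [← hα p]
  refine (Galois.isIntegral_of_forall_valuationSubring fun V => ?_).map qbarToC.toIntAlgHom
  by_cases hV : ∀ n : ℕ, n ≠ 0 → ((n : ℚb))⁻¹ ∈ V
  · obtain ⟨n, hn, hint⟩ := ((IsFractionRing.isAlgebraic_iff ℤ ℚ ℂ).2 (halg p).isAlgebraic).exists_integral_multiple
    have hn' : ((n : ℤ) : ℚb) ≠ 0 := Int.cast_ne_zero.2 hn
    have h1 : ((n : ℤ) : ℚb) * α p ∈ V := by
      have h2 : IsIntegral ℤ (((n : ℤ) : ℚb) * α p) := by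
        obtain ⟨P, hP, hPe⟩ := hint
        refine ⟨P, hP, qbarToC_injective ?_⟩
        rw [Polynomial.hom_eval₂, map_zero, map_mul, map_intCast, hα, ← zsmul_eq_mul, ← hPe]
        exact Polynomial.eval₂_congr (RingHom.ext_int _ _) rfl rfl
      exact Galois.integralClosure_le V ⟨_, h2⟩
    have h2 : (((n : ℤ) : ℚb))⁻¹ ∈ V := by
      rcases Int.natAbs_eq n with h | h <;> rw [h]
      · simpa using hV _ (Int.natAbs_ne_zero.2 hn)
      · simpa [inv_neg] using V.neg_mem _ (hV _ (Int.natAbs_ne_zero.2 hn))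
    simpa [← mul_assoc, inv_mul_cancel₀ hn'] using V.mul_mem _ _ h2 h1
  · push_neg at hV
    obtain ⟨n, hn0, hn⟩ := hV
    obtain ⟨q, hq, hqV⟩ : ∃ q : ℕ, q.Prime ∧ V.LiesOverPrime q := by
      by_contra hall
      push_neg at hall
      refine hn ?_
      have hall' : ∀ m : ℕ, m ≠ 0 → ((m : ℚb))⁻¹ ∈ V := fun m => by
        induction m using Nat.recOnMul with
        | zero => exact fun h => absurd rfl h
        | one => intro _; simp [V.one_mem]
        | prime q hq =>
          intro _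
          by_contra hni
          refine hall q hq ?_
          show (q : ℚb) ∈ V.nonunits
          rw [ValuationSubring.mem_nonunits_iff]
          rw [← V.valuation_le_one_iff, map_inv₀, not_le] at hni
          exact (one_lt_inv₀ (by simpa [zero_lt_iff] using hq.ne_zero)).1 hni
        | mul a b ha hb =>
          intro h
          rw [Nat.cast_mul, mul_inv]
          exact V.mul_mem _ _ (ha (left_ne_zero_of_mul h)) (hb (right_ne_zero_of_mul h))
      exact hall' n hn0
    obtain ⟨c, hc0, hc, -⟩ := exists_scale_integral hq hqV f α hα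
      ⟨1, fun h => by simpa [h, hf₁] using hα 1⟩
    by_contra hnot
    obtain ⟨k, hk⟩ := GalRep.exists_pow_mul_not_mem hq hqV hnot hc0
    have hev : ∀ j : ℕ, α (p * j) + e * (if p ∣ j then α (j / p) else 0) = α p * α j := fun j => by
      refine qbarToC_injective ?_
      rw [map_add, map_mul, map_mul, apply_ite qbarToC, map_zero]
      simp only [hα, he]
      exact hT p hp hpN j
    -- the eigenvalue has a power times the scale as a combination of scaled coefficients
    have heV : e ∈ V := by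
      refine (V.valuation_le_one_iff _).1 (le_of_eq ?_)
      have h1 : e ^ N.totient = 1 := qbarToC_injective (by
        rw [map_pow, he, map_one, ← map_pow]
        have hu := congrArg (fun u : (ZMod N)ˣ => (u : ZMod N))
          (ZMod.pow_totient (ZMod.unitOfCoprime p (hp.coprime_iff_not_dvd.2 hpN)))
        simp only [Units.val_pow_eq_pow_val, ZMod.coe_unitOfCoprime, Units.val_one] at hu
        rw [hu, map_one])
      refine (pow_eq_one_iff.1 (?_ : V.valuation e ^ N.totient = 1)).resolve_right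
        (Nat.totient_pos.2 (NeZero.pos N)).ne'
      rw [← map_pow, h1, map_one]
    have hmem : ∀ i j : ℕ, c * α p ^ i * α (p ^ j) ∈ V := by
      intro i
      induction i with
      | zero => intro j; simpa using hc _
      | succ i ih =>
        intro j
        rw [show c * α p ^ (i + 1) * α (p ^ j) = c * α p ^ i * (α p * α (p ^ j)) by ring,
          ← hev (p ^ j), ← pow_succ', mul_add]
        refine V.add_mem _ _ (ih _) ?_
        split_ifs with hd
        · obtain ⟨j', rfl⟩ : ∃ j', j = j' + 1 := ⟨j - 1, by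
            rcases Nat.eq_zero_or_pos j with rfl | h
            · exact absurd (by simpa using hd) hp.not_dvd_one
            · omega⟩
          rw [pow_succ' p j', Nat.mul_div_cancel_left _ hp.pos,
            show c * α p ^ i * (e * α (p ^ j')) = e * (c * α p ^ i * α (p ^ j')) by ring]
          exact V.mul_mem _ _ heV (ih _)
        · simp [V.zero_mem]
    have h0 := hmem k 0
    rw [pow_zero, show α 1 = 1 from qbarToC_injective (by rw [hα, hf₁, map_one]), mul_one] at h0
    exact hk h0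

end Fermat.Agent.DS
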