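import Mathlib
import Fermat.Agent.DS.Ops
import Fermat.Agent.GalRep.Level.Congr
import Fermat.Agent.GalRep.Model.Reduction

/-!
Parabolic homomorphisms modulo `ℓ` that lift to every level inside the part where the operators
commute: Galois stability, the congruence relation, and the polynomials killing them.
-/

set_option autoImplicit false
set_option maxHeartbeats 800000

noncomputable section

namespace Fermat.Agent.DS

open CongruenceSubgroup
open Fermat.Agent.GalRep (kummerHeckeComm)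
open Fermat.Agent.GalRep.Level (ParG IsLevel IsTransfer IsDiamond galG galG_hecke galG_pull galG_cast
  galG_congruence conjEq_diamond isLevel_gamma1)
open Fermat.Agent.Galois (GQ)
open scoped MatrixGroups

variable {M : ℕ} [NeZero M]

/-- Galois on parabolic homomorphisms of level `Γ₁(M)`. -/
abbrev galM (M : ℕ) [NeZero M] (n : ℕ) [NeZero n] : GQ →* Module.End ℤ (ParG (Gamma1 M) (ZMod n)) :=
  galG (isLevel_gamma1 M) n

theorem galM_opPar {n : ℕ} [NeZero n] (s : GQ) (X : Op M) (χ : ParG (Gamma1 M) (ZMod n)) :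
    galM M n s (opPar (ZMod n) X χ) = opPar (ZMod n) X (galM M n s χ) := by
  rcases X with ⟨p, hp, hpM⟩ | d
  · have : NeZero p := ⟨hp.ne_zero⟩
    exact Subtype.ext ((isReps_hecke hp hpM (isDiamond_diaMat_prime (hp.coprime_iff_not_dvd.2 hpM))).eq_transfer (galG_hecke (isLevel_gamma1 M)
      (isLevel_gamma1 M) (isDiamond_diaMat_prime (hp.coprime_iff_not_dvd.2 hpM)) s
      (χ := χ) (χ' := opPar (ZMod n) (.inl ⟨p, hp, hpM⟩) χ)
      ((isReps_hecke hp hpM (isDiamond_diaMat_prime (hp.coprime_iff_not_dvd.2 hpM))).isTransfer _)))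
  · exact Subtype.ext ((isReps_diamond (diaMat_mem d)).eq_transfer
      (galG_pull (isLevel_gamma1 M) (isLevel_gamma1 M) s (conjEq_diamond (isDiamond_diaMat d) _)
        (χ := χ) (χ' := opPar (ZMod n) (.inr d) χ) ((isReps_diamond (diaMat_mem d)).isTransfer _)))

theorem galM_evalPar {n : ℕ} [NeZero n] (s : GQ) (P : FreeAlgebra ℤ (Op M))
    (χ : ParG (Gamma1 M) (ZMod n)) :
    galM M n s (evalPar M (ZMod n) P χ) = evalPar M (ZMod n) P (galM M n s χ) := by
  induction P using FreeAlgebra.induction generalizing χ with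
  | grade0 r => rw [AlgHom.commutes, Module.algebraMap_end_apply, Module.algebraMap_end_apply,
      map_smul]
  | grade1 X => simp only [evalPar, FreeAlgebra.lift_ι_apply]; exact galM_opPar s X χ
  | mul a b ha hb => simp only [map_mul, Module.End.mul_apply, ha, hb]
  | add a b ha hb => simp only [map_add, LinearMap.add_apply, ha, hb]

/-- The part where the operators commute. -/
def commPar (M : ℕ) [NeZero M] (n : ℕ) : Submodule ℤ (ParG (Gamma1 M) (ZMod n)) :=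
  ⨅ (X : Op M) (Y : Op M) (Q : FreeAlgebra ℤ (Op M)), LinearMap.ker (evalPar M (ZMod n)
    ((FreeAlgebra.ι ℤ X * FreeAlgebra.ι ℤ Y - FreeAlgebra.ι ℤ Y * FreeAlgebra.ι ℤ X) * Q))

theorem mem_commPar {n : ℕ} {χ : ParG (Gamma1 M) (ZMod n)} :
    χ ∈ commPar M n ↔ ∀ X Y Q, evalPar M (ZMod n)
      ((FreeAlgebra.ι ℤ X * FreeAlgebra.ι ℤ Y - FreeAlgebra.ι ℤ Y * FreeAlgebra.ι ℤ X) * Q) χ = 0 := by
  simp [commPar]

theorem evalPar_mem_commPar {n : ℕ} (P : FreeAlgebra ℤ (Op M)) {χ : ParG (Gamma1 M) (ZMod n)}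
    (hχ : χ ∈ commPar M n) : evalPar M (ZMod n) P χ ∈ commPar M n := by
  rw [mem_commPar] at hχ ⊢
  intro X Y Q
  rw [← Module.End.mul_apply, ← map_mul, mul_assoc]
  exact hχ X Y (Q * P)

theorem galM_mem_commPar {n : ℕ} [NeZero n] (s : GQ) {χ : ParG (Gamma1 M) (ZMod n)}
    (hχ : χ ∈ commPar M n) : galM M n s χ ∈ commPar M n := by
  rw [mem_commPar] at hχ ⊢
  intro X Y Q
  rw [← galM_evalPar, hχ X Y Q, map_zero]

/-- Reduction of coefficients. -/
def castPar (M : ℕ) {m n : ℕ} (h : m ∣ n) :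
    ParG (Gamma1 M) (ZMod n) →ₗ[ℤ] ParG (Gamma1 M) (ZMod m) :=
  parMap _ (ZMod.castHom h (ZMod m)).toAddMonoidHom

theorem galM_castPar {m n : ℕ} [NeZero m] [NeZero n] (h : m ∣ n) (s : GQ)
    (χ : ParG (Gamma1 M) (ZMod n)) :
    galM M m s (castPar M h χ) = castPar M h (galM M n s χ) :=
  Subtype.ext (galG_cast h (isLevel_gamma1 M) s χ (castPar M h χ) rfl)

/-- Classes modulo `ℓ` lifting to the commuting part at every power of `ℓ`. -/
def liftPar (M ℓ : ℕ) [NeZero M] : Submodule ℤ (ParG (Gamma1 M) (ZMod ℓ)) :=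
  ⨅ k : ℕ, (commPar M (ℓ ^ (k + 1))).map (castPar M (dvd_pow_self ℓ k.succ_ne_zero))

theorem mem_liftPar {ℓ : ℕ} {u : ParG (Gamma1 M) (ZMod ℓ)} :
    u ∈ liftPar M ℓ ↔ ∀ k : ℕ, ∃ v ∈ commPar M (ℓ ^ (k + 1)),
      castPar M (dvd_pow_self ℓ k.succ_ne_zero) v = u := by
  simp [liftPar]

theorem evalPar_mem_liftPar {ℓ : ℕ} (P : FreeAlgebra ℤ (Op M)) {u : ParG (Gamma1 M) (ZMod ℓ)}
    (hu : u ∈ liftPar M ℓ) : evalPar M (ZMod ℓ) P u ∈ liftPar M ℓ := by
  rw [mem_liftPar] at hu ⊢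
  intro k
  obtain ⟨v, hv, rfl⟩ := hu k
  exact ⟨_, evalPar_mem_commPar P hv, parMap_evalPar _ P v⟩

theorem galM_mem_liftPar {ℓ : ℕ} [NeZero ℓ] (s : GQ) {u : ParG (Gamma1 M) (ZMod ℓ)}
    (hu : u ∈ liftPar M ℓ) : galM M ℓ s u ∈ liftPar M ℓ := by
  rw [mem_liftPar] at hu ⊢
  intro k
  obtain ⟨v, hv, rfl⟩ := hu k
  exact ⟨_, galM_mem_commPar s hv, (galM_castPar _ s v).symm⟩

theorem comm_on_liftPar {ℓ : ℕ} (X Y : Op M) {u : ParG (Gamma1 M) (ZMod ℓ)}
    (hu : u ∈ liftPar M ℓ) :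
    opPar (ZMod ℓ) X (opPar (ZMod ℓ) Y u) = opPar (ZMod ℓ) Y (opPar (ZMod ℓ) X u) := by
  obtain ⟨v, hv, rfl⟩ := mem_liftPar.1 hu 0
  have h := mem_commPar.1 hv X Y 1
  rw [mul_one, map_sub, map_mul, map_mul, LinearMap.sub_apply, sub_eq_zero] at h
  simp only [evalPar, FreeAlgebra.lift_ι_apply, Module.End.mul_apply] at h
  have h' := congrArg (castPar M (dvd_pow_self ℓ (0 : ℕ).succ_ne_zero)) h
  unfold castPar at h' ⊢
  rw [parMap_opPar, parMap_opPar, parMap_opPar, parMap_opPar] at h'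
  exact h'

/-- A class killed by `D` at a high level dies modulo `ℓ`. -/
theorem castPar_eq_zero {ℓ D k : ℕ} (hℓ : ℓ.Prime) (hD : 0 < D) (hk : D < ℓ ^ k)
    {e : ParG (Gamma1 M) (ZMod (ℓ ^ (k + 1)))} (he : D • e = 0) :
    castPar M (dvd_pow_self ℓ k.succ_ne_zero) e = 0 := by
  refine Subtype.ext (AddMonoidHom.ext fun x => ?_)
  show ZMod.castHom (dvd_pow_self ℓ k.succ_ne_zero) (ZMod ℓ) ((e : Additive _ →+ ZMod (ℓ ^ (k + 1))) x) = 0
  have : NeZero (ℓ ^ (k + 1)) := ⟨pow_ne_zero _ hℓ.ne_zero⟩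
  obtain ⟨y, hy⟩ := ZMod.intCast_surjective ((e : Additive _ →+ ZMod (ℓ ^ (k + 1))) x)
  have h0 : D • (e : Additive _ →+ ZMod (ℓ ^ (k + 1))) x = 0 :=
    DFunLike.congr_fun (congrArg Subtype.val he) x
  rw [← hy, nsmul_eq_mul, ← Int.cast_natCast D, ← Int.cast_mul,
    ZMod.intCast_zmod_eq_zero_iff_dvd] at h0
  rw [← hy, map_intCast, ZMod.intCast_zmod_eq_zero_iff_dvd]
  by_contra hndvd
  have hcop : IsCoprime ((ℓ ^ (k + 1) : ℕ) : ℤ) y := by
    push_cast
    exact ((Nat.prime_iff_prime_int.1 hℓ).coprime_iff_not_dvd.2 hndvd).pow_left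
  have h1 := Nat.le_of_dvd hD (Int.natCast_dvd_natCast.1 (hcop.dvd_of_dvd_mul_right h0))
  exact absurd hk (not_lt.2 (le_trans (Nat.pow_le_pow_right hℓ.pos k.le_succ) h1))

/-- The congruence relation and unramifiedness on the lifting classes. -/
theorem liftPar_relation {ℓ : ℕ} [NeZero ℓ] (hℓ : ℓ.Prime) {p : ℕ} (hp : p.Prime) (hpM : ¬ p ∣ M)
    (hpℓ : p ≠ ℓ) (A : ValuationSubring (AlgebraicClosure ℚ)) (hA : A.LiesOverPrime p)
    {u : ParG (Gamma1 M) (ZMod ℓ)} (hu : u ∈ liftPar M ℓ) :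
    (∀ σ ∈ A.inertiaSubgroupIn ℚ, galM M ℓ σ u = u) ∧
    ∀ σ : GQ, A.IsFrobeniusAt σ p →
      galM M ℓ σ (galM M ℓ σ u) - opPar (ZMod ℓ) (.inl ⟨p, hp, hpM⟩) (galM M ℓ σ u) +
        p • opPar (ZMod ℓ) (.inr (ZMod.unitOfCoprime p (hp.coprime_iff_not_dvd.2 hpM))) u = 0 := by
  obtain ⟨D, hD, hmain⟩ := galG_congruence (isLevel_gamma1 M)
    (Fermat.Agent.GalRep.Model.kummerReductionG M (Gamma1 M) (isLevel_gamma1 M).gamma_le) hp hpM
  obtain ⟨k, hk⟩ : ∃ k, D < ℓ ^ k := ⟨D, Nat.lt_pow_self hℓ.one_lt⟩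
  obtain ⟨v, hv, rfl⟩ := mem_liftPar.1 hu k
  have : NeZero (ℓ ^ (k + 1)) := ⟨pow_ne_zero _ hℓ.ne_zero⟩
  have hn : ¬ p ∣ ℓ ^ (k + 1) := fun h =>
    hpℓ ((Nat.prime_dvd_prime_iff_eq hp hℓ).1 (hp.dvd_of_dvd_pow h))
  obtain ⟨h1, h2⟩ := hmain (ℓ ^ (k + 1)) hn A hA
  refine ⟨fun σ hσ => ?_, fun σ hσ => ?_⟩
  · have h := castPar_eq_zero hℓ hD hk (h1 σ hσ v)
    rw [map_sub, sub_eq_zero, ← galM_castPar] at h
    exact h
  · have h := castPar_eq_zero hℓ hD hk (h2 σ hσ _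
      (isDiamond_diaMat_prime (hp.coprime_iff_not_dvd.2 hpM)) v
      (opPar _ (.inl ⟨p, hp, hpM⟩) (galM M (ℓ ^ (k + 1)) σ v))
      (opPar _ (.inr (ZMod.unitOfCoprime p (hp.coprime_iff_not_dvd.2 hpM))) v)
      ((isReps_hecke hp hpM (isDiamond_diaMat_prime (hp.coprime_iff_not_dvd.2 hpM))).isTransfer _) ((isReps_diamond (diaMat_mem _)).isTransfer _))
    rw [map_add, map_sub, map_nsmul] at h
    unfold castPar at h
    rw [parMap_opPar, parMap_opPar] at h
    rw [← show castPar M (dvd_pow_self ℓ k.succ_ne_zero) = parMap _ _ from rfl,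
      ← galM_castPar, ← galM_castPar] at h
    exact h

/-! ## Classes from functionals on the period lattice -/

/-- The periods with values in the lattice. -/
def perParLat (M : ℕ) [NeZero M] : ParG (Gamma1 M) (perLat M) :=
  ⟨AddMonoidHom.mk' (fun x => ⟨perEv M x, mem_perLat.2 ⟨x, rfl⟩⟩)
      fun x y => Subtype.ext (map_add (perEv M) x y),
    fun γ hγ => Subtype.ext (perEv_parabolic γ hγ)⟩

theorem parMap_subtype_perParLat :
    parMap _ (perLat M).subtype.toAddMonoidHom (perParLat M) = perPar M := rfl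

theorem comp_evalForm_mem (P : FreeAlgebra ℤ (Op M)) {φ : CuspForm (Gamma1 M) 2 →+ ℝ}
    (hφ : φ ∈ perLat M) : φ.comp (evalForm M P).toAddMonoidHom ∈ perLat M := by
  obtain ⟨x, rfl⟩ := mem_perLat.1 hφ
  have h := congrArg (fun χ : ParG (Gamma1 M) (CuspForm (Gamma1 M) 2 →+ ℝ) => χ.1 x)
    (evalPar_perPar P)
  rw [← parMap_subtype_perParLat, ← parMap_evalPar] at h
  exact Eq.subst (motive := (· ∈ perLat M)) h ((evalPar M (perLat M) P (perParLat M)).1 x).2

/-- The operator on the lattice. -/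
def latOp (P : FreeAlgebra ℤ (Op M)) : perLat M →ₗ[ℤ] perLat M :=
  AddMonoidHom.toIntLinearMap (AddMonoidHom.mk'
    (fun φ => ⟨(φ : CuspForm (Gamma1 M) 2 →+ ℝ).comp (evalForm M P).toAddMonoidHom,
      comp_evalForm_mem P φ.2⟩) fun _ _ => rfl)

theorem coe_latOp (P : FreeAlgebra ℤ (Op M)) (φ : perLat M) (f : CuspForm (Gamma1 M) 2) :
    (latOp P φ : CuspForm (Gamma1 M) 2 →+ ℝ) f =
      (φ : CuspForm (Gamma1 M) 2 →+ ℝ) (evalForm M P f) := rfl

theorem evalPar_perParLat (P : FreeAlgebra ℤ (Op M)) :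
    evalPar M _ P (perParLat M) = parMap _ (latOp P).toAddMonoidHom (perParLat M) := by
  refine Subtype.ext (AddMonoidHom.ext fun x => Subtype.ext ?_)
  have h := congrArg (fun χ : ParG (Gamma1 M) (CuspForm (Gamma1 M) 2 →+ ℝ) => χ.1 x)
    (evalPar_perPar P)
  rw [← parMap_subtype_perParLat, ← parMap_evalPar] at h
  exact h

theorem latOp_commutator (X Y : Op M) (Q : FreeAlgebra ℤ (Op M)) :
    latOp ((FreeAlgebra.ι ℤ X * FreeAlgebra.ι ℤ Y - FreeAlgebra.ι ℤ Y * FreeAlgebra.ι ℤ X) * Q) = 0 := by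
  refine LinearMap.ext fun φ => Subtype.ext (AddMonoidHom.ext fun f => ?_)
  rw [coe_latOp, map_mul, map_sub, map_mul, map_mul]
  simp only [evalForm, FreeAlgebra.lift_ι_apply, opForm_comm X Y, sub_self, zero_mul,
    LinearMap.zero_apply, map_zero]
  rfl

/-- Every functional on the lattice modulo `ℓ` gives a lifting class. -/
theorem parMap_mem_liftPar {ℓ : ℕ} [NeZero ℓ] (φ : perLat M →ₗ[ℤ] ZMod ℓ) :
    parMap _ φ.toAddMonoidHom (perParLat M) ∈ liftPar M ℓ := by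
  rw [mem_liftPar]
  intro k
  have := perLat_free M
  obtain ⟨ψ, hψ⟩ := Module.projective_lifting_property
    (ZMod.castHom (dvd_pow_self ℓ k.succ_ne_zero) (ZMod ℓ)).toAddMonoidHom.toIntLinearMap φ
    (ZMod.ringHom_surjective _)
  refine ⟨parMap _ ψ.toAddMonoidHom (perParLat M), ?_, ?_⟩
  · rw [mem_commPar]
    intro X Y Q
    rw [← parMap_evalPar, evalPar_perParLat, latOp_commutator]
    refine Subtype.ext (AddMonoidHom.ext fun x => ?_)
    exact map_zero ψ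
  · refine Subtype.ext (AddMonoidHom.ext fun x => ?_)
    exact LinearMap.congr_fun hψ _

/-- A polynomial killing the lifting classes is divisible by `ℓ` on the lattice. -/
theorem exists_latOp_eq_smul {ℓ : ℕ} [NeZero ℓ] {P : FreeAlgebra ℤ (Op M)}
    (hP : ∀ u ∈ liftPar M ℓ, evalPar M (ZMod ℓ) P u = 0) :
    ∃ g : perLat M →ₗ[ℤ] perLat M, latOp P = (ℓ : ℤ) • g := by
  have := perLat_free M
  have := perLat_finite M
  let b := Module.Free.chooseBasis ℤ (perLat M)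
  have hdvd : ∀ (x : perLat M) (i), (ℓ : ℤ) ∣ b.coord i (latOp P x) := by
    intro x i
    obtain ⟨y, hy⟩ := mem_perLat.1 x.2
    have hx : x = (perParLat M : Additive _ →+ perLat M) y := Subtype.ext hy.symm
    rw [← ZMod.intCast_zmod_eq_zero_iff_dvd]
    have h := hP _ (parMap_mem_liftPar ((Int.castAddHom (ZMod ℓ)).toIntLinearMap.comp (b.coord i)))
    rw [← parMap_evalPar, evalPar_perParLat] at h
    rw [hx]
    exact DFunLike.congr_fun (congrArg Subtype.val h) y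
  refine ⟨b.constr ℤ fun j => b.equivFun.symm fun i => b.coord i (latOp P (b j)) / (ℓ : ℤ),
    b.ext fun j => ?_⟩
  rw [LinearMap.smul_apply, b.constr_basis, ← map_smul]
  refine b.equivFun.injective ?_
  rw [LinearEquiv.apply_symm_apply]
  ext i
  rw [Pi.smul_apply, smul_eq_mul, Int.mul_ediv_cancel' (hdvd (b j) i)]
  rfl

theorem latOp_one : latOp (1 : FreeAlgebra ℤ (Op M)) = 1 :=
  LinearMap.ext fun φ => Subtype.ext (AddMonoidHom.ext fun f => by rw [coe_latOp, map_one]; rfl)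

theorem latOp_pow (P : FreeAlgebra ℤ (Op M)) (i : ℕ) : latOp (P ^ i) = latOp P ^ i := by
  induction i with
  | zero => rw [pow_zero, pow_zero, latOp_one]
  | succ i ih =>
    rw [pow_succ, pow_succ', ← ih]
    refine LinearMap.ext fun φ => Subtype.ext (AddMonoidHom.ext fun f => ?_)
    rw [coe_latOp, map_mul, Module.End.mul_apply, Module.End.mul_apply, coe_latOp, coe_latOp]

/-- Some power of a polynomial killing the lifting classes is `ℓ` times a polynomial, on forms. -/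
theorem exists_pow_eq_smul {ℓ : ℕ} [NeZero ℓ] {P : FreeAlgebra ℤ (Op M)}
    (hP : ∀ u ∈ liftPar M ℓ, evalPar M (ZMod ℓ) P u = 0) :
    ∃ (r : ℕ) (Q : FreeAlgebra ℤ (Op M)),
      evalForm M (P ^ r) = evalForm M ((ℓ : ℤ) • Q) := by
  obtain ⟨g, hg⟩ := exists_latOp_eq_smul hP
  have := perLat_finite M
  have := perLat_free M
  set c := g.charpoly
  set d := c.natDegree
  refine ⟨d, -∑ i ∈ Finset.range d, (c.coeff i * (ℓ : ℤ) ^ (d - i - 1)) • P ^ i, ?_⟩
  have hCH : ∑ i ∈ Finset.range (d + 1), c.coeff i • g ^ i = 0 := by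
    rw [← Polynomial.aeval_eq_sum_range, LinearMap.aeval_self_charpoly]
  rw [Finset.sum_range_succ, show c.coeff d = 1 from (LinearMap.charpoly_monic g).coeff_natDegree,
    one_smul] at hCH
  have key : latOp P ^ d =
      (ℓ : ℤ) • -∑ i ∈ Finset.range d, (c.coeff i * (ℓ : ℤ) ^ (d - i - 1)) • latOp P ^ i := by
    rw [hg, smul_pow, eq_neg_of_add_eq_zero_right hCH, smul_neg, smul_neg, Finset.smul_sum,
      Finset.smul_sum]
    congr 1
    refine Finset.sum_congr rfl fun i hi => ?_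
    rw [smul_pow, smul_smul, smul_smul, smul_smul]
    congr 1
    have hi' := Finset.mem_range.1 hi
    obtain ⟨e, he⟩ : ∃ e, d = i + e + 1 := ⟨d - i - 1, by omega⟩
    rw [he, show i + e + 1 - i - 1 = e by omega, pow_succ, pow_add]
    ring
  refine LinearMap.ext fun f => sub_eq_zero.1 (eq_zero_of_perEv fun x => ?_)
  set φ : perLat M := ⟨perEv M x, mem_perLat.2 ⟨x, rfl⟩⟩ with hφ
  have h := DFunLike.congr_fun (congrArg Subtype.val (LinearMap.congr_fun key φ)) f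
  rw [← latOp_pow, coe_latOp] at h
  rw [map_sub, sub_eq_zero]
  refine h.trans ?_
  simp only [LinearMap.smul_apply, LinearMap.neg_apply, LinearMap.sum_apply, ← latOp_pow,
    map_zsmul, map_neg, map_sum]
  show ((ℓ : ℤ) • -(∑ i ∈ Finset.range d,
    (c.coeff i * (ℓ : ℤ) ^ (d - i - 1)) • latOp (P ^ i) φ) : perLat M).1 f = _
  simp only [Submodule.coe_smul, Submodule.coe_neg, Submodule.coe_sum, AddMonoidHom.neg_apply,
    AddMonoidHom.finset_sum_apply, AddMonoidHom.coe_smul, Pi.smul_apply, coe_latOp, hφ]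

end Fermat.Agent.DS
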