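import Mathlib
import Fermat.Agent.DS.Integrality
import Fermat.Agent.DS.Lift
import Fermat.Agent.DS.Algebraic

/-!
The system of a weight one eigenform modulo a place over `ℓ ∤ N`, read in weight two at level
`N ℓ`: it kills every polynomial in the operators that kills the lifting parabolic classes.
-/

set_option autoImplicit false
set_option maxHeartbeats 800000

noncomputable section

namespace Fermat.Agent.DS

open UpperHalfPlane CongruenceSubgroup ModularFormClass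
open Fermat.Agent.GalRep (HasQSeries qbarToC qbarToC_injective exists_qbarToC_eq expand
  expand_coeff_mul expand_coeff_of_not_dvd seriesToC lmap charP_residue)
open Fermat.Agent.GalRep.Model (rowMul NZ)
open scoped MatrixGroups Manifold ModularForm

local notation "ℚb" => AlgebraicClosure ℚ

section Red

variable (A : ValuationSubring ℚb)

/-- A complex number is the image of an element of the place with the given residue. -/
def RedTo (x : ℂ) (r : IsLocalRing.ResidueField A) : Prop :=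
  ∃ a : A, qbarToC (a : ℚb) = x ∧ IsLocalRing.residue A a = r

variable {A} {x y : ℂ} {r s : IsLocalRing.ResidueField A}

theorem RedTo.add (h : RedTo A x r) (h' : RedTo A y s) : RedTo A (x + y) (r + s) := by
  obtain ⟨a, rfl, rfl⟩ := h
  obtain ⟨b, rfl, rfl⟩ := h'
  exact ⟨a + b, by simp, map_add _ _ _⟩

theorem RedTo.mul (h : RedTo A x r) (h' : RedTo A y s) : RedTo A (x * y) (r * s) := by
  obtain ⟨a, rfl, rfl⟩ := h
  obtain ⟨b, rfl, rfl⟩ := h'
  exact ⟨a * b, by simp, map_mul _ _ _⟩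

theorem RedTo.zero : RedTo A 0 0 := ⟨0, by simp, map_zero _⟩

theorem RedTo.intCast (m : ℤ) : RedTo A (m : ℂ) (m : IsLocalRing.ResidueField A) :=
  ⟨m, by simp, map_intCast _ _⟩

theorem RedTo.natCast (m : ℕ) : RedTo A (m : ℂ) (m : IsLocalRing.ResidueField A) :=
  ⟨m, by simp, map_natCast _ _⟩

theorem RedTo.unique (h : RedTo A x r) (h' : RedTo A x s) : r = s := by
  obtain ⟨a, ha, rfl⟩ := h
  obtain ⟨b, hb, rfl⟩ := h'
  rw [show a = b from Subtype.ext (qbarToC_injective (ha.trans hb.symm))]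

theorem RedTo.ite {P : Prop} [Decidable P] (h : P → RedTo A x r) :
    RedTo A (if P then x else 0) (if P then r else 0) := by
  split_ifs with hP
  exacts [h hP, RedTo.zero]

theorem redTo_of_isIntegral {x : ℂ} (hx : IsIntegral ℤ x) : ∃ r, RedTo A x r := by
  obtain ⟨y, rfl⟩ := exists_qbarToC_eq ((hx.tower_top (A := ℚ)).isAlgebraic)
  have hy : IsIntegral ℤ y :=
    (isIntegral_algHom_iff qbarToC.toIntAlgHom qbarToC_injective).1 hx
  exact ⟨_, ⟨y, Galois.integralClosure_le A ⟨y, hy⟩⟩, rfl, rfl⟩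

/-- A Dirichlet character with values in the place. -/
theorem exists_char_lift {N : ℕ} [NeZero N] (A : ValuationSubring ℚb) (ε : DirichletCharacter ℂ N) :
    ∃ e : ZMod N →* A, ∀ d, qbarToC (e d : ℚb) = ε d := by
  have h : ∀ d, ∃ a : A, qbarToC (a : ℚb) = ε d := fun d => by
    by_cases hd : IsUnit d
    · obtain ⟨u, rfl⟩ := hd
      obtain ⟨r, a, ha, -⟩ := redTo_of_isIntegral (A := A)
        (isIntegral_rootOfUnity (m := N.totient) (Nat.totient_pos.2 (NeZero.pos N)).ne' (z := ε u)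
          (by rw [← map_pow, ← Units.val_pow_eq_pow_val, ZMod.pow_totient, Units.val_one, map_one]))
      exact ⟨a, ha⟩
    · exact ⟨0, by simp [ε.map_nonunit hd]⟩
  choose e he using h
  have hinj : ∀ a b : A, qbarToC (a : ℚb) = qbarToC (b : ℚb) → a = b := fun a b hab =>
    Subtype.ext (qbarToC_injective hab)
  exact ⟨{ toFun := e
           map_one' := hinj _ _ (by rw [he, map_one]; simp)
           map_mul' := fun a b => hinj _ _ (by rw [MulMemClass.coe_mul, map_mul, he, he, he, map_mul]) },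
    he⟩

end Red

theorem ofPowerSeries_coeff_neg {R : Type*} [Semiring R] (s : PowerSeries R) {j : ℤ} (hj : j < 0) :
    (HahnSeries.ofPowerSeries ℤ R s).coeff j = 0 := by
  rw [HahnSeries.ofPowerSeries_apply, HahnSeries.embDomain_of_notMem_range]
  rintro ⟨i, rfl⟩
  exact absurd hj (not_lt.2 (Int.natCast_nonneg i))

theorem expand_ofPowerSeries {a : ℕ} (ha : a ≠ 0) (p : PowerSeries ℂ) :
    expand a ha (HahnSeries.ofPowerSeries ℤ ℂ p) = HahnSeries.ofPowerSeries ℤ ℂ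
      (PowerSeries.mk fun m => if a ∣ m then PowerSeries.coeff (m / a) p else 0) := by
  ext m
  by_cases hm : m < 0
  · rw [ofPowerSeries_coeff_neg _ hm]
    by_cases hd : (a : ℤ) ∣ m
    · obtain ⟨j, rfl⟩ := hd
      rw [expand_coeff_mul, ofPowerSeries_coeff_neg _ (neg_of_mul_neg_right hm (Int.natCast_nonneg a))]
    · rw [expand_coeff_of_not_dvd _ _ _ _ hd]
  · obtain ⟨n, rfl⟩ := Int.eq_ofNat_of_zero_le (not_lt.1 hm)
    rw [HahnSeries.ofPowerSeries_apply_coeff, PowerSeries.coeff_mk]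
    by_cases hd : a ∣ n
    · obtain ⟨j, rfl⟩ := hd
      rw [if_pos (dvd_mul_right _ _), Nat.mul_div_cancel_left _ (Nat.pos_of_ne_zero ha),
        Int.natCast_mul, expand_coeff_mul, HahnSeries.ofPowerSeries_apply_coeff]
    · rw [if_neg hd, expand_coeff_of_not_dvd _ _ _ _ (fun h => hd (Int.natCast_dvd_natCast.1 h))]

/-- Coefficients of a form whose series of width `ℓ` is a product of an expanded series and a
series congruent to a constant modulo the maximal ideal. -/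
theorem redTo_product {M : ℕ} [NeZero M] {k : ℤ} {ℓ : ℕ} (hℓ : ℓ ≠ 0) {A : ValuationSubring ℚb}
    (G : CuspForm (Gamma1 M) k) {F E : ℍ → ℂ} (hG : ⇑G = F * E) {s : PowerSeries ℂ} (v : ℕ → A)
    (hv : ∀ n, qbarToC (v n : ℚb) = PowerSeries.coeff n s) (Q : PowerSeries A)
    (hQ : ∀ n ≠ 0, PowerSeries.coeff n Q ∈ IsLocalRing.maximalIdeal A)
    (hF : HasQSeries 1 F (HahnSeries.ofPowerSeries ℤ ℂ s))
    (hE : HasQSeries ℓ E (seriesToC (HahnSeries.ofPowerSeries ℤ ℚb (Q.map A.subtype)))) (n : ℕ) :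
    RedTo A (qCoeff ⇑G n)
      (IsLocalRing.residue A (v n) * IsLocalRing.residue A (PowerSeries.constantCoeff Q)) := by
  set φ : A →+* ℂ := qbarToC.comp A.subtype
  set V : PowerSeries A := PowerSeries.mk fun m => if ℓ ∣ m then v (m / ℓ) else 0 with hV
  have hVs : PowerSeries.map φ V =
      PowerSeries.mk fun m => if ℓ ∣ m then PowerSeries.coeff (m / ℓ) s else 0 := by
    ext m
    rw [PowerSeries.coeff_map, PowerSeries.coeff_mk, PowerSeries.coeff_mk, apply_ite φ, map_zero]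
    simp only [φ, RingHom.comp_apply]
    exact ite_congr rfl (fun _ => hv _) fun _ => rfl
  have hF' := hF.refine_width one_pos ℓ hℓ
  rw [one_mul, expand_ofPowerSeries, ← hVs] at hF'
  rw [seriesToC_ofPowerSeries, ← RingHom.comp_apply (PowerSeries.map qbarToC),
    ← PowerSeries.map_comp] at hE
  have hprod := hF'.mul hE
  rw [← map_mul, ← map_mul, ← hG] at hprod
  have hG1 := (hasQSeries_one G).refine_width one_pos ℓ hℓ
  rw [one_mul] at hG1
  have e := congrArg (fun x : LaurentSeries ℂ => x.coeff ((ℓ : ℤ) * n))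
    (hG1.unique (Nat.pos_of_ne_zero hℓ) hprod)
  simp only [expand_coeff_mul] at e
  rw [HahnSeries.ofPowerSeries_apply_coeff, ← Int.natCast_mul,
    HahnSeries.ofPowerSeries_apply_coeff, PowerSeries.coeff_map] at e
  refine ⟨PowerSeries.coeff (ℓ * n) (V * Q), e.symm, ?_⟩
  have hQC : PowerSeries.map (IsLocalRing.residue A) Q =
      PowerSeries.C (IsLocalRing.residue A (PowerSeries.constantCoeff Q)) := by
    ext m
    rw [PowerSeries.coeff_map, PowerSeries.coeff_C]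
    split_ifs with hm
    · subst hm; rw [PowerSeries.coeff_zero_eq_constantCoeff]
    · exact (IsLocalRing.residue_eq_zero_iff _).2 (hQ m hm)
  rw [← PowerSeries.coeff_map, map_mul, hQC, PowerSeries.coeff_mul_C, PowerSeries.coeff_map, hV,
    PowerSeries.coeff_mk, if_pos (dvd_mul_right _ _),
    Nat.mul_div_cancel_left _ (Nat.pos_of_ne_zero hℓ)]

variable {N : ℕ} [NeZero N]

theorem gamma0_le_of_dvd {m M : ℕ} (h : m ∣ M) {γ : SL(2, ℤ)} (hγ : γ ∈ Gamma0 M) :
    γ ∈ Gamma0 m := by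
  rw [Gamma0_mem] at hγ ⊢
  simpa using congrArg (ZMod.castHom h (ZMod m)) hγ

theorem gamma1_le_of_dvd {m M : ℕ} (h : m ∣ M) {γ : SL(2, ℤ)} (hγ : γ ∈ Gamma1 M) :
    γ ∈ Gamma1 m := by
  rw [Gamma1_mem] at hγ ⊢
  exact ⟨by simpa [ZMod.cast_one h] using congrArg (ZMod.castHom h (ZMod m)) hγ.1,
    by simpa [ZMod.cast_one h] using congrArg (ZMod.castHom h (ZMod m)) hγ.2.1,
    by simpa using congrArg (ZMod.castHom h (ZMod m)) hγ.2.2⟩

/-- The weight two form at level `N ℓ` congruent to a multiple of the given one. -/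
theorem exists_start_form {ℓ : ℕ} [Fact ℓ.Prime] (h5 : 5 ≤ ℓ) {A : ValuationSubring ℚb}
    (hA : A.LiesOverPrime ℓ) (ε : DirichletCharacter ℂ N) (f : CuspForm (Gamma1 N) 1)
    (hT : IsEig N (fun p => (ε (p : ZMod N), qCoeff ⇑f p)) (qCoeff ⇑f))
    (e : ZMod N →* A) (he : ∀ d, qbarToC (e d : ℚb) = ε d) (c : ℂ) (v : ℕ → A)
    (hv : ∀ n, qbarToC (v n : ℚb) = c * qCoeff ⇑f n) :
    ∃ (F : CuspForm (Gamma1 (N * ℓ)) 2) (κ : IsLocalRing.ResidueField A), κ ≠ 0 ∧
      ∀ (δ : SL(2, ℤ)) (hδ : δ ∈ Gamma0 (N * ℓ)) (n : ℕ),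
        RedTo A (qCoeff ⇑(dia δ hδ F) n)
          (IsLocalRing.residue A (e ((δ 1 1 : ℤ) : ZMod N)) *
              (((δ 1 1 : ℤ) : IsLocalRing.ResidueField A))⁻¹ * κ *
            IsLocalRing.residue A (v n)) := by
  have hℓ : ℓ.Prime := Fact.out
  obtain ⟨z, hz, hzC⟩ := exists_zetaQ ℓ
  have hℓm : (ℓ : A) ∈ IsLocalRing.maximalIdeal A := A.coe_mem_nonunits_iff.1 hA
  have := charP_residue hℓ hA
  have hnz : NZ ℓ ((0 : ℤ), (1 : ℤ)) := fun h =>
    hℓ.not_dvd_one (Int.natCast_dvd_natCast.1 h.2)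
  set t : ℂ := qbarToC (1 - z)
  set E : SL(2, ℤ) → ℍ → ℂ := fun g => t • eRaw ℓ (rowMul (0, 1) g)
  set Φ : ℍ → ℂ := (c • ⇑f) * (t • eRaw ℓ (0, 1)) with hΦ
  have hsl : ∀ g : SL(2, ℤ), Φ ∣[(2 : ℤ)] g = (c • ((⇑f) ∣[(1 : ℤ)] g)) * E g := fun g => by
    rw [hΦ, show (2 : ℤ) = 1 + 1 by norm_num, ModularForm.mul_slash_SL2, ModularForm.SL_smul_slash,
      ModularForm.SL_smul_slash]
    congr 2
    exact funext fun τ => slash_eRaw h5 _ g τ
  have hrow : ∀ {g : SL(2, ℤ)}, g ∈ Gamma0 (N * ℓ) → ∀ {a : ℤ}, (ℓ : ℤ) ∣ g 1 1 - a →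
      eRaw ℓ (rowMul (0, 1) g) = eRaw ℓ (0, a) := fun {g} hg {a} ha => by
    refine eRaw_congr h5 ?_ ?_
    · rw [← ZMod.intCast_zmod_eq_zero_iff_dvd]
      simpa [rowMul] using Gamma0_mem.1 (gamma0_le_of_dvd (dvd_mul_left ℓ N) hg)
    · simpa [rowMul] using ha
  let F : CuspForm (Gamma1 (N * ℓ)) 2 := mkCusp1 Φ
    (((CuspFormClass.holo f).const_smul c).mul ((mdifferentiable_eRaw h5 hnz).const_smul t))
    (fun γ hγ => by
      rw [hsl, slash_gamma1 f (gamma1_le_of_dvd (dvd_mul_right N ℓ) hγ), hΦ]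
      simp only [E]
      rw [hrow (gamma1_le_gamma0 _ hγ) (a := 1)]
      rw [← ZMod.intCast_zmod_eq_zero_iff_dvd]
      simpa [sub_eq_zero] using ((Gamma1_mem _ _).1 (gamma1_le_of_dvd (dvd_mul_left ℓ N) hγ)).2.1)
    (fun g => by
      rw [hsl]
      exact Filter.ZeroAtFilter.smul c (isZeroAtImInfty_slash f g) |>.mul_boundedAtFilter
        (Filter.BoundedAtFilter.smul t (exists_bound_eRaw h5 (GalRep.Model.nz_rowMul g hnz))))
  obtain ⟨Q₁, hQ₁u, hQ₁r, -⟩ := exists_aux_series h5 A hz hzC hℓ.not_dvd_one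
  set κ := IsLocalRing.residue A (PowerSeries.constantCoeff Q₁)
  refine ⟨F, κ, (hQ₁u.map (IsLocalRing.residue A)).ne_zero, fun δ hδ n => ?_⟩
  have hunit : IsUnit ((δ 1 1 : ℤ) : ZMod ℓ) := by
    refine IsUnit.of_mul_eq_one ((δ⁻¹ 1 1 : ℤ) : ZMod ℓ) ?_
    rw [← eleven_mul (gamma0_le_of_dvd (dvd_mul_left ℓ N) hδ)]; simp
  set a := ((δ 1 1 : ℤ) : ZMod ℓ).val with haval
  have ha : ¬ ℓ ∣ a := fun h => by
    have := hunit.ne_zero
    rw [← ZMod.natCast_zmod_val ((δ 1 1 : ℤ) : ZMod ℓ)] at this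
    exact this ((ZMod.natCast_eq_zero_iff _ _).2 h)
  have hdvd : (ℓ : ℤ) ∣ δ 1 1 - (a : ℤ) := by
    rw [← ZMod.intCast_zmod_eq_zero_iff_dvd]; simp [a]
  have hak : ((δ 1 1 : ℤ) : IsLocalRing.ResidueField A) = (a : IsLocalRing.ResidueField A) := by
    rw [← Int.cast_natCast (R := IsLocalRing.ResidueField A) a, ← sub_eq_zero, ← Int.cast_sub,
      CharP.intCast_eq_zero_iff (IsLocalRing.ResidueField A) ℓ]
    exact hdvd
  obtain ⟨Q, -, hQr, hQs⟩ := exists_aux_series h5 A hz hzC ha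
  set u : ZMod N := ((δ 1 1 : ℤ) : ZMod N)
  have hcoe : ⇑(dia δ hδ F) = ((c * ε u) • ⇑f) * fun τ => t * eRaw ℓ (0, (a : ℤ)) τ := by
    rw [coe_dia, show ⇑F = Φ from rfl, hsl,
      slash_gamma0_eq ε f hT (gamma0_le_of_dvd (dvd_mul_right N ℓ) hδ), smul_smul]
    simp only [E]
    rw [hrow hδ hdvd]
    rfl
  have hf : HasQSeries 1 ((c * ε u) • ⇑f)
      (HahnSeries.ofPowerSeries ℤ ℂ (PowerSeries.C (c * ε u) * qExpansion 1 ⇑f)) := by
    rw [map_mul, HahnSeries.ofPowerSeries_C]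
    exact (hasQSeries_one f).smul _
  have h := redTo_product hℓ.ne_zero (dia δ hδ F) hcoe (fun m => e u * v m)
    (fun m => by
      rw [MulMemClass.coe_mul, map_mul, he, hv, PowerSeries.coeff_C_mul]
      show _ = c * ε u * qCoeff ⇑f m
      ring) Q (hQr hℓm).1 hf hQs n
  convert h using 1
  have h1 := (hQ₁r hℓm).2
  have h2 := (hQr hℓm).2
  simp only [map_mul, map_natCast, map_ofNat, Nat.cast_one, mul_one] at h1 h2 ⊢
  have h3 : (3 : IsLocalRing.ResidueField A) ≠ 0 := fun h3 => by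
    have := Nat.le_of_dvd (by norm_num) ((CharP.cast_eq_zero_iff (IsLocalRing.ResidueField A) ℓ 3).1
      (by exact_mod_cast h3))
    omega
  have ha0 : (a : IsLocalRing.ResidueField A) ≠ 0 := by
    rwa [Ne, CharP.cast_eq_zero_iff (IsLocalRing.ResidueField A) ℓ]
  have hκ : κ = a * IsLocalRing.residue A (PowerSeries.constantCoeff Q) :=
    mul_left_cancel₀ h3 (by linear_combination h1 - h2)
  rw [hak, hκ]
  field_simp

/-- The system modulo the place kills the polynomials killing the lifting classes. -/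
theorem exists_modular_eigen (ε : DirichletCharacter ℂ N) (f : CuspForm (Gamma1 N) 1)
    (hf₁ : qCoeff ⇑f 1 = 1)
    (hT : IsEig N (fun p => (ε (p : ZMod N), qCoeff ⇑f p)) (qCoeff ⇑f))
    (halg : ∀ n, IsIntegral ℚ (qCoeff ⇑f n)) {ℓ : ℕ} [Fact ℓ.Prime] (h5 : 5 ≤ ℓ)
    {A : ValuationSubring ℚb} (hA : A.LiesOverPrime ℓ) :
    ∃ ψ : FreeAlgebra ℤ (Op (N * ℓ)) →+* IsLocalRing.ResidueField A,
      (∀ (p : ℕ) (hp : p.Prime) (hpM : ¬ p ∣ N * ℓ),
        RedTo A (qCoeff ⇑f p) (ψ (FreeAlgebra.ι ℤ (.inl ⟨p, hp, hpM⟩))) ∧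
        RedTo A (ε (p : ZMod N)) ((p : IsLocalRing.ResidueField A) *
          ψ (FreeAlgebra.ι ℤ (.inr (ZMod.unitOfCoprime p (hp.coprime_iff_not_dvd.2 hpM)))))) ∧
      ∀ P, (∀ u ∈ liftPar (N * ℓ) ℓ, evalPar (N * ℓ) (ZMod ℓ) P u = 0) → ψ P = 0 := by
  have hℓ : ℓ.Prime := Fact.out
  have := charP_residue hℓ hA
  set k := IsLocalRing.ResidueField A
  choose α hα using fun n => exists_qbarToC_eq (x := qCoeff ⇑f n) (halg n).isAlgebraic
  obtain ⟨e, he⟩ := exists_char_lift A ε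
  obtain ⟨c, -, hcA, n₁, hn₁⟩ := exists_scale_integral hℓ hA f α hα
    ⟨1, fun h => by simpa [h, hf₁] using hα 1⟩
  set v : ℕ → A := fun n => ⟨c * α n, hcA n⟩
  have hv : ∀ n, qbarToC (v n : ℚb) = qbarToC c * qCoeff ⇑f n := fun n => by
    rw [← hα n, ← map_mul]
  set h : ℕ → k := fun n => IsLocalRing.residue A (v n) with hh
  have hh0 : h n₁ ≠ 0 := fun h0 => hn₁ ((A.coe_mem_nonunits_iff).2
    ((IsLocalRing.residue_eq_zero_iff _).1 h0))
  obtain ⟨F₀, κ, hκ, hF₀⟩ := exists_start_form h5 hA ε f hT e he (qbarToC c) v hv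
  have hap : ∀ p : ℕ, p.Prime → ¬ p ∣ N * ℓ → ∃ r, RedTo A (qCoeff ⇑f p) r := fun p hp hpM =>
    redTo_of_isIntegral (isIntegral_eigenvalue ε f hf₁ hT halg hp fun h => hpM (h.mul_right ℓ))
  choose a ha using hap
  -- the character at level `N ℓ`
  set castN : ZMod (N * ℓ) →+* ZMod N := ZMod.castHom (dvd_mul_right N ℓ) (ZMod N)
  set castk : ZMod (N * ℓ) →+* k :=
    (ZMod.castHom (dvd_refl ℓ) k).comp (ZMod.castHom (dvd_mul_left ℓ N) (ZMod ℓ))
  set χ : ZMod (N * ℓ) → k := fun x => IsLocalRing.residue A (e (castN x)) * (castk x)⁻¹ with hχ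
  have hχmul : ∀ x y, χ (x * y) = χ x * χ y := fun x y => by
    simp only [hχ, map_mul, mul_inv]; ring
  have hχ1 : χ 1 = 1 := by simp [hχ]
  let ψ₀ : Op (N * ℓ) → k := Sum.elim (fun p => a p.1 p.2.1 p.2.2) fun d => χ (d : ZMod (N * ℓ))
  let ψ : FreeAlgebra ℤ (Op (N * ℓ)) →ₐ[ℤ] k := FreeAlgebra.lift ℤ ψ₀
  -- forms congruent to multiples
  let V : CuspForm (Gamma1 (N * ℓ)) 2 → k → Prop := fun F cF =>
    ∀ (δ : SL(2, ℤ)) (hδ : δ ∈ Gamma0 (N * ℓ)) (n : ℕ),
      RedTo A (qCoeff ⇑(dia δ hδ F) n) (χ ((δ 1 1 : ℤ) : ZMod (N * ℓ)) * cF * h n)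
  have hV₀ : V F₀ κ := fun δ hδ n => by
    have := hF₀ δ hδ n
    simp only [hχ, hh, castN, castk, RingHom.comp_apply, map_intCast]
    exact this
  have hstep : ∀ P F cF, V F cF → V (evalForm (N * ℓ) P F) (ψ P * cF) := by
    intro P
    induction P using FreeAlgebra.induction with
    | grade0 r =>
      intro F cF hF δ hδ n
      rw [AlgHom.commutes, Module.algebraMap_end_apply, AlgHom.commutes, eq_intCast,
        ← Int.cast_smul_eq_zsmul ℂ, map_smul, qCoeff1_smul]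
      convert (RedTo.intCast r).mul (hF δ hδ n) using 1
      ring
    | grade1 X =>
      intro F cF hF δ hδ n
      simp only [evalForm, ψ, FreeAlgebra.lift_ι_apply]
      rcases X with ⟨p, hp, hpM⟩ | d
      · show RedTo A (qCoeff ⇑(dia δ hδ (heckeT1 hp hpM F)) n) _
        rw [← heckeT1_dia, qCoeff_heckeT1, dia_dia, show ((2 : ℤ) - 1) = 1 by norm_num, zpow_one]
        set R := diaMat (M := N * ℓ) (ZMod.unitOfCoprime p (hp.coprime_iff_not_dvd.2 hpM))
        have hR : ((R 1 1 : ℤ) : ZMod (N * ℓ)) = (p : ZMod (N * ℓ)) := by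
          rw [diaMat_eleven, ZMod.coe_unitOfCoprime]
        have hRk : (p : k) * χ (p : ZMod (N * ℓ)) = IsLocalRing.residue A (e (p : ZMod N)) := by
          simp only [hχ, map_natCast]
          have : (p : k) ≠ 0 := by
            rw [Ne, CharP.cast_eq_zero_iff k ℓ]
            exact fun hd => hpM (((Nat.prime_dvd_prime_iff_eq hℓ hp).1 hd) ▸ dvd_mul_left ℓ N)
          rw [← div_eq_mul_inv, mul_div_cancel₀ _ this]
        obtain ⟨ea, hea, hea'⟩ : RedTo A (ε (p : ZMod N)) (IsLocalRing.residue A (e (p : ZMod N))) :=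
          ⟨_, he _, rfl⟩
        -- the relation on residues
        have hrel : h (n * p) + IsLocalRing.residue A (e (p : ZMod N)) *
            (if p ∣ n then h (n / p) else 0) = a p hp hpM * h n := by
          have hpN : ¬ p ∣ N := fun h => hpM (h.mul_right ℓ)
          refine RedTo.unique (x := qbarToC c * (qCoeff ⇑f (n * p) +
            ε (p : ZMod N) * (if p ∣ n then qCoeff ⇑f (n / p) else 0))) ?_ ?_
          · rw [mul_add, mul_left_comm, mul_ite, mul_zero]
            exact RedTo.add ⟨_, hv _, rfl⟩ (RedTo.mul ⟨_, he _, rfl⟩ (RedTo.ite fun _ => ⟨_, hv _, rfl⟩))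
          · rw [mul_comm n p, hT p hp hpN n, mul_left_comm]
            exact RedTo.mul (ha p hp hpM) ⟨_, hv n, rfl⟩
        have key := (hF δ hδ (n * p)).add ((RedTo.natCast (A := A) p).mul
          (RedTo.ite (P := p ∣ n) fun _ => hF (δ * R) (mul_mem hδ (diaMat_mem _)) (n / p)))
        convert key using 1
        rw [show ψ₀ (.inl ⟨p, hp, hpM⟩) = a p hp hpM from rfl, eleven_mul hδ, hR, hχmul]
        split_ifs with hd
        · rw [if_pos hd, ← hRk] at hrel
          linear_combination (-(χ ((δ 1 1 : ℤ) : ZMod (N * ℓ)) * cF)) * hrel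
        · rw [if_neg hd] at hrel
          linear_combination (-(χ ((δ 1 1 : ℤ) : ZMod (N * ℓ)) * cF)) * hrel
      · show RedTo A (qCoeff ⇑(dia δ hδ (dia (diaMat d) (diaMat_mem d) F)) n) _
        rw [dia_dia]
        convert hF _ (mul_mem (diaMat_mem d) hδ) n using 1
        rw [show ψ₀ (.inr d) = χ (d : ZMod (N * ℓ)) from rfl, eleven_mul (diaMat_mem d),
          diaMat_eleven, hχmul]
        ring
    | mul P Q hP hQ =>
      intro F cF hF
      rw [map_mul, map_mul, Module.End.mul_apply, mul_assoc]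
      exact hP _ _ (hQ _ _ hF)
    | add P Q hP hQ =>
      intro F cF hF δ hδ n
      rw [map_add, map_add, LinearMap.add_apply, map_add, qCoeff1_add]
      convert (hP _ _ hF δ hδ n).add (hQ _ _ hF δ hδ n) using 1
      ring
  have huniq : ∀ F cF cF', V F cF → V F cF' → cF = cF' := fun F cF cF' h1 h2 => by
    have := (h1 1 (one_mem _) n₁).unique (h2 1 (one_mem _) n₁)
    simp [hχ1] at this
    exact this.resolve_right hh0
  refine ⟨ψ.toRingHom, fun p hp hpM => ⟨?_, ?_⟩, fun P hP => ?_⟩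
  · simp only [AlgHom.toRingHom_eq_coe, RingHom.coe_coe, ψ, FreeAlgebra.lift_ι_apply]
    exact ha p hp hpM
  · simp only [AlgHom.toRingHom_eq_coe, RingHom.coe_coe, ψ, FreeAlgebra.lift_ι_apply]
    refine ⟨e (p : ZMod N), he _, ?_⟩
    show _ = (p : k) * χ _
    rw [ZMod.coe_unitOfCoprime]
    simp only [hχ, map_natCast]
    have : (p : k) ≠ 0 := by
      rw [Ne, CharP.cast_eq_zero_iff k ℓ]
      exact fun hd => hpM (((Nat.prime_dvd_prime_iff_eq hℓ hp).1 hd) ▸ dvd_mul_left ℓ N)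
    rw [← div_eq_mul_inv, mul_div_cancel₀ _ this]
  · obtain ⟨r, Q, hQ⟩ := exists_pow_eq_smul hP
    have h1 := hstep (P ^ r) F₀ κ hV₀
    rw [hQ] at h1
    have := huniq _ _ _ h1 (hstep ((ℓ : ℤ) • Q) F₀ κ hV₀)
    rw [map_pow, map_zsmul, zsmul_eq_mul, Int.cast_natCast, CharP.cast_eq_zero k ℓ, zero_mul,
      zero_mul, mul_eq_zero] at this
    exact eq_zero_of_pow_eq_zero (this.resolve_right hκ)

end Fermat.Agent.DS
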