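import Mathlib
import Fermat.Agent.DS.ModEig
import Fermat.Agent.DS.FrobConj
import Fermat.Agent.DS.GroupBoundField
import Fermat.Agent.GalRep.Quadratic
import Fermat.Agent.GalRep.Model.BaseField
import Fermat.Prelude.Def_GaloisRep_Residual

/-!
The semisimple two dimensional representation modulo a place over `ℓ` attached to a weight one
eigenform.
-/

set_option autoImplicit false
set_option maxHeartbeats 800000

noncomputable section

namespace Fermat.Agent.DS

open CongruenceSubgroup ModularFormClass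
open Fermat.Agent.Galois (GQ)
open Fermat.Agent.GalRep.Level (ParG cycM galG_continuous finite_parG isLevel_gamma1)
open scoped MatrixGroups TensorProduct

local notation "ℚb" => AlgebraicClosure ℚ

variable {M : ℕ} [NeZero M] {ℓ : ℕ} [NeZero ℓ]

/-- An operator on the lifting classes. -/
def resOp (M ℓ : ℕ) [NeZero M] : FreeAlgebra ℤ (Op M) →ₐ[ℤ] Module.End ℤ (liftPar M ℓ) :=
  FreeAlgebra.lift ℤ fun X => (evalPar M (ZMod ℓ) (FreeAlgebra.ι ℤ X)).restrict
    fun _ hu => evalPar_mem_liftPar _ hu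

omit [NeZero ℓ] in
theorem coe_resOp (P : FreeAlgebra ℤ (Op M)) (u : liftPar M ℓ) :
    (resOp M ℓ P u : ParG (Gamma1 M) (ZMod ℓ)) = evalPar M (ZMod ℓ) P u := by
  induction P using FreeAlgebra.induction generalizing u with
  | grade0 r =>
    rw [AlgHom.commutes, AlgHom.commutes, Module.algebraMap_end_apply, Module.algebraMap_end_apply]
    rfl
  | grade1 X => rw [resOp, FreeAlgebra.lift_ι_apply]; rfl
  | mul P Q hP hQ => simp only [map_mul, Module.End.mul_apply, hP, hQ]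
  | add P Q hP hQ => simp only [map_add, LinearMap.add_apply, Submodule.coe_add, hP, hQ]

omit [NeZero ℓ] in
theorem resOp_commute (P Q : FreeAlgebra ℤ (Op M)) :
    Commute (resOp M ℓ P) (resOp M ℓ Q) := by
  induction P using FreeAlgebra.induction with
  | grade0 r => rw [AlgHom.commutes]; exact Algebra.commutes r _
  | grade1 X =>
    induction Q using FreeAlgebra.induction with
    | grade0 r => rw [AlgHom.commutes]; exact Algebra.commute_algebraMap_right r _
    | grade1 Y =>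
      refine LinearMap.ext fun u => Subtype.ext ?_
      simp only [Module.End.mul_apply, coe_resOp, evalPar, FreeAlgebra.lift_ι_apply]
      exact comm_on_liftPar X Y u.2
    | mul a b ha hb => rw [map_mul]; exact ha.mul_right hb
    | add a b ha hb => rw [map_add]; exact ha.add_right hb
  | mul a b ha hb => rw [map_mul]; exact ha.mul_left hb
  | add a b ha hb => rw [map_add]; exact ha.add_left hb

/-- Galois on the lifting classes, over the integers. -/
def galLiftZ (M ℓ : ℕ) [NeZero M] [NeZero ℓ] : GQ →* Module.End ℤ (liftPar M ℓ) where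
  toFun s := (galM M ℓ s).restrict fun _ hu => galM_mem_liftPar s hu
  map_one' := LinearMap.ext fun u => Subtype.ext (by simp)
  map_mul' s t := LinearMap.ext fun u => Subtype.ext (by simp)

theorem galLiftZ_resOp (s : GQ) (P : FreeAlgebra ℤ (Op M)) (u : liftPar M ℓ) :
    galLiftZ M ℓ s (resOp M ℓ P u) = resOp M ℓ P (galLiftZ M ℓ s u) := by
  refine Subtype.ext ?_
  rw [coe_resOp]
  show galM M ℓ s (resOp M ℓ P u : ParG (Gamma1 M) (ZMod ℓ)) =
    evalPar M (ZMod ℓ) P (galM M ℓ s (u : ParG (Gamma1 M) (ZMod ℓ)))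
  rw [coe_resOp, galM_evalPar]

theorem coe_galLiftZ (s : GQ) (u : liftPar M ℓ) :
    (galLiftZ M ℓ s u : ParG (Gamma1 M) (ZMod ℓ)) = galM M ℓ s u := rfl

theorem galLiftZ_inertia (hℓ : ℓ.Prime) {p : ℕ} (hp : p.Prime) (hpM : ¬ p ∣ M) (hpℓ : p ≠ ℓ)
    (A : ValuationSubring ℚb) (hA : A.LiesOverPrime p) {σ : GQ}
    (hσ : σ ∈ A.inertiaSubgroupIn ℚ) : galLiftZ M ℓ σ = 1 :=
  LinearMap.ext fun u => Subtype.ext ((liftPar_relation hℓ hp hpM hpℓ A hA u.2).1 σ hσ)

theorem galLiftZ_relation (hℓ : ℓ.Prime) {p : ℕ} (hp : p.Prime) (hpM : ¬ p ∣ M) (hpℓ : p ≠ ℓ)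
    (A : ValuationSubring ℚb) (hA : A.LiesOverPrime p) {σ : GQ} (hσ : A.IsFrobeniusAt σ p) :
    galLiftZ M ℓ σ * galLiftZ M ℓ σ -
        resOp M ℓ (FreeAlgebra.ι ℤ (.inl ⟨p, hp, hpM⟩)) * galLiftZ M ℓ σ +
      resOp M ℓ ((p : FreeAlgebra ℤ (Op M)) *
        FreeAlgebra.ι ℤ (.inr (ZMod.unitOfCoprime p (hp.coprime_iff_not_dvd.2 hpM)))) = 0 := by
  refine LinearMap.ext fun u => Subtype.ext ?_
  have h := (liftPar_relation hℓ hp hpM hpℓ A hA u.2).2 σ hσ
  have e1 : evalPar M (ZMod ℓ) ((p : FreeAlgebra ℤ (Op M)) *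
      FreeAlgebra.ι ℤ (.inr (ZMod.unitOfCoprime p (hp.coprime_iff_not_dvd.2 hpM))))
      (u : ParG (Gamma1 M) (ZMod ℓ)) = p • opPar (ZMod ℓ)
        (.inr (ZMod.unitOfCoprime p (hp.coprime_iff_not_dvd.2 hpM))) u := by
    rw [map_mul, map_natCast, Module.End.mul_apply, Module.End.natCast_apply, evalPar,
      FreeAlgebra.lift_ι_apply]
  have e2 : ∀ w : ParG (Gamma1 M) (ZMod ℓ), evalPar M (ZMod ℓ)
      (FreeAlgebra.ι ℤ (.inl ⟨p, hp, hpM⟩)) w = opPar (ZMod ℓ) (.inl ⟨p, hp, hpM⟩) w := fun w => by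
    rw [evalPar, FreeAlgebra.lift_ι_apply]
  rw [← e1, ← e2] at h
  simpa only [LinearMap.add_apply, LinearMap.sub_apply, Submodule.coe_add, Submodule.coe_sub,
    Module.End.mul_apply, coe_resOp, coe_galLiftZ, LinearMap.zero_apply, Submodule.coe_zero] using h

/-- A finite faithful module over a commutative ring stays nonzero after base change along a
homomorphism to a field with maximal kernel. -/
theorem nontrivial_baseChange {B U k : Type*} [CommRing B] [AddCommGroup U] [Module B U]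
    [Module.Finite B U] [Field k] [Algebra B k]
    (hker : (RingHom.ker (algebraMap B k)).IsMaximal)
    (hfaith : ∀ b : B, (∀ u : U, b • u = 0) → b = 0) : Nontrivial (k ⊗[B] U) := by
  set 𝔭 := RingHom.ker (algebraMap B k)
  have hne : (𝔭 • ⊤ : Submodule B U) ≠ ⊤ := by
    intro h
    obtain ⟨r, hr, hr0⟩ := Submodule.exists_sub_one_mem_and_smul_eq_zero_of_fg_of_le_smul 𝔭
      (⊤ : Submodule B U) Module.Finite.fg_top h.ge
    rw [hfaith r fun u => hr0 u Submodule.mem_top, zero_sub] at hr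
    exact hker.ne_top ((Ideal.eq_top_iff_one _).2 (neg_mem_iff.1 hr))
  letI : Field (B ⧸ 𝔭) := @Ideal.Quotient.field _ _ 𝔭 hker
  haveI : Nontrivial (U ⧸ (𝔭 • ⊤ : Submodule B U)) := Submodule.Quotient.nontrivial_iff.2 hne
  obtain ⟨x, hx⟩ := exists_ne (0 : U ⧸ (𝔭 • ⊤ : Submodule B U))
  obtain ⟨φ, hφ⟩ := not_forall.1 ((Module.forall_dual_apply_eq_zero_iff (B ⧸ 𝔭) x).not.2 hx)
  let j : B ⧸ 𝔭 →ₐ[B] k := Ideal.Quotient.liftₐ 𝔭 (Algebra.ofId B k) fun a ha => ha
  let Φ : U →ₗ[B] k :=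
    (j.toLinearMap.comp (φ.restrictScalars B)).comp (Submodule.mkQ (𝔭 • ⊤ : Submodule B U))
  obtain ⟨u, rfl⟩ := Submodule.mkQ_surjective _ x
  refine ⟨⟨(1 : k) ⊗ₜ u, 0, fun h => hφ ?_⟩⟩
  have h' := congrArg (LinearMap.liftBaseChange k Φ) h
  rw [map_zero, LinearMap.liftBaseChange_tmul, one_smul] at h'
  exact (map_eq_zero j.toRingHom).1 h'

/-- Irreducibility in matrices. -/
theorem exists_not_eigen {k W G : Type*} [Field k] [AddCommGroup W] [Module k W] [Monoid G]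
    (ρ : G →* Module.End k W) (bas : Module.Basis (Fin 2) k W)
    (hirr : ∀ U : Submodule k W, (∀ g, ∀ x ∈ U, ρ g x ∈ U) → U = ⊥ ∨ U = ⊤)
    (v : Fin 2 → k) (hv : v ≠ 0) :
    ∃ g, ∀ c : k, Matrix.mulVec (LinearMap.toMatrixAlgEquiv bas (ρ g)) v ≠ c • v := by
  by_contra hall
  push Not at hall
  set x : W := bas.equivFun.symm v
  have hx : x ≠ 0 := fun h => hv ((LinearEquiv.map_eq_zero_iff _).1 h)
  suffices hst : ∀ g, ∀ y ∈ k ∙ x, ρ g y ∈ k ∙ x by
    rcases hirr (k ∙ x) hst with h | h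
    · exact hx (Submodule.span_singleton_eq_bot.1 h)
    · have := finrank_span_singleton (K := k) hx
      rw [h, finrank_top, Module.finrank_eq_card_basis bas, Fintype.card_fin] at this
      exact absurd this (by norm_num)
  · intro g y hy
    obtain ⟨c, rfl⟩ := Submodule.mem_span_singleton.1 hy
    obtain ⟨a, ha⟩ := hall g
    rw [map_smul]
    refine Submodule.smul_mem _ _ (Submodule.mem_span_singleton.2 ⟨a, ?_⟩)
    refine bas.equivFun.injective ?_
    rw [map_smul, LinearEquiv.apply_symm_apply, ← ha]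
    have h1 := LinearMap.toMatrix_mulVec_repr bas bas (ρ g) x
    have h2 : ⇑(bas.repr x) = v := by
      rw [← bas.equivFun_apply, LinearEquiv.apply_symm_apply]
    rw [h2] at h1
    exact h1

/-- Diagonal matrices from a line. -/
theorem exists_diag_rep {k W G : Type*} [Field k] [AddCommGroup W] [Module k W] [Group G]
    (ρ : G →* Module.End k W) (t : G → k) (d : G →* k)
    (hrel : ∀ g, ρ g + d g • ρ g⁻¹ = t g • 1) (h1 : Module.finrank k W = 1) :
    ∃ r : G →* Matrix (Fin 2) (Fin 2) k, (∀ σ, ρ σ = 1 → d σ = 1 → r σ = 1) ∧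
      (∀ g, (r g).trace = t g ∧ (r g).det = d g) ∧ ∀ g, r g 0 1 = 0 ∧ r g 1 0 = 0 := by
  haveI : Nontrivial W := Module.nontrivial_of_finrank_pos (R := k) (h1 ▸ one_pos)
  set φ : G →* k := LinearMap.det.comp ρ
  have hφ : ∀ g, ρ g = φ g • 1 := fun g => by
    obtain ⟨c, hc, -⟩ := (ρ g).existsUnique_eq_smul_id_of_finrank_eq_one h1
    simp [φ, hc, h1, Module.End.one_eq_id]
  have hφ0 : ∀ g, φ g ≠ 0 := fun g => ((Group.isUnit g).map φ).ne_zero
  refine ⟨{ toFun := fun g => !![φ g, 0; 0, d g / φ g]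
            map_one' := by simp [Matrix.one_fin_two]
            map_mul' := fun g h => by rw [Matrix.mul_fin_two]; simp [map_mul, div_mul_div_comm] },
    fun σ hσ hd => ?_, fun g => ⟨?_, ?_⟩, fun g => ⟨rfl, rfl⟩⟩
  · have : φ σ = 1 := by simp [φ, hσ]
    simp [this, hd, Matrix.one_fin_two]
  · have h := hrel g
    rw [hφ g, hφ g⁻¹, smul_smul, ← add_smul] at h
    have h' : φ g + d g * φ g⁻¹ = t g :=
      smul_left_injective k (one_ne_zero (α := Module.End k W)) h
    have hi : φ g⁻¹ = (φ g)⁻¹ :=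
      eq_inv_of_mul_eq_one_left (by rw [← map_mul, inv_mul_cancel, map_one])
    rw [hi, ← div_eq_mul_inv] at h'
    simpa [Matrix.trace_fin_two] using h'
  · simp [Matrix.det_fin_two, mul_div_cancel₀ _ (hφ0 g)]

/-- Base change to a field along a character of a commuting algebra of operators. -/
theorem exists_baseChange_rep {U O G k : Type} [AddCommGroup U] [Finite U] [Field k] [Monoid G]
    (F : FreeAlgebra ℤ O →ₐ[ℤ] Module.End ℤ U) (hF : ∀ P Q, Commute (F P) (F Q))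
    (g : G →* Module.End ℤ U) (hg : ∀ s P u, g s (F P u) = F P (g s u))
    (ψ : FreeAlgebra ℤ O →+* k) (hψ : ∀ P, F P = 0 → ψ P = 0) :
    ∃ (V : Type) (_ : AddCommGroup V) (_ : Module k V) (_ : FiniteDimensional k V)
      (_ : Nontrivial V) (ρ₀ : G →* Module.End k V),
      (∀ s, g s = 1 → ρ₀ s = 1) ∧
      ∀ s P Q, g s * g s - F P * g s + F Q = 0 →
        ρ₀ s * ρ₀ s - ψ P • ρ₀ s + ψ Q • 1 = 0 := by
  let B : Subalgebra ℤ (Module.End ℤ U) := F.range
  letI : CommRing B :=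
    { (inferInstance : Ring B) with
      mul_comm := by
        rintro ⟨_, P, rfl⟩ ⟨_, Q, rfl⟩
        exact Subtype.ext (hF P Q) }
  have hsurj : Function.Surjective (F.rangeRestrict : FreeAlgebra ℤ O →+* B) := by
    rintro ⟨_, P, rfl⟩
    exact ⟨P, rfl⟩
  let ψB : B →+* k := RingHom.liftOfSurjective (F.rangeRestrict : FreeAlgebra ℤ O →+* B) hsurj
    ⟨ψ, fun P hP => RingHom.mem_ker.2 (hψ P (congrArg Subtype.val (RingHom.mem_ker.1 hP)))⟩
  have hψB : ∀ P, ψB ⟨F P, P, rfl⟩ = ψ P := fun P =>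
    RingHom.liftOfRightInverse_comp_apply _ _ _ _ P
  letI : Algebra B k := ψB.toAlgebra
  have : Finite (Module.End ℤ U) := Finite.of_injective _ DFunLike.coe_injective
  have : Finite B := Finite.of_injective _ Subtype.val_injective
  have : Module.Finite B U := Module.Finite.of_finite
  let gB : G →* Module.End B U :=
    { toFun := fun s =>
        { toFun := g s
          map_add' := map_add (g s)
          map_smul' := by
            rintro ⟨_, P, rfl⟩ u
            exact hg s P u }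
      map_one' := LinearMap.ext fun u => LinearMap.congr_fun (map_one g) u
      map_mul' := fun s t => LinearMap.ext fun u => LinearMap.congr_fun (map_mul g s t) u }
  refine ⟨k ⊗[B] U, inferInstance, inferInstance, inferInstance,
    nontrivial_baseChange ?_ fun b hb => Subtype.ext (LinearMap.ext fun u => hb u),
    { toFun := fun s => (gB s).baseChange k
      map_one' := by rw [map_one, LinearMap.baseChange_one]
      map_mul' := fun s t => by rw [map_mul, LinearMap.baseChange_mul] },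
    fun s hs => ?_, fun s P Q h => ?_⟩
  · have : (RingHom.ker (algebraMap B k)).IsPrime := RingHom.ker_isPrime _
    exact Ideal.IsPrime.isMaximal' this
  · show (gB s).baseChange k = 1
    rw [show gB s = 1 from LinearMap.ext fun u => LinearMap.congr_fun hs u, LinearMap.baseChange_one]
  · have hU : gB s * gB s - (⟨F P, P, rfl⟩ : B) • gB s +
        (⟨F Q, Q, rfl⟩ : B) • (1 : Module.End B U) = 0 :=
      LinearMap.ext fun u => LinearMap.congr_fun h u
    have h' := congrArg (fun x : Module.End B U => x.baseChange k) hU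
    simp only [LinearMap.baseChange_add, LinearMap.baseChange_sub, LinearMap.baseChange_mul,
      LinearMap.baseChange_smul, LinearMap.baseChange_one, LinearMap.baseChange_zero] at h'
    rw [← algebraMap_smul k (⟨F P, P, rfl⟩ : B), ← algebraMap_smul k (⟨F Q, Q, rfl⟩ : B),
      show algebraMap B k ⟨F P, P, rfl⟩ = ψ P from hψB P,
      show algebraMap B k ⟨F Q, Q, rfl⟩ = ψ Q from hψB Q] at h'
    exact h'

variable {N : ℕ} [NeZero N]

/-- The representation modulo the place. -/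
theorem exists_modRep (ε : DirichletCharacter ℂ N) (f : CuspForm (Gamma1 N) 1)
    (hf₁ : qCoeff ⇑f 1 = 1)
    (hT : IsEig N (fun p => (ε (p : ZMod N), qCoeff ⇑f p)) (qCoeff ⇑f))
    (halg : ∀ n, IsIntegral ℚ (qCoeff ⇑f n)) {ℓ : ℕ} [Fact ℓ.Prime] (h5 : 5 ≤ ℓ)
    {A : ValuationSubring ℚb} (hA : A.LiesOverPrime ℓ) :
    ∃ ρ : GQ →* GL (Fin 2) (IsLocalRing.ResidueField A),
      GaloisFactorsThroughFiniteLevel ρ ∧ IsSplitOrIrred ρ.range ∧
      ∀ p : ℕ, p.Prime → ¬ p ∣ N * ℓ → ∀ A' : ValuationSubring ℚb, A'.LiesOverPrime p →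
        (∀ σ ∈ A'.inertiaSubgroupIn ℚ, ρ σ = 1) ∧
        ∀ σ : GQ, A'.IsFrobeniusAt σ p →
          RedTo A (qCoeff ⇑f p) (ρ σ).val.trace ∧ RedTo A (ε (p : ZMod N)) (ρ σ).val.det := by
  have hℓ : ℓ.Prime := Fact.out
  set k := IsLocalRing.ResidueField A
  haveI : IsAlgClosed k := GalRep.Model.residue_isAlgClosed A
  set M := N * ℓ with hM
  obtain ⟨ψ, hψ, hψ0⟩ := exists_modular_eigen ε f hf₁ hT halg h5 hA
  have : Finite (ParG (Gamma1 M) (ZMod ℓ)) := finite_parG (isLevel_gamma1 M)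
  obtain ⟨V, _, _, _, _, ρ₀, hρ₀1, hρ₀2⟩ := exists_baseChange_rep (resOp M ℓ) resOp_commute
    (galLiftZ M ℓ) galLiftZ_resOp ψ fun P hP => hψ0 P fun u hu => by
      rw [← coe_resOp P ⟨u, hu⟩, hP]
      rfl
  obtain ⟨e, he⟩ := exists_char_lift A ε
  let d : GQ →* k :=
    (IsLocalRing.residue A).toMonoidHom.comp (e.comp ((Units.coeHom (ZMod N)).comp (cycM N)))
  -- finite level
  obtain ⟨L₁, hL₁, hL₁ρ⟩ := galG_continuous (isLevel_gamma1 M) (n := ℓ)
  obtain ⟨L₂, hL₂, hL₂d⟩ := exists_cycM_level N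
  set L := L₁ ⊔ L₂
  have : FiniteDimensional ℚ L := IntermediateField.finiteDimensional_sup L₁ L₂
  have hρ₀L : ∀ σ : GQ, (∀ x ∈ L, σ x = x) → ρ₀ σ = 1 := fun σ hσ => by
    refine hρ₀1 σ (LinearMap.ext fun u => Subtype.ext ?_)
    show galM M ℓ σ (u : ParG (Gamma1 M) (ZMod ℓ)) = u
    rw [hL₁ρ σ fun x hx => hσ x ((le_sup_left : L₁ ≤ L) hx), Module.End.one_apply]
  have hdL : ∀ σ : GQ, (∀ x ∈ L, σ x = x) → d σ = 1 := fun σ hσ => by
    simp [d, hL₂d σ fun x hx => hσ x ((le_sup_right : L₂ ≤ L) hx)]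
  -- unramified, and the congruence relation
  have hloc : ∀ p : ℕ, p.Prime → ¬ p ∣ N * ℓ → ∀ A' : ValuationSubring ℚb, A'.LiesOverPrime p →
      (∀ σ ∈ A'.inertiaSubgroupIn ℚ, ρ₀ σ = 1 ∧ d σ = 1) ∧
      ∀ σ : GQ, A'.IsFrobeniusAt σ p → ∃ a : k, RedTo A (qCoeff ⇑f p) a ∧
        RedTo A (ε (p : ZMod N)) (d σ) ∧ ρ₀ σ + d σ • ρ₀ σ⁻¹ = a • 1 := by
    intro p hp hpM A' hA'
    have hpℓ : p ≠ ℓ := fun h => hpM (h ▸ dvd_mul_left ℓ N)
    have hpN : ¬ p ∣ N := fun h => hpM (h.mul_right ℓ)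
    refine ⟨fun σ hσ => ⟨?_, ?_⟩, fun σ hσ => ?_⟩
    · exact hρ₀1 σ (galLiftZ_inertia hℓ hp hpM hpℓ A' hA' hσ)
    · simp [d, cycM_inertia hp hA' hpN hσ]
    · obtain ⟨h1, hR2⟩ := hψ p hp hpM
      have hd : d σ = IsLocalRing.residue A (e (p : ZMod N)) := by
        simp [d, cycM_frobenius hp hA' hpN hσ]
      have hd' : RedTo A (ε (p : ZMod N)) (d σ) := ⟨_, he _, hd.symm⟩
      refine ⟨_, h1, hd', ?_⟩
      have h := hρ₀2 σ _ _ (galLiftZ_relation hℓ hp hpM hpℓ A' hA' hσ)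
      rw [map_mul, map_natCast, hR2.unique hd'] at h
      have hinv : ρ₀ σ * ρ₀ σ⁻¹ = 1 := by rw [← map_mul, mul_inv_cancel, map_one]
      have h' := congrArg (· * ρ₀ σ⁻¹) h
      simp only [add_mul, sub_mul, smul_mul_assoc, one_mul, zero_mul, mul_assoc] at h'
      rw [hinv, mul_one] at h'
      rw [eq_comm, ← sub_eq_zero, ← neg_eq_zero, neg_sub]
      rw [sub_add_eq_add_sub] at h'
      exact h'
  -- the relation everywhere
  have hP : ∀ g, ∃ t : k, ρ₀ g + d g • ρ₀ g⁻¹ = t • 1 := by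
    intro g
    obtain ⟨p, hp, hpbad, A', hA', σ, hσ, τ, hτ⟩ :=
      exists_frobenius_conj L (N * ℓ).primeFactors g
    have hpM : ¬ p ∣ N * ℓ := fun h => hpbad (Nat.mem_primeFactors.2 ⟨hp, h, NeZero.ne _⟩)
    obtain ⟨a, -, -, ha⟩ := (hloc p hp hpM A' hA').2 σ hσ
    refine ⟨a, ?_⟩
    have hinv : ∀ {g h : GQ}, ρ₀ g = ρ₀ h → ρ₀ g⁻¹ = ρ₀ h⁻¹ := fun {g h} e =>
      left_inv_eq_right_inv (a := ρ₀ g) (by rw [← map_mul, inv_mul_cancel, map_one])
        (by rw [e, ← map_mul, mul_inv_cancel, map_one])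
    have hρg := eq_of_agree ρ₀ hρ₀L hτ
    rw [← hρg, ← eq_of_agree d hdL hτ, ← hinv hρg, show (τ * σ * τ⁻¹)⁻¹ = τ * σ⁻¹ * τ⁻¹ by group]
    have hd : d (τ * σ * τ⁻¹) = d σ := by
      rw [map_mul, map_mul, mul_comm (d τ), mul_assoc, ← map_mul, mul_inv_cancel, map_one, mul_one]
    have h := congrArg (fun x => ρ₀ τ * x * ρ₀ τ⁻¹) ha
    simp only [mul_add, add_mul, mul_smul_comm, smul_mul_assoc, mul_one, ← map_mul] at h
    rw [hd, h, mul_inv_cancel, map_one]
  choose t ht using hP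
  -- an irreducible constituent
  obtain ⟨W, ⟨hWne, hWst⟩, hWmin⟩ := wellFounded_lt.has_min
    {W : Submodule k V | W ≠ ⊥ ∧ ∀ g, ∀ x ∈ W, ρ₀ g x ∈ W}
    ⟨⊤, top_ne_bot, fun _ _ _ => Submodule.mem_top⟩
  haveI : Nontrivial W := Submodule.nontrivial_iff_ne_bot.2 hWne
  let ρ₁ : GQ →* Module.End k W :=
    { toFun := fun g => (ρ₀ g).restrict (hWst g)
      map_one' := LinearMap.ext fun x => Subtype.ext (by
        show ρ₀ 1 (x : V) = x
        rw [map_one]; rfl)
      map_mul' := fun g h => LinearMap.ext fun x => Subtype.ext (by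
        show ρ₀ (g * h) (x : V) = ρ₀ g (ρ₀ h x)
        rw [map_mul]; rfl) }
  have ht₁ : ∀ g, ρ₁ g + d g • ρ₁ g⁻¹ = t g • 1 := fun g =>
    LinearMap.ext fun x => Subtype.ext (LinearMap.congr_fun (ht g) x)
  have hirr : ∀ U : Submodule k W, (∀ g, ∀ x ∈ U, ρ₁ g x ∈ U) → U = ⊥ ∨ U = ⊤ := by
    intro U hU
    by_contra hcon
    push Not at hcon
    refine hWmin (U.map W.subtype) ⟨?_, ?_⟩ ?_
    · exact fun h => hcon.1 (Submodule.map_injective_of_injective W.subtype_injective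
        (h.trans (Submodule.map_bot _).symm))
    · rintro g _ ⟨x, hx, rfl⟩
      exact ⟨ρ₁ g x, hU g x hx, rfl⟩
    · exact lt_of_lt_of_eq (Submodule.map_strictMono_of_injective W.subtype_injective
        (lt_top_iff_ne_top.2 hcon.2)) W.map_subtype_top
  have hρ₁L : ∀ σ : GQ, (∀ x ∈ L, σ x = x) → ρ₁ σ = 1 := fun σ hσ =>
    LinearMap.ext fun x => Subtype.ext (LinearMap.congr_fun (hρ₀L σ hσ) x)
  obtain ⟨h2, hcp⟩ := GalRep.finrank_le_two_and_charpoly ρ₁ t d ht₁ hirr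
  -- matrices
  suffices ∃ r : GQ →* Matrix (Fin 2) (Fin 2) k,
      (∀ σ, ρ₁ σ = 1 → d σ = 1 → r σ = 1) ∧
      (∀ g, (r g).trace = t g ∧ (r g).det = d g) ∧
      ((∀ v : Fin 2 → k, v ≠ 0 → ∃ g, ∀ c : k, Matrix.mulVec (r g) v ≠ c • v) ∨
        ∀ g, r g 0 1 = 0 ∧ r g 1 0 = 0) by
    obtain ⟨r, hr1, hr2, hr3⟩ := this
    refine ⟨r.toHomUnits, ⟨L, inferInstance, fun σ hσ =>
      Units.ext (hr1 σ (hρ₁L σ hσ) (hdL σ hσ))⟩, ?_, fun p hp hpM A' hA' => ⟨fun σ hσ => ?_,
      fun σ hσ => ?_⟩⟩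
    · rcases hr3 with h | h
      · exact Or.inl fun v hv => (h v hv).elim fun g hg => ⟨r.toHomUnits g, ⟨g, rfl⟩, hg⟩
      · refine Or.inr ?_
        rintro _ ⟨g, rfl⟩
        exact h g
    · obtain ⟨h1, h1'⟩ := (hloc p hp hpM A' hA').1 σ hσ
      exact Units.ext (hr1 σ (LinearMap.ext fun x => Subtype.ext (LinearMap.congr_fun h1 x)) h1')
    · obtain ⟨a, ha, hd, hrel⟩ := (hloc p hp hpM A' hA').2 σ hσ
      refine ⟨?_, ?_⟩
      · have : t σ = a := smul_left_injective k (one_ne_zero (α := Module.End k V))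
          ((ht σ).symm.trans hrel)
        show RedTo A _ (r σ).trace
        rwa [(hr2 σ).1, this]
      · show RedTo A _ (r σ).det
        rwa [(hr2 σ).2]
  have hpos : 0 < Module.finrank k W := Module.finrank_pos
  by_cases hdim : Module.finrank k W = 2
  · let bas : Module.Basis (Fin 2) k W := (Module.finBasis k W).reindex (finCongr hdim)
    let Φ : Module.End k W ≃ₐ[k] Matrix (Fin 2) (Fin 2) k := LinearMap.toMatrixAlgEquiv bas
    refine ⟨(Φ : Module.End k W →* Matrix (Fin 2) (Fin 2) k).comp ρ₁, fun σ hσ _ => ?_,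
      fun g => ?_, Or.inl fun v hv => ?_⟩
    · simp [hσ]
    · have h := hcp hdim g
      rw [← LinearMap.charpoly_toMatrix (ρ₁ g) bas] at h
      have h1 : (Φ (ρ₁ g)).charpoly = _ := h
      rw [Matrix.charpoly_fin_two] at h1
      have c1 := congrArg (fun q : Polynomial k => q.coeff 1) h1
      have c0 := congrArg (fun q : Polynomial k => q.coeff 0) h1
      simp at c1 c0
      exact ⟨neg_inj.1 c1, c0⟩
    · exact exists_not_eigen ρ₁ bas hirr v hv
  · obtain ⟨r, h1, h2, h3⟩ := exists_diag_rep ρ₁ t d ht₁ (by omega)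
    exact ⟨r, h1, h2, Or.inr h3⟩

end Fermat.Agent.DS
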