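import Mathlib
import Fermat.Agent.Density.Chebotarev

/-!
The substitute for the Rankin–Selberg estimate: a function on the upper half plane with
`y^{1/2} |G|` bounded has mean square of coefficients bounded, and Euler products give the
bound on the primes.
-/

set_option autoImplicit false

open Filter UpperHalfPlane
open scoped Topology

noncomputable section

namespace Fermat.Agent.DS

/-! ## Discrete Parseval -/

theorem sum_range_zpow_root {M : ℕ} {ω : ℂ} (hω : IsPrimitiveRoot ω M) (k : ℤ) :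
    ∑ j ∈ Finset.range M, ω ^ (k * j) = if (M : ℤ) ∣ k then (M : ℂ) else 0 := by
  simp_rw [zpow_mul, zpow_natCast]
  split_ifs with h
  · rw [(hω.zpow_eq_one_iff_dvd k).2 h]
    simp
  · have hne : ω ^ k ≠ 1 := fun e => h ((hω.zpow_eq_one_iff_dvd k).1 e)
    rw [geom_sum_eq hne, ← zpow_natCast (ω ^ k), ← zpow_mul, mul_comm, zpow_mul, zpow_natCast,
      hω.pow_eq_one, one_zpow]
    simp

theorem conj_root_eq_inv {M : ℕ} {ω : ℂ} (hω : IsPrimitiveRoot ω M) (hM : M ≠ 0) (k : ℤ) :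
    (starRingEnd ℂ) (ω ^ k) = ω ^ (-k) := by
  have hn : ‖ω‖ = 1 := Complex.norm_eq_one_of_pow_eq_one hω.pow_eq_one hM
  rw [map_zpow₀, ← Complex.inv_eq_conj hn, inv_zpow, zpow_neg]

/-- Bessel's inequality for the finite Fourier transform. -/
theorem bessel_discrete {M : ℕ} (hM : M ≠ 0) {ω : ℂ} (hω : IsPrimitiveRoot ω M) (g : ℕ → ℂ)
    {X : ℕ} (hX : X ≤ M) {B : ℝ} (hB : ∀ j < M, ‖g j‖ ^ 2 ≤ B) :
    ∑ n ∈ Finset.range X,
      ‖(M : ℂ)⁻¹ * ∑ j ∈ Finset.range M, ω ^ (-(n : ℤ) * j) * g j‖ ^ 2 ≤ B := by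
  set c : ℕ → ℂ := fun n => (M : ℂ)⁻¹ * ∑ j ∈ Finset.range M, ω ^ (-(n : ℤ) * j) * g j
  set P : ℕ → ℂ := fun j => ∑ n ∈ Finset.range X, c n * ω ^ ((n : ℤ) * j)
  have hMC : (M : ℂ) ≠ 0 := Nat.cast_ne_zero.2 hM
  have hc : ∀ n : ℕ, ∑ j ∈ Finset.range M, ω ^ (-(n : ℤ) * j) * g j = M * c n := fun n => by
    rw [← mul_assoc, mul_inv_cancel₀ hMC, one_mul]
  -- the cross term
  have h1 : ∑ j ∈ Finset.range M, g j * (starRingEnd ℂ) (P j) =
      ∑ n ∈ Finset.range X, (M : ℂ) * ((‖c n‖ ^ 2 : ℝ) : ℂ) := by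
    simp only [P, map_sum, map_mul, Finset.mul_sum]
    rw [Finset.sum_comm]
    refine Finset.sum_congr rfl fun n _ => ?_
    have : ∀ j : ℕ, g j * ((starRingEnd ℂ) (c n) * (starRingEnd ℂ) (ω ^ ((n : ℤ) * j))) =
        (starRingEnd ℂ) (c n) * (ω ^ (-(n : ℤ) * j) * g j) := fun j => by
      rw [conj_root_eq_inv hω hM, neg_mul]; ring
    simp_rw [this]
    rw [← Finset.mul_sum, hc, Complex.ofReal_pow, ← Complex.conj_mul']
    ring
  have h2 : ∑ j ∈ Finset.range M, P j * (starRingEnd ℂ) (P j) =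
      ∑ n ∈ Finset.range X, (M : ℂ) * ((‖c n‖ ^ 2 : ℝ) : ℂ) := by
    simp only [P, map_sum, map_mul, Finset.sum_mul, Finset.mul_sum]
    rw [Finset.sum_comm]
    refine Finset.sum_congr rfl fun n hn => ?_
    rw [Finset.sum_comm]
    have hs : ∀ m ∈ Finset.range X, ∑ j ∈ Finset.range M,
        c m * ω ^ ((m : ℤ) * j) * ((starRingEnd ℂ) (c n) * (starRingEnd ℂ) (ω ^ ((n : ℤ) * j))) =
          if m = n then c m * (starRingEnd ℂ) (c n) * M else 0 := by
      intro m hm
      have : ∀ j : ℕ,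
          c m * ω ^ ((m : ℤ) * j) * ((starRingEnd ℂ) (c n) * (starRingEnd ℂ) (ω ^ ((n : ℤ) * j))) =
            c m * (starRingEnd ℂ) (c n) * ω ^ (((m : ℤ) - n) * j) := fun j => by
        rw [conj_root_eq_inv hω hM, sub_mul, sub_eq_add_neg, zpow_add₀ (hω.ne_zero hM)]; ring
      simp_rw [this]
      rw [← Finset.mul_sum, sum_range_zpow_root hω]
      have hiff : (M : ℤ) ∣ (m : ℤ) - n ↔ m = n := by
        refine ⟨fun h => ?_, fun h => by simp [h]⟩
        have hlt : |(m : ℤ) - n| < M := by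
          simp only [Finset.mem_range] at hn hm
          rw [abs_lt]; constructor <;> omega
        have := Int.eq_zero_of_abs_lt_dvd h hlt
        omega
      simp only [hiff, mul_ite, mul_zero]
    rw [Finset.sum_congr rfl hs, Finset.sum_ite_eq', if_pos hn, Complex.mul_conj',
      Complex.ofReal_pow]
    ring
  have h3 : 0 ≤ ∑ j ∈ Finset.range M, ‖g j - P j‖ ^ 2 :=
    Finset.sum_nonneg fun _ _ => sq_nonneg _
  have h4 : ∑ j ∈ Finset.range M, ‖g j - P j‖ ^ 2 =
      ∑ j ∈ Finset.range M, ‖g j‖ ^ 2 - M * ∑ n ∈ Finset.range X, ‖c n‖ ^ 2 := by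
    have e : ∀ j, ‖g j - P j‖ ^ 2 =
        ‖g j‖ ^ 2 - 2 * (g j * (starRingEnd ℂ) (P j)).re + (P j * (starRingEnd ℂ) (P j)).re :=
      fun j => by
        rw [← Complex.normSq_eq_norm_sq, ← Complex.normSq_eq_norm_sq, Complex.normSq_sub,
          Complex.mul_conj (P j), Complex.ofReal_re]
        ring
    simp_rw [e]
    rw [Finset.sum_add_distrib, Finset.sum_sub_distrib, ← Finset.mul_sum, ← Complex.re_sum,
      ← Complex.re_sum, h1, h2, ← Finset.mul_sum, ← Complex.ofReal_sum, ← Complex.ofReal_natCast,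
      ← Complex.ofReal_mul, Complex.ofReal_re]
    ring
  have h5 : ∑ j ∈ Finset.range M, ‖g j‖ ^ 2 ≤ M * B := by
    refine (Finset.sum_le_card_nsmul _ _ B fun j hj => hB j (Finset.mem_range.1 hj)).trans ?_
    simp
  have hMpos : (0 : ℝ) < M := Nat.cast_pos.2 (Nat.pos_of_ne_zero hM)
  refine le_of_mul_le_mul_left ?_ hMpos
  linarith

/-! ## Mean square of the coefficients -/

/-- `y^{1/2} |G| ≤ C` bounds the mean square of the coefficients of `G`. -/
theorem exists_sum_normSq_le {G : ℍ → ℂ} {a : ℕ → ℂ}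
    (ha : ∀ τ : ℍ, HasSum (fun n : ℕ => a n * Complex.exp (2 * Real.pi * Complex.I * n * τ)) (G τ))
    {C : ℝ} (hC : ∀ τ : ℍ, Real.sqrt τ.im * ‖G τ‖ ≤ C) :
    ∃ C' : ℝ, 0 < C' ∧ ∀ X : ℕ, ∑ n ∈ Finset.range X, ‖a n‖ ^ 2 ≤ C' * X := by
  refine ⟨C ^ 2 * Real.exp (4 * Real.pi) + 1, by positivity, fun X => ?_⟩
  rcases Nat.eq_zero_or_pos X with rfl | hX
  · simp
  have hXR : (0 : ℝ) < X := Nat.cast_pos.2 hX
  set y : ℝ := 1 / X with hy
  have hy0 : 0 < y := by positivity
  set r : ℝ := Real.exp (-(2 * Real.pi * y)) with hr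
  -- absolute convergence at height `y`
  set τ₀ : ℍ := ⟨(y : ℂ) * Complex.I, by simpa using hy0⟩
  have hterm : ∀ (n : ℕ) (t : ℝ) (τ : ℍ), (τ : ℂ) = t + (y : ℂ) * Complex.I →
      a n * Complex.exp (2 * Real.pi * Complex.I * n * τ) =
        (a n * (r : ℂ) ^ n) * Complex.exp (2 * Real.pi * Complex.I * n * t) := fun n t τ hτ => by
    rw [hτ, hr, Complex.ofReal_exp, mul_assoc (a n), ← Complex.exp_nat_mul, ← Complex.exp_add]
    congr 2
    push_cast
    linear_combination (-(2 * Real.pi * y * n) : ℂ) * (Complex.I_mul_I).symm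
  have hsumb : Summable fun n => ‖a n‖ * r ^ n := by
    have h := (ha τ₀).summable.norm
    refine h.congr fun n => ?_
    rw [hterm n 0 τ₀ (by simp [τ₀]), norm_mul, norm_mul, norm_pow, Complex.norm_real]
    simp [abs_of_pos (Real.exp_pos _), hr]
  -- finite transforms
  have key : ∀ M : ℕ, X ≤ M → ∃ c : ℕ → ℂ,
      (∑ n ∈ Finset.range X, ‖c n‖ ^ 2 ≤ C ^ 2 / y) ∧
      ∀ n < X, ‖c n - a n * (r : ℂ) ^ n‖ ≤
        ∑' m : ℕ, (if M ≤ m then ‖a m‖ * r ^ m else 0) := by
    intro M hXM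
    have hM : M ≠ 0 := by omega
    set ω : ℂ := Complex.exp (2 * Real.pi * Complex.I / M)
    have hω : IsPrimitiveRoot ω M := Complex.isPrimitiveRoot_exp M hM
    let τ : ℕ → ℍ := fun j => ⟨((j / M : ℝ) : ℂ) + (y : ℂ) * Complex.I, by simpa using hy0⟩
    have hg : ∀ j : ℕ, HasSum (fun m : ℕ => (a m * (r : ℂ) ^ m) * ω ^ ((m : ℤ) * j)) (G (τ j)) := by
      intro j
      refine (ha (τ j)).congr_fun fun m => ?_
      rw [hterm m _ (τ j) rfl, ← Complex.exp_int_mul]
      congr 2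
      push_cast
      ring
    refine ⟨fun n => (M : ℂ)⁻¹ * ∑ j ∈ Finset.range M, ω ^ (-(n : ℤ) * j) * G (τ j), ?_, ?_⟩
    · refine bessel_discrete hM hω _ hXM fun j _ => ?_
      have h := hC (τ j)
      have him : (τ j).im = y := by simp [τ, UpperHalfPlane.im]
      rw [him] at h
      have hsy : 0 < Real.sqrt y := Real.sqrt_pos.2 hy0
      rw [le_div_iff₀ hy0]
      calc ‖G (τ j)‖ ^ 2 * y = (Real.sqrt y * ‖G (τ j)‖) ^ 2 := by
            rw [mul_pow, Real.sq_sqrt hy0.le]; ring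
        _ ≤ C ^ 2 := pow_le_pow_left₀ (by positivity) h 2
    · intro n hn
      have hc : HasSum (fun m : ℕ => if (M : ℤ) ∣ (m : ℤ) - n then a m * (r : ℂ) ^ m else 0)
          ((M : ℂ)⁻¹ * ∑ j ∈ Finset.range M, ω ^ (-(n : ℤ) * j) * G (τ j)) := by
        have h := (hasSum_sum fun j (_ : j ∈ Finset.range M) =>
          (hg j).mul_left (ω ^ (-(n : ℤ) * j))).mul_left (M : ℂ)⁻¹
        refine h.congr_fun fun m => ?_
        have e : ∀ j : ℕ, ω ^ (-(n : ℤ) * j) * ((a m * (r : ℂ) ^ m) * ω ^ ((m : ℤ) * j)) =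
            (a m * (r : ℂ) ^ m) * ω ^ (((m : ℤ) - n) * j) := fun j => by
          rw [sub_mul, sub_eq_add_neg, zpow_add₀ (hω.ne_zero hM), neg_mul]; ring
        simp_rw [e, ← Finset.mul_sum, sum_range_zpow_root hω]
        split_ifs
        · field_simp
        · simp
      have h2 := hc.sub (hasSum_ite_eq n (a n * (r : ℂ) ^ n))
      rw [← h2.tsum_eq]
      have hb : ∀ m : ℕ, ‖(if (M : ℤ) ∣ (m : ℤ) - n then a m * (r : ℂ) ^ m else 0) -
          (if m = n then a n * (r : ℂ) ^ n else 0)‖ ≤ if M ≤ m then ‖a m‖ * r ^ m else 0 := by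
        intro m
        by_cases hmn : m = n
        · subst hmn
          have : 0 ≤ ‖a m‖ * r ^ m := by positivity
          split_ifs <;> simp_all
        rw [if_neg hmn, sub_zero]
        by_cases hdvd : (M : ℤ) ∣ (m : ℤ) - n
        · have hMm : M ≤ m := by
            by_contra hlt
            have : |(m : ℤ) - n| < M := by rw [abs_lt]; constructor <;> omega
            exact hmn (by have := Int.eq_zero_of_abs_lt_dvd hdvd this; omega)
          rw [if_pos hdvd, if_pos hMm, norm_mul, norm_pow, Complex.norm_real,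
            Real.norm_of_nonneg (Real.exp_pos _).le]
        · rw [if_neg hdvd, norm_zero]
          split_ifs <;> positivity
      have hsum : Summable fun m => if M ≤ m then ‖a m‖ * r ^ m else 0 :=
        (hsumb.indicator {m | M ≤ m}).congr fun m => by simp [Set.indicator_apply]
      exact (norm_tsum_le_tsum_norm (Summable.of_nonneg_of_le (fun _ => norm_nonneg _) hb hsum)).trans
        (Summable.tsum_le_tsum hb (Summable.of_nonneg_of_le (fun _ => norm_nonneg _) hb hsum) hsum)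
  -- pass to the limit
  choose! c hc1 hc2 using key
  have htail : Tendsto (fun M : ℕ => ∑' m : ℕ, (if M ≤ m then ‖a m‖ * r ^ m else 0)) atTop
      (𝓝 0) := by
    refine (tendsto_sum_nat_add fun m => ‖a m‖ * r ^ m).congr fun M => ?_
    have hsum : Summable fun m => if M ≤ m then ‖a m‖ * r ^ m else 0 :=
      (hsumb.indicator {m | M ≤ m}).congr fun m => by simp [Set.indicator_apply]
    rw [← hsum.sum_add_tsum_nat_add M, Finset.sum_eq_zero fun m hm => if_neg (by
      simp only [Finset.mem_range] at hm; omega), zero_add]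
    exact tsum_congr fun m => by rw [if_pos (Nat.le_add_left M m)]
  have hlim : ∀ n < X, Tendsto (fun M => ‖c M n‖ ^ 2) atTop (𝓝 (‖a n * (r : ℂ) ^ n‖ ^ 2)) := by
    intro n hn
    refine ((tendsto_iff_norm_sub_tendsto_zero.2 ?_).norm).pow 2
    refine squeeze_zero' (Eventually.of_forall fun _ => norm_nonneg _) ?_ htail
    filter_upwards [eventually_ge_atTop X] with M hM using hc2 M hM n hn
  have hle : ∑ n ∈ Finset.range X, ‖a n * (r : ℂ) ^ n‖ ^ 2 ≤ C ^ 2 / y :=
    le_of_tendsto (tendsto_finsetSum _ fun n hn => hlim n (Finset.mem_range.1 hn))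
      (eventually_atTop.2 ⟨X, hc1⟩)
  have hrn : ∀ n ∈ Finset.range X, ‖a n‖ ^ 2 * Real.exp (-(4 * Real.pi)) ≤
      ‖a n * (r : ℂ) ^ n‖ ^ 2 := by
    intro n hn
    rw [norm_mul, mul_pow, norm_pow, Complex.norm_real, Real.norm_of_nonneg (Real.exp_pos _).le,
      ← pow_mul, ← Real.exp_nat_mul]
    refine mul_le_mul_of_nonneg_left (Real.exp_le_exp.2 ?_) (sq_nonneg _)
    have hnX : (n : ℝ) * y ≤ 1 := by
      rw [hy, mul_one_div, div_le_one hXR]
      exact_mod_cast (Finset.mem_range.1 hn).le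
    push_cast
    nlinarith [Real.pi_pos, mul_le_mul_of_nonneg_left hnX Real.pi_pos.le]
  have := (Finset.sum_le_sum hrn).trans hle
  rw [← Finset.sum_mul, Real.exp_neg, ← div_eq_mul_inv, div_le_iff₀ (Real.exp_pos _)] at this
  refine this.trans ?_
  rw [hy, div_div_eq_mul_div, div_one]
  nlinarith

/-! ## Dirichlet series and Euler products -/

/-- A linear bound on partial sums bounds the Dirichlet series near `1`. -/
theorem sum_mul_rpow_le {b : ℕ → ℝ} (hb : ∀ n, 0 ≤ b n) {C : ℝ}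
    (hC : ∀ X : ℕ, ∑ n ∈ Finset.range X, b n ≤ C * X) {s : ℝ} (hs : 1 < s) (hs2 : s ≤ 2)
    (S : Finset ℕ) : ∑ n ∈ S, b n * (n : ℝ) ^ (-s) ≤ 4 * C / Real.log 2 / (s - 1) := by
  have hC0 : 0 ≤ C := by
    have := hC 1
    simp at this
    linarith [hb 0]
  obtain ⟨K, hK⟩ : ∃ K, ∀ n ∈ S, n < 2 ^ K := by
    refine ⟨S.sup id + 1, fun n hn => lt_of_lt_of_le Nat.lt_two_pow_self
      (Nat.pow_le_pow_right two_pos ?_)⟩
    exact (Finset.le_sup (f := id) hn).trans (Nat.le_succ _)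
  have h0 : ∀ n : ℕ, 0 ≤ b n * (n : ℝ) ^ (-s) := fun n => by have := hb n; positivity
  have hzero : (0 : ℝ) ^ (-s) = 0 := Real.zero_rpow (by linarith)
  set q : ℝ := (2 : ℝ) ^ (-(s - 1)) with hq
  have hblock : ∀ K : ℕ, ∑ n ∈ Finset.range (2 ^ K), b n * (n : ℝ) ^ (-s) ≤
      2 * C * ∑ k ∈ Finset.range K, q ^ k := by
    intro K
    induction K with
    | zero => simp [hzero]
    | succ K ih =>
      rw [Finset.sum_range_succ, mul_add,
        ← Finset.sum_range_add_sum_Ico _ (Nat.pow_le_pow_right two_pos (Nat.le_succ K))]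
      refine add_le_add ih ?_
      have h1 : ∀ n ∈ Finset.Ico (2 ^ K) (2 ^ (K + 1)),
          b n * (n : ℝ) ^ (-s) ≤ b n * ((2 ^ K : ℕ) : ℝ) ^ (-s) := fun n hn => by
        refine mul_le_mul_of_nonneg_left ?_ (hb n)
        exact Real.rpow_le_rpow_of_nonpos (by positivity)
          (by exact_mod_cast (Finset.mem_Ico.1 hn).1) (by linarith)
      refine (Finset.sum_le_sum h1).trans ?_
      rw [← Finset.sum_mul]
      have h2 : ∑ n ∈ Finset.Ico (2 ^ K) (2 ^ (K + 1)), b n ≤ C * (2 ^ (K + 1) : ℕ) :=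
        (Finset.sum_le_sum_of_subset_of_nonneg (fun n hn => Finset.mem_range.2
          (Finset.mem_Ico.1 hn).2) fun n _ _ => hb n).trans (hC _)
      refine (mul_le_mul_of_nonneg_right h2 (by positivity)).trans_eq ?_
      have hpos : (0 : ℝ) < 2 := two_pos
      push_cast
      rw [hq, ← Real.rpow_natCast (2 : ℝ) K, ← Real.rpow_mul hpos.le, ← Real.rpow_natCast _ K,
        ← Real.rpow_mul hpos.le, pow_succ, ← Real.rpow_natCast (2 : ℝ) K,
        show C * ((2 : ℝ) ^ (K : ℝ) * 2) * (2 : ℝ) ^ ((K : ℝ) * -s) =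
          2 * C * ((2 : ℝ) ^ (K : ℝ) * (2 : ℝ) ^ ((K : ℝ) * -s)) by ring,
        ← Real.rpow_add hpos]
      congr 2
      ring
  refine ((Finset.sum_le_sum_of_subset_of_nonneg (fun n hn => Finset.mem_range.2 (hK n hn))
    fun n _ _ => h0 n).trans (hblock K)).trans ?_
  have hl : 0 < Real.log 2 := Real.log_pos one_lt_two
  have ht : 0 < s - 1 := by linarith
  have hq0 : 0 < q := by positivity
  have hq1 : 1 - q ≥ Real.log 2 * (s - 1) / 2 := by
    set u : ℝ := Real.log 2 * (s - 1)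
    have hu : 0 < u := by positivity
    have hu1 : u ≤ 1 := by
      have : Real.log 2 ≤ 1 := by linarith [Real.log_le_sub_one_of_pos (two_pos (α := ℝ))]
      nlinarith
    have hqe : q = Real.exp (-u) := by
      rw [hq, Real.rpow_def_of_pos two_pos]; congr 1; ring
    have : Real.exp (-u) ≤ 1 / (1 + u) := by
      rw [Real.exp_neg, ← one_div]
      exact one_div_le_one_div_of_le (by linarith) (by linarith [Real.add_one_le_exp u])
    have h' : 1 / (1 + u) ≤ 1 - u / 2 := by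
      rw [div_le_iff₀ (by linarith)]; nlinarith
    linarith
  have hgeo : ∑ k ∈ Finset.range K, q ^ k ≤ 1 / (1 - q) := by
    rw [le_div_iff₀ (by nlinarith), geom_sum_mul_neg]
    linarith [pow_pos hq0 K]
  refine (mul_le_mul_of_nonneg_left hgeo (by positivity)).trans ?_
  rw [mul_one_div, div_div, div_le_div_iff₀ (by nlinarith) (by positivity)]
  nlinarith

/-- Euler products bound the sums over primes. -/
theorem sum_log_one_add_le {b : ℕ → ℝ} (hb : ∀ n, 0 ≤ b n) {good : Set ℕ}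
    (hgood : ∀ p ∈ good, p.Prime) (hb1 : b 1 = 1)
    (hmul : ∀ p ∈ good, ∀ n, ¬ p ∣ n → b (p * n) = b p * b n) {B s : ℝ}
    (hB : ∀ S : Finset ℕ, ∑ n ∈ S, b n * (n : ℝ) ^ (-s) ≤ B)
    (S : Finset ℕ) (hS : ↑S ⊆ good) :
    ∑ p ∈ S, Real.log (1 + b p * (p : ℝ) ^ (-s)) ≤ Real.log B := by
  classical
  set t : ℕ → ℝ := fun n => b n * (n : ℝ) ^ (-s)
  have ht : ∀ n, 0 ≤ t n := fun n => by have := hb n; positivity
  rw [← Real.log_prod (s := S) fun p _ => by
    have := ht p; positivity]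
  refine Real.log_le_log (Finset.prod_pos fun p _ => by have := ht p; positivity) ?_
  rw [Finset.prod_one_add]
  have hprod : ∀ T : Finset ℕ, ↑T ⊆ good → ∏ p ∈ T, t p = t (∏ p ∈ T, p) := by
    intro T
    induction T using Finset.induction_on with
    | empty => intro _; simp [t, hb1]
    | insert p T hp ih =>
      intro h
      rw [Finset.coe_insert, Set.insert_subset_iff] at h
      rw [Finset.prod_insert hp, Finset.prod_insert hp, ih h.2]
      simp only [t]
      rw [hmul p h.1 _ fun hdvd => ?_]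
      · push_cast
        rw [Real.mul_rpow (by positivity) (Finset.prod_nonneg fun _ _ => by positivity)]
        ring
      · obtain ⟨q, hq, hpq⟩ := ((hgood p h.1).prime.dvd_finsetProd_iff _).1 hdvd
        exact hp ((Nat.prime_dvd_prime_iff_eq (hgood p h.1) (hgood q (h.2 hq))).1 hpq ▸ hq)
  rw [Finset.sum_congr rfl fun T hT => hprod T (fun x hx => hS (Finset.mem_powerset.1 hT hx))]
  have hinj : Set.InjOn (fun T : Finset ℕ => ∏ p ∈ T, p) (S.powerset : Set (Finset ℕ)) := by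
    intro T hT T' hT' he
    have hp : ∀ T : Finset ℕ, T ∈ (S.powerset : Set (Finset ℕ)) → ∀ p ∈ T, p.Prime :=
      fun T hT p hp => hgood p (hS (Finset.mem_powerset.1 hT hp))
    rw [← Nat.primeFactors_prod (hp T hT), ← Nat.primeFactors_prod (hp T' hT')]
    exact congrArg Nat.primeFactors he
  refine le_trans (le_of_eq ?_) (hB (S.powerset.image fun T => ∏ p ∈ T, p))
  rw [Finset.sum_image hinj]

variable {b : ℕ → ℝ} {good : Set ℕ}

/-- The weighted sum over primes is at most a multiple of `log (1/(s-1))`. -/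
theorem exists_eventually_tsum_le (hb : ∀ n, 0 ≤ b n) (hgood : ∀ p ∈ good, p.Prime)
    (hb1 : b 1 = 1) (hmul : ∀ p ∈ good, ∀ n, ¬ p ∣ n → b (p * n) = b p * b n) {C : ℝ}
    (hC : ∀ X : ℕ, ∑ n ∈ Finset.range X, b n ≤ C * X) :
    ∃ K : ℝ, 0 < K ∧
      (∀ᶠ s in 𝓝[>] (1 : ℝ), Summable (good.indicator fun n => b n * (n : ℝ) ^ (-s)) ∧
        ∑' n, good.indicator (fun n => b n * (n : ℝ) ^ (-s)) n ≤
          K * Real.log (1 / (s - 1))) ∧
      ((∀ p ∈ good, b p ≤ 4) → ∀ ε > 0, ∀ᶠ s in 𝓝[>] (1 : ℝ),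
        ∑' n, good.indicator (fun n => b n * (n : ℝ) ^ (-s)) n ≤
          (1 + ε) * Real.log (1 / (s - 1))) := by
  classical
  have hC1 : 0 < C := by
    have h := hC 2
    simp [Finset.sum_range_succ, hb1] at h
    linarith [hb 0]
  set B : ℝ → ℝ := fun s => 4 * C / Real.log 2 / (s - 1)
  set B₀ : ℝ := Real.log (4 * C / Real.log 2)
  have hlogB : ∀ s : ℝ, 1 < s → Real.log (B s) = B₀ + Real.log (1 / (s - 1)) := fun s hs => by
    have hl : 0 < Real.log 2 := Real.log_pos one_lt_two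
    rw [show B s = 4 * C / Real.log 2 * (1 / (s - 1)) by simp [B]; ring,
      Real.log_mul (by positivity) (by have := sub_pos.2 hs; positivity)]
  set t : ℝ → ℕ → ℝ := fun s n => b n * (n : ℝ) ^ (-s)
  have ht0 : ∀ s n, 0 ≤ t s n := fun s n => by have := hb n; positivity
  have hlog : ∀ s : ℝ, 1 < s → s ≤ 2 → ∀ S : Finset ℕ, ↑S ⊆ good →
      ∑ p ∈ S, Real.log (1 + t s p) ≤ B₀ + Real.log (1 / (s - 1)) := fun s h1 h2 S hS => by
    rw [← hlogB s h1]
    exact sum_log_one_add_le hb hgood hb1 hmul (sum_mul_rpow_le hb hC h1 h2) S hS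
  have htC : ∀ s : ℝ, 1 < s → ∀ p : ℕ, p ≠ 0 → t s p ≤ 2 * C := fun s hs p hp => by
    have hpp : (1 : ℝ) ≤ p := Nat.one_le_cast.2 (Nat.pos_of_ne_zero hp)
    have h1 : b p ≤ C * (p + 1) := by
      have := (Finset.single_le_sum (fun n _ => hb n) (Finset.self_mem_range_succ p)).trans
        (hC (p + 1))
      exact_mod_cast this
    calc t s p ≤ C * (p + 1) * (p : ℝ) ^ (-(1 : ℝ)) :=
          mul_le_mul h1 (Real.rpow_le_rpow_of_exponent_le hpp (by linarith)) (by positivity)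
            (by positivity)
      _ ≤ 2 * C := by
          rw [Real.rpow_neg_one, ← div_eq_mul_inv, div_le_iff₀ (by linarith)]
          nlinarith
  have hquad : ∀ x : ℝ, 0 ≤ x → x - x ^ 2 / 2 ≤ Real.log (1 + x) := fun x hx => by
    refine le_trans ?_ (Real.le_log_one_add_of_nonneg hx)
    rw [le_div_iff₀ (by linarith)]
    nlinarith [pow_nonneg hx 3]
  have hlin : ∀ x : ℝ, 0 ≤ x → x ≤ 2 * C → x / (1 + 2 * C) ≤ Real.log (1 + x) := fun x hx hxC => by
    refine le_trans ?_ (Real.le_log_one_add_of_nonneg hx)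
    rw [div_le_div_iff₀ (by linarith) (by linarith)]
    nlinarith
  have hfin : ∀ (s : ℝ) (S : Finset ℕ), ∑ n ∈ S, good.indicator (t s) n =
      ∑ n ∈ S.filter (· ∈ good), t s n := fun s S => by
    rw [Finset.sum_filter]
    exact Finset.sum_congr rfl fun n _ => Set.indicator_apply _ _ _
  have hnear : ∀ᶠ s in 𝓝[>] (1 : ℝ), 1 < s ∧ s ≤ 2 := by
    filter_upwards [self_mem_nhdsWithin,
      nhdsWithin_le_nhds (eventually_le_nhds one_lt_two)] with s h1 h2 using ⟨h1, h2⟩
  have hsub : ∀ S : Finset ℕ, (↑(S.filter (· ∈ good)) : Set ℕ) ⊆ good := fun S n hn =>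
    (Finset.mem_filter.1 hn).2
  refine ⟨(1 + 2 * C) * 2, by positivity, ?_, fun hb4 ε hε => ?_⟩
  · filter_upwards [hnear, Density.tendsto_log_inv_sub_one.eventually_ge_atTop B₀,
      Density.tendsto_log_inv_sub_one.eventually_ge_atTop 0] with s ⟨h1, h2⟩ hB₀ hL
    have hle : ∀ S : Finset ℕ, ∑ n ∈ S, good.indicator (t s) n ≤
        (1 + 2 * C) * 2 * Real.log (1 / (s - 1)) := by
      intro S
      rw [hfin]
      refine le_trans (le_trans (Finset.sum_le_sum (g := fun p => (1 + 2 * C) * Real.log (1 + t s p))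
        fun p hp => ?_) (le_of_eq (Finset.mul_sum _ _ _).symm)) ?_
      · have hp' := (hgood p (Finset.mem_filter.1 hp).2).ne_zero
        have := hlin _ (ht0 s p) (htC s h1 p hp')
        rwa [div_le_iff₀ (by linarith), mul_comm] at this
      · rw [mul_assoc]
        exact mul_le_mul_of_nonneg_left ((hlog s h1 h2 _ (hsub S)).trans (by linarith))
          (by positivity)
    exact ⟨summable_of_sum_le (fun n => Set.indicator_nonneg (fun n _ => ht0 s n) _) hle,
      Real.tsum_le_of_sum_le (fun n => Set.indicator_nonneg (fun n _ => ht0 s n) _) hle⟩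
  · set Z : ℝ := ∑' n : ℕ, 8 * (n : ℝ) ^ (-(2 : ℝ))
    have hZ : Summable fun n : ℕ => 8 * (n : ℝ) ^ (-(2 : ℝ)) :=
      (Real.summable_nat_rpow.2 (by norm_num)).mul_left 8
    filter_upwards [hnear,
      Density.tendsto_log_inv_sub_one.eventually_ge_atTop ((B₀ + Z) / ε)] with s ⟨h1, h2⟩ hL
    rw [div_le_iff₀ hε] at hL
    refine Real.tsum_le_of_sum_le (fun n => Set.indicator_nonneg (fun n _ => ht0 s n) _) fun S => ?_
    rw [hfin]
    have hsq : ∀ p ∈ S.filter (· ∈ good), t s p ≤ Real.log (1 + t s p) + 8 * (p : ℝ) ^ (-(2 : ℝ)) := by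
      intro p hp
      have hpg := (Finset.mem_filter.1 hp).2
      have hpp : (1 : ℝ) ≤ p := Nat.one_le_cast.2 (hgood p hpg).one_lt.le
      have hq := hquad _ (ht0 s p)
      have : (t s p) ^ 2 ≤ 16 * (p : ℝ) ^ (-(2 : ℝ)) := by
        calc (t s p) ^ 2 ≤ (4 * (p : ℝ) ^ (-(1 : ℝ))) ^ 2 :=
              pow_le_pow_left₀ (ht0 s p) (mul_le_mul (hb4 p hpg)
                (Real.rpow_le_rpow_of_exponent_le hpp (by linarith)) (by positivity) (by norm_num)) 2
          _ = _ := by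
              rw [mul_pow, ← Real.rpow_natCast ((p : ℝ) ^ _) 2, ← Real.rpow_mul (by positivity)]
              norm_num
      linarith
    refine (Finset.sum_le_sum hsq).trans ?_
    rw [Finset.sum_add_distrib]
    have hz := hZ.sum_le_tsum (S.filter (· ∈ good)) fun n _ => by positivity
    linarith [hlog s h1 h2 _ (hsub S)]

end Fermat.Agent.DS
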