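import Mathlib
import Fermat.Agent.DS.ModEig
import Fermat.Agent.GalRep.Cyclo
import Fermat.Agent.GalRep.Model.BaseField

/-!
Reduction modulo a place of algebraic integers: small elements of cyclotomic fields, finiteness,
and lifting of roots of unity and of the eigenvalues of matrices of finite order.
-/

set_option autoImplicit false
set_option maxHeartbeats 800000

noncomputable section

namespace Fermat.Agent.DS

open Polynomial
open Fermat.Agent.GalRep (qbarToC qbarToC_injective charP_residue)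

local notation "ℚb" => AlgebraicClosure ℚ

/-- An algebraic integer of `ℚ(μ_m)` with conjugates bounded by `L`. -/
structure Small (m L : ℕ) (x : ℂ) : Prop where
  isInt : IsIntegral ℤ x
  mem : x ∈ IntermediateField.adjoin ℚ ({Complex.exp (2 * Real.pi * Complex.I / m)} : Set ℂ)
  norm_le : ∀ σ : ℂ ≃+* ℂ, ‖σ x‖ ≤ L

namespace Small

variable {m L L' : ℕ} {x y : ℂ}

theorem mono (h : Small m L x) (hL : L ≤ L') : Small m L' x :=
  ⟨h.isInt, h.mem, fun σ => (h.norm_le σ).trans (Nat.cast_le.2 hL)⟩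

theorem add (h : Small m L x) (h' : Small m L' y) : Small m (L + L') (x + y) :=
  ⟨h.isInt.add h'.isInt, add_mem h.mem h'.mem, fun σ => by
    rw [map_add, Nat.cast_add]
    exact (norm_add_le _ _).trans (add_le_add (h.norm_le σ) (h'.norm_le σ))⟩

theorem sub (h : Small m L x) (h' : Small m L' y) : Small m (L + L') (x - y) :=
  ⟨h.isInt.sub h'.isInt, sub_mem h.mem h'.mem, fun σ => by
    rw [map_sub, Nat.cast_add]
    exact (norm_sub_le _ _).trans (add_le_add (h.norm_le σ) (h'.norm_le σ))⟩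

theorem mul (h : Small m L x) (h' : Small m L' y) : Small m (L * L') (x * y) :=
  ⟨h.isInt.mul h'.isInt, mul_mem h.mem h'.mem, fun σ => by
    rw [map_mul, norm_mul, Nat.cast_mul]
    exact mul_le_mul (h.norm_le σ) (h'.norm_le σ) (norm_nonneg _) (Nat.cast_nonneg _)⟩

theorem natCast (n : ℕ) : Small m n (n : ℂ) :=
  ⟨isIntegral_algebraMap (R := ℤ) (x := (n : ℤ)) |> fun h => by simpa using h,
    natCast_mem _ n, fun σ => by simp⟩

theorem sum {ι : Type*} (s : Finset ι) {f : ι → ℂ} (h : ∀ i ∈ s, Small m L (f i)) :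
    Small m (s.card * L) (∑ i ∈ s, f i) :=
  ⟨IsIntegral.sum _ fun i hi => (h i hi).isInt, sum_mem fun i hi => (h i hi).mem, fun σ => by
    rw [map_sum, Nat.cast_mul]
    refine (norm_sum_le _ _).trans ((Finset.sum_le_card_nsmul _ _ (L : ℝ) fun i hi =>
      (h i hi).norm_le σ).trans_eq ?_)
    rw [nsmul_eq_mul]⟩

theorem rootOfUnity [NeZero m] (hx : x ^ m = 1) : Small m 1 x :=
  ⟨isIntegral_rootOfUnity (NeZero.ne m) hx,
    mem_adjoin_of_pow_eq_one (Complex.isPrimitiveRoot_exp m (NeZero.ne m)) hx,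
    fun σ => by rw [norm_aut_rootOfUnity (NeZero.ne m) hx σ, Nat.cast_one]⟩

end Small

variable {A : ValuationSubring ℚb} {ℓ : ℕ}

theorem RedTo.sub {x y : ℂ} {r s : IsLocalRing.ResidueField A} (h : RedTo A x r) (h' : RedTo A y s) :
    RedTo A (x - y) (r - s) := by
  obtain ⟨a, rfl, rfl⟩ := h
  obtain ⟨b, rfl, rfl⟩ := h'
  exact ⟨a - b, by simp, map_sub _ _ _⟩

theorem RedTo.sum {ι : Type*} (s : Finset ι) {f : ι → ℂ} {g : ι → IsLocalRing.ResidueField A}
    (h : ∀ i ∈ s, RedTo A (f i) (g i)) : RedTo A (∑ i ∈ s, f i) (∑ i ∈ s, g i) := by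
  classical
  induction s using Finset.induction_on with
  | empty => simpa using RedTo.zero
  | insert i s hi ih =>
    rw [Finset.sum_insert hi, Finset.sum_insert hi]
    exact (h i (Finset.mem_insert_self _ _)).add
      (ih fun j hj => h j (Finset.mem_insert_of_mem hj))

/-- An algebraic integer with small conjugates killed at a large place is zero. -/
theorem eq_zero_of_redTo (hℓ : ℓ.Prime) (hA : A.LiesOverPrime ℓ) {x : ℂ} (hx : IsIntegral ℤ x)
    {L : ℕ} (hL : ∀ σ : ℂ ≃+* ℂ, ‖σ x‖ ≤ L) {d : ℕ} (hd : (minpoly ℚ x).natDegree ≤ d)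
    (hlt : (L + 1) ^ d < ℓ) (h0 : RedTo A x 0) : x = 0 := by
  have := charP_residue hℓ hA
  set φ : A →+* ℂ := qbarToC.comp A.subtype
  have hinj : Function.Injective φ := qbarToC_injective.comp Subtype.val_injective
  let e : A ≃+* φ.range := RingEquiv.ofBijective φ.rangeRestrict
    ⟨fun a b h => hinj (congrArg Subtype.val h), φ.rangeRestrict_surjective⟩
  obtain ⟨a, rfl, ha⟩ := h0
  refine eq_zero_of_red (ℓ := ℓ) hx hL hd ((IsLocalRing.residue A).comp e.symm.toRingHom)
    (RingHom.mem_range.2 ⟨a, rfl⟩ : φ a ∈ φ.range) ?_ hlt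
  rw [RingHom.comp_apply, RingEquiv.toRingHom_eq_coe, RingEquiv.coe_toRingHom]
  refine (congrArg (IsLocalRing.residue A) ?_).trans ha
  rw [RingEquiv.symm_apply_eq]
  exact Subtype.ext rfl

theorem Small.eq_of_redTo {m L L' : ℕ} [NeZero m] {x y : ℂ} (hℓ : ℓ.Prime)
    (hA : A.LiesOverPrime ℓ) (h : Small m L x) (h' : Small m L' y)
    (hlt : (L + L' + 1) ^ m < ℓ) {r : IsLocalRing.ResidueField A} (hx : RedTo A x r)
    (hy : RedTo A y r) : x = y := by
  refine sub_eq_zero.1 (eq_zero_of_redTo hℓ hA (h.sub h').isInt (h.sub h').norm_le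
    (natDegree_minpoly_le_of_mem (NeZero.ne m) (Complex.isPrimitiveRoot_exp m (NeZero.ne m)).pow_eq_one
      (h.sub h').mem) hlt ?_)
  simpa using hx.sub hy

/-- Roots of unity of order prime to `ℓ` lift. -/
theorem exists_root_lift (hℓ : ℓ.Prime) (hA : A.LiesOverPrime ℓ) {m : ℕ} [NeZero m]
    (hm : ¬ ℓ ∣ m) {z : IsLocalRing.ResidueField A} (hz : z ^ m = 1) :
    ∃ w : ℂ, w ^ m = 1 ∧ RedTo A w z := by
  obtain ⟨ζ, hζ⟩ := HasEnoughRootsOfUnity.exists_primitiveRoot ℚb m
  set a : A := ⟨ζ, Galois.integralClosure_le A ⟨ζ, hζ.isIntegral (NeZero.pos m)⟩⟩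
  have ha : IsPrimitiveRoot a m := IsPrimitiveRoot.of_map_of_injective (f := A.subtype) hζ
    A.subtype_injective
  have hres : IsPrimitiveRoot (IsLocalRing.residue A a) m := by
    refine IsPrimitiveRoot.mk_of_lt _ (NeZero.pos m) (by rw [← map_pow, ha.pow_eq_one, map_one])
      fun i hi0 him h => ?_
    exact ha.pow_ne_one_of_pos_of_lt hi0.ne' him (GalRep.eq_one_of_residue_eq_one hℓ hA hm
      (by rw [← pow_mul, mul_comm, pow_mul, ha.pow_eq_one, one_pow]) (by rw [map_pow, h]))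
  obtain ⟨i, -, rfl⟩ := hres.eq_pow_of_pow_eq_one hz
  refine ⟨qbarToC ((a ^ i : A) : ℚb), ?_, a ^ i, rfl, map_pow _ _ _⟩
  rw [← map_pow, ← SubmonoidClass.coe_pow, ← pow_mul, mul_comm, pow_mul, ha.pow_eq_one, one_pow]
  simp

/-- Trace and determinant of a matrix of finite order. -/
theorem exists_eigen_roots {k : Type*} [Field k] [IsAlgClosed k] {m : ℕ}
    (g : GL (Fin 2) k) (hg : g ^ m = 1) :
    ∃ z₁ z₂ : k, z₁ ^ m = 1 ∧ z₂ ^ m = 1 ∧ g.val.trace = z₁ + z₂ ∧ g.val.det = z₁ * z₂ := by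
  obtain ⟨z, hz⟩ := IsAlgClosed.exists_root g.val.charpoly
    (by rw [Matrix.charpoly_degree_eq_dim]; simp)
  rw [Matrix.charpoly_fin_two, IsRoot.def] at hz
  simp at hz
  have hgm : g.val ^ m = 1 := by rw [← Units.val_pow_eq_pow_val, hg, Units.val_one]
  have hdet0 : (g.val - z • 1).det = 0 := by
    rw [Matrix.det_fin_two] at hz ⊢
    rw [Matrix.trace_fin_two] at hz
    simp
    linear_combination hz
  obtain ⟨v, hv, hgv⟩ := Matrix.exists_mulVec_eq_zero_iff.2 hdet0
  rw [Matrix.sub_mulVec, Matrix.smul_mulVec, Matrix.one_mulVec, sub_eq_zero] at hgv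
  have hpow : ∀ i : ℕ, Matrix.mulVec (g.val ^ i) v = z ^ i • v := by
    intro i
    induction i with
    | zero => simp
    | succ i ih => rw [pow_succ, ← Matrix.mulVec_mulVec, hgv, Matrix.mulVec_smul, ih, smul_smul, pow_succ']
  have hzm : z ^ m = 1 := by
    have h := hpow m
    rw [hgm, Matrix.one_mulVec] at h
    exact smul_left_injective k hv (show z ^ m • v = (1 : k) • v by rw [one_smul]; exact h.symm)
  have hdet : g.val.det = z * (g.val.trace - z) := by linear_combination hz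
  refine ⟨z, g.val.trace - z, hzm, ?_, by ring, hdet⟩
  have h := congrArg (· ^ m) hdet
  simp only [mul_pow, hzm, one_mul] at h
  rw [← h, ← Matrix.det_pow, hgm, Matrix.det_one]

/-- Algebraic integers of bounded degree and bounded conjugates form a finite set. -/
theorem finite_isIntegral_le (D R : ℕ) :
    {x : ℂ | IsIntegral ℤ x ∧ (minpoly ℚ x).natDegree ≤ D ∧ ∀ σ : ℂ ≃+* ℂ, ‖σ x‖ ≤ R}.Finite := by
  classical
  let C := Nat.ceil (max (R : ℝ) 1 ^ D * (D.choose (D / 2)))
  have := bUnion_roots_finite (algebraMap ℤ ℂ) D (Set.finite_Icc (-C : ℤ) C)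
  refine this.subset fun x hx => ?_
  simp_rw [Set.mem_iUnion]
  have hQ := minpoly.isIntegrallyClosed_eq_field_fractions' ℚ hx.1
  refine ⟨_, ⟨?_, fun i => ?_⟩,
    mem_rootSet.2 ⟨minpoly.ne_zero hx.1, minpoly.aeval ℤ x⟩⟩
  · rw [← (minpoly.monic hx.1).natDegree_map (algebraMap ℤ ℚ), ← hQ]
    exact hx.2.1
  rw [Set.mem_Icc, ← abs_le, ← @Int.cast_le ℝ]
  refine (Eq.trans_le ?_ (coeff_bdd_of_roots_le (p := minpoly ℚ x) (algebraMap ℚ ℂ) (minpoly.monic hx.1.tower_top)
    (IsAlgClosed.splits _) hx.2.1 (B := (R : ℝ)) (fun y hy => ?_) i)).trans (Nat.le_ceil _)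
  · rw [coeff_map, hQ, coeff_map, eq_intCast, map_intCast, Complex.norm_intCast, Int.cast_abs]
  · rw [mem_roots ((minpoly.monic hx.1.tower_top).map _).ne_zero, IsRoot.def, eval_map,
      ← aeval_def] at hy
    obtain ⟨σ, rfl⟩ := exists_aut_of_root hx.1.tower_top hy
    exact hx.2.2 σ

end Fermat.Agent.DS
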