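import Mathlib
import Fermat.Agent.DS.Rankin
import Fermat.Agent.DS.Small
import Fermat.Agent.DS.Systems

/-!
Outside a set of primes of density at most one quarter, the eigenvalues of a weight one form lie
in a finite set.
-/

set_option autoImplicit false
set_option maxHeartbeats 800000

noncomputable section

namespace Fermat.Agent.DS

open UpperHalfPlane CongruenceSubgroup ModularFormClass Filter
open Fermat.Agent.Density (natSum summable_natSum)
open scoped MatrixGroups Topology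

variable {N : ℕ} [NeZero N]

/-- The mean square of the coefficients of a weight one cusp form is bounded. -/
theorem exists_sum_normSq_form (g : CuspForm (Gamma1 N) 1) :
    ∃ C : ℝ, 0 < C ∧ ∀ X : ℕ, ∑ n ∈ Finset.range X, ‖qCoeff ⇑g n‖ ^ 2 ≤ C * X := by
  obtain ⟨C, hC⟩ := CuspFormClass.exists_bound (k := 1) g
  refine exists_sum_normSq_le (G := ⇑g) (C := C) (fun τ => ?_) fun τ => ?_
  · have hbdd : IsBoundedAtImInfty ⇑g := by
      simpa using (isZeroAtImInfty_slash g 1).isBoundedAtImInfty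
    have h := hasSum_qExpansion (h := 1) one_pos
      (SlashInvariantFormClass.periodic_comp_ofComplex g (one_mem_periods1 N))
      (CuspFormClass.holo g) hbdd τ
    refine h.congr_fun fun n => ?_
    rw [smul_eq_mul, Function.Periodic.qParam, ← Complex.exp_nat_mul]
    show qCoeff ⇑g n * _ = (qExpansion 1 ⇑g).coeff n * _
    congr 2
    push_cast
    ring
  · have h := hC τ
    have hs : τ.im ^ (((1 : ℤ) : ℝ) / 2) = Real.sqrt τ.im := by
      rw [Real.sqrt_eq_rpow]; norm_num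
    rw [hs, le_div_iff₀ (Real.sqrt_pos.2 τ.im_pos)] at h
    linarith

variable {ε : DirichletCharacter ℂ N} {f : CuspForm (Gamma1 N) 1}

theorem eps_pow_totient {p : ℕ} (hp : p.Prime) (hpN : ¬ p ∣ N) :
    ε (p : ZMod N) ^ N.totient = 1 := by
  have hu := congrArg (fun u : (ZMod N)ˣ => (u : ZMod N))
    (ZMod.pow_totient (ZMod.unitOfCoprime p (hp.coprime_iff_not_dvd.2 hpN)))
  simp only [Units.val_pow_eq_pow_val, ZMod.coe_unitOfCoprime, Units.val_one] at hu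
  rw [← map_pow, hu, map_one]

/-- Finitely many automorphisms realise all conjugates of all coefficients. -/
theorem exists_reps (halg : ∀ n, IsIntegral ℚ (qCoeff ⇑f n)) :
    ∃ I : Finset (ℂ ≃+* ℂ), RingEquiv.refl ℂ ∈ I ∧
      ∀ σ : ℂ ≃+* ℂ, ∃ i ∈ I, ∀ n, σ (qCoeff ⇑f n) = i (qCoeff ⇑f n) := by
  classical
  let T : (ℂ ≃+* ℂ) → Fin (sturm1 N 1 + 1) → ℂ := fun σ i => σ (qCoeff ⇑f i)
  have hfin : (Set.range T).Finite := by
    refine ((Set.Finite.pi' fun i : Fin (sturm1 N 1 + 1) =>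
      ((minpoly ℚ (qCoeff ⇑f i)).rootSet_finite ℂ))).subset ?_
    rintro _ ⟨σ, rfl⟩ i
    rw [Polynomial.mem_rootSet_of_ne (minpoly.ne_zero (halg _))]
    show Polynomial.aeval (σ (qCoeff ⇑f i)) (minpoly ℚ (qCoeff ⇑f i)) = 0
    rw [show σ (qCoeff ⇑f i) = σ.toRingHom.toRatAlgHom (qCoeff ⇑f i) from rfl,
      Polynomial.aeval_algHom_apply, minpoly.aeval, map_zero]
  refine ⟨insert (RingEquiv.refl ℂ) (hfin.toFinset.attach.image fun t =>
    (hfin.mem_toFinset.1 t.2).choose), Finset.mem_insert_self _ _, fun σ => ?_⟩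
  have hσ : T σ ∈ hfin.toFinset := hfin.mem_toFinset.2 ⟨σ, rfl⟩
  set i := (hfin.mem_toFinset.1 hσ).choose
  have hi : T i = T σ := (hfin.mem_toFinset.1 hσ).choose_spec
  refine ⟨i, Finset.mem_insert_of_mem (Finset.mem_image.2
    ⟨⟨T σ, hσ⟩, Finset.mem_attach _ _, rfl⟩), fun n => ?_⟩
  obtain ⟨G, hG⟩ := exists_conj_form σ f
  obtain ⟨H, hH⟩ := exists_conj_form i f
  rw [← hG, ← hH, show G = H from sub_eq_zero.1 (eq_zero_of_coeff_le _ fun l hl => by
    rw [qCoeff1_sub, hG, hH, sub_eq_zero]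
    exact (congrFun hi ⟨l, Nat.lt_succ_iff.2 hl⟩).symm)]

variable (hf₁ : qCoeff ⇑f 1 = 1) (hT : IsEig N (fun p => (ε (p : ZMod N), qCoeff ⇑f p)) (qCoeff ⇑f))

include hf₁ hT

/-- The weighted sum over the primes of the squares of conjugate eigenvalues. -/
theorem exists_conj_rankin (i : ℂ ≃+* ℂ) :
    ∃ K : ℝ, 0 < K ∧
      (∀ᶠ s in 𝓝[>] (1 : ℝ),
        Summable ({p : ℕ | p.Prime ∧ ¬ p ∣ N}.indicator
          fun n => ‖i (qCoeff ⇑f n)‖ ^ 2 * (n : ℝ) ^ (-s)) ∧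
        ∑' n, {p : ℕ | p.Prime ∧ ¬ p ∣ N}.indicator
          (fun n => ‖i (qCoeff ⇑f n)‖ ^ 2 * (n : ℝ) ^ (-s)) n ≤ K * Real.log (1 / (s - 1))) ∧
      ((∀ p ∈ {p : ℕ | p.Prime ∧ ¬ p ∣ N}, ‖i (qCoeff ⇑f p)‖ ^ 2 ≤ 4) → ∀ e > 0,
        ∀ᶠ s in 𝓝[>] (1 : ℝ), ∑' n, {p : ℕ | p.Prime ∧ ¬ p ∣ N}.indicator
          (fun n => ‖i (qCoeff ⇑f n)‖ ^ 2 * (n : ℝ) ^ (-s)) n ≤ (1 + e) * Real.log (1 / (s - 1))) := by
  obtain ⟨G, hG⟩ := exists_conj_form i f
  obtain ⟨C, -, hC⟩ := exists_sum_normSq_form G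
  refine exists_eventually_tsum_le (fun n => sq_nonneg _) (fun p hp => hp.1)
    (by simp [hf₁]) (fun p hp n hn => ?_) (fun X => by simpa only [hG] using hC X)
  have h := hT p hp.1 hp.2 n
  rw [if_neg hn, mul_zero, add_zero] at h
  show ‖i (qCoeff ⇑f (p * n))‖ ^ 2 = _
  rw [h, map_mul, norm_mul, mul_pow]

/-- A finite set contains the systems at primes outside a small set. -/
theorem exists_finite_values {D : ℕ}
    (halg : ∀ n, IsIntegral ℚ (qCoeff ⇑f n) ∧ (minpoly ℚ (qCoeff ⇑f n)).natDegree ≤ D) :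
    ∃ (P : Finset (ℂ × ℂ)) (Q : Set ℕ), Q ⊆ {p : ℕ | p.Prime ∧ ¬ p ∣ N} ∧
      (∀ p : ℕ, p.Prime → ¬ p ∣ N → p ∉ Q → (qCoeff ⇑f p, ε (p : ZMod N)) ∈ P) ∧
      ∀ᶠ s in 𝓝[>] (1 : ℝ), natSum Q s ≤ 1 / 4 * Real.log (1 / (s - 1)) := by
  classical
  obtain ⟨I, -, hI⟩ := exists_reps (f := f) fun n => (halg n).1
  choose K hK0 hK hK4 using exists_conj_rankin hf₁ hT
  set good : Set ℕ := {p : ℕ | p.Prime ∧ ¬ p ∣ N}
  set R : ℝ := 4 * ∑ i ∈ I, K i + 1 with hR
  have hKsum : 0 ≤ ∑ i ∈ I, K i := Finset.sum_nonneg fun i _ => (hK0 i).le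
  have hR1 : 1 ≤ R := by rw [hR]; linarith
  set Q : Set ℕ := {p | p ∈ good ∧ R < ∑ i ∈ I, ‖i (qCoeff ⇑f p)‖ ^ 2}
  refine ⟨(finite_isIntegral_le D (Nat.ceil R)).toFinset ×ˢ Finset.univ.image fun d : ZMod N => ε d,
    Q, fun p hp => hp.1, fun p hp hpN hpQ => ?_, ?_⟩
  · refine Finset.mem_product.2 ⟨(Set.Finite.mem_toFinset _).2
      ⟨isIntegral_eigenvalue ε f hf₁ hT (fun n => (halg n).1) hp hpN, (halg p).2, fun σ => ?_⟩,
      Finset.mem_image.2 ⟨_, Finset.mem_univ _, rfl⟩⟩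
    obtain ⟨i, hi, hiσ⟩ := hI σ
    rw [hiσ]
    refine le_trans ?_ (Nat.le_ceil R)
    have h1 : ‖i (qCoeff ⇑f p)‖ ^ 2 ≤ R := by
      by_contra hlt
      exact hpQ ⟨⟨hp, hpN⟩, (not_le.1 hlt).trans_le
        (Finset.single_le_sum (f := fun j : ℂ ≃+* ℂ => ‖j (qCoeff ⇑f p)‖ ^ 2)
          (fun j _ => sq_nonneg _) hi)⟩
    nlinarith [norm_nonneg (i (qCoeff ⇑f p))]
  · filter_upwards [(Finset.eventually_all I).2 fun i _ => hK i, self_mem_nhdsWithin,
      Density.tendsto_log_inv_sub_one.eventually (eventually_ge_atTop 0)] with s hs hs1 hL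
    set t : (ℂ ≃+* ℂ) → ℕ → ℝ := fun i =>
      good.indicator fun n => ‖i (qCoeff ⇑f n)‖ ^ 2 * (n : ℝ) ^ (-s)
    have hsum : Summable fun n => ∑ i ∈ I, t i n := summable_sum fun i hi => (hs i hi).1
    have h1 : R * natSum Q s ≤ ∑' n, ∑ i ∈ I, t i n := by
      rw [natSum, ← tsum_mul_left]
      refine Summable.tsum_le_tsum (fun n => ?_) ((summable_natSum Q hs1).mul_left R) hsum
      by_cases hn : n ∈ Q
      · rw [Set.indicator_of_mem hn, Finset.sum_congr rfl fun i _ => Set.indicator_of_mem hn.1 _,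
          ← Finset.sum_mul]
        exact mul_le_mul_of_nonneg_right hn.2.le (Real.rpow_nonneg (Nat.cast_nonneg n) _)
      · rw [Set.indicator_of_notMem hn, mul_zero]
        exact Finset.sum_nonneg fun i _ => Set.indicator_nonneg
          (fun n _ => mul_nonneg (sq_nonneg _) (Real.rpow_nonneg (Nat.cast_nonneg n) _)) _
    rw [Summable.tsum_finsetSum fun i hi => (hs i hi).1] at h1
    have h2 : ∑ i ∈ I, ∑' n, t i n ≤ (∑ i ∈ I, K i) * Real.log (1 / (s - 1)) := by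
      rw [Finset.sum_mul]; exact Finset.sum_le_sum fun i hi => (hs i hi).2
    have h3 : (∑ i ∈ I, K i) * Real.log (1 / (s - 1)) ≤ R * (1 / 4 * Real.log (1 / (s - 1))) := by
      rw [hR]; nlinarith
    exact le_of_mul_le_mul_left (h1.trans (h2.trans h3)) (by linarith)

end Fermat.Agent.DS
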