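import Mathlib
import Fermat.Agent.DS.ModRep
import Fermat.Agent.DS.Primes
import Fermat.Agent.DS.Count

/-!
The image of the representation modulo a large prime is small, and the eigenvalues of a weight
one eigenform are sums of two roots of unity of bounded order.
-/

set_option autoImplicit false
set_option maxHeartbeats 800000

noncomputable section

namespace Fermat.Agent.DS

open CongruenceSubgroup ModularFormClass Filter
open Fermat.Agent.Galois (GQ)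
open Fermat.Agent.Density (natSum)
open scoped MatrixGroups Topology

local notation "ℚb" => AlgebraicClosure ℚ

theorem trDet_conj {K : Type*} [Field K] (τ g : GL (Fin 2) K) :
    trDet (τ * g * τ⁻¹) = trDet g := by
  have h : τ⁻¹.val * τ.val = 1 := by rw [← Units.val_mul, inv_mul_cancel, Units.val_one]
  simp only [trDet, Units.val_mul, Prod.mk.injEq]
  refine ⟨?_, ?_⟩
  · rw [Matrix.trace_mul_comm, ← Matrix.mul_assoc, h, Matrix.one_mul]
  · rw [Matrix.det_mul, Matrix.det_mul, mul_comm, ← mul_assoc, ← Matrix.det_mul, h, Matrix.det_one,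
      one_mul]

variable {N : ℕ} [NeZero N] {ε : DirichletCharacter ℂ N} {f : CuspForm (Gamma1 N) 1}

/-- The image modulo a large prime is small. -/
theorem exists_card_bound (hf₁ : qCoeff ⇑f 1 = 1)
    (hT : IsEig N (fun p => (ε (p : ZMod N), qCoeff ⇑f p)) (qCoeff ⇑f)) {D : ℕ}
    (halg : ∀ n, IsIntegral ℚ (qCoeff ⇑f n) ∧ (minpoly ℚ (qCoeff ⇑f n)).natDegree ≤ D) :
    ∃ B L₀ : ℕ, ∀ {ℓ : ℕ} [Fact ℓ.Prime], L₀ ≤ ℓ →
      ∀ {A : ValuationSubring ℚb}, A.LiesOverPrime ℓ →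
      ∃ ρ : GQ →* GL (Fin 2) (IsLocalRing.ResidueField A),
        GaloisFactorsThroughFiniteLevel ρ ∧ IsSplitOrIrred ρ.range ∧ Finite ρ.range ∧
        Nat.card ρ.range ≤ B ∧ ¬ ℓ ∣ Nat.card ρ.range ∧
        ∀ p : ℕ, p.Prime → ¬ p ∣ N * ℓ → ∀ A' : ValuationSubring ℚb, A'.LiesOverPrime p →
          (∀ σ ∈ A'.inertiaSubgroupIn ℚ, ρ σ = 1) ∧
          ∀ σ : GQ, A'.IsFrobeniusAt σ p →
            RedTo A (qCoeff ⇑f p) (ρ σ).val.trace ∧ RedTo A (ε (p : ZMod N)) (ρ σ).val.det := by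
  classical
  obtain ⟨P, Q, hQgood, hP, hQ⟩ := exists_finite_values hf₁ hT halg
  refine ⟨160 * P.card, 2 * P.card + 5, fun {ℓ} _ hℓ {A} hA => ?_⟩
  have hℓp : ℓ.Prime := Fact.out
  have := GalRep.charP_residue hℓp hA
  haveI : IsAlgClosed (IsLocalRing.ResidueField A) := GalRep.Model.residue_isAlgClosed A
  obtain ⟨ρ, hfin, hss, hρ⟩ :=
    exists_modRep ε f hf₁ hT (fun n => (halg n).1) (ℓ := ℓ) (by omega) hA
  obtain ⟨hfinR, havg⟩ := average_range_le ρ hfin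
  let _ : Fintype ρ.range := Fintype.ofFinite _
  let rmap : ℂ → IsLocalRing.ResidueField A := fun x =>
    if h : ∃ r, RedTo A x r then h.choose else 0
  have hrmap : ∀ {x r}, RedTo A x r → rmap x = r := fun {x r} h => by
    simp only [rmap, dif_pos (Exists.intro r h)]
    exact (Exists.choose_spec (⟨r, h⟩ : ∃ r, RedTo A x r)).unique h
  set Pℓ := P.image fun x => (rmap x.1, rmap x.2)
  set v : ρ.range → ℝ := fun g => if trDet (g : GL (Fin 2) _) ∈ Pℓ then 0 else 1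
  have hv : (∑ g, v g) ≤ 1 / 4 * Nat.card ρ.range := by
    refine havg v (fun g => by simp only [v]; split_ifs <;> norm_num)
      (fun g τ => by simp only [v, Subgroup.coe_mul, Subgroup.coe_inv, trDet_conj])
      {p : ℕ | p.Prime ∧ ¬ p ∣ N} (N * ℓ).primeFactors (fun p hp hpb => ⟨hp, fun h => hpb
        (Nat.mem_primeFactors.2 ⟨hp, h.mul_right ℓ, NeZero.ne _⟩)⟩)
      (Q.indicator 1) (fun n => Set.indicator_nonneg (fun _ _ => zero_le_one) n)
      (fun p hp hpb A' hA' σ hσ => ?_) (1 / 4) ?_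
    · have hpM : ¬ p ∣ N * ℓ := fun h => hpb (Nat.mem_primeFactors.2 ⟨hp, h, NeZero.ne _⟩)
      by_cases hpQ : p ∈ Q
      · rw [Set.indicator_of_mem hpQ]
        simp only [v, Pi.one_apply]; split_ifs <;> norm_num
      · obtain ⟨h1, h2⟩ := (hρ p hp hpM A' hA').2 σ hσ
        have : trDet ((ρ.rangeRestrict σ : ρ.range) : GL (Fin 2) (IsLocalRing.ResidueField A)) ∈ Pℓ :=
          Finset.mem_image.2 ⟨_, hP p hp (fun h => hpM (h.mul_right ℓ)) hpQ, by
            simp only [hrmap h1, hrmap h2]; rfl⟩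
        simp only [v, if_pos this]
        exact Set.indicator_nonneg (fun _ _ => zero_le_one) p
    · have e : ∀ s : ℝ, {p : ℕ | p.Prime ∧ ¬ p ∣ N}.indicator
          (fun n => Q.indicator 1 n * (n : ℝ) ^ (-s)) = Q.indicator fun n : ℕ => (n : ℝ) ^ (-s) := by
        intro s; funext n
        by_cases hn : n ∈ Q
        · simp [hn, hQgood hn]
        · simp [hn, Set.indicator_apply]
      filter_upwards [hQ, self_mem_nhdsWithin] with s hs hs1
      rw [e]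
      exact ⟨Density.summable_natSum Q hs1, hs⟩
  set H : Set ρ.range := {g | trDet (g : GL (Fin 2) _) ∈ Pℓ}
  have hH : 3 * Nat.card ρ.range ≤ 4 * H.ncard := by
    have h1 : (∑ g, v g) = (Hᶜ.ncard : ℝ) := by
      rw [Set.ncard_eq_toFinset_card', Finset.sum_congr rfl fun g _ => show v g =
        if g ∈ Hᶜ then 1 else 0 by simp only [v, H, Set.mem_compl_iff, Set.mem_setOf_eq, ite_not],
        Finset.sum_boole]
      congr 2
      ext g
      simp
    rw [h1] at hv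
    have h2 : 4 * Hᶜ.ncard ≤ Nat.card ρ.range := by
      have h3 : ((4 * Hᶜ.ncard : ℕ) : ℝ) ≤ (Nat.card ρ.range : ℝ) := by push_cast; linarith
      exact_mod_cast h3
    have := Set.ncard_add_ncard_compl H
    omega
  obtain ⟨h1, h2⟩ := card_le_of_few_charpolys_field ρ.range hss P.card (by omega) H hH Pℓ
    Finset.card_image_le fun h hh => hh
  exact ⟨ρ, hfin, hss, hfinR, h1, h2, hρ⟩

/-- Trace and determinant in the image lift to sums and products of roots of unity. -/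
theorem exists_lift_trDet {ℓ : ℕ} (hℓ : ℓ.Prime) {A : ValuationSubring ℚb} (hA : A.LiesOverPrime ℓ)
    (G : Subgroup (GL (Fin 2) (IsLocalRing.ResidueField A))) [Finite G] {B : ℕ}
    (hB : Nat.card G ≤ B) (hℓB : B < ℓ) (g : G) :
    ∃ w₁ w₂ : ℂ, w₁ ^ B.factorial = 1 ∧ w₂ ^ B.factorial = 1 ∧
      RedTo A (w₁ + w₂) (g : GL (Fin 2) (IsLocalRing.ResidueField A)).val.trace ∧
      RedTo A (w₁ * w₂) (g : GL (Fin 2) (IsLocalRing.ResidueField A)).val.det := by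
  haveI : IsAlgClosed (IsLocalRing.ResidueField A) := GalRep.Model.residue_isAlgClosed A
  have : NeZero B.factorial := ⟨B.factorial_ne_zero⟩
  have hg : (g : GL (Fin 2) (IsLocalRing.ResidueField A)) ^ B.factorial = 1 := by
    obtain ⟨c, hc⟩ := Nat.dvd_factorial Nat.card_pos hB
    rw [← SubgroupClass.coe_pow, hc, pow_mul, pow_card_eq_one', one_pow, OneMemClass.coe_one]
  have hm : ¬ ℓ ∣ B.factorial := fun h => (not_le.2 hℓB) (hℓ.dvd_factorial.1 h)
  obtain ⟨z₁, z₂, h1, h2, ht, hd⟩ := exists_eigen_roots _ hg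
  obtain ⟨w₁, hw1, hr1⟩ := exists_root_lift hℓ hA hm h1
  obtain ⟨w₂, hw2, hr2⟩ := exists_root_lift hℓ hA hm h2
  exact ⟨w₁, w₂, hw1, hw2, ht ▸ hr1.add hr2, hd ▸ hr1.mul hr2⟩

/-- The eigenvalues are sums of two roots of unity of bounded order. -/
theorem exists_exact (hf₁ : qCoeff ⇑f 1 = 1)
    (hT : IsEig N (fun p => (ε (p : ZMod N), qCoeff ⇑f p)) (qCoeff ⇑f)) {D : ℕ}
    (halg : ∀ n, IsIntegral ℚ (qCoeff ⇑f n) ∧ (minpoly ℚ (qCoeff ⇑f n)).natDegree ≤ D) :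
    ∃ B L₀ : ℕ,
      (∀ {ℓ : ℕ} [Fact ℓ.Prime], L₀ ≤ ℓ → ∀ {A : ValuationSubring ℚb}, A.LiesOverPrime ℓ →
      ∃ ρ : GQ →* GL (Fin 2) (IsLocalRing.ResidueField A),
        GaloisFactorsThroughFiniteLevel ρ ∧ IsSplitOrIrred ρ.range ∧ Finite ρ.range ∧
        Nat.card ρ.range ≤ B ∧ ¬ ℓ ∣ Nat.card ρ.range ∧
        ∀ p : ℕ, p.Prime → ¬ p ∣ N * ℓ → ∀ A' : ValuationSubring ℚb, A'.LiesOverPrime p →
          (∀ σ ∈ A'.inertiaSubgroupIn ℚ, ρ σ = 1) ∧
          ∀ σ : GQ, A'.IsFrobeniusAt σ p →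
            RedTo A (qCoeff ⇑f p) (ρ σ).val.trace ∧ RedTo A (ε (p : ZMod N)) (ρ σ).val.det) ∧
      ∀ p : ℕ, p.Prime → ¬ p ∣ N → ∃ w₁ w₂ : ℂ, w₁ ^ B.factorial = 1 ∧ w₂ ^ B.factorial = 1 ∧
        qCoeff ⇑f p = w₁ + w₂ ∧ ε (p : ZMod N) = w₁ * w₂ := by
  classical
  obtain ⟨B, L₀, hB⟩ := exists_card_bound hf₁ hT halg
  refine ⟨B, L₀, @hB, fun p hp hpN => ?_⟩
  set m := B.factorial
  have : NeZero m := ⟨B.factorial_ne_zero⟩
  obtain ⟨I, -, hI⟩ := exists_reps (f := f) fun n => (halg n).1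
  set La : ℕ := Nat.ceil (∑ i ∈ I, ‖i (qCoeff ⇑f p)‖) + 3
  have hmem : ∀ {w : ℂ}, w ^ m = 1 → w ∈ (Polynomial.nthRoots m (1 : ℂ)).toFinset := fun h => by
    simp [Polynomial.mem_nthRoots (NeZero.pos m), h]
  set cand : Finset ℂ := ((Polynomial.nthRoots m (1 : ℂ)).toFinset ×ˢ
    (Polynomial.nthRoots m (1 : ℂ)).toFinset).biUnion fun w =>
      {qCoeff ⇑f p - (w.1 + w.2), ε (p : ZMod N) - w.1 * w.2}
  set d : ℕ := cand.sup fun x => (minpoly ℚ x).natDegree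
  obtain ⟨ℓ, hℓge, hℓ⟩ := Nat.exists_infinite_primes (L₀ + B + p + (La + 1) ^ d + 1)
  have : Fact ℓ.Prime := ⟨hℓ⟩
  obtain ⟨A, hA⟩ := Galois.exists_liesOverPrime hℓ
  obtain ⟨ρ, -, -, hfinR, hcard, -, hρ⟩ := hB (ℓ := ℓ) (by omega) hA
  have hpM : ¬ p ∣ N * ℓ := fun h => (hp.dvd_mul.1 h).elim hpN fun h' => by
    have := (Nat.prime_dvd_prime_iff_eq hp hℓ).1 h'; omega
  obtain ⟨A', hA'⟩ := Galois.exists_liesOverPrime hp
  obtain ⟨σ, hσ⟩ := Galois.exists_isFrobeniusAt hp hA'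
  obtain ⟨ht, hd⟩ := (hρ p hp hpM A' hA').2 σ hσ
  obtain ⟨w₁, w₂, hw1, hw2, hs, hpr⟩ :=
    exists_lift_trDet hℓ hA ρ.range hcard (by omega) ⟨ρ σ, σ, rfl⟩
  refine ⟨w₁, w₂, hw1, hw2, ?_, ?_⟩
  · have hx : qCoeff ⇑f p - (w₁ + w₂) ∈ cand := Finset.mem_biUnion.2
      ⟨(w₁, w₂), Finset.mem_product.2 ⟨hmem hw1, hmem hw2⟩, Finset.mem_insert_self _ _⟩
    refine sub_eq_zero.1 (eq_zero_of_redTo hℓ hA ((isIntegral_eigenvalue ε f hf₁ hT
      (fun n => (halg n).1) hp hpN).sub ((isIntegral_rootOfUnity (NeZero.ne m) hw1).add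
        (isIntegral_rootOfUnity (NeZero.ne m) hw2))) (L := La) (fun τ => ?_) (d := d)
      (Finset.le_sup (f := fun x => (minpoly ℚ x).natDegree) hx) (by omega)
      (by simpa using ht.sub hs))
    obtain ⟨i, hi, hiτ⟩ := hI τ
    rw [map_sub, map_add, hiτ, Nat.cast_add]
    refine (norm_sub_le _ _).trans (add_le_add ((Finset.single_le_sum
      (f := fun j : ℂ ≃+* ℂ => ‖j (qCoeff ⇑f p)‖) (fun j _ => norm_nonneg _) hi).trans
        (Nat.le_ceil _)) ((norm_add_le _ _).trans ?_))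
    rw [norm_aut_rootOfUnity (NeZero.ne m) hw1, norm_aut_rootOfUnity (NeZero.ne m) hw2]
    norm_num
  · have hx : ε (p : ZMod N) - w₁ * w₂ ∈ cand := Finset.mem_biUnion.2
      ⟨(w₁, w₂), Finset.mem_product.2 ⟨hmem hw1, hmem hw2⟩,
        Finset.mem_insert_of_mem (Finset.mem_singleton_self _)⟩
    have hφ := (Nat.totient_pos.2 (NeZero.pos N)).ne'
    refine sub_eq_zero.1 (eq_zero_of_redTo hℓ hA ((isIntegral_rootOfUnity hφ
      (eps_pow_totient hp hpN)).sub ((isIntegral_rootOfUnity (NeZero.ne m) hw1).mul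
        (isIntegral_rootOfUnity (NeZero.ne m) hw2))) (L := La) (fun τ => ?_) (d := d)
      (Finset.le_sup (f := fun x => (minpoly ℚ x).natDegree) hx) (by omega)
      (by simpa using hd.sub hpr))
    rw [map_sub, map_mul]
    refine (norm_sub_le _ _).trans ?_
    rw [norm_mul, norm_aut_rootOfUnity hφ (eps_pow_totient hp hpN),
      norm_aut_rootOfUnity (NeZero.ne m) hw1, norm_aut_rootOfUnity (NeZero.ne m) hw2]
    simp only [La, Nat.cast_add, Nat.cast_ofNat, mul_one]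
    linarith [Nat.cast_nonneg (α := ℝ) (Nat.ceil (∑ i ∈ I, ‖i (qCoeff ⇑f p)‖))]

end Fermat.Agent.DS
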