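import Mathlib
import Fermat.Agent.DS.Exact
import Fermat.Agent.DS.CharLift

/-!
The complex representation lifting the representation modulo one large prime.
-/

set_option autoImplicit false
set_option maxHeartbeats 800000

noncomputable section

namespace Fermat.Agent.DS

open CongruenceSubgroup ModularFormClass Filter
open Fermat.Agent.Galois (GQ)
open scoped MatrixGroups Topology

local notation "ℚb" => AlgebraicClosure ℚ

/-- A group of diagonal matrices whose lifted trace has square mean less than two: none. -/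
theorem sum_normSq_two_characters {G : Type*} [Group G] [Fintype G] (X Y : G →* ℂ)
    (hY : ∀ g, ‖Y g‖ = 1) (hX : ∀ g, ‖X g‖ = 1) :
    2 * (Fintype.card G : ℝ) ≤ ∑ g, ‖X g + Y g‖ ^ 2 := by
  classical
  let φ : G →* ℂ :=
    { toFun := fun g => X g * (starRingEnd ℂ) (Y g)
      map_one' := by simp
      map_mul' := fun a b => by rw [map_mul, map_mul, map_mul]; ring }
  have h : ∀ g, ‖X g + Y g‖ ^ 2 = 2 + 2 * (φ g).re := fun g => by
    rw [Complex.sq_norm, Complex.normSq_add, ← Complex.sq_norm, ← Complex.sq_norm, hX, hY]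
    show _ = 2 + 2 * (X g * (starRingEnd ℂ) (Y g)).re
    norm_num
  rw [Finset.sum_congr rfl fun g _ => h g, Finset.sum_add_distrib, Finset.sum_const,
    Finset.card_univ, nsmul_eq_mul, ← Finset.mul_sum, ← Complex.re_sum, sum_hom_units φ]
  split_ifs <;> simp [mul_comm (2 : ℝ)]

variable {N : ℕ} [NeZero N] {ε : DirichletCharacter ℂ N} {f : CuspForm (Gamma1 N) 1}

/-- The complex representation, outside one auxiliary prime. -/
theorem exists_complex_rep (hf₁ : qCoeff ⇑f 1 = 1)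
    (hT : IsEig N (fun p => (ε (p : ZMod N), qCoeff ⇑f p)) (qCoeff ⇑f)) {D : ℕ}
    (halg : ∀ n, IsIntegral ℚ (qCoeff ⇑f n) ∧ (minpoly ℚ (qCoeff ⇑f n)).natDegree ≤ D) :
    ∃ L₁ : ℕ, ∀ {ℓ : ℕ}, ℓ.Prime → L₁ ≤ ℓ →
      ∃ ρC : GQ →* GL (Fin 2) ℂ, GaloisFactorsThroughFiniteLevel ρC ∧
        (∀ v : Fin 2 → ℂ, v ≠ 0 → ∃ σ, ∀ c : ℂ, Matrix.mulVec (ρC σ).val v ≠ c • v) ∧
        Finite ρC.range ∧
        ∀ p : ℕ, p.Prime → ¬ p ∣ N * ℓ → ∀ A' : ValuationSubring ℚb, A'.LiesOverPrime p →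
          (∀ σ ∈ A'.inertiaSubgroupIn ℚ, ρC σ = 1) ∧
          ∀ σ : GQ, A'.IsFrobeniusAt σ p →
            (ρC σ).val.trace = qCoeff ⇑f p ∧ (ρC σ).val.det = ε (p : ZMod N) := by
  classical
  obtain ⟨B, L₀, hB, hexact⟩ := exists_exact hf₁ hT halg
  set m := B.factorial
  have : NeZero m := ⟨B.factorial_ne_zero⟩
  refine ⟨L₀ + B + (10 * B + 11) ^ m + 5, fun {ℓ} hℓ hℓge => ?_⟩
  have : Fact ℓ.Prime := ⟨hℓ⟩
  obtain ⟨A, hA⟩ := Galois.exists_liesOverPrime hℓ
  have := GalRep.charP_residue hℓ hA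
  set k := IsLocalRing.ResidueField A
  haveI : IsAlgClosed k := GalRep.Model.residue_isAlgClosed A
  obtain ⟨ρ, hfin, hss, hfinR, hcard, hndvd, hρ⟩ := hB (ℓ := ℓ) (by omega) hA
  set G := ρ.range
  let _ : Fintype G := Fintype.ofFinite _
  have hcardB : Fintype.card G ≤ B := by rwa [← Nat.card_eq_fintype_card]
  have hpow : ∀ n : ℕ, n ≤ 10 * B + 10 → (n + 1) ^ m < ℓ := fun n hn =>
    lt_of_le_of_lt (Nat.pow_le_pow_left (by omega : n + 1 ≤ 10 * B + 11) m) (by omega)
  choose w₁ w₂ hw1 hw2 htr hdet using fun g : G =>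
    exists_lift_trDet hℓ hA G hcard (by omega) g
  set θ : G → ℂ := fun g => w₁ g + w₂ g
  set d : G → ℂ := fun g => w₁ g * w₂ g
  have hθS : ∀ g, Small m 2 (θ g) := fun g => (Small.rootOfUnity (hw1 g)).add (Small.rootOfUnity (hw2 g))
  have hdS : ∀ g, Small m 1 (d g) := fun g => (Small.rootOfUnity (hw1 g)).mul (Small.rootOfUnity (hw2 g))
  have heq : ∀ {L L' : ℕ} {x y : ℂ} {r : k}, Small m L x → Small m L' y → L + L' ≤ 10 * B + 10 →
      RedTo A x r → RedTo A y r → x = y := fun hx hy hle hr hr' =>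
    hx.eq_of_redTo hℓ hA hy (hpow _ hle) hr hr'
  -- values at Frobenius elements
  have hfrob : ∀ p : ℕ, p.Prime → ¬ p ∣ N * ℓ → ∀ A' : ValuationSubring ℚb, A'.LiesOverPrime p →
      ∀ σ : GQ, A'.IsFrobeniusAt σ p →
        θ (ρ.rangeRestrict σ) = qCoeff ⇑f p ∧ d (ρ.rangeRestrict σ) = ε (p : ZMod N) := by
    intro p hp hpM A' hA' σ hσ
    obtain ⟨h1, h2⟩ := (hρ p hp hpM A' hA').2 σ hσ
    obtain ⟨u₁, u₂, hu1, hu2, hu, hu'⟩ := hexact p hp fun h => hpM (h.mul_right ℓ)
    rw [hu] at h1 ⊢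
    rw [hu'] at h2 ⊢
    exact ⟨heq (hθS _) ((Small.rootOfUnity hu1).add (Small.rootOfUnity hu2)) (by omega) (htr _) h1,
      heq (hdS _) ((Small.rootOfUnity hu1).mul (Small.rootOfUnity hu2)) (by omega) (hdet _) h2⟩
  have hsub : ∀ g h : G, ((g * h : G) : GL (Fin 2) k).val = (g : GL (Fin 2) k).val * (h : GL (Fin 2) k).val :=
    fun g h => by rw [Subgroup.coe_mul, Units.val_mul]
  have hclass : ∀ a b, θ (a * b) = θ (b * a) := fun a b =>
    heq (hθS _) (hθS _) (by omega) (htr _) (by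
      rw [hsub, Matrix.trace_mul_comm, ← hsub]; exact htr _)
  have hθ1 : θ 1 = 2 := by
    refine heq (hθS 1) (Small.natCast 2) (by omega) (htr 1) ?_
    simpa using RedTo.natCast (A := A) 2
  have hcardk : (Fintype.card G : k) ≠ 0 := by
    rw [Ne, CharP.cast_eq_zero_iff k ℓ, ← Nat.card_eq_fintype_card]
    exact hndvd
  have h2k : (2 : k) ≠ 0 := by
    intro h
    have := Nat.le_of_dvd two_pos ((CharP.cast_eq_zero_iff k ℓ 2).1 (by exact_mod_cast h))
    omega
  -- the irreducible case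
  obtain ⟨rC, hrC, hrCirr⟩ : ∃ r : G →* GL (Fin 2) ℂ,
      (∀ g, (r g).val.trace = θ g ∧ (r g).val.det = d g) ∧
      ∀ v : Fin 2 → ℂ, v ≠ 0 → ∃ g, ∀ c : ℂ, Matrix.mulVec (r g).val v ≠ c • v := by
    rcases hss with hirr | hdiag
    · have hirr' : ∀ v : Fin 2 → k, v ≠ 0 → ∃ g : G, ∀ c : k,
          Matrix.mulVec (G.subtype g).val v ≠ c • v := fun v hv =>
        let ⟨g, hg, h⟩ := hirr v hv; ⟨⟨g, hg⟩, h⟩
      refine exists_rep_of_identities θ d hθ1 hclass (fun g => ?_) (fun g => ?_) ?_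
      · refine heq ((Small.natCast 2).mul (Small.sum Finset.univ fun h _ =>
          (hθS (g * h⁻¹)).mul (hθS h))) ((Small.natCast _).mul (hθS g)) ?_
          ((RedTo.natCast 2).mul (RedTo.sum _ fun h _ => (htr (g * h⁻¹)).mul (htr h))) ?_
        · rw [Finset.card_univ]; omega
        · have h := trace_convolution h2k G.subtype hirr' g
          simp only [Subgroup.coe_subtype, ← Nat.cast_ofNat (R := k)] at h
          rw [h]
          exact (RedTo.natCast _).mul (htr g)
      · rw [sq]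
        refine heq (((hθS g).mul (hθS g)).sub (hθS (g * g))) ((Small.natCast 2).mul (hdS g))
          (by omega) (((htr g).mul (htr g)).sub (htr (g * g))) ?_
        rw [← sq, hsub, trace_sq_sub, ← Nat.cast_ofNat (R := k)]
        exact (RedTo.natCast 2).mul (hdet g)
      · obtain ⟨a, b, hab⟩ := exists_commutator_trace_ne hcardk h2k G.subtype hirr'
        refine ⟨a, b, fun h => hab ?_⟩
        have h1 : RedTo A (θ (a * b * a⁻¹ * b⁻¹)) _ := htr (a * b * a⁻¹ * b⁻¹)
        rw [h] at h1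
        exact h1.unique (by simpa using RedTo.natCast (A := A) 2)
    · exfalso
      have hmulj : ∀ (j : Fin 2) (g h : G), (g * h : G).1.val j j = g.1.val j j * h.1.val j j := by
        intro j g h
        obtain ⟨g01, g10⟩ := hdiag g g.2
        rw [hsub, Matrix.mul_apply, Fin.sum_univ_two]
        fin_cases j <;> simp [g01, g10]
      have hlift : ∀ j : Fin 2, ∃ X : G →* ℂ, (∀ g, Small m 1 (X g) ∧ ‖X g‖ = 1) ∧
          ∀ g, RedTo A (X g) (g.1.val j j) := by
        intro j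
        let e : G →* k :=
          { toFun := fun g => g.1.val j j
            map_one' := by rw [OneMemClass.coe_one, Units.val_one, Matrix.one_apply_eq]
            map_mul' := hmulj j }
        have hgm : ∀ g : G, g ^ m = 1 := fun g => by
          obtain ⟨c, hc⟩ := Nat.dvd_factorial Fintype.card_pos hcardB
          rw [show m = _ from hc, pow_mul, pow_card_eq_one, one_pow]
        choose X hX hXr using fun g => exists_root_lift (m := m) hℓ hA
          (fun h => (not_le.2 (show B < ℓ by omega)) (hℓ.dvd_factorial.1 h)) (z := e g)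
          (by rw [← map_pow, hgm, map_one])
        have hS := fun g => Small.rootOfUnity (hX g)
        refine ⟨{ toFun := X
                  map_one' := heq (hS 1) (Small.natCast 1) (by omega) (hXr 1)
                    (by simpa using RedTo.natCast (A := A) 1) |>.trans Nat.cast_one
                  map_mul' := fun a b => heq (hS _) ((hS a).mul (hS b)) (by omega) (hXr _)
                    (by rw [map_mul]; exact (hXr a).mul (hXr b)) },
          fun g => ⟨hS g, Complex.norm_eq_one_of_pow_eq_one (hX g) (NeZero.ne m)⟩, hXr⟩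
      obtain ⟨X, hX, hXr⟩ := hlift 0
      obtain ⟨Y, hY, hYr⟩ := hlift 1
      have hθXY : ∀ g, θ g = X g + Y g := fun g =>
        heq (hθS g) ((hX g).1.add (hY g).1) (by omega) (htr g)
          (by rw [Matrix.trace_fin_two]; exact (hXr g).add (hYr g))
      have hsum := sum_normSq_two_characters X Y (fun g => (hY g).2) fun g => (hX g).2
      simp only [← hθXY] at hsum
      obtain ⟨K, -, hK, hK4⟩ := exists_conj_rankin hf₁ hT (RingEquiv.refl ℂ)
      have h4 := hK4 (fun p hp => by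
        obtain ⟨u₁, u₂, hu1, hu2, hu, -⟩ := hexact p hp.1 hp.2
        rw [RingEquiv.refl_apply, hu]
        have := norm_add_le u₁ u₂
        rw [Complex.norm_eq_one_of_pow_eq_one hu1 (NeZero.ne m),
          Complex.norm_eq_one_of_pow_eq_one hu2 (NeZero.ne m)] at this
        nlinarith [norm_nonneg (u₁ + u₂)]) (1 / 2) (by norm_num)
      have havg : ∑ g, ‖θ g‖ ^ 2 ≤ (1 + 1 / 2) * (Nat.card G : ℝ) := by
        refine (average_range_le ρ hfin).2 (fun g => ‖θ g‖ ^ 2) (fun g => sq_nonneg _)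
          (fun g τ => by simp only [hclass (τ * g) τ⁻¹, inv_mul_cancel_left])
          {p : ℕ | p.Prime ∧ ¬ p ∣ N} (N * ℓ).primeFactors (fun p hp hpb => ⟨hp, fun h => hpb
            (Nat.mem_primeFactors.2 ⟨hp, h.mul_right ℓ, NeZero.ne _⟩)⟩)
          (fun n => ‖RingEquiv.refl ℂ (qCoeff ⇑f n)‖ ^ 2) (fun n => sq_nonneg _)
          (fun p hp hpb A' hA' σ hσ => ?_) (1 + 1 / 2) ?_
        · rw [RingEquiv.refl_apply]
          refine le_of_eq (congrArg (fun z : ℂ => ‖z‖ ^ 2) (hfrob p hp (fun h => hpb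
            (Nat.mem_primeFactors.2 ⟨hp, h, NeZero.ne _⟩)) A' hA' σ hσ).1)
        · filter_upwards [hK, h4] with s hs hs4 using ⟨hs.1, hs4⟩
      rw [Nat.card_eq_fintype_card] at havg
      have : (0 : ℝ) < Fintype.card G := Nat.cast_pos.2 Fintype.card_pos
      linarith
  refine ⟨rC.comp ρ.rangeRestrict, ?_, fun v hv => ?_, ?_, fun p hp hpM A' hA' => ⟨fun σ hσ => ?_,
    fun σ hσ => ?_⟩⟩
  · obtain ⟨L, hL, hρL⟩ := hfin
    refine ⟨L, hL, fun σ hσ => ?_⟩
    rw [MonoidHom.comp_apply, show ρ.rangeRestrict σ = 1 from Subtype.ext (hρL σ hσ), map_one]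
  · obtain ⟨g, hg⟩ := hrCirr v hv
    obtain ⟨σ, rfl⟩ := ρ.rangeRestrict_surjective g
    exact ⟨σ, hg⟩
  · refine Finite.of_surjective (fun g : G => (⟨rC g, by
      obtain ⟨σ, rfl⟩ := ρ.rangeRestrict_surjective g; exact ⟨σ, rfl⟩⟩ : (rC.comp ρ.rangeRestrict).range))
      ?_
    rintro ⟨_, σ, rfl⟩
    exact ⟨ρ.rangeRestrict σ, rfl⟩
  · rw [MonoidHom.comp_apply,
      show ρ.rangeRestrict σ = 1 from Subtype.ext ((hρ p hp hpM A' hA').1 σ hσ), map_one]
  · obtain ⟨h1, h2⟩ := hfrob p hp hpM A' hA' σ hσ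
    exact ⟨(hrC _).1.trans h1, (hrC _).2.trans h2⟩

end Fermat.Agent.DS
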