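import Mathlib
import Fermat.Agent.DS.Complex
import Fermat.Prelude.Def_Deformations_MatrixRepresentation

/-!
Comparing the complex representations from two auxiliary primes.
-/

set_option autoImplicit false
set_option maxHeartbeats 800000

noncomputable section

namespace Fermat.Agent.DS

open Fermat.Agent.Galois (GQ)

local notation "ℚb" => AlgebraicClosure ℚ

/-- An element of finite order with trace `2` and determinant `1` is trivial. -/
theorem eq_one_of_trace_det {g : GL (Fin 2) ℂ} (hg : IsOfFinOrder g) (ht : g.val.trace = 2)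
    (hd : g.val.det = 1) : g = 1 := by
  set N := g.val - 1 with hN
  have hNN : N * N = 0 := by
    rw [Matrix.trace_fin_two] at ht
    rw [Matrix.det_fin_two] at hd
    ext i j
    fin_cases i <;> fin_cases j <;> simp [hN, Matrix.mul_apply, Fin.sum_univ_two]
    · linear_combination g.val 0 0 * ht - hd
    · linear_combination g.val 0 1 * ht
    · linear_combination g.val 1 0 * ht
    · linear_combination g.val 1 1 * ht - hd
  have hpow : ∀ n : ℕ, g.val ^ n = 1 + (n : ℂ) • N := by
    intro n
    induction n with
    | zero => simp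
    | succ n ih =>
      rw [pow_succ, ih, show g.val = 1 + N by rw [hN]; abel]
      simp only [add_mul, mul_add, one_mul, mul_one, smul_mul_assoc, hNN, smul_zero, add_zero,
        Nat.cast_succ, add_smul, one_smul]
      abel
  obtain ⟨n, hn, hgn⟩ := isOfFinOrder_iff_pow_eq_one.1 hg
  have h1 := hpow n
  rw [← Units.val_pow_eq_pow_val, hgn, Units.val_one, left_eq_add] at h1
  exact Units.ext (sub_eq_zero.1 ((smul_eq_zero.1 h1).resolve_left (Nat.cast_ne_zero.2 hn.ne')))

/-- Two representations of finite level with the same trace and determinant at almost all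
Frobenius elements have the same trace and determinant. -/
theorem trDet_eq {K : Type} [Field K] {ρ ρ' : GQ →* GL (Fin 2) K}
    (hρ : GaloisFactorsThroughFiniteLevel ρ) (hρ' : GaloisFactorsThroughFiniteLevel ρ')
    (bad : Finset ℕ)
    (h : ∀ p : ℕ, p.Prime → p ∉ bad → ∀ A : ValuationSubring ℚb, A.LiesOverPrime p →
      ∀ σ : GQ, A.IsFrobeniusAt σ p → trDet (ρ σ) = trDet (ρ' σ)) (g : GQ) :
    trDet (ρ g) = trDet (ρ' g) := by
  obtain ⟨L, hL, hρL⟩ := hρ
  obtain ⟨L', hL', hρL'⟩ := hρ'
  have : FiniteDimensional ℚ (L ⊔ L' : IntermediateField ℚ ℚb) :=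
    IntermediateField.finiteDimensional_sup L L'
  obtain ⟨p, hp, hpb, A, hA, σ, hσ, τ, hτ⟩ := exists_frobenius_conj (L ⊔ L') bad g
  rw [← eq_of_agree ρ (fun s hs => hρL s fun x hx => hs x ((le_sup_left : L ≤ L ⊔ L') hx)) hτ,
    ← eq_of_agree ρ' (fun s hs => hρL' s fun x hx => hs x ((le_sup_right : L' ≤ L ⊔ L') hx)) hτ,
    map_mul, map_mul, map_inv, map_mul, map_mul, map_inv, trDet_conj, trDet_conj]
  exact h p hp hpb A hA σ hσ

/-- A two dimensional matrix representation without stable lines is irreducible. -/
theorem isIrreducible_of_no_stable_line {G : Type} [Group G] {k : Type} [Field k]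
    (ρ : G →* GL (Fin 2) k)
    (h : ∀ v : Fin 2 → k, v ≠ 0 → ∃ g, ∀ c : k, Matrix.mulVec (ρ g).val v ≠ c • v) :
    (Deformation.matrixRepresentation ρ).IsIrreducible := by
  set R := Deformation.matrixRepresentation ρ
  have key : ∀ W : Subrepresentation R, W.toSubmodule = ⊥ ∨ W.toSubmodule = ⊤ := by
    intro W
    by_contra hcon
    push Not at hcon
    obtain ⟨v, hvW, hv⟩ := Submodule.exists_mem_ne_zero_of_ne_bot hcon.1
    have hlt : Module.finrank k W.toSubmodule < 2 := by
      simpa using Submodule.finrank_lt hcon.2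
    have hspan : W.toSubmodule = Submodule.span k {v} := by
      refine (Submodule.eq_of_le_of_finrank_le ((Submodule.span_singleton_le_iff_mem _ _).2 hvW)
        ?_).symm
      rw [finrank_span_singleton hv]
      omega
    obtain ⟨g, hg⟩ := h v hv
    have h1 := W.apply_mem_toSubmodule g hvW
    rw [hspan, Submodule.mem_span_singleton] at h1
    obtain ⟨c, hc⟩ := h1
    refine hg c ?_
    rw [hc]
    simp [R]
  have : Nontrivial (Subrepresentation R) := ⟨⊥, ⊤, fun e => by
    have := congrArg Subrepresentation.toSubmodule e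
    exact bot_ne_top this⟩
  refine @IsSimpleOrder.mk _ _ _ this fun W => ?_
  rcases key W with e | e
  · exact Or.inl (Subrepresentation.toSubmodule_injective e)
  · exact Or.inr (Subrepresentation.toSubmodule_injective e)

end Fermat.Agent.DS
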