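import Fermat.Agent.DS.GroupPrime

/-!
The lemma of Deligne and Serre: a semisimple group of matrices over a prime field in which three
quarters of the elements have few characteristic polynomials is small.
-/

set_option autoImplicit false

noncomputable section

open Matrix OnePoint MulAction

namespace Fermat.Agent.DS

variable {K : Type*} [Field K]

/-- Trace and determinant. -/
def trDet (g : GL (Fin 2) K) : K × K :=
  ((g : Matrix (Fin 2) (Fin 2) K).trace, (g : Matrix (Fin 2) (Fin 2) K).det)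

/-- The vector of a point of the projective line. -/
def pointVec (x : OnePoint K) : Fin 2 → K := x.elim ![1, 0] (fun t => ![t, 1])

theorem pointVec_ne_zero (x : OnePoint K) : pointVec x ≠ 0 := by
  intro h
  cases x with
  | infty => exact one_ne_zero (congrFun h 0)
  | coe t => exact one_ne_zero (congrFun h 1)

theorem exists_eigen_of_fixed [DecidableEq K] {g : GL (Fin 2) K} {x : OnePoint K}
    (h : g • x = x) : ∃ lam : K, (g : Matrix (Fin 2) (Fin 2) K) *ᵥ pointVec x = lam • pointVec x := by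
  cases x with
  | infty =>
    rw [smul_infty_eq_self_iff] at h
    refine ⟨g 0 0, ?_⟩
    ext i
    fin_cases i <;> simp [pointVec, mulVec, dotProduct, Fin.sum_univ_two, h]
  | coe t =>
    rw [← Matrix.GeneralLinearGroup.fixpointPolynomial_aeval_eq_zero_iff] at h
    simp [Matrix.GeneralLinearGroup.fixpointPolynomial] at h
    refine ⟨g 1 0 * t + g 1 1, ?_⟩
    ext i
    fin_cases i <;> simp [pointVec, mulVec, dotProduct, Fin.sum_univ_two]
    linear_combination -h

theorem det_sub_eq_zero_of_eigen {g : Matrix (Fin 2) (Fin 2) K} {v : Fin 2 → K} (hv : v ≠ 0)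
    {lam : K} (h : g *ᵥ v = lam • v) : lam * lam - g.trace * lam + g.det = 0 := by
  have h0 : (g - lam • 1) *ᵥ v = 0 := by
    rw [sub_mulVec, smul_mulVec, one_mulVec, h, sub_self]
  have hdet : (g - lam • 1).det = 0 := Matrix.exists_mulVec_eq_zero_iff.mp ⟨v, hv, h0⟩
  rw [Matrix.det_fin_two] at hdet
  simp at hdet
  rw [Matrix.trace_fin_two, Matrix.det_fin_two]
  linear_combination hdet

/-- In a line stabiliser of invertible order, trace and determinant have fibres of size two. -/
theorem card_fibre_stabilizer_le [IsAlgClosed K] [DecidableEq K] (G : Subgroup (GL (Fin 2) K))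
    [Finite G] (hK : (Nat.card G : K) ≠ 0) (x : OnePoint K) (td : K × K) :
    ({g : G | g • x = x ∧ trDet (g : GL (Fin 2) K) = td}).ncard ≤ 2 := by
  classical
  set S := {g : G | g • x = x ∧ trDet (g : GL (Fin 2) K) = td}
  have hex : ∀ g : G, g ∈ S → ∃ lam : K,
      ((g : GL (Fin 2) K) : Matrix (Fin 2) (Fin 2) K) *ᵥ pointVec x = lam • pointVec x :=
    fun g hg => exists_eigen_of_fixed hg.1
  let lamOf : G → K := fun g => if hg : g ∈ S then (hex g hg).choose else 0
  have hspec : ∀ g ∈ S, ((g : GL (Fin 2) K) : Matrix (Fin 2) (Fin 2) K) *ᵥ pointVec x =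
      lamOf g • pointVec x := fun g hg => by
    simp only [lamOf, dif_pos hg]
    exact (hex g hg).choose_spec
  have hinj : Set.InjOn lamOf S := by
    intro g hg g' hg' he
    set u := g'⁻¹ * g with hu
    have hd : ((u : G) : GL (Fin 2) K).val.det = 1 := by
      have e1 : ((g : GL (Fin 2) K) : Matrix (Fin 2) (Fin 2) K).det = td.2 :=
        congrArg Prod.snd hg.2
      have e2 : ((g' : GL (Fin 2) K) : Matrix (Fin 2) (Fin 2) K).det = td.2 :=
        congrArg Prod.snd hg'.2
      have hne : td.2 ≠ 0 := e2 ▸ (g' : GL (Fin 2) K).det_ne_zero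
      have h1 : ((g' : GL (Fin 2) K).val * ((u : G) : GL (Fin 2) K).val).det = td.2 := by
        rw [← Units.val_mul, ← Subgroup.coe_mul, hu, mul_inv_cancel_left, e1]
      rw [Matrix.det_mul, e2] at h1
      exact mul_left_cancel₀ hne (h1.trans (mul_one _).symm)
    have hv : ((u : G) : GL (Fin 2) K).val *ᵥ pointVec x = (1 : K) • pointVec x := by
      have hne : lamOf g' ≠ 0 := fun h0 => by
        have := det_sub_eq_zero_of_eigen (pointVec_ne_zero x) (hspec g' hg')
        rw [h0, mul_zero, mul_zero, sub_zero, zero_add] at this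
        exact (g' : GL (Fin 2) K).det_ne_zero this
      have h1 : ((g' : GL (Fin 2) K).val * ((u : G) : GL (Fin 2) K).val) *ᵥ pointVec x =
          (g' : GL (Fin 2) K).val *ᵥ pointVec x := by
        rw [← Units.val_mul, ← Subgroup.coe_mul, hu, mul_inv_cancel_left, hspec g hg, hspec g' hg',
          he]
      rw [← mulVec_mulVec] at h1
      have := congrArg (fun w => (g' : GL (Fin 2) K)⁻¹.val *ᵥ w) h1
      rw [one_smul]
      simpa only [mulVec_mulVec, ← Matrix.mul_assoc, Units.inv_mul, one_mul, one_mulVec] using this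
    have htr := det_sub_eq_zero_of_eigen (pointVec_ne_zero x) hv
    rw [hd] at htr
    have hdisc : disc2 ((u : G) : GL (Fin 2) K).val = 0 := by
      rw [Matrix.trace_fin_two] at htr
      rw [Matrix.det_fin_two] at hd
      simp only [disc2]
      linear_combination (-(((u : G) : GL (Fin 2) K).val 0 0 + ((u : G) : GL (Fin 2) K).val 1 1 + 2)) *
        htr - 4 * hd
    have hs := isScalarMat_of_disc_eq_zero (n := Nat.card G)
      (g := (u : GL (Fin 2) K)) (by rw [← Subgroup.coe_pow, pow_card_eq_one', Subgroup.coe_one]) hK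
      hdisc
    have hu1 : u = 1 := Subtype.ext (Units.ext (by
      rw [Subgroup.coe_one, Units.val_one]
      have h0 := hs.eq_smul
      rw [h0] at hv
      have h00 : ((u : G) : GL (Fin 2) K).val 0 0 = 1 := by
        rw [smul_mulVec, one_mulVec] at hv
        exact smul_left_injective K (pointVec_ne_zero x) hv
      rw [h0, h00, one_smul]))
    exact (inv_mul_eq_one.mp hu1).symm
  rw [← Set.ncard_image_of_injOn hinj]
  set pol : Polynomial K := Polynomial.C 1 * Polynomial.X ^ 2 + Polynomial.C (-td.1) * Polynomial.X +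
    Polynomial.C td.2 with hpol
  have hne : pol ≠ 0 := Polynomial.ne_zero_of_degree_gt (n := 0)
    (by rw [hpol, Polynomial.degree_quadratic one_ne_zero]; norm_num)
  refine le_trans (Set.ncard_le_ncard (t := {l : K | l ∈ pol.roots}) ?_
    (pol.roots.toFinset.finite_toSet.subset fun l hl => by simpa using hl)) ?_
  · rintro _ ⟨g, hg, rfl⟩
    have h1 := det_sub_eq_zero_of_eigen (pointVec_ne_zero x) (hspec g hg)
    have e1 : ((g : GL (Fin 2) K) : Matrix (Fin 2) (Fin 2) K).trace = td.1 := congrArg Prod.fst hg.2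
    have e2 : ((g : GL (Fin 2) K) : Matrix (Fin 2) (Fin 2) K).det = td.2 := congrArg Prod.snd hg.2
    rw [e1, e2] at h1
    show lamOf g ∈ pol.roots
    rw [Polynomial.mem_roots hne]
    simp [hpol]
    linear_combination h1
  · have : {l : K | l ∈ pol.roots} = ↑pol.roots.toFinset := by ext l; simp
    rw [this, Set.ncard_coe_finset]
    exact (Multiset.toFinset_card_le _).trans ((Polynomial.card_roots' pol).trans
      (Polynomial.natDegree_quadratic_le))

/-- In a coset of the scalars, trace and determinant have fibres of size two. -/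
theorem card_fibre_scalar_le [DecidableEq K] (G : Subgroup (GL (Fin 2) K)) (q : G ⧸ scalarSubgroup G)
    (td : K × K) :
    ({g : G | (QuotientGroup.mk g : G ⧸ scalarSubgroup G) = q ∧
      trDet (g : GL (Fin 2) K) = td}).ncard ≤ 2 := by
  classical
  set S := {g : G | (QuotientGroup.mk g : G ⧸ scalarSubgroup G) = q ∧ trDet (g : GL (Fin 2) K) = td}
  rcases S.eq_empty_or_nonempty with h | ⟨g₀, hg₀⟩
  · simp [h]
  let cOf : G → K := fun g => ((g₀⁻¹ * g : G) : GL (Fin 2) K).val 0 0
  have hdecomp : ∀ g ∈ S, (g : GL (Fin 2) K).val = cOf g • (g₀ : GL (Fin 2) K).val := by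
    intro g hg
    have hmem : g₀⁻¹ * g ∈ scalarSubgroup G := QuotientGroup.eq.mp (hg₀.1.trans hg.1.symm)
    have hs := (mem_scalarSubgroup.mp hmem).eq_smul
    calc (g : GL (Fin 2) K).val = ((g₀ * (g₀⁻¹ * g) : G) : GL (Fin 2) K).val := by
          rw [mul_inv_cancel_left]
      _ = _ := by
          rw [Subgroup.coe_mul, Units.val_mul, hs, Matrix.mul_smul, Matrix.mul_one]
  have hinj : Set.InjOn cOf S := fun g hg g' hg' he =>
    Subtype.ext (Units.ext (by rw [hdecomp g hg, hdecomp g' hg', he]))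
  rw [← Set.ncard_image_of_injOn hinj]
  refine le_trans (Set.ncard_le_ncard (t := {1, -1}) ?_ (by simp)) (Set.ncard_insert_le _ _ |>.trans (by simp))
  rintro _ ⟨g, hg, rfl⟩
  have h1 := congrArg Matrix.det (hdecomp g hg)
  have e1 : (g : GL (Fin 2) K).val.det = td.2 := congrArg Prod.snd hg.2
  have e2 : (g₀ : GL (Fin 2) K).val.det = td.2 := congrArg Prod.snd hg₀.2
  rw [Matrix.det_smul, e1, e2, Fintype.card_fin] at h1
  have hne : td.2 ≠ 0 := e2 ▸ (g₀ : GL (Fin 2) K).det_ne_zero
  have : cOf g ^ 2 = 1 := mul_right_cancel₀ hne (h1.symm.trans (one_mul _).symm)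
  exact sq_eq_one_iff.mp this

variable {ℓ : ℕ} [Fact ℓ.Prime]

local notation "k" => ZMod ℓ

theorem mem_of_transvections {G : Subgroup (GL (Fin 2) k)}
    (hu : ∀ t : k, ∃ g ∈ G, (g : Matrix (Fin 2) (Fin 2) k) = !![1, t; 0, 1])
    (hl : ∀ t : k, ∃ g ∈ G, (g : Matrix (Fin 2) (Fin 2) k) = !![1, 0; t, 1])
    (a b c d : k) (h : a * d - b * c = 1) :
    ∃ g ∈ G, (g : Matrix (Fin 2) (Fin 2) k) = !![a, b; c, d] := by
  have key : ∀ a b c d : k, a * d - b * c = 1 → c ≠ 0 →
      ∃ g ∈ G, (g : Matrix (Fin 2) (Fin 2) k) = !![a, b; c, d] := by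
    intro a b c d h hc
    obtain ⟨g₁, hg₁, e₁⟩ := hu ((a - 1) / c)
    obtain ⟨g₂, hg₂, e₂⟩ := hl c
    obtain ⟨g₃, hg₃, e₃⟩ := hu ((d - 1) / c)
    refine ⟨g₁ * g₂ * g₃, mul_mem (mul_mem hg₁ hg₂) hg₃, ?_⟩
    rw [Units.val_mul, Units.val_mul, e₁, e₂, e₃]
    ext i j
    fin_cases i <;> fin_cases j <;> simp [Matrix.mul_apply, Fin.sum_univ_two] <;> field_simp
    · ring
    · linear_combination h
    · ring
  by_cases hc : c = 0
  · have ha : a ≠ 0 := fun h0 => by simp [h0, hc] at h
    obtain ⟨g, hg, e⟩ := key a b (a + c) (b + d) (by linear_combination h) (by simpa [hc] using ha)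
    obtain ⟨g', hg', e'⟩ := hl (-1)
    refine ⟨g' * g, mul_mem hg' hg, ?_⟩
    rw [Units.val_mul, e, e']
    ext i j
    fin_cases i <;> fin_cases j <;> simp [Matrix.mul_apply, Fin.sum_univ_two]
  · exact key a b c d h hc

theorem exists_nilpotent_part {u : GL (Fin 2) k} (hu : orderOf u = ℓ) :
    (u.val - 1) ≠ 0 ∧ (u.val - 1).trace = 0 ∧ (u.val - 1) * (u.val - 1) = 0 := by
  have hℓ : ℓ.Prime := Fact.out
  set N := u.val - 1 with hN
  have hN0 : N ≠ 0 := fun h0 => hℓ.ne_one (by
    rw [← hu, orderOf_eq_one_iff]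
    exact Units.ext (sub_eq_zero.mp h0))
  have hpow : N ^ ℓ = 0 := by
    have hp := pow_orderOf_eq_one u
    rw [hu] at hp
    rw [hN, sub_pow_char_of_commute _ (Commute.one_right _), one_pow, ← Units.val_pow_eq_pow_val,
      hp, Units.val_one, sub_self]
  have hdet : N.det = 0 := by
    have := congrArg Matrix.det hpow
    rw [Matrix.det_pow, Matrix.det_zero] at this
    exact pow_eq_zero_iff hℓ.ne_zero |>.mp this
  have hsq : N * N = N.trace • N := by
    rw [Matrix.det_fin_two] at hdet
    ext i j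
    fin_cases i <;> fin_cases j <;> simp [Matrix.mul_apply, Fin.sum_univ_two, Matrix.trace_fin_two]
    · linear_combination -hdet
    · ring
    · ring
    · linear_combination -hdet
  have hpow' : ∀ m, N ^ (m + 1) = N.trace ^ m • N := by
    intro m
    induction m with
    | zero => simp
    | succ m ih => rw [pow_succ, ih, smul_mul_assoc, hsq, smul_smul, pow_succ]
  have ht : N.trace = 0 := by
    obtain ⟨m, hm⟩ : ∃ m, ℓ = m + 1 := Nat.exists_eq_succ_of_ne_zero hℓ.ne_zero
    have h0 := hpow' m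
    rw [← hm, hpow] at h0
    rcases smul_eq_zero.mp h0.symm with h | h
    · exact eq_zero_of_pow_eq_zero h
    · exact absurd h hN0
  exact ⟨hN0, ht, by rw [hsq, ht, zero_smul]⟩

/-- An irreducible group of order divisible by the characteristic is large. -/
theorem le_card_of_irreducible (G : Subgroup (GL (Fin 2) k)) (hℓG : ℓ ∣ Nat.card G)
    (hirr : ∀ v : Fin 2 → k, v ≠ 0 → ∃ g ∈ G, ∀ c : k,
      (g : Matrix (Fin 2) (Fin 2) k) *ᵥ v ≠ c • v) :
    (ℓ - 1) * ℓ ^ 2 ≤ Nat.card G := by
  classical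
  obtain ⟨u, hu⟩ := exists_prime_orderOf_dvd_card' ℓ hℓG
  have huo : orderOf (u : GL (Fin 2) k) = ℓ := by rw [Subgroup.orderOf_coe, hu]
  obtain ⟨hN0, htr, hsq⟩ := exists_nilpotent_part huo
  set N := (u : GL (Fin 2) k).val - 1 with hN
  obtain ⟨w, hw⟩ : ∃ w, N *ᵥ w ≠ 0 := by
    by_contra h
    push Not at h
    exact hN0 (Matrix.ext_of_mulVec_single fun i => by rw [h, zero_mulVec])
  set v := N *ᵥ w
  have hNv : N *ᵥ v = 0 := by rw [mulVec_mulVec, hsq, zero_mulVec]
  obtain ⟨g, hg, hgv⟩ := hirr v hw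
  set v' := g.val *ᵥ v
  let P : Matrix (Fin 2) (Fin 2) k := !![v 0, v' 0; v 1, v' 1]
  have hPdet : P.det ≠ 0 := by
    intro h0
    simp [P, Matrix.det_fin_two] at h0
    by_cases h : v 0 = 0
    · have h1 : v 1 ≠ 0 := fun h1 => hw (funext fun i => by fin_cases i <;> assumption)
      have h2 : v' 0 = 0 := by
        rw [h, zero_mul, zero_sub, neg_eq_zero] at h0
        exact (mul_eq_zero.mp h0).resolve_right h1
      refine hgv (v' 1 / v 1) (funext fun i => ?_)
      fin_cases i
      · simp [v', h] at h2 ⊢; exact h2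
      · simp [v']; field_simp
    · refine hgv (v' 0 / v 0) (funext fun i => ?_)
      fin_cases i
      · simp; field_simp
      · simp; field_simp; linear_combination h0
  let Pu : GL (Fin 2) k := Matrix.GeneralLinearGroup.mkOfDetNeZero P hPdet
  have hPu : Pu.val = P := rfl
  have hcol0 : ∀ i, P i 0 = v i := fun i => by fin_cases i <;> rfl
  have hcol1 : ∀ i, P i 1 = v' i := fun i => by fin_cases i <;> rfl
  -- conjugated nilpotent parts
  have hform : ∀ (A : Matrix (Fin 2) (Fin 2) k), A.trace = 0 → A ≠ 0 →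
      ((∀ i, (A * P) i 0 = 0) → ∃ x, x ≠ 0 ∧ Pu⁻¹.val * A * Pu.val = !![0, x; 0, 0]) ∧
      ((∀ i, (A * P) i 1 = 0) → ∃ x, x ≠ 0 ∧ Pu⁻¹.val * A * Pu.val = !![0, 0; x, 0]) := by
    intro A hA hA0
    set B := Pu⁻¹.val * A * Pu.val with hB
    have hBt : B.trace = 0 := by
      rw [hB, Matrix.trace_mul_comm, ← Matrix.mul_assoc, ← Units.val_mul, mul_inv_cancel,
        Units.val_one, one_mul, hA]
    rw [Matrix.trace_fin_two] at hBt
    have hB0 : B ≠ 0 := fun h0 => hA0 (by
      have := congrArg (fun X => Pu.val * X * Pu⁻¹.val) h0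
      simpa [hB, Matrix.mul_assoc, ← Units.val_mul] using this)
    have hentry : ∀ j, (∀ i, (A * P) i j = 0) → ∀ i, B i j = 0 := fun j hj i => by
      rw [hB, Matrix.mul_assoc, Matrix.mul_apply]
      exact Finset.sum_eq_zero fun l _ => by rw [hPu, hj l, mul_zero]
    constructor
    · intro hj
      have h0 := hentry 0 hj
      have h11 : B 1 1 = 0 := by linear_combination hBt - h0 0
      have hBe : B = !![0, B 0 1; 0, 0] := by
        ext i j; fin_cases i <;> fin_cases j <;> simp [h0, h11]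
      refine ⟨B 0 1, fun h => hB0 ?_, hBe⟩
      rw [hBe, h]
      ext i j; fin_cases i <;> fin_cases j <;> rfl
    · intro hj
      have h1 := hentry 1 hj
      have h00 : B 0 0 = 0 := by linear_combination hBt - h1 1
      have hBe : B = !![0, 0; B 1 0, 0] := by
        ext i j; fin_cases i <;> fin_cases j <;> simp [h1, h00]
      refine ⟨B 1 0, fun h => hB0 ?_, hBe⟩
      rw [hBe, h]
      ext i j; fin_cases i <;> fin_cases j <;> rfl
  obtain ⟨x, hx, hxB⟩ := (hform N htr hN0).1 fun i => by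
    have := congrFun hNv i
    simpa [Matrix.mul_apply, mulVec, dotProduct, hcol0] using this
  set N' := g.val * N * g⁻¹.val with hN'
  have hN'0 : N' ≠ 0 := fun h0 => hN0 (by
    have := congrArg (fun X => g⁻¹.val * X * g.val) h0
    simpa [hN', Matrix.mul_assoc, ← Units.val_mul] using this)
  have hN'tr : N'.trace = 0 := by
    rw [hN', Matrix.trace_mul_comm, ← Matrix.mul_assoc, ← Units.val_mul, inv_mul_cancel,
      Units.val_one, one_mul, htr]
  obtain ⟨y, hy, hyB⟩ := (hform N' hN'tr hN'0).2 fun i => by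
    have h1 : N' *ᵥ v' = 0 := by
      show (g.val * N * g⁻¹.val) *ᵥ (g.val *ᵥ v) = 0
      rw [mulVec_mulVec, Matrix.mul_assoc, ← Units.val_mul, inv_mul_cancel, Units.val_one, mul_one,
        ← mulVec_mulVec, hNv, mulVec_zero]
    have := congrFun h1 i
    simpa [Matrix.mul_apply, mulVec, dotProduct, hcol1] using this
  let G' : Subgroup (GL (Fin 2) k) := G.map (MulAut.conj Pu⁻¹).toMonoidHom
  have hmem : ∀ (a : GL (Fin 2) k), a ∈ G → ∃ b ∈ G', b.val = Pu⁻¹.val * a.val * Pu.val :=
    fun a ha => ⟨_, ⟨a, ha, rfl⟩, by simp⟩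
  have hpowers : ∀ (M : Matrix (Fin 2) (Fin 2) k), M * M = 0 →
      (∃ b ∈ G', b.val = 1 + M) → ∀ c : k, ∃ b ∈ G', b.val = 1 + c • M := by
    rintro M hM ⟨b, hb, hbv⟩ c
    refine ⟨b ^ c.val, pow_mem hb _, ?_⟩
    have hn : ∀ n : ℕ, (b ^ n).val = 1 + (n : k) • M := by
      intro n
      induction n with
      | zero => simp
      | succ n ih =>
        rw [pow_succ, Units.val_mul, ih, hbv]
        simp only [add_mul, mul_add, one_mul, mul_one, smul_mul_assoc, hM, smul_zero, add_zero,
          Nat.cast_succ, add_smul, one_smul]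
        abel
    rw [hn, ZMod.natCast_zmod_val]
  have hup : ∀ t : k, ∃ b ∈ G', b.val = !![1, t; 0, 1] := by
    intro t
    obtain ⟨b, hb, hbv⟩ := hpowers (!![0, x; 0, 0]) (by
        ext i j; fin_cases i <;> fin_cases j <;> simp [Matrix.mul_apply, Fin.sum_univ_two]) (by
      obtain ⟨b, hb, hbv⟩ := hmem u u.2
      refine ⟨b, hb, ?_⟩
      rw [hbv, ← hxB, hN, Matrix.mul_sub, Matrix.sub_mul, mul_one, ← Units.val_mul Pu⁻¹ Pu,
        inv_mul_cancel, Units.val_one]
      abel) (t / x)
    refine ⟨b, hb, ?_⟩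
    rw [hbv]
    ext i j; fin_cases i <;> fin_cases j <;> simp [hx]
  have hlow : ∀ t : k, ∃ b ∈ G', b.val = !![1, 0; t, 1] := by
    intro t
    obtain ⟨b, hb, hbv⟩ := hpowers (!![0, 0; y, 0]) (by
        ext i j; fin_cases i <;> fin_cases j <;> simp [Matrix.mul_apply, Fin.sum_univ_two]) (by
      obtain ⟨b, hb, hbv⟩ := hmem (g * u * g⁻¹) (mul_mem (mul_mem hg u.2) (inv_mem hg))
      refine ⟨b, hb, ?_⟩
      have hNu : (g * u * g⁻¹ : GL (Fin 2) k).val = 1 + N' := by
        rw [Units.val_mul, Units.val_mul, hN', hN, Matrix.mul_sub, Matrix.sub_mul, mul_one,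
          ← Units.val_mul g g⁻¹, mul_inv_cancel, Units.val_one]
        abel
      rw [hbv, hNu, ← hyB, Matrix.mul_add, Matrix.add_mul, mul_one, ← Units.val_mul Pu⁻¹ Pu,
        inv_mul_cancel, Units.val_one]) (t / y)
    refine ⟨b, hb, ?_⟩
    rw [hbv]
    ext i j; fin_cases i <;> fin_cases j <;> simp [hy]
  choose f hf hfv using fun p : kˣ × k × k => mem_of_transvections hup hlow (p.1 : k) p.2.1 p.2.2
    ((1 + p.2.1 * p.2.2) * ((p.1⁻¹ : kˣ) : k)) (by
      rw [mul_comm (1 + _) _, ← mul_assoc, Units.mul_inv, one_mul, add_sub_cancel_right])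
  have hinj : Function.Injective fun p => (⟨f p, hf p⟩ : G') := by
    intro p q he
    have h := congrArg (fun b : G' => (b : GL (Fin 2) k).val) he
    simp only [hfv] at h
    exact Prod.ext (Units.ext (congrArg (fun X : Matrix (Fin 2) (Fin 2) k => X 0 0) h))
      (Prod.ext (congrArg (fun X : Matrix (Fin 2) (Fin 2) k => X 0 1) h)
        (congrArg (fun X : Matrix (Fin 2) (Fin 2) k => X 1 0) h))
  have h1 := Nat.card_le_card_of_injective _ hinj
  rw [Nat.card_prod, Nat.card_prod, Nat.card_eq_fintype_card (α := kˣ), ZMod.card_units,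
    Nat.card_zmod, ← sq] at h1
  exact h1.trans (le_of_eq (Subgroup.card_map_of_injective (MulEquiv.injective _)))

/-- At most `2 ℓ ^ 2` invertible matrices have given trace and determinant. -/
theorem card_fibre_GL_le (td : k × k) : ({g : GL (Fin 2) k | trDet g = td}).ncard ≤ 2 * ℓ ^ 2 := by
  classical
  rw [Set.ncard_eq_toFinset_card']
  have hc := Finset.card_le_mul_card_image (f := fun g : GL (Fin 2) k => (g.val 0 1, g.val 1 0))
    {g : GL (Fin 2) k | trDet g = td}.toFinset 2 fun bc _ => ?_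
  · refine hc.trans (Nat.mul_le_mul_left 2 ?_)
    refine (Finset.card_le_univ _).trans (le_of_eq ?_)
    rw [Fintype.card_prod, ZMod.card, sq]
  · set pol : Polynomial k := Polynomial.C 1 * Polynomial.X ^ 2 + Polynomial.C (-td.1) * Polynomial.X +
      Polynomial.C (bc.1 * bc.2 + td.2) with hpol
    have hne : pol ≠ 0 := Polynomial.ne_zero_of_degree_gt (n := 0)
      (by rw [hpol, Polynomial.degree_quadratic one_ne_zero]; norm_num)
    refine le_trans (Finset.card_le_card_of_injOn (fun g => g.val 0 0) (t := pol.roots.toFinset)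
      (fun g hg => ?_) fun g hg g' hg' he => ?_) ((Multiset.toFinset_card_le _).trans
        ((Polynomial.card_roots' pol).trans Polynomial.natDegree_quadratic_le))
    · simp only [Finset.mem_coe, Finset.mem_filter, Set.mem_toFinset, Set.mem_setOf_eq] at hg
      obtain ⟨hg, rfl⟩ := hg
      rw [← hg] at hpol
      rw [Finset.mem_coe, Multiset.mem_toFinset, Polynomial.mem_roots hne]
      simp [hpol, trDet, Matrix.trace_fin_two, Matrix.det_fin_two]
      ring
    · simp only [Finset.mem_coe, Finset.mem_filter, Set.mem_toFinset, Set.mem_setOf_eq] at hg hg'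
      refine Units.ext (Matrix.ext fun i j => ?_)
      have hb := congrArg Prod.fst (hg.2.trans hg'.2.symm)
      have hc := congrArg Prod.snd (hg.2.trans hg'.2.symm)
      have ht := congrArg Prod.fst (hg.1.trans hg'.1.symm)
      simp [trDet, Matrix.trace_fin_two] at ht
      fin_cases i <;> fin_cases j
      · exact he
      · exact hb
      · exact hc
      · show g.val 1 1 = g'.val 1 1
        linear_combination ht - he

/-- Every stable line has a stable complement. -/
def IsSemisimpleMatGroup (G : Subgroup (GL (Fin 2) k)) : Prop :=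
  ∀ v : Fin 2 → k, v ≠ 0 → (∀ g ∈ G, ∃ c : k, g.val *ᵥ v = c • v) →
    ∃ w : Fin 2 → k, (∀ c : k, w ≠ c • v) ∧ ∀ g ∈ G, ∃ c : k, g.val *ᵥ w = c • w

theorem not_dvd_card_of_reducible (G : Subgroup (GL (Fin 2) k)) {v w : Fin 2 → k} (hv : v ≠ 0)
    (hw : ∀ c : k, w ≠ c • v) (hGv : ∀ g ∈ G, ∃ c : k, g.val *ᵥ v = c • v)
    (hGw : ∀ g ∈ G, ∃ c : k, g.val *ᵥ w = c • w) : ¬ ℓ ∣ Nat.card G := by
  intro hdvd
  obtain ⟨u, hu⟩ := exists_prime_orderOf_dvd_card' ℓ hdvd
  obtain ⟨hN0, -, hsq⟩ := exists_nilpotent_part (u := (u : GL (Fin 2) k))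
    (by rw [Subgroup.orderOf_coe, hu])
  set N := (u : GL (Fin 2) k).val - 1 with hN
  have key : ∀ z : Fin 2 → k, z ≠ 0 → (∃ c : k, (u : GL (Fin 2) k).val *ᵥ z = c • z) →
      N *ᵥ z = 0 := by
    rintro z hz ⟨c, hc⟩
    have h1 : N *ᵥ z = (c - 1) • z := by rw [hN, sub_mulVec, hc, one_mulVec, sub_smul, one_smul]
    have h2 : ((c - 1) * (c - 1)) • z = 0 := by
      rw [← smul_smul, ← h1, ← mulVec_smul, ← h1, mulVec_mulVec, hsq, zero_mulVec]
    rw [h1, mul_self_eq_zero.mp ((smul_eq_zero.mp h2).resolve_right hz), zero_smul]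
  have hv' := key v hv (hGv u u.2)
  have hw' := key w (fun h => hw 0 (by rw [h, zero_smul])) (hGw u u.2)
  let P : Matrix (Fin 2) (Fin 2) k := !![v 0, w 0; v 1, w 1]
  have hP : P.det ≠ 0 := by
    intro h0
    simp [P, Matrix.det_fin_two] at h0
    by_cases h : v 0 = 0
    · have h1 : v 1 ≠ 0 := fun h1 => hv (funext fun i => by fin_cases i <;> assumption)
      have h2 : w 0 = 0 := by
        rw [h, zero_mul, zero_sub, neg_eq_zero] at h0
        exact (mul_eq_zero.mp h0).resolve_right h1
      refine hw (w 1 / v 1) (funext fun i => ?_)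
      fin_cases i
      · simp [h, h2]
      · simp; field_simp
    · refine hw (w 0 / v 0) (funext fun i => ?_)
      fin_cases i
      · simp; field_simp
      · simp; field_simp; linear_combination h0
  have hNP : N * P = 0 := by
    ext i j
    fin_cases j
    · simpa [P, Matrix.mul_apply, mulVec, dotProduct, Fin.sum_univ_two] using congrFun hv' i
    · simpa [P, Matrix.mul_apply, mulVec, dotProduct, Fin.sum_univ_two] using congrFun hw' i
  refine hN0 ?_
  have := congrArg (fun X => X * P⁻¹) hNP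
  simpa [Matrix.mul_assoc, Matrix.mul_nonsing_inv _ (Ne.isUnit hP)] using this

/-- The lemma of Deligne and Serre. -/
theorem card_le_of_few_charpolys (G : Subgroup (GL (Fin 2) k)) (hss : IsSemisimpleMatGroup G)
    (M : ℕ) (hℓ : 3 * M + 2 ≤ ℓ) (H : Set G) (hH : 3 * Nat.card G ≤ 4 * H.ncard)
    (P : Finset (k × k)) (hP : ∀ h ∈ H, trDet (h : GL (Fin 2) k) ∈ P) (hPM : P.card ≤ M) :
    Nat.card G ≤ 160 * M ∧ ¬ ℓ ∣ Nat.card G := by
  classical
  have hℓp : ℓ.Prime := Fact.out
  have hGpos : 0 < Nat.card G := Nat.card_pos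
  have hprime : ¬ ℓ ∣ Nat.card G := by
    intro hdvd
    have hirr : ∀ v : Fin 2 → k, v ≠ 0 → ∃ g ∈ G, ∀ c : k,
        (g : Matrix (Fin 2) (Fin 2) k) *ᵥ v ≠ c • v := by
      intro v hv
      by_contra h
      push Not at h
      obtain ⟨w, hw, hGw⟩ := hss v hv h
      exact not_dvd_card_of_reducible G hv hw h hGw hdvd
    have h1 := le_card_of_irreducible G hdvd hirr
    have h2 : H.ncard ≤ 2 * ℓ ^ 2 * P.card := by
      rw [Set.ncard_eq_toFinset_card' H]
      refine (Finset.card_le_mul_card_image (f := fun g : G => trDet (g : GL (Fin 2) k))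
        H.toFinset (2 * ℓ ^ 2) fun td _ => ?_).trans (Nat.mul_le_mul_left _ (Finset.card_le_card ?_))
      · refine le_trans ?_ (card_fibre_GL_le td)
        rw [Set.ncard_eq_toFinset_card']
        refine Finset.card_le_card_of_injOn (fun g : G => (g : GL (Fin 2) k)) (fun g hg => ?_)
          fun g _ g' _ he => Subtype.ext he
        simp only [Finset.mem_coe, Finset.mem_filter] at hg
        simpa using hg.2
      · intro td htd
        obtain ⟨g, hg, rfl⟩ := Finset.mem_image.mp htd
        exact hP g (Set.mem_toFinset.mp hg)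
    have h3 : 3 * ((ℓ - 1) * ℓ ^ 2) ≤ (8 * M) * ℓ ^ 2 := by
      calc 3 * ((ℓ - 1) * ℓ ^ 2) ≤ 3 * Nat.card G := Nat.mul_le_mul_left 3 h1
        _ ≤ 4 * H.ncard := hH
        _ ≤ 4 * (2 * ℓ ^ 2 * M) := Nat.mul_le_mul_left 4 (h2.trans (Nat.mul_le_mul_left _ hPM))
        _ = _ := by ring
    rw [← mul_assoc] at h3
    have := Nat.le_of_mul_le_mul_right h3 (pow_pos hℓp.pos 2)
    omega
  refine ⟨?_, hprime⟩
  let F := AlgebraicClosure k
  let φ : GL (Fin 2) k →* GL (Fin 2) F := Matrix.GeneralLinearGroup.map (algebraMap k F)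
  have hφ : Function.Injective φ := fun a b he => Units.ext (Matrix.ext fun i j =>
    (algebraMap k F).injective (congrArg (fun x : GL (Fin 2) F => x.val i j) he))
  let G₁ : Subgroup (GL (Fin 2) F) := G.map φ
  let e : G ≃* G₁ := G.equivMapOfInjective φ hφ
  haveI : Finite G₁ := Finite.of_equiv G e.toEquiv
  have hcard : Nat.card G₁ = Nat.card G := (Nat.card_congr e.toEquiv).symm
  have hK : (Nat.card G₁ : F) ≠ 0 := by
    rw [hcard, Ne, ← map_natCast (algebraMap k F), map_eq_zero, CharP.cast_eq_zero_iff k ℓ]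
    exact hprime
  let P₁ : Finset (F × F) := P.image fun td => (algebraMap k F td.1, algebraMap k F td.2)
  have hP₁ : P₁.card ≤ M := Finset.card_image_le.trans hPM
  set H₁ : Set G₁ := e '' H
  have hH₁ : H₁.ncard = H.ncard := Set.ncard_image_of_injective H e.injective
  have hmemP : ∀ g ∈ H₁, trDet (g : GL (Fin 2) F) ∈ P₁ := by
    rintro _ ⟨h, hh, rfl⟩
    refine Finset.mem_image.mpr ⟨_, hP h hh, ?_⟩
    refine Prod.ext ?_ ?_
    · show algebraMap k F (h : GL (Fin 2) k).val.trace = (φ h).val.trace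
      exact (AddMonoidHom.map_trace (algebraMap k F).toAddMonoidHom _).trans rfl
    · show algebraMap k F (h : GL (Fin 2) k).val.det = (φ h).val.det
      exact (RingHom.map_det _ _).trans rfl
  haveI : Fintype G₁ := Fintype.ofFinite _
  rcases small_or_exists_orbit G₁ hK with hidx | ⟨x, hx⟩
  · haveI : Fintype (G₁ ⧸ scalarSubgroup G₁) := Fintype.ofFinite _
    have h2 : H₁.ncard ≤ 2 * (P₁.card * 60) := by
      rw [Set.ncard_eq_toFinset_card' H₁]
      refine (Finset.card_le_mul_card_image
        (f := fun g : G₁ => (trDet (g : GL (Fin 2) F), (QuotientGroup.mk g : G₁ ⧸ scalarSubgroup G₁)))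
        H₁.toFinset 2 fun td _ => ?_).trans (Nat.mul_le_mul_left _ ?_)
      · refine le_trans ?_ (card_fibre_scalar_le G₁ td.2 td.1)
        rw [← Set.ncard_coe_finset]
        refine Set.ncard_le_ncard (fun g hg => ?_) (Set.toFinite _)
        simp only [Finset.coe_filter, Set.mem_setOf_eq] at hg
        exact ⟨congrArg Prod.snd hg.2, congrArg Prod.fst hg.2⟩
      · refine le_trans (Finset.card_le_card (t := P₁ ×ˢ Finset.univ) fun td htd => ?_) ?_
        · obtain ⟨g, hg, rfl⟩ := Finset.mem_image.mp htd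
          exact Finset.mem_product.mpr ⟨hmemP g (Set.mem_toFinset.mp hg), Finset.mem_univ _⟩
        · rw [Finset.card_product, Finset.card_univ, ← Nat.card_eq_fintype_card]
          exact Nat.mul_le_mul_left _ hidx
    have : P₁.card * 60 ≤ M * 60 := Nat.mul_le_mul_right _ hP₁
    omega
  · set A := MulAction.stabilizer G₁ x
    set H₂ : Set G₁ := H₁ ∩ A
    have h2 : H₂.ncard ≤ 2 * P₁.card := by
      rw [Set.ncard_eq_toFinset_card' H₂]
      refine (Finset.card_le_mul_card_image (f := fun g : G₁ => trDet (g : GL (Fin 2) F))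
        H₂.toFinset 2 fun td _ => ?_).trans (Nat.mul_le_mul_left _ (Finset.card_le_card ?_))
      · refine le_trans ?_ (card_fibre_stabilizer_le G₁ hK x td)
        rw [← Set.ncard_coe_finset]
        refine Set.ncard_le_ncard (fun g hg => ?_) (Set.toFinite _)
        simp only [Finset.coe_filter, Set.mem_setOf_eq, Set.mem_toFinset] at hg
        exact ⟨MulAction.mem_stabilizer_iff.mp hg.1.2, hg.2⟩
      · intro td htd
        obtain ⟨g, hg, rfl⟩ := Finset.mem_image.mp htd
        exact hmemP g (Set.mem_toFinset.mp hg).1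
    have h3 := Set.ncard_inter_add_ncard_diff_eq_ncard H₁ (A : Set G₁) (Set.toFinite _)
    have h4 : (H₁ \ A).ncard ≤ Nat.card G₁ - Nat.card A := by
      refine (Set.ncard_le_ncard (t := (A : Set G₁)ᶜ) (fun g hg => hg.2) (Set.toFinite _)).trans
        (le_of_eq ?_)
      rw [Set.ncard_compl, ← Nat.card_coe_set_eq]
      rfl
    have h5 := A.card_mul_index
    have h2' : (H₁ ∩ (A : Set G₁)).ncard ≤ 2 * P₁.card := h2
    have h6 : Nat.card G₁ ≤ Nat.card A * 2 := h5 ▸ Nat.mul_le_mul_left _ hx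
    omega

end Fermat.Agent.DS
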