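import Mathlib

/-!
Finite groups of invertible two by two matrices of order prime to the characteristic: either small
modulo scalars or with a subgroup of index at most two fixing a line.
-/

set_option autoImplicit false

noncomputable section

open Matrix OnePoint MulAction

namespace Fermat.Agent.DS

/-- The arithmetic of the orbit count. -/
theorem orbit_count_arith {ι : Type*} [Fintype ι] (o : ι → ℕ) {n : ℕ} (hn : 2 ≤ n)
    (h1 : ∀ i, 1 ≤ o i) (h2 : ∀ i, ∃ e, 2 ≤ e ∧ o i * e = n)
    (hsum : (∑ i, o i) + 2 * (n - 1) = Fintype.card ι * n) :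
    n ≤ 60 ∨ ∃ i, o i ≤ 2 := by
  classical
  by_contra hcon
  push Not at hcon
  obtain ⟨hn60, ho⟩ := hcon
  have hhalf : 2 * (∑ i, o i) ≤ Fintype.card ι * n := by
    rw [Finset.mul_sum]
    calc ∑ i, 2 * o i ≤ ∑ _i : ι, n := Finset.sum_le_sum fun i _ => by
          obtain ⟨e, he, hoe⟩ := h2 i
          nlinarith
      _ = _ := by simp
  have hge : Fintype.card ι * 3 ≤ ∑ i, o i :=
    calc Fintype.card ι * 3 = ∑ _i : ι, 3 := by simp
      _ ≤ _ := Finset.sum_le_sum fun i _ => ho i
  have hle : Fintype.card ι ≤ 3 := by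
    have : Fintype.card ι * n ≤ 4 * (n - 1) := by omega
    by_contra h4
    have h5 : 4 * n ≤ Fintype.card ι * n := Nat.mul_le_mul_right n (by omega)
    omega
  have hge3 : 3 ≤ Fintype.card ι := by
    by_contra h3
    have h5 : Fintype.card ι * n ≤ 2 * n := Nat.mul_le_mul_right n (by omega)
    rcases Nat.eq_zero_or_pos (Fintype.card ι) with h0 | h0
    · have : ∑ i, o i = 0 := by
        haveI := Fintype.card_eq_zero_iff.mp h0
        simp
      rw [h0, zero_mul] at hsum
      omega
    · omega
  have hcard : Fintype.card ι = 3 := by omega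
  let f := (Fintype.equivFinOfCardEq hcard).symm
  rw [hcard, ← Equiv.sum_comp f, Fin.sum_univ_three] at hsum
  obtain ⟨a, ha2, ha⟩ := h2 (f 0)
  obtain ⟨b, hb2, hb⟩ := h2 (f 1)
  obtain ⟨c, hc2, hc⟩ := h2 (f 2)
  have hx := ho (f 0)
  have hy := ho (f 1)
  have hz := ho (f 2)
  set x := o (f 0)
  set y := o (f 1)
  set z := o (f 2)
  -- some index has `x + y + z = n + 2`
  have hs : x + y + z = n + 2 := by omega
  -- order the three orbit sizes
  have key : ∀ x y z a b c : ℕ, x + y + z = n + 2 → x * a = n → y * b = n → z * c = n →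
      2 ≤ a → 2 ≤ b → 2 ≤ c → 3 ≤ x → 3 ≤ y → 3 ≤ z → y ≤ x → z ≤ y → False := by
    intro x y z a b c hs ha hb hc ha2 hb2 hc2 hx hy hz hxy hyz
    have ha3 : a < 3 := by nlinarith
    obtain rfl : a = 2 := by omega
    have hb4 : b < 4 := by nlinarith
    interval_cases b
    · omega
    · have hc6 : c < 6 := by nlinarith
      interval_cases c <;> omega
  rcases le_total y x with h | h <;> rcases le_total z y with h' | h' <;>
    rcases le_total z x with h'' | h''
  all_goals first
    | exact key x y z a b c hs ha hb hc ha2 hb2 hc2 hx hy hz (by omega) (by omega)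
    | exact key x z y a c b (by omega) ha hc hb ha2 hc2 hb2 hx hz hy (by omega) (by omega)
    | exact key y x z b a c (by omega) hb ha hc hb2 ha2 hc2 hy hx hz (by omega) (by omega)
    | exact key y z x b c a (by omega) hb hc ha hb2 hc2 ha2 hy hz hx (by omega) (by omega)
    | exact key z x y c a b (by omega) hc ha hb hc2 ha2 hb2 hz hx hy (by omega) (by omega)
    | exact key z y x c b a (by omega) hc hb ha hc2 hb2 ha2 hz hy hx (by omega) (by omega)

variable {K : Type*} [Field K]

/-- The discriminant of the characteristic polynomial. -/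
def disc2 (g : Matrix (Fin 2) (Fin 2) K) : K := (g 0 0 - g 1 1) ^ 2 + 4 * (g 0 1 * g 1 0)

/-- Being a scalar matrix. -/
def IsScalarMat (g : Matrix (Fin 2) (Fin 2) K) : Prop :=
  g 0 1 = 0 ∧ g 1 0 = 0 ∧ g 0 0 = g 1 1

theorem IsScalarMat.eq_smul {g : Matrix (Fin 2) (Fin 2) K} (h : IsScalarMat g) :
    g = g 0 0 • 1 := by
  ext i j
  fin_cases i <;> fin_cases j <;> simp [h.1, h.2.1, h.2.2]

/-- A matrix of finite order invertible in the field with a repeated eigenvalue is scalar. -/
theorem isScalarMat_of_disc_eq_zero [IsAlgClosed K] {g : GL (Fin 2) K} {n : ℕ} (hg : g ^ n = 1)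
    (hn : (n : K) ≠ 0) (hd : disc2 (g : Matrix (Fin 2) (Fin 2) K) = 0) :
    IsScalarMat (g : Matrix (Fin 2) (Fin 2) K) := by
  set A : Matrix (Fin 2) (Fin 2) K := (g : Matrix (Fin 2) (Fin 2) K) with hA
  obtain ⟨lam, h1, h2⟩ : ∃ lam : K, 2 * lam = A 0 0 + A 1 1 ∧
      lam * lam = A 0 0 * A 1 1 - A 0 1 * A 1 0 := by
    obtain ⟨z, hz⟩ := IsAlgClosed.exists_eq_mul_self (A 0 0 * A 1 1 - A 0 1 * A 1 0)
    have : (2 * z - (A 0 0 + A 1 1)) * (2 * z + (A 0 0 + A 1 1)) = 0 := by
      unfold disc2 at hd
      linear_combination (-4 : K) * hz - hd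
    rcases mul_eq_zero.mp this with h | h
    · exact ⟨z, sub_eq_zero.mp h, hz.symm⟩
    · exact ⟨-z, by linear_combination -h, by linear_combination -hz⟩
  set B : Matrix (Fin 2) (Fin 2) K := A - lam • 1 with hB
  have hBB : B * B = 0 := by
    ext i j
    fin_cases i <;> fin_cases j <;> simp [hB, Matrix.mul_apply, Fin.sum_univ_two]
    · linear_combination h2 - A 0 0 * h1
    · linear_combination -(A 0 1) * h1
    · linear_combination -(A 1 0) * h1
    · linear_combination h2 - A 1 1 * h1
  have hpow : ∀ m, A ^ (m + 1) = lam ^ (m + 1) • 1 + ((m + 1 : ℕ) * lam ^ m) • B := by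
    intro m
    induction m with
    | zero => simp [hB]
    | succ m ih =>
      have hAB : A = lam • 1 + B := by rw [hB]; abel
      rw [pow_succ _ (m + 1), ih]
      conv_lhs => rw [hAB]
      simp only [add_mul, mul_add, smul_mul_assoc, mul_smul_comm, hBB, smul_zero, add_zero, one_mul,
        mul_one, smul_smul]
      push_cast
      module
  have hlam : lam ≠ 0 := fun h0 => g.det_ne_zero (by
    show A.det = 0
    rw [Matrix.det_fin_two, ← h2, h0, zero_mul])
  obtain ⟨m, rfl⟩ : ∃ m, n = m + 1 :=
    Nat.exists_eq_succ_of_ne_zero (fun h0 => hn (by simp [h0]))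
  have h := hpow m
  rw [hA, ← Units.val_pow_eq_pow_val, hg, Units.val_one] at h
  have hc : ((m + 1 : ℕ) : K) * lam ^ m ≠ 0 := mul_ne_zero hn (pow_ne_zero _ hlam)
  have h01 := congrArg (fun X : Matrix (Fin 2) (Fin 2) K => X 0 1) h
  have h10 := congrArg (fun X : Matrix (Fin 2) (Fin 2) K => X 1 0) h
  have h00 := congrArg (fun X : Matrix (Fin 2) (Fin 2) K => X 0 0) h
  have h11 := congrArg (fun X : Matrix (Fin 2) (Fin 2) K => X 1 1) h
  simp [hB] at h01 h10 h00 h11
  refine ⟨?_, ?_, ?_⟩
  · rcases h01 with h' | h'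
    · exact absurd h' (by simpa using hc)
    · exact h'
  · rcases h10 with h' | h'
    · exact absurd h' (by simpa using hc)
    · exact h'
  · refine mul_left_cancel₀ (b := A 0 0) (c := A 1 1) hc ?_
    push_cast
    linear_combination h11 - h00

variable [DecidableEq K]

/-- A non-scalar matrix of finite invertible order has exactly two fixed points. -/
theorem card_fixed_eq_two [IsAlgClosed K] (g : GL (Fin 2) K) (hd : disc2 (g : Matrix (Fin 2) (Fin 2) K) ≠ 0) :
    ({x : OnePoint K | g • x = x}).ncard = 2 := by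
  unfold disc2 at hd
  set a := (g : Matrix (Fin 2) (Fin 2) K) 0 0
  set b := (g : Matrix (Fin 2) (Fin 2) K) 0 1
  set c := (g : Matrix (Fin 2) (Fin 2) K) 1 0
  set d := (g : Matrix (Fin 2) (Fin 2) K) 1 1
  have hfin : ∀ x : K, g • (x : OnePoint K) = x ↔ c * x ^ 2 + (d - a) * x - b = 0 := fun x => by
    rw [← Matrix.GeneralLinearGroup.fixpointPolynomial_aeval_eq_zero_iff]
    simp [Matrix.GeneralLinearGroup.fixpointPolynomial, a, b, c, d]
  by_cases hc : c = 0
  · have hda : d - a ≠ 0 := fun h => hd (by rw [hc, mul_zero, mul_zero, add_zero]; linear_combination (d - a) * h)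
    have : {x : OnePoint K | g • x = x} = {∞, ((b / (d - a) : K) : OnePoint K)} := by
      ext x
      cases x with
      | infty => simpa [smul_infty_eq_self_iff] using hc
      | coe x =>
        simp only [Set.mem_setOf_eq, Set.mem_insert_iff, coe_ne_infty, false_or,
          Set.mem_singleton_iff, coe_eq_coe, hfin, hc, zero_mul, zero_add]
        rw [sub_eq_zero, eq_div_iff hda, mul_comm]
    rw [this, Set.ncard_pair (infty_ne_coe _)]
  · obtain ⟨r, hr⟩ : ∃ r : K, c * r ^ 2 + (d - a) * r - b = 0 := by
      have hdeg : (Polynomial.C c * Polynomial.X ^ 2 + Polynomial.C (d - a) * Polynomial.X +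
          Polynomial.C (-b)).degree = 2 := Polynomial.degree_quadratic hc
      obtain ⟨r, hr⟩ := IsAlgClosed.exists_root
        (Polynomial.C c * Polynomial.X ^ 2 + Polynomial.C (d - a) * Polynomial.X +
          Polynomial.C (-b)) (by rw [hdeg]; norm_num)
      refine ⟨r, ?_⟩
      simpa [sub_eq_add_neg] using hr
    set r' := (a - d) / c - r
    have hne : r ≠ r' := fun he => hd (by
      have h2 : c * (2 * r) = a - d := by
        rw [show c * (2 * r) = c * (r + r') by rw [← he]; ring]
        simp only [r']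
        field_simp
        ring
      linear_combination (-4 * c) * hr + (c * (2 * r) - (a - d)) * h2)
    have : {x : OnePoint K | g • x = x} = {(r : OnePoint K), (r' : OnePoint K)} := by
      ext x
      cases x with
      | infty => simpa [smul_infty_eq_self_iff, infty_ne_coe] using hc
      | coe x =>
        simp only [Set.mem_setOf_eq, Set.mem_insert_iff, Set.mem_singleton_iff, coe_eq_coe, hfin]
        constructor
        · intro hx
          have : c * ((x - r) * (x - r')) = 0 := by
            simp only [r']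
            field_simp
            linear_combination hx - hr
          rcases mul_eq_zero.mp ((mul_eq_zero.mp this).resolve_left hc) with h | h
          · exact .inl (sub_eq_zero.mp h)
          · exact .inr (sub_eq_zero.mp h)
        · rintro (rfl | rfl)
          · exact hr
          · simp only [r']
            field_simp
            linear_combination c * hr
    rw [this, Set.ncard_pair (fun h => hne (coe_eq_coe.mp h))]

theorem isScalarMat_smul {g : GL (Fin 2) K} (h : IsScalarMat (g : Matrix (Fin 2) (Fin 2) K))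
    (x : OnePoint K) : g • x = x := by
  cases x with
  | infty => exact smul_infty_eq_self_iff.mpr h.2.1
  | coe x =>
    rw [← Matrix.GeneralLinearGroup.fixpointPolynomial_aeval_eq_zero_iff]
    simp [Matrix.GeneralLinearGroup.fixpointPolynomial, h.1, h.2.1, h.2.2]

theorem isScalarMat_of_smul {g : GL (Fin 2) K} (h0 : g • ((0 : K) : OnePoint K) = ((0 : K) : OnePoint K))
    (h1 : g • ((1 : K) : OnePoint K) = ((1 : K) : OnePoint K)) (hi : g • (∞ : OnePoint K) = ∞) :
    IsScalarMat (g : Matrix (Fin 2) (Fin 2) K) := by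
  rw [← Matrix.GeneralLinearGroup.fixpointPolynomial_aeval_eq_zero_iff] at h0 h1
  rw [smul_infty_eq_self_iff] at hi
  simp [Matrix.GeneralLinearGroup.fixpointPolynomial] at h0 h1
  refine ⟨h0, hi, ?_⟩
  linear_combination hi - h0 - h1

/-- The scalar subgroup of a group of matrices. -/
def scalarSubgroup (G : Subgroup (GL (Fin 2) K)) : Subgroup G :=
  ((MulAction.toPermHom (GL (Fin 2) K) (OnePoint K)).comp G.subtype).ker

theorem mem_scalarSubgroup {G : Subgroup (GL (Fin 2) K)} {g : G} :
    g ∈ scalarSubgroup G ↔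
      IsScalarMat ((g : GL (Fin 2) K) : Matrix (Fin 2) (Fin 2) K) := by
  rw [scalarSubgroup, MonoidHom.mem_ker]
  constructor
  · intro h
    have h' : ∀ x : OnePoint K, (g : GL (Fin 2) K) • x = x := fun x => Equiv.congr_fun h x
    exact isScalarMat_of_smul (h' _) (h' _) (h' _)
  · intro h
    exact Equiv.ext fun x => isScalarMat_smul h x

/-- A finite group of matrices of order invertible in the field: small modulo scalars, or with a
point whose stabiliser has index at most two. -/
theorem small_or_exists_orbit [IsAlgClosed K] (G : Subgroup (GL (Fin 2) K)) [Finite G]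
    (hK : (Nat.card G : K) ≠ 0) :
    (scalarSubgroup G).index ≤ 60 ∨
      ∃ x : OnePoint K, (MulAction.stabilizer G x).index ≤ 2 := by
  classical
  cases nonempty_fintype G
  set Z := scalarSubgroup G
  by_cases hn : Z.index ≤ 60
  · exact .inl hn
  push Not at hn
  right
  have hdisc : ∀ g : G, g ∉ Z → disc2 ((g : GL (Fin 2) K) : Matrix (Fin 2) (Fin 2) K) ≠ 0 :=
    fun g hg hd => hg (mem_scalarSubgroup.mpr (isScalarMat_of_disc_eq_zero (n := Nat.card G)
      (by rw [← Subgroup.coe_pow, pow_card_eq_one', Subgroup.coe_one]) hK hd))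
  let Pset : Set (OnePoint K) := {x | ∃ g : G, g ∉ Z ∧ (g : GL (Fin 2) K) • x = x}
  have hPfin : Pset.Finite := by
    refine Set.Finite.subset (Set.finite_iUnion fun g : {g : G // g ∉ Z} =>
      Set.finite_of_ncard_ne_zero (s := {x : OnePoint K | (g.1 : GL (Fin 2) K) • x = x})
        (by rw [card_fixed_eq_two _ (hdisc g.1 g.2)]; exact two_ne_zero)) ?_
    rintro x ⟨g, hg, hx⟩
    exact Set.mem_iUnion.mpr ⟨⟨g, hg⟩, hx⟩
  let P : SubMulAction G (OnePoint K) :=
    { carrier := Pset
      smul_mem' := fun h x ⟨g, hg, hx⟩ => ⟨h * g * h⁻¹, fun hmem => hg (by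
          have := (inferInstanceAs (MonoidHom.ker _).Normal : Z.Normal).conj_mem _ hmem h⁻¹
          simpa [mul_assoc] using this), by
        show ((h * g * h⁻¹ : G) : GL (Fin 2) K) • ((h : GL (Fin 2) K) • x) = (h : GL (Fin 2) K) • x
        rw [← mul_smul, Subgroup.coe_mul, Subgroup.coe_mul, Subgroup.coe_inv,
          inv_mul_cancel_right, mul_smul, hx]⟩ }
  haveI : Finite P := hPfin.to_subtype
  cases nonempty_fintype P
  have hfixZ : ∀ g : G, g ∈ Z → ∀ x : P, g • x = x := fun g hg x =>
    Subtype.ext (isScalarMat_smul (mem_scalarSubgroup.mp hg) x.1)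
  have hfix2 : ∀ g : G, g ∉ Z → Fintype.card (fixedBy P g) = 2 := by
    intro g hg
    rw [← Nat.card_eq_fintype_card]
    refine Eq.trans ?_ (card_fixed_eq_two _ (hdisc g hg))
    rw [← Nat.card_coe_set_eq]
    exact Nat.card_congr
      { toFun := fun x => ⟨x.1.1, congrArg Subtype.val x.2⟩
        invFun := fun x => ⟨⟨x.1, g, hg, x.2⟩, Subtype.ext x.2⟩
        left_inv := fun x => rfl
        right_inv := fun x => rfl }
  set Ω := MulAction.orbitRel.Quotient G P
  have hburn := sum_card_fixedBy_eq_card_orbits_mul_card_group G P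
  have hsum : ∑ g : G, Fintype.card (fixedBy P g) =
      Nat.card Z * Fintype.card P + (Nat.card G - Nat.card Z) * 2 := by
    rw [← Finset.sum_filter_add_sum_filter_not Finset.univ (fun g : G => g ∈ Z)]
    have hz : (Finset.univ.filter (fun g : G => g ∈ Z)).card = Nat.card Z := by
      rw [← Fintype.card_subtype, Nat.card_eq_fintype_card]
    congr 1
    · rw [Finset.sum_congr rfl (g := fun _ => Fintype.card P) (fun g hg => ?_), Finset.sum_const,
        hz, smul_eq_mul]
      exact Fintype.card_congr
        { toFun := fun x => x.1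
          invFun := fun x => ⟨x, hfixZ g (Finset.mem_filter.mp hg).2 x⟩
          left_inv := fun x => rfl
          right_inv := fun x => rfl }
    · rw [Finset.sum_congr rfl (g := fun _ => 2) (fun g hg => hfix2 g (Finset.mem_filter.mp hg).2),
        Finset.sum_const, smul_eq_mul]
      congr 1
      rw [Finset.filter_not, Finset.card_univ_diff, hz, Nat.card_eq_fintype_card (α := G)]
  have hGn : Nat.card G = Nat.card Z * Z.index := (Z.card_mul_index).symm
  set n := Z.index
  set z := Nat.card Z
  have hz0 : 0 < z := Nat.card_pos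
  -- the orbit sizes
  let o : Ω → ℕ := fun ω => Nat.card ω.orbit
  have hopos : ∀ ω : Ω, 1 ≤ o ω := fun ω => by
    obtain ⟨x, rfl⟩ := Quotient.exists_rep ω
    show 1 ≤ Nat.card (MulAction.orbit G x)
    haveI : Nonempty (MulAction.orbit G x) := ⟨⟨x, mem_orbit_self x⟩⟩
    exact Nat.card_pos
  have hoe : ∀ ω : Ω, ∃ e, 2 ≤ e ∧ o ω * e = n := by
    intro ω
    obtain ⟨x, rfl⟩ := Quotient.exists_rep ω
    have horb : o ⟦x⟧ = Nat.card (MulAction.orbit G x) := rfl
    have hcs : Nat.card (MulAction.orbit G x) * Nat.card (stabilizer G x) = Nat.card G := by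
      rw [Nat.card_eq_fintype_card, Nat.card_eq_fintype_card, Nat.card_eq_fintype_card,
        card_orbit_mul_card_stabilizer_eq_card_group]
    have hle : Z ≤ stabilizer G x := fun g hg => hfixZ g hg x
    obtain ⟨e, he⟩ := Subgroup.card_dvd_of_le hle
    refine ⟨e, ?_, ?_⟩
    · by_contra he2
      have hlt : Nat.card (stabilizer G x) ≤ Nat.card Z := by
        rw [he]
        calc Nat.card Z * e ≤ Nat.card Z * 1 := Nat.mul_le_mul_left _ (by omega)
          _ = _ := mul_one _
      have heq := Subgroup.eq_of_le_of_card_ge hle hlt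
      obtain ⟨g, hg, hgx⟩ := x.2
      exact hg (heq ▸ (Subtype.ext hgx : g • x = x))
    · refine Nat.eq_of_mul_eq_mul_left hz0 ?_
      rw [← hGn, horb, ← hcs, he]
      ring
  have hosum : ∑ ω : Ω, o ω = Fintype.card P := by
    rw [← Nat.card_eq_fintype_card, Nat.card_congr (selfEquivSigmaOrbits' G P), Nat.card_sigma]
  have heq : (∑ ω : Ω, o ω) + 2 * (n - 1) = Fintype.card Ω * n := by
    refine Nat.eq_of_mul_eq_mul_left hz0 ?_
    have h3 := hburn.symm.trans hsum
    rw [← Nat.card_eq_fintype_card (α := G), hGn] at h3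
    rw [hosum, mul_add, ← mul_assoc z (Fintype.card Ω) n, mul_comm z (Fintype.card Ω), mul_assoc,
      h3, ← mul_assoc, mul_comm z 2, mul_assoc, Nat.mul_sub_one]
    ring
  rcases orbit_count_arith o (by omega) hopos hoe heq with h | ⟨ω, hω⟩
  · omega
  obtain ⟨x, rfl⟩ := Quotient.exists_rep ω
  refine ⟨x.1, ?_⟩
  have hstab : stabilizer G x.1 = stabilizer G x := by
    ext g
    simp only [mem_stabilizer_iff]
    exact ⟨fun h => Subtype.ext h, fun h => congrArg Subtype.val h⟩
  rw [hstab, index_stabilizer, ← Nat.card_coe_set_eq]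
  exact hω

end Fermat.Agent.DS
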