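import Fermat.Agent.GalRep.Model.WpDiff

/-!
The derivative of the Weierstrass function at division points: q-expansion and transformation law.
-/

set_option autoImplicit false

noncomputable section

namespace Fermat.Agent.DS

open UpperHalfPlane Filter Topology
open Fermat.Agent.GalRep Fermat.Agent.GalRep.Model
open scoped MatrixGroups Manifold

/-- `e (1 + e) / (1 - e) ^ 3`. -/
def psi (e : ℂ) : ℂ := e * (1 + e) / (1 - e) ^ 3

theorem psi_inv (e : ℂ) : psi e⁻¹ = -psi e := by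
  rcases eq_or_ne e 0 with rfl | he
  · simp [psi]
  rcases eq_or_ne e 1 with rfl | h1
  · simp [psi]
  have : (1 - e) ≠ 0 := sub_ne_zero.mpr (Ne.symm h1)
  have : (e - 1) ≠ 0 := sub_ne_zero.mpr h1
  rw [psi, psi]
  field_simp
  ring

theorem hasSum_sq_geometric {e : ℂ} (he : ‖e‖ < 1) :
    HasSum (fun n : ℕ => (n : ℂ) ^ 2 * e ^ n) (psi e) := by
  have h2 := (hasSum_choose_mul_geometric_of_norm_lt_one 2 he).mul_left 2
  have h1 := (hasSum_choose_mul_geometric_of_norm_lt_one 1 he).mul_left 3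
  have h0 := hasSum_geometric_of_norm_lt_one he
  have hne : (1 - e) ≠ 0 := sub_ne_zero.mpr fun h => by simp [← h] at he
  rw [show psi e = 2 * (1 / (1 - e) ^ (2 + 1)) - 3 * (1 / (1 - e) ^ (1 + 1)) + (1 - e)⁻¹ by
    simp only [psi]
    field_simp
    ring]
  refine ((h2.sub h1).add h0).congr_fun fun n => ?_
  have : ((n + 2).choose 2 : ℂ) * 2 = (n + 2) * (n + 1) := by
    have h : (n + 2).choose 2 * 2 = (n + 2) * (n + 1) := by
      rw [Nat.choose_two_right]
      have : 2 ∣ (n + 2) * (n + 2 - 1) :=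
        (Nat.even_mul_pred_self (n + 2)).two_dvd
      rw [Nat.div_mul_cancel this]
      simp
    exact_mod_cast h
  rw [Nat.choose_one_right]
  push_cast
  linear_combination (-(e ^ n)) * this

theorem tsum_inv_cube_upper {x : ℂ} (hx : 0 < x.im) :
    ∑' d : ℤ, 1 / (x + d) ^ 3 =
      -(2 * Real.pi * Complex.I) ^ 3 / 2 * psi (Complex.exp (2 * Real.pi * Complex.I * x)) := by
  have h := EisensteinSeries.qExpansion_identity (k := 2) one_le_two ⟨x, hx⟩
  simp only [show (2 + 1 : ℕ) = 3 from rfl, Nat.factorial_two, Nat.cast_ofNat] at h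
  rw [h, (hasSum_sq_geometric (UpperHalfPlane.norm_exp_two_pi_I_lt_one ⟨x, hx⟩)).tsum_eq]
  show (-2 * (Real.pi : ℂ) * Complex.I) ^ 3 / 2 *
    psi (Complex.exp (2 * Real.pi * Complex.I * x)) = _
  ring

theorem summable_inv_cube (x : ℂ) : Summable fun d : ℤ => 1 / (x + d) ^ 3 := by
  simpa [one_div, zpow_ofNat] using EisensteinSeries.linear_right_summable x 1 (k := 3) (by norm_num)

theorem tsum_inv_cube {x : ℂ} (hx : ∀ d : ℤ, x ≠ d) :
    ∑' d : ℤ, 1 / (x + d) ^ 3 =
      -(2 * Real.pi * Complex.I) ^ 3 / 2 * psi (Complex.exp (2 * Real.pi * Complex.I * x)) := by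
  rcases lt_trichotomy x.im 0 with h | h | h
  · have h' := tsum_inv_cube_upper (x := -x) (by simpa using h)
    rw [mul_neg, Complex.exp_neg, psi_inv, mul_neg, ← (Equiv.neg ℤ).tsum_eq] at h'
    rw [← neg_inj, ← h', ← tsum_neg]
    refine tsum_congr fun d => ?_
    simp only [Equiv.neg_apply, Int.cast_neg]
    rw [show -x + -(d : ℂ) = -(x + d) by ring, Odd.neg_pow (by decide), div_neg]
  · -- continuity from above
    set s : ℕ → ℂ := fun k => x + Complex.I * ((1 / (k + 1) : ℝ) : ℂ) with hs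
    have hst : Tendsto s atTop (𝓝 x) := by
      have h0 : Tendsto (fun k : ℕ => ((1 / (k + 1) : ℝ) : ℂ)) atTop (𝓝 0) := by
        simpa [Function.comp_def] using
          (Complex.continuous_ofReal.tendsto 0).comp tendsto_one_div_add_atTop_nhds_zero_nat
      simpa [hs] using (h0.const_mul Complex.I).const_add x
    have hxd : ∀ d : ℤ, x + d ≠ 0 := fun d hd => hx (-d) (by
      push_cast; linear_combination hd)
    have h1 : Tendsto (fun k => ∑' d : ℤ, 1 / (s k + d) ^ 3) atTop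
        (𝓝 (∑' d : ℤ, 1 / (x + d) ^ 3)) := by
      refine tendsto_tsum_of_dominated_convergence (summable_inv_cube x).norm (fun d => ?_)
        (.of_forall fun k d => ?_)
      · exact tendsto_const_nhds.div ((hst.add_const _).pow 3) (pow_ne_zero 3 (hxd d))
      · rw [norm_div, norm_div, norm_one, norm_pow, norm_pow]
        refine one_div_le_one_div_of_le (by have := norm_pos_iff.mpr (hxd d); positivity)
          (pow_le_pow_left₀ (norm_nonneg _) ?_ 3)
        rw [Complex.norm_def, Complex.norm_def]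
        refine Real.sqrt_le_sqrt ?_
        simp only [hs, Complex.normSq_apply, Complex.add_re, Complex.add_im, Complex.mul_re,
          Complex.mul_im, Complex.I_re, Complex.I_im, Complex.ofReal_re, Complex.ofReal_im,
          Complex.intCast_re, Complex.intCast_im, h]
        nlinarith [sq_nonneg ((1 / (k + 1) : ℝ))]
    have hne : 1 - Complex.exp (2 * Real.pi * Complex.I * x) ≠ 0 := sub_ne_zero.mpr fun h1 =>
      absurd (exp_two_pi_I_eq_one_iff.mp h1.symm) (fun ⟨d, hd⟩ => hx d hd)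
    have h2 : Tendsto (fun k => -(2 * Real.pi * Complex.I) ^ 3 / 2 *
        psi (Complex.exp (2 * Real.pi * Complex.I * s k))) atTop
        (𝓝 (-(2 * Real.pi * Complex.I) ^ 3 / 2 *
          psi (Complex.exp (2 * Real.pi * Complex.I * x)))) := by
      have he := (Complex.continuous_exp.tendsto _).comp (hst.const_mul (2 * Real.pi * Complex.I))
      exact ((he.mul (he.const_add 1)).div ((he.const_sub 1).pow 3) (pow_ne_zero 3 hne)).const_mul _
    refine tendsto_nhds_unique (h1.congr fun k => tsum_inv_cube_upper ?_) h2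
    simp only [hs, Complex.add_im, Complex.mul_im, Complex.I_re, Complex.I_im, Complex.ofReal_re,
      Complex.ofReal_im, h]
    have : (0 : ℝ) < 1 / (k + 1) := by positivity
    linarith
  · exact tsum_inv_cube_upper h

/-- The normalised derivative of `℘` at a division point. -/
def wpDeriv (M : ℕ) (u : ℤ × ℤ) (τ : ℍ) : ℂ :=
  (tauPair τ).derivWeierstrassP (divPt M u τ) / (2 * Real.pi * Complex.I) ^ 3

theorem hasSum_wp' (τ : ℍ) (z : ℂ) :
    HasSum (fun y : ℤ × ℤ => -2 / (z - (y.1 * (τ : ℂ) + y.2)) ^ 3)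
      ((tauPair τ).derivWeierstrassP z) := by
  have h := (latEquiv τ).hasSum_iff.mpr ((tauPair τ).hasSum_derivWeierstrassP z)
  simpa only [Function.comp_def, coe_latEquiv] using h

variable {M : ℕ} [NeZero M]

theorem hasSum_wpDeriv_psi {u : ℤ × ℤ} (hu : NZ M u) (τ : ℍ) :
    HasSum (fun c : ℤ => psi (qq M τ ^ (u.1 - c * M) * zetaC M ^ u.2)) (wpDeriv M u τ) := by
  have key : ∀ c : ℤ,
      HasSum (fun d : ℤ => -2 / (divPt M u τ - (c * (τ : ℂ) + d)) ^ 3)
        ((2 * Real.pi * Complex.I) ^ 3 * psi (qq M τ ^ (u.1 - c * M) * zetaC M ^ u.2)) := by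
    intro c
    set x := divPt M u τ - c * (τ : ℂ) with hx
    have h := ((Equiv.neg ℤ).hasSum_iff.mpr (summable_inv_cube x).hasSum).mul_left (-2)
    rw [tsum_inv_cube (divPt_sub_ne_int hu τ c), hx, exp_divPt_sub] at h
    rw [show (2 * Real.pi * Complex.I) ^ 3 * psi (qq M τ ^ (u.1 - c * M) * zetaC M ^ u.2) =
      -2 * (-(2 * Real.pi * Complex.I) ^ 3 / 2 * psi (qq M τ ^ (u.1 - c * M) * zetaC M ^ u.2)) by
        ring]
    refine h.congr_fun fun d => ?_
    simp only [Function.comp_apply, Equiv.neg_apply, Int.cast_neg]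
    rw [mul_one_div]
    congr 2
    ring
  have h := ((hasSum_wp' τ (divPt M u τ)).prod_fiberwise key).div_const
    ((2 * Real.pi * Complex.I) ^ 3)
  refine h.congr_fun fun c => ?_
  rw [mul_div_cancel_left₀ _ (pow_ne_zero 3 Complex.two_pi_I_ne_zero)]

/-! ## The expansion -/

/-- One half of the expansion. -/
def halfTerm2 (M : ℕ) (a b : ℤ) (q : ℂ) (x : ℕ+ × ℕ+) : ℂ :=
  if (M : ℤ) ∣ ((x.1 : ℕ) : ℤ) - a then
    ((x.2 : ℕ) : ℂ) ^ 2 * zetaC M ^ (b * (x.2 : ℕ)) * q ^ ((x.1 : ℕ) * (x.2 : ℕ))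
  else 0

theorem summable_halfTerm2 (a b : ℤ) {q : ℂ} (hq : ‖q‖ < 1) : Summable (halfTerm2 M a b q) := by
  refine Summable.of_norm_bounded (summable_prod_mul_pow 2 hq).norm fun x => ?_
  rw [halfTerm2]
  split_ifs
  · rw [norm_mul, norm_mul, norm_zetaC_zpow, mul_one, norm_mul]
  · rw [norm_zero]; exact norm_nonneg _

theorem hasSum_halfTerm2_fibre (a b : ℤ) {q : ℂ} (hq : ‖q‖ < 1) (m : ℕ+) :
    HasSum (fun k : ℕ+ => halfTerm2 M a b q (m, k))
      (if (M : ℤ) ∣ ((m : ℕ) : ℤ) - a then psi (q ^ (m : ℕ) * zetaC M ^ b) else 0) := by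
  by_cases h : (M : ℤ) ∣ ((m : ℕ) : ℤ) - a
  · simp only [halfTerm2, if_pos h]
    have he : ‖q ^ (m : ℕ) * zetaC M ^ b‖ < 1 := by
      rw [norm_mul, norm_zetaC_zpow, mul_one, norm_pow]
      exact pow_lt_one₀ (norm_nonneg _) hq m.ne_zero
    have hg := hasSum_sq_geometric he
    have hg' := (Function.Injective.hasSum_iff
      (g := fun k : ℕ+ => (k : ℕ)) PNat.coe_injective fun k hk => ?_).mpr hg
    · refine hg'.congr_fun fun k => ?_
      simp only [Function.comp_apply]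
      rw [mul_pow, ← pow_mul, ← zpow_natCast (zetaC M ^ b), ← zpow_mul]
      ring
    · have : k = 0 := by
        by_contra hk0
        exact hk ⟨⟨k, Nat.pos_of_ne_zero hk0⟩, rfl⟩
      subst this
      simp
  · simp only [halfTerm2, if_neg h]
    exact hasSum_zero

theorem hasSum_half2 (a b : ℤ) {q : ℂ} (hq : ‖q‖ < 1) :
    HasSum (fun n : ℕ => if (M : ℤ) ∣ ((n + 1 : ℕ) : ℤ) - a then psi (q ^ (n + 1) * zetaC M ^ b)
      else 0) (∑' x, halfTerm2 M a b q x) := by
  have h := (summable_halfTerm2 (M := M) a b hq).hasSum.prod_fiberwise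
    (hasSum_halfTerm2_fibre a b hq)
  exact (Equiv.pnatEquivNat.symm.hasSum_iff.mpr h).congr_fun fun n => rfl

/-- The series of the derivative at a division point. -/
def dSer {R : Type*} [Field R] (M : ℕ) (z : R) (u : ℤ × ℤ) : PowerSeries R :=
  PowerSeries.mk fun n =>
    if n = 0 then (if (M : ℤ) ∣ u.1 then z ^ u.2 * (1 + z ^ u.2) / (1 - z ^ u.2) ^ 3 else 0)
    else ∑ k ∈ n.divisors, (k : R) ^ 2 *
      ((if (M : ℤ) ∣ ((n / k : ℕ) : ℤ) - u.1 then z ^ (u.2 * k) else 0) -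
        (if (M : ℤ) ∣ ((n / k : ℕ) : ℤ) + u.1 then z ^ (-(u.2 * k)) else 0))

theorem hasSum_wpDeriv {u : ℤ × ℤ} (hu : NZ M u) (τ : ℍ) :
    HasSum (fun n : ℕ => PowerSeries.coeff n (dSer M (zetaC M) u) * qq M τ ^ n)
      (wpDeriv M u τ) := by
  set q := qq M τ
  have hq : ‖q‖ < 1 := norm_qq_lt_one M (NeZero.pos M) τ
  set S₁ := ∑' x, halfTerm2 M u.1 u.2 q x with hS₁
  set S₂ := ∑' x, halfTerm2 M (-u.1) (-u.2) q x with hS₂
  -- sum over `c`
  set ψ : ℤ → ℂ := fun m => if (M : ℤ) ∣ m - u.1 then psi (q ^ m * zetaC M ^ u.2) else 0 with hψdef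
  have hψ : HasSum ψ (S₁ + (if (M : ℤ) ∣ u.1 then psi (zetaC M ^ u.2) else 0) + -S₂) := by
    have hp : HasSum (fun n : ℕ => ψ ((n : ℤ) + 1)) S₁ :=
      (hasSum_half2 u.1 u.2 hq).congr_fun fun n => by
        simp only [hψdef, Nat.cast_add, Nat.cast_one]
        rw [show ((n : ℤ) + 1) = ((n + 1 : ℕ) : ℤ) by simp, zpow_natCast]
    have hn : HasSum (fun n : ℕ => ψ (-((n : ℤ) + 1))) (-S₂) :=
      (hasSum_half2 (-u.1) (-u.2) hq).neg.congr_fun fun n => by
        simp only [hψdef]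
        have hiff : (M : ℤ) ∣ -((n : ℤ) + 1) - u.1 ↔ (M : ℤ) ∣ ((n + 1 : ℕ) : ℤ) - -u.1 := by
          rw [← dvd_neg]; push_cast; ring_nf
        rw [show q ^ (-((n : ℤ) + 1)) * zetaC M ^ u.2 = (q ^ (n + 1) * zetaC M ^ (-u.2))⁻¹ by
          rw [mul_inv, ← zpow_neg, neg_neg, zpow_neg, ← zpow_natCast]; push_cast; rfl, psi_inv]
        by_cases h : (M : ℤ) ∣ ((n + 1 : ℕ) : ℤ) - -u.1
        · rw [if_pos h, if_pos (hiff.mpr h)]
        · rw [if_neg h, if_neg (mt hiff.mp h), neg_zero]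
    have h := HasSum.of_add_one_of_neg_add_one hp hn
    convert h using 1
    simp only [hψdef, zero_sub, dvd_neg, zpow_zero, one_mul]
  have hinj : Function.Injective fun c : ℤ => u.1 - c * M := fun c c' h =>
    mul_right_cancel₀ (Int.natCast_ne_zero.mpr (NeZero.ne M)) (sub_right_injective h)
  have hψ' := (hinj.hasSum_iff (f := ψ) fun m hm => by
    simp only [hψdef]
    rw [if_neg]
    rintro ⟨k, hk⟩
    exact hm ⟨-k, by linarith⟩).mpr hψ
  have hval : wpDeriv M u τ =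
      S₁ + (if (M : ℤ) ∣ u.1 then psi (zetaC M ^ u.2) else 0) + -S₂ :=
    (hasSum_wpDeriv_psi hu τ).unique (hψ'.congr_fun fun c => by
      simp only [Function.comp_apply, hψdef]
      rw [if_pos ⟨-c, by ring⟩])
  rw [hval]
  -- regroup by the exponent
  have h := ((summable_halfTerm2 (M := M) u.1 u.2 hq).hasSum.sub
    (summable_halfTerm2 (M := M) (-u.1) (-u.2) hq).hasSum)
  rw [← hS₁, ← hS₂] at h
  have h' := (sigmaAntidiagonalEquivProd.hasSum_iff.mpr h).sigma fun n => hasSum_fintype _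
  refine (hasSum_nat_add_iff' 1).mp ?_
  rw [Finset.sum_range_one, show PowerSeries.coeff 0 (dSer M (zetaC M) u) * q ^ 0 =
    (if (M : ℤ) ∣ u.1 then psi (zetaC M ^ u.2) else 0) by simp [dSer, psi]]
  rw [show S₁ + (if (M : ℤ) ∣ u.1 then psi (zetaC M ^ u.2) else 0) + -S₂ -
    (if (M : ℤ) ∣ u.1 then psi (zetaC M ^ u.2) else 0) = S₁ - S₂ by ring]
  refine (Equiv.pnatEquivNat.symm.hasSum_iff.mpr h').congr_fun fun n => ?_
  simp only [Function.comp_apply, Equiv.pnatEquivNat_symm_apply]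
  show PowerSeries.coeff (n + 1) _ * q ^ (n + 1) = _
  simp only [dSer, PowerSeries.coeff_mk, Nat.succ_ne_zero, if_false, Finset.sum_mul]
  let f : ℕ → ℕ → ℂ := fun m k =>
    (if (M : ℤ) ∣ (m : ℤ) - u.1 then (k : ℂ) ^ 2 * zetaC M ^ (u.2 * k) * q ^ (m * k) else 0) -
      (if (M : ℤ) ∣ (m : ℤ) - -u.1 then (k : ℂ) ^ 2 * zetaC M ^ (-u.2 * k) * q ^ (m * k) else 0)
  have hright := (n + 1).divisorsAntidiagonal.sum_attach fun x : ℕ × ℕ => f x.1 x.2
  refine Eq.trans ?_ (Eq.trans (Nat.sum_divisorsAntidiagonal' (n := n + 1) f).symm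
    (hright.symm.trans ?_))
  · refine Finset.sum_congr rfl fun k hk => ?_
    have hmk : (n + 1) / k * k = n + 1 := Nat.div_mul_cancel (Nat.dvd_of_mem_divisors hk)
    simp only [f, hmk, sub_neg_eq_add, neg_mul]
    split_ifs <;> ring
  · refine Finset.sum_congr rfl fun x _ => ?_
    simp only [f, halfTerm2, sigmaAntidiagonalEquivProd, divisorsAntidiagonalFactors,
      Equiv.coe_fn_mk, PNat.mk_coe]
    all_goals rfl

theorem hasQSeries_wpDeriv {u : ℤ × ℤ} (hu : NZ M u) :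
    HasQSeries M (wpDeriv M u) (HahnSeries.ofPowerSeries ℤ ℂ (dSer M (zetaC M) u)) := by
  rw [hasQSeries_iff]
  refine .of_forall fun τ => (Nat.cast_injective.hasSum_iff fun m hm => ?_).mp ?_
  · rw [HahnSeries.ofPowerSeries_apply, HahnSeries.embDomain_of_notMem_range, zero_mul]
    rintro ⟨k, hk⟩; exact hm ⟨k, hk⟩
  · simpa [Function.comp_def, HahnSeries.ofPowerSeries_apply_coeff] using hasSum_wpDeriv hu τ

theorem mdifferentiable_wpDeriv {u : ℤ × ℤ} (hu : NZ M u) :
    MDifferentiable 𝓘(ℂ) 𝓘(ℂ) (wpDeriv M u) := by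
  set P := dSer M (zetaC M) u
  rw [UpperHalfPlane.mdifferentiable_iff]
  intro z hz
  have hz' : 0 < z.im := hz
  set B : ℝ := z.im / 2 with hB
  have hB0 : 0 < B := half_pos hz'
  set τ₀ : ℍ := ⟨Complex.I * (B : ℂ), by simpa using hB0⟩ with hτ₀
  set U : Set ℂ := {w | B < w.im} with hU
  have hUo : IsOpen U := isOpen_lt continuous_const Complex.continuous_im
  have hsum := (hasSum_wpDeriv hu τ₀).summable.norm
  have hd : DifferentiableOn ℂ (fun w => ∑' n : ℕ, PowerSeries.coeff n P *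
      Complex.exp (2 * Real.pi * Complex.I * w / M) ^ n) U := by
    refine Complex.differentiableOn_tsum_of_summable_norm hsum (fun n => ?_) hUo fun n w hw => ?_
    · apply Differentiable.differentiableOn; fun_prop
    · rw [norm_mul, norm_mul, norm_pow, norm_pow]
      refine mul_le_mul_of_nonneg_left (pow_le_pow_left₀ (norm_nonneg _) ?_ n) (norm_nonneg _)
      rw [qq, Complex.norm_exp, Complex.norm_exp]
      refine Real.exp_le_exp.mpr ?_
      have hM : (0 : ℝ) < M := by exact_mod_cast NeZero.pos M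
      have hwB : B ≤ w.im := le_of_lt hw
      have e : ∀ x : ℂ, (2 * Real.pi * Complex.I * x / M).re = -(2 * Real.pi * x.im / M) := fun x => by
        simp [Complex.div_natCast_re]; ring
      rw [e, e]
      refine neg_le_neg (div_le_div_of_nonneg_right ?_ hM.le)
      refine mul_le_mul_of_nonneg_left ?_ (by positivity)
      simpa [hτ₀] using hwB
  refine ((hd.differentiableAt (hUo.mem_nhds (half_lt_self hz'))).congr_of_eventuallyEq
    ?_).differentiableWithinAt
  filter_upwards [hUo.mem_nhds (show B < z.im from half_lt_self hz')] with w hw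
  simp only [Function.comp, ofComplex_apply_of_im_pos (hB0.trans hw)]
  exact (hasSum_wpDeriv hu ⟨w, hB0.trans hw⟩).tsum_eq.symm

/-! ## Transformation and congruence -/

theorem wp'_smul (g : SL(2, ℤ)) (τ : ℍ) (z : ℂ) :
    (tauPair (g • τ)).derivWeierstrassP (z / ((g 1 0 : ℂ) * τ + g 1 1)) =
      ((g 1 0 : ℂ) * τ + g 1 1) ^ 3 * (tauPair τ).derivWeierstrassP z := by
  set j : ℂ := (g 1 0 : ℂ) * τ + g 1 1 with hj
  have hj0 : j ≠ 0 := by
    have := denom_ne_zero (g : GL (Fin 2) ℝ) τ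
    rw [ModularGroup.denom_apply] at this
    exact this
  have hg : ((g • τ : ℍ) : ℂ) = ((g 0 0 : ℂ) * τ + g 0 1) / j := by
    rw [hj, UpperHalfPlane.specialLinearGroup_apply]; simp
  refine (hasSum_wp' (g • τ) (z / j)).unique ?_
  have h := ((rowMulEquiv g).hasSum_iff.mpr (hasSum_wp' τ z)).mul_left (j ^ 3)
  refine h.congr_fun fun y => ?_
  simp only [Function.comp_apply, rowMulEquiv, Equiv.coe_fn_mk, rowMul]
  set X : ℂ := ((y.1 * g 0 0 + y.2 * g 1 0 : ℤ) : ℂ) * τ + ((y.1 * g 0 1 + y.2 * g 1 1 : ℤ) : ℂ)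
    with hX
  have hXy : (y.1 : ℂ) * ((g • τ : ℍ) : ℂ) + y.2 = X / j := by
    rw [hg, hX]
    field_simp
    rw [hj]
    push_cast
    ring
  rw [hXy, ← sub_div, div_pow, div_div_eq_mul_div]
  ring

theorem wpDeriv_smul (u : ℤ × ℤ) (g : SL(2, ℤ)) (τ : ℍ) :
    wpDeriv M u (g • τ) =
      ((g 1 0 : ℂ) * τ + g 1 1) ^ 3 * wpDeriv M (rowMul u g) τ := by
  have hj0 : (g 1 0 : ℂ) * τ + g 1 1 ≠ 0 := by
    have := denom_ne_zero (g : GL (Fin 2) ℝ) τ
    rw [ModularGroup.denom_apply] at this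
    exact this
  have hg : ((g • τ : ℍ) : ℂ) = ((g 0 0 : ℂ) * τ + g 0 1) / ((g 1 0 : ℂ) * τ + g 1 1) := by
    rw [UpperHalfPlane.specialLinearGroup_apply]; simp
  have hM : (M : ℂ) ≠ 0 := Nat.cast_ne_zero.mpr (NeZero.ne M)
  have e : divPt M u (g • τ) = divPt M (rowMul u g) τ / ((g 1 0 : ℂ) * τ + g 1 1) := by
    obtain ⟨j, hj⟩ : ∃ j : ℂ, j = (g 1 0 : ℂ) * τ + g 1 1 := ⟨_, rfl⟩
    rw [← hj] at hg hj0 ⊢
    rw [divPt, divPt, hg, rowMul]
    field_simp
    rw [hj]
    push_cast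
    ring
  rw [wpDeriv, wpDeriv, e, wp'_smul]
  ring

theorem wpDeriv_congr {u u' : ℤ × ℤ} (h1 : (M : ℤ) ∣ u.1 - u'.1) (h2 : (M : ℤ) ∣ u.2 - u'.2) :
    wpDeriv M u = wpDeriv M u' := by
  funext τ
  have hM : (M : ℂ) ≠ 0 := Nat.cast_ne_zero.mpr (NeZero.ne M)
  obtain ⟨p, hp⟩ := h1
  obtain ⟨r, hr⟩ := h2
  have hp' := congrArg (fun x : ℤ => (x : ℂ)) hp
  have hr' := congrArg (fun x : ℤ => (x : ℂ)) hr
  push_cast at hp' hr'
  let l : (tauPair τ).lattice := latEquiv τ (p, r)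
  rw [wpDeriv, wpDeriv, show divPt M u τ = divPt M u' τ + (l : ℂ) by
    rw [coe_latEquiv]; simp only [divPt]; field_simp
    linear_combination (τ : ℂ) * hp' + hr', PeriodPair.derivWeierstrassP_add_coe]

end Fermat.Agent.DS
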